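import Mathlib.FieldTheory.Galois.Basic
import Mathlib.FieldTheory.KummerExtension
import Mathlib.GroupTheory.FiniteAbelian.Duality
import Mathlib.RepresentationTheory.Homological.GroupCohomology.Hilbert90
import Mathlib.RingTheory.Trace.Basic
import Mathlib.RingTheory.Valuation.ValuationSubring
import Mathlib.GroupTheory.Perm.Cycle.Type
import Mathlib.Tactic

/-!
# LG-NEB, package VAL: abstract valuation theory (helper97)

`stmt_VAL`: let `L/E` be a finite abelian extension of exponent dividing `m`, `μ_m ⊆ E`,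
`V` a valuation ring of `L` of rank one with `v(m) = 1` and with the same value group as
`V ∩ E`.  If `f₀ ∈ E` is congruent modulo `𝔪_V` to an `m`-th power `g^m` of a unit `g` of `V`, then
`f₀ ≡ u · g₀^m mod 𝔪_V` with `g₀ ∈ E` a unit and `u ∈ E ∩ L^{×m}` a unit.

Proof (NOTES/plan/LG_NEB.md §2): `χ(δ) = res(δ g / g)` is a character of the decomposition group
`D` of `V` (`decomp`); it extends to a character `ψ` of `Gal(L/E)` (`exists_extension`); Hilbert 90
gives a `ψ`-eigenvector `y` (`exists_eigen`), scaled to a unit; `g' = g / y` has a `D`-invariant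
residue; by Artin–Whaples (`exists_approx`) there is `a ≡ 1` at `V` with `a g'` small at the
other conjugates of `V`, and `g₀ = Tr(a g') / |D|`.
-/

set_option autoImplicit false

open Polynomial

namespace Fermat.Agent.NEB.H97

variable {E L : Type*} [Field E] [Field L] [Algebra E L] (V : ValuationSubring L)

/-- The decomposition group of `V`: the automorphisms preserving `V`. -/
def decomp (E : Type*) [Field E] [Algebra E L] (V : ValuationSubring L) :
    Subgroup (L ≃ₐ[E] L) where
  carrier := {δ | ∀ x : L, V.valuation (δ x) ≤ 1 ↔ V.valuation x ≤ 1}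
  one_mem' := fun x => Iff.rfl
  mul_mem' := by
    intro a b ha hb x
    rw [AlgEquiv.mul_apply, ha, hb]
  inv_mem' := by
    intro a ha x
    have := ha (a⁻¹ x)
    rw [← this]
    have e : a (a⁻¹ x) = x := a.apply_symm_apply x
    rw [e]

theorem mem_decomp {δ : L ≃ₐ[E] L} :
    δ ∈ decomp E V ↔ ∀ x : L, V.valuation (δ x) ≤ 1 ↔ V.valuation x ≤ 1 := Iff.rfl

variable {V}

theorem decomp_lt {δ : L ≃ₐ[E] L} (hδ : δ ∈ decomp E V) (x : L) :
    V.valuation (δ x) < 1 ↔ V.valuation x < 1 := by
  by_cases hx : x = 0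
  · subst hx; simp
  have hδx : δ x ≠ 0 := by simpa using hx
  have h1 := hδ x⁻¹
  rw [map_inv₀, map_inv₀, map_inv₀] at h1
  have e1 : ∀ y : L, y ≠ 0 → ((V.valuation y)⁻¹ ≤ 1 ↔ 1 ≤ V.valuation y) := by
    intro y hy
    have hy' : V.valuation y ≠ 0 := (Valuation.ne_zero_iff _).2 hy
    rw [inv_le_one₀ (zero_lt_iff.2 hy')]
  rw [e1 _ hδx, e1 _ hx] at h1
  have h2 := hδ x
  constructor
  · intro h
    rcases lt_or_eq_of_le (h2.1 h.le) with h3 | h3
    · exact h3
    · exact absurd (h1.2 h3.ge) (not_le.2 h)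
  · intro h
    rcases lt_or_eq_of_le (h2.2 h.le) with h3 | h3
    · exact h3
    · exact absurd (h1.1 h3.ge) (not_le.2 h)

theorem decomp_eq_one {δ : L ≃ₐ[E] L} (hδ : δ ∈ decomp E V) (x : L) :
    V.valuation (δ x) = 1 ↔ V.valuation x = 1 := by
  have h1 := hδ x
  have h2 := decomp_lt hδ x
  constructor
  · intro h
    rcases lt_or_eq_of_le (h1.1 h.le) with h3 | h3
    · exact absurd (h2.2 h3) (by rw [h]; exact lt_irrefl _)
    · exact h3
  · intro h
    rcases lt_or_eq_of_le (h1.2 h.le) with h3 | h3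
    · exact absurd (h2.1 h3) (by rw [h]; exact lt_irrefl _)
    · exact h3

/-- If `δ` has finite order and `V ⊆ δ⁻¹ V`, then `δ` is in the decomposition group. -/
theorem mem_decomp_of_forall_le {δ : L ≃ₐ[E] L} {m : ℕ} (hm0 : m ≠ 0) (hδm : δ ^ m = 1)
    (h : ∀ x : L, V.valuation x ≤ 1 → V.valuation (δ x) ≤ 1) : δ ∈ decomp E V := by
  intro x
  refine ⟨fun hx => ?_, h x⟩
  have hk : ∀ k : ℕ, V.valuation ((δ ^ k) (δ x)) ≤ 1 := by
    intro k
    induction k with
    | zero => simpa using hx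
    | succ k ih =>
      rw [pow_succ', AlgEquiv.mul_apply]
      exact h _ ih
  have h1 := hk (m - 1)
  have e : (δ ^ (m - 1)) (δ x) = (δ ^ m) x := by
    conv_rhs => rw [← Nat.sub_add_cancel (Nat.one_le_iff_ne_zero.2 hm0), pow_succ,
      AlgEquiv.mul_apply]
  rw [e, hδm] at h1
  simpa using h1

theorem mem_decomp_of_forall_ge {δ : L ≃ₐ[E] L} {m : ℕ} (hm0 : m ≠ 0) (hδm : δ ^ m = 1)
    (h : ∀ x : L, V.valuation (δ x) ≤ 1 → V.valuation x ≤ 1) : δ ∈ decomp E V := by
  have h1 : δ⁻¹ ∈ decomp E V := by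
    refine mem_decomp_of_forall_le hm0 (by rw [inv_pow, hδm, inv_one]) ?_
    intro x hx
    apply h
    have e : δ (δ⁻¹ x) = x := δ.apply_symm_apply x
    rwa [e]
  simpa using (decomp E V).inv_mem h1

/-- Artin–Whaples for one conjugate. -/
theorem exists_sep {δ : L ≃ₐ[E] L} {m : ℕ} (hm0 : m ≠ 0) (hδm : δ ^ m = 1)
    (hδ : δ ∉ decomp E V) : ∃ x : L, 1 < V.valuation x ∧ V.valuation (δ x) < 1 := by
  have hb : ∃ b : L, V.valuation b ≤ 1 ∧ 1 < V.valuation (δ b) := by
    by_contra hcon
    simp only [not_exists, not_and, not_lt] at hcon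
    exact hδ (mem_decomp_of_forall_le hm0 hδm hcon)
  have hc : ∃ c : L, V.valuation (δ c) ≤ 1 ∧ 1 < V.valuation c := by
    by_contra hcon
    simp only [not_exists, not_and, not_lt] at hcon
    exact hδ (mem_decomp_of_forall_ge hm0 hδm hcon)
  obtain ⟨b, hb1, hb2⟩ := hb
  obtain ⟨c, hc1, hc2⟩ := hc
  have hb0 : b ≠ 0 := by
    rintro rfl
    simp at hb2
  have hvb : V.valuation b ≠ 0 := (Valuation.ne_zero_iff _).2 hb0
  have hvδb : V.valuation (δ b) ≠ 0 := ne_of_gt (lt_trans zero_lt_one hb2)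
  refine ⟨c / b, ?_, ?_⟩
  · rw [map_div₀, lt_div_iff₀ (zero_lt_iff.2 hvb), one_mul]
    exact lt_of_le_of_lt hb1 hc2
  · rw [map_div₀, map_div₀, div_lt_iff₀ (zero_lt_iff.2 hvδb), one_mul]
    exact lt_of_le_of_lt hc1 hb2


section Arch

variable (harch : ∀ x y : L, V.valuation x < 1 → y ≠ 0 → ∃ N : ℕ, V.valuation x ^ N < V.valuation y)
include harch

/-- Uniform archimedean bound over a finite set of automorphisms. -/
theorem exists_pow_lt (T : Finset (L ≃ₐ[E] L)) (x y : L) (hy : y ≠ 0)
    (hx : ∀ δ ∈ T, V.valuation (δ x) < 1) :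
    ∃ N : ℕ, 0 < N ∧ ∀ δ ∈ T, V.valuation (δ x) ^ N * V.valuation (δ y) < 1 := by
  classical
  induction T using Finset.induction_on with
  | empty => exact ⟨1, one_pos, by simp⟩
  | insert δ T hδT ih =>
    obtain ⟨N, hN0, hN⟩ := ih (fun τ hτ => hx τ (Finset.mem_insert_of_mem hτ))
    have hδy : δ y ≠ 0 := by simpa using hy
    obtain ⟨N', hN'⟩ := harch (δ x) (δ y)⁻¹ (hx δ (Finset.mem_insert_self _ _))
      (inv_ne_zero hδy)
    refine ⟨N + N', by omega, ?_⟩
    intro τ hτ
    rcases Finset.mem_insert.1 hτ with rfl | hτ'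
    · have hvy : 0 < V.valuation (τ y) := zero_lt_iff.2 ((Valuation.ne_zero_iff _).2 hδy)
      have h1 : V.valuation (τ x) ^ (N + N') ≤ V.valuation (τ x) ^ N' :=
        pow_le_pow_right_of_le_one' (hx τ (Finset.mem_insert_self _ _)).le (by omega)
      rw [map_inv₀] at hN'
      calc V.valuation (τ x) ^ (N + N') * V.valuation (τ y)
          ≤ V.valuation (τ x) ^ N' * V.valuation (τ y) := mul_le_mul_left h1 _
        _ < (V.valuation (τ y))⁻¹ * V.valuation (τ y) := mul_lt_mul_of_pos_right hN' hvy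
        _ = 1 := inv_mul_cancel₀ hvy.ne'
    · have h1 : V.valuation (τ x) ^ (N + N') ≤ V.valuation (τ x) ^ N :=
        pow_le_pow_right_of_le_one' (hx τ (Finset.mem_insert_of_mem hτ')).le (by omega)
      exact lt_of_le_of_lt (mul_le_mul_left h1 _) (hN τ hτ')

/-- Artin–Whaples: an element which is large at `V` and small at finitely many other
conjugates. -/
theorem exists_sep_finset {m : ℕ} (hm0 : m ≠ 0) (hexp : ∀ δ : L ≃ₐ[E] L, δ ^ m = 1)
    (T : Finset (L ≃ₐ[E] L)) (hT : T.Nonempty) (hTD : ∀ δ ∈ T, δ ∉ decomp E V) :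
    ∃ x : L, 1 < V.valuation x ∧ ∀ δ ∈ T, V.valuation (δ x) < 1 := by
  classical
  induction hT using Finset.Nonempty.cons_induction with
  | singleton δ =>
    obtain ⟨x, h1, h2⟩ := exists_sep hm0 (hexp δ) (hTD δ (Finset.mem_singleton_self δ))
    exact ⟨x, h1, fun τ hτ => by rw [Finset.mem_singleton.1 hτ]; exact h2⟩
  | cons δ T hδT hT ih =>
    obtain ⟨x, hx1, hx2⟩ := ih (fun τ hτ => hTD τ (Finset.mem_cons.2 (Or.inr hτ)))
    obtain ⟨y, hy1, hy2⟩ := exists_sep hm0 (hexp δ) (hTD δ (Finset.mem_cons_self δ T))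
    have hy0 : y ≠ 0 := by
      rintro rfl
      simp at hy1
    have hx0 : x ≠ 0 := by
      rintro rfl
      simp at hx1
    obtain ⟨r, hr0, hr⟩ := exists_pow_lt harch T x y hy0 hx2
    by_cases hcase : V.valuation (δ x) ≤ 1
    · refine ⟨x ^ r * y, ?_, ?_⟩
      · rw [map_mul, map_pow]
        calc (1 : V.ValueGroup) < V.valuation y := hy1
          _ = 1 * V.valuation y := (one_mul _).symm
          _ ≤ V.valuation x ^ r * V.valuation y :=
            mul_le_mul_left (one_le_pow_of_one_le' hx1.le r) _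
      · intro τ hτ
        rw [map_mul, map_pow, map_mul, map_pow]
        rcases Finset.mem_cons.1 hτ with rfl | hτ'
        · calc V.valuation (τ x) ^ r * V.valuation (τ y)
              ≤ 1 * V.valuation (τ y) := mul_le_mul_left (pow_le_one' hcase r) _
            _ = V.valuation (τ y) := one_mul _
            _ < 1 := hy2
        · exact hr τ hτ'
    · rw [not_le] at hcase
      have hone : ∀ z : L, 1 < V.valuation z → V.valuation (1 + z ^ r) = V.valuation z ^ r := by
        intro z hz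
        have h1 : (1 : V.ValueGroup) < V.valuation (z ^ r) := by
          rw [map_pow]; exact one_lt_pow' hz hr0.ne'
        rw [← map_pow]
        rw [add_comm]
        exact Valuation.map_add_eq_of_lt_left _ (by rw [map_one]; exact h1)
      have hsmall : ∀ z : L, V.valuation z < 1 → V.valuation (1 + z ^ r) = 1 := by
        intro z hz
        have h1 : V.valuation (z ^ r) < 1 := by
          rw [map_pow]; exact pow_lt_one' hz hr0.ne'
        have := Valuation.map_add_eq_of_lt_left (V.valuation) (x := (1 : L)) (y := z ^ r)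
          (by rw [map_one]; exact h1)
        rw [this, map_one]
      have hne : (1 : L) + x ^ r ≠ 0 := by
        intro h
        have := hone x hx1
        rw [h, map_zero] at this
        exact (pow_ne_zero r ((Valuation.ne_zero_iff _).2 hx0)) this.symm
      refine ⟨x ^ r * y / (1 + x ^ r), ?_, ?_⟩
      · rw [map_div₀, map_mul, map_pow, hone x hx1]
        have hxr : V.valuation x ^ r ≠ 0 := pow_ne_zero r ((Valuation.ne_zero_iff _).2 hx0)
        rw [mul_comm, mul_div_assoc, div_self hxr, mul_one]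
        exact hy1
      · intro τ hτ
        have e : τ (x ^ r * y / (1 + x ^ r)) = (τ x) ^ r * τ y / (1 + (τ x) ^ r) := by
          simp
        rw [e, map_div₀, map_mul, map_pow]
        rcases Finset.mem_cons.1 hτ with rfl | hτ'
        · rw [hone (τ x) hcase]
          have hτx0 : τ x ≠ 0 := by simpa using hx0
          have hxr : V.valuation (τ x) ^ r ≠ 0 :=
            pow_ne_zero r ((Valuation.ne_zero_iff _).2 hτx0)
          rw [mul_comm, mul_div_assoc, div_self hxr, mul_one]
          exact hy2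
        · rw [hsmall (τ x) (hx2 τ hτ'), div_one]
          exact hr τ hτ'

/-- The approximating element: `a ≡ 1` at `V`, and `a g'` is small at all other conjugates. -/
theorem exists_approx [Finite (L ≃ₐ[E] L)] {m : ℕ} (hm0 : m ≠ 0)
    (hexp : ∀ δ : L ≃ₐ[E] L, δ ^ m = 1) (g' : L) :
    ∃ a : L, V.valuation (a - 1) < 1 ∧
      ∀ δ : L ≃ₐ[E] L, δ ∉ decomp E V → V.valuation (δ (a * g')) < 1 := by
  classical
  have : Fintype (L ≃ₐ[E] L) := Fintype.ofFinite _
  by_cases hg : g' = 0
  · exact ⟨1, by simp, fun δ _ => by simp [hg]⟩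
  set T : Finset (L ≃ₐ[E] L) := Finset.univ.filter (fun δ => δ ∉ decomp E V) with hTdef
  have hTmem : ∀ δ, δ ∈ T ↔ δ ∉ decomp E V := fun δ => by simp [hTdef]
  by_cases hT : T.Nonempty
  · obtain ⟨x, hx1, hx2⟩ := exists_sep_finset harch hm0 hexp T hT (fun δ hδ => (hTmem δ).1 hδ)
    obtain ⟨N, hN0, hN⟩ := exists_pow_lt harch T x g' hg hx2
    have hx0 : x ≠ 0 := by
      rintro rfl
      simp at hx1
    have h1N : (1 : V.ValueGroup) < V.valuation (x ^ N) := by
      rw [map_pow]; exact one_lt_pow' hx1 hN0.ne'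
    have hval : V.valuation (1 + x ^ N) = V.valuation x ^ N := by
      rw [← map_pow, add_comm]
      exact Valuation.map_add_eq_of_lt_left _ (by rw [map_one]; exact h1N)
    have hne : (1 : L) + x ^ N ≠ 0 := by
      intro h
      rw [h, map_zero] at hval
      exact (pow_ne_zero N ((Valuation.ne_zero_iff _).2 hx0)) hval.symm
    refine ⟨x ^ N / (1 + x ^ N), ?_, ?_⟩
    · have e : x ^ N / (1 + x ^ N) - 1 = -(1 / (1 + x ^ N)) := by
        field_simp
        ring
      rw [e, Valuation.map_neg, map_div₀, map_one, hval, one_div]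
      rw [map_pow] at h1N
      exact inv_lt_one_of_one_lt₀ h1N
    · intro δ hδ
      have hδT : δ ∈ T := (hTmem δ).2 hδ
      have e : δ (x ^ N / (1 + x ^ N) * g') = (δ x) ^ N * δ g' / (1 + (δ x) ^ N) := by
        simp
        ring
      have hsmall : V.valuation (1 + (δ x) ^ N) = 1 := by
        have h1 : V.valuation ((δ x) ^ N) < 1 := by
          rw [map_pow]; exact pow_lt_one' (hx2 δ hδT) hN0.ne'
        have := Valuation.map_add_eq_of_lt_left (V.valuation) (x := (1 : L)) (y := (δ x) ^ N)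
          (by rw [map_one]; exact h1)
        rw [this, map_one]
      rw [e, map_div₀, hsmall, div_one, map_mul, map_pow]
      exact hN δ hδT
  · rw [Finset.not_nonempty_iff_eq_empty] at hT
    refine ⟨1, by simp, fun δ hδ => ?_⟩
    have : δ ∈ T := (hTmem δ).2 hδ
    rw [hT] at this
    exact absurd this (Finset.notMem_empty _)

end Arch


theorem val_natCast_le_one (n : ℕ) : V.valuation (n : L) ≤ 1 := by
  rw [ValuationSubring.valuation_le_one_iff]
  exact natCast_mem V n

/-- A natural number all of whose prime factors divide `m` is a `V`-unit if `m` is. -/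
theorem val_natCast_eq_one {m : ℕ} (hm : V.valuation (m : L) = 1) (n : ℕ) (hn : n ≠ 0)
    (hdvd : ∀ p : ℕ, p.Prime → p ∣ n → p ∣ m) : V.valuation (n : L) = 1 := by
  induction n using induction_on_primes with
  | zero => exact absurd rfl hn
  | one => simp
  | prime_mul p a hp ih =>
    have ha : a ≠ 0 := fun h => hn (by rw [h, mul_zero])
    have hpm : p ∣ m := hdvd p hp (dvd_mul_right p a)
    obtain ⟨k, hk⟩ := hpm
    have h1 : V.valuation (p : L) * V.valuation (k : L) = 1 := by
      rw [← map_mul, ← Nat.cast_mul, ← hk, hm]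
    have h2 : V.valuation (p : L) = 1 := by
      refine le_antisymm (val_natCast_le_one p) ?_
      calc (1 : V.ValueGroup) = V.valuation (p : L) * V.valuation (k : L) := h1.symm
        _ ≤ V.valuation (p : L) * 1 := mul_le_mul_right (val_natCast_le_one k) _
        _ = V.valuation (p : L) := mul_one _
    rw [Nat.cast_mul, map_mul, h2, one_mul]
    exact ih ha (fun q hq hqa => hdvd q hq (hqa.mul_left p))

/-- A nontrivial `m`-th root of unity is not congruent to `1` if `m` is a unit. -/
theorem val_root_sub_one {m : ℕ} (hm : V.valuation (m : L) = 1) (η : L) (hη : η ^ m = 1)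
    (hη1 : η ≠ 1) : V.valuation (η - 1) = 1 := by
  have hm0 : m ≠ 0 := by
    rintro rfl
    simp at hm
  have hvη : V.valuation η = 1 := by
    have h1 : V.valuation η ^ m = 1 := by rw [← map_pow, hη, map_one]
    exact (pow_eq_one_iff.1 h1).resolve_right hm0
  have hle : V.valuation (η - 1) ≤ 1 := by
    refine le_trans (Valuation.map_sub _ _ _) ?_
    rw [hvη, map_one, max_self]
  refine le_antisymm hle ?_
  by_contra hlt
  rw [not_le] at hlt
  -- geometric sum
  have hsum : ∑ i ∈ Finset.range m, η ^ i = 0 := by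
    have h1 : (η - 1) * ∑ i ∈ Finset.range m, η ^ i = 0 := by
      rw [mul_geom_sum, hη, sub_self]
    rcases mul_eq_zero.1 h1 with h | h
    · exact absurd (sub_eq_zero.1 h) hη1
    · exact h
  have hterm : ∀ i : ℕ, V.valuation (η ^ i - 1) < 1 := by
    intro i
    have h1 : η ^ i - 1 = (η - 1) * ∑ j ∈ Finset.range i, η ^ j := (mul_geom_sum η i).symm
    rw [h1, map_mul]
    have h2 : V.valuation (∑ j ∈ Finset.range i, η ^ j) ≤ 1 :=
      Valuation.map_sum_le _ (fun j _ => by rw [map_pow, hvη, one_pow])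
    calc V.valuation (η - 1) * V.valuation (∑ j ∈ Finset.range i, η ^ j)
        ≤ V.valuation (η - 1) * 1 := mul_le_mul_right h2 _
      _ = V.valuation (η - 1) := mul_one _
      _ < 1 := hlt
  have h3 : V.valuation (∑ i ∈ Finset.range m, (η ^ i - 1)) < 1 :=
    Valuation.map_sum_lt _ one_ne_zero (fun i _ => hterm i)
  rw [Finset.sum_sub_distrib, hsum, Finset.sum_const, Finset.card_range, nsmul_eq_mul, mul_one,
    zero_sub, Valuation.map_neg, hm] at h3
  exact lt_irrefl _ h3

/-- Two `m`-th roots of unity of `E` which are congruent are equal. -/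
theorem root_unique {m : ℕ} (hm : V.valuation (m : L) = 1) (z z' : E) (hz : z ^ m = 1)
    (hz' : z' ^ m = 1)
    (h : V.valuation (algebraMap E L z - algebraMap E L z') < 1) : z = z' := by
  have hm0 : m ≠ 0 := by
    rintro rfl
    simp at hm
  by_contra hne
  have hz'0 : z' ≠ 0 := by
    rintro rfl
    rw [zero_pow hm0] at hz'
    exact zero_ne_one hz'
  set η : L := algebraMap E L (z / z') with hηdef
  have hη : η ^ m = 1 := by
    rw [hηdef, ← map_pow, div_pow, hz, hz', div_one, map_one]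
  have hη1 : η ≠ 1 := by
    intro h1
    apply hne
    have : z / z' = 1 := (algebraMap E L).injective (by rw [map_one]; exact h1)
    exact (div_eq_one_iff_eq hz'0).1 this
  have h1 := val_root_sub_one hm η hη hη1
  have hvz' : V.valuation (algebraMap E L z') = 1 := by
    have h2 : V.valuation (algebraMap E L z') ^ m = 1 := by
      rw [← map_pow, ← map_pow, hz', map_one, map_one]
    exact (pow_eq_one_iff.1 h2).resolve_right hm0
  have e : algebraMap E L z - algebraMap E L z' = algebraMap E L z' * (η - 1) := by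
    rw [hηdef, map_div₀]
    have : algebraMap E L z' ≠ 0 := by simpa using hz'0
    field_simp
  rw [e, map_mul, hvz', h1, one_mul] at h
  exact lt_irrefl _ h

/-- An element whose `m`-th power is congruent to `1` is congruent to an `m`-th root of unity. -/
theorem exists_root_congr {m : ℕ} (hm0 : m ≠ 0) {ζ : E} (hζ : IsPrimitiveRoot ζ m) (t : L)
    (ht : V.valuation (t ^ m - 1) < 1) :
    ∃ z : E, z ^ m = 1 ∧ V.valuation (t - algebraMap E L z) < 1 := by
  have hfac : (X ^ m - C (1 : E)) = ∏ i ∈ Finset.range m, (X - C (ζ ^ i * 1)) :=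
    X_pow_sub_C_eq_prod hζ (Nat.pos_of_ne_zero hm0) (one_pow m)
  have h1 : t ^ m - 1 = ∏ i ∈ Finset.range m, (t - algebraMap E L (ζ ^ i)) := by
    have := congrArg (fun P : E[X] => aeval t P) hfac
    simpa [aeval_prod] using this
  by_contra hcon
  simp only [not_exists, not_and, not_lt] at hcon
  have h2 : ∀ i ∈ Finset.range m, (1 : V.ValueGroup) ≤ V.valuation (t - algebraMap E L (ζ ^ i)) := by
    intro i _
    apply hcon
    rw [← pow_mul, mul_comm, pow_mul, hζ.pow_eq_one, one_pow]
  have h3 : (1 : V.ValueGroup) ≤ V.valuation (t ^ m - 1) := by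
    rw [h1, map_prod]
    exact Finset.one_le_prod' h2
  exact absurd ht (not_lt.2 h3)


/-- Extension of characters of a subgroup of a finite abelian group of exponent dividing `m`. -/
theorem exists_extension [Finite (L ≃ₐ[E] L)]
    (hab : ∀ δ δ' : L ≃ₐ[E] L, δ * δ' = δ' * δ)
    {m : ℕ} (hm0 : m ≠ 0) (hexp : ∀ δ : L ≃ₐ[E] L, δ ^ m = 1)
    {ζ : E} (hζ : IsPrimitiveRoot ζ m) (D : Subgroup (L ≃ₐ[E] L)) (χ : D →* Eˣ) :
    ∃ ψ : (L ≃ₐ[E] L) →* Eˣ, ∀ δ : D, ψ (δ : L ≃ₐ[E] L) = χ δ := by
  let _ : CommGroup (L ≃ₐ[E] L) := { (inferInstance : Group (L ≃ₐ[E] L)) with mul_comm := hab }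
  have : NeZero m := ⟨hm0⟩
  have hE : HasEnoughRootsOfUnity E m := ⟨⟨ζ, hζ⟩, inferInstance⟩
  have hdvd : Monoid.exponent (L ≃ₐ[E] L) ∣ m := Monoid.exponent_dvd_of_forall_pow_eq_one hexp
  have hE' : HasEnoughRootsOfUnity E (Monoid.exponent (L ≃ₐ[E] L)) :=
    HasEnoughRootsOfUnity.of_dvd E hdvd
  obtain ⟨ψ, hψ⟩ := MonoidHom.domRestrict_surjective (G := L ≃ₐ[E] L) (M := E) D χ
  refine ⟨ψ, fun δ => ?_⟩
  rw [← hψ]
  rfl

/-- Hilbert 90 for a character with values in the base field. -/
theorem exists_eigen [FiniteDimensional E L] (ψ : (L ≃ₐ[E] L) →* Eˣ) :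
    ∃ β : L, β ≠ 0 ∧ ∀ δ : L ≃ₐ[E] L, δ β = algebraMap E L (ψ δ : E) * β := by
  let f : (L ≃ₐ[E] L) → Lˣ := fun δ => Units.map (algebraMap E L : E →* L) (ψ δ)
  have hf : groupCohomology.IsMulCocycle₁ f := by
    intro g h
    have h1 : g • f h = f h := by
      ext
      simp [f]
    rw [h1]
    simp only [f, map_mul]
    rw [mul_comm]
  obtain ⟨β, hβ⟩ := groupCohomology.isMulCoboundary₁_of_isMulCocycle₁_of_aut_to_units f hf
  refine ⟨(β : L), β.ne_zero, fun δ => ?_⟩
  have h1 := hβ δ
  have h2 : (δ • β : Lˣ) = f δ * β := by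
    rw [← h1]
    simp
  have h3 := congrArg (fun u : Lˣ => (u : L)) h2
  simpa [f] using h3

section Main

variable [FiniteDimensional E L] [IsGalois E L]

/-- **VAL**. -/
theorem stmt_VAL (hab : ∀ δ δ' : L ≃ₐ[E] L, δ * δ' = δ' * δ)
    {m : ℕ} (hm0 : m ≠ 0) (hexp : ∀ δ : L ≃ₐ[E] L, δ ^ m = 1)
    {ζ : E} (hζ : IsPrimitiveRoot ζ m)
    (V : ValuationSubring L) (hm : V.valuation (m : L) = 1)
    (hval : ∀ x : L, x ≠ 0 → ∃ e : E, V.valuation (algebraMap E L e) = V.valuation x)
    (harch : ∀ x y : L, V.valuation x < 1 → y ≠ 0 →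
      ∃ N : ℕ, V.valuation x ^ N < V.valuation y)
    (f0 : E) (g : L) (hg : V.valuation g = 1)
    (hfg : V.valuation (g ^ m - algebraMap E L f0) < 1) :
    ∃ (y : L) (u g0 : E), y ^ m = algebraMap E L u ∧ V.valuation y = 1 ∧
      V.valuation (algebraMap E L g0) = 1 ∧
      V.valuation (algebraMap E L (f0 - u * g0 ^ m)) < 1 := by
  classical
  have hg0 : g ≠ 0 := by
    rintro rfl
    simp at hg
  have hgm : V.valuation (g ^ m) = 1 := by rw [map_pow, hg, one_pow]
  -- Step 1: the roots of unity `z δ`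
  have hz : ∀ δ : decomp E V, ∃ z : E, z ^ m = 1 ∧
      V.valuation ((δ : L ≃ₐ[E] L) g / g - algebraMap E L z) < 1 := by
    intro δ
    apply exists_root_congr hm0 hζ
    have e1 : ((δ : L ≃ₐ[E] L) g / g) ^ m - 1
        = ((δ : L ≃ₐ[E] L) (g ^ m - algebraMap E L f0) - (g ^ m - algebraMap E L f0)) / g ^ m := by
      have : g ^ m ≠ 0 := pow_ne_zero m hg0
      rw [map_sub, map_pow, AlgEquiv.commutes, div_pow]
      field_simp
      ring
    rw [e1, map_div₀, hgm, div_one]
    refine lt_of_le_of_lt (Valuation.map_sub _ _ _) (max_lt ?_ hfg)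
    exact (decomp_lt δ.2 _).2 hfg
  choose z hz1 hz2 using hz
  have hz0 : ∀ δ, z δ ≠ 0 := by
    intro δ h
    have := hz1 δ
    rw [h, zero_pow hm0] at this
    exact zero_ne_one this
  have hvz : ∀ w : E, w ^ m = 1 → V.valuation (algebraMap E L w) = 1 := by
    intro w hw
    have h2 : V.valuation (algebraMap E L w) ^ m = 1 := by
      rw [← map_pow, ← map_pow, hw, map_one, map_one]
    exact (pow_eq_one_iff.1 h2).resolve_right hm0
  have hvδg : ∀ δ : decomp E V, V.valuation ((δ : L ≃ₐ[E] L) g / g) = 1 := by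
    intro δ
    rw [map_div₀, hg, div_one]
    exact (decomp_eq_one δ.2 g).2 hg
  have hzmul : ∀ δ δ' : decomp E V, z (δ * δ') = z δ * z δ' := by
    intro δ δ'
    apply root_unique hm _ _ (hz1 _) (by rw [mul_pow, hz1, hz1, one_mul])
    -- both are congruent to `(δ δ') g / g`
    have hA : V.valuation ((δ : L ≃ₐ[E] L) ((δ' : L ≃ₐ[E] L) g / g) - algebraMap E L (z δ')) < 1 := by
      have := (decomp_lt δ.2 ((δ' : L ≃ₐ[E] L) g / g - algebraMap E L (z δ'))).2 (hz2 δ')
      rwa [map_sub, AlgEquiv.commutes] at this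
    have hprod : ((δ * δ' : decomp E V) : L ≃ₐ[E] L) g / g
        = (δ : L ≃ₐ[E] L) ((δ' : L ≃ₐ[E] L) g / g) * ((δ : L ≃ₐ[E] L) g / g) := by
      have hδg0 : (δ : L ≃ₐ[E] L) g ≠ 0 := by simpa using hg0
      rw [map_div₀, Subgroup.coe_mul, AlgEquiv.mul_apply]
      field_simp
    have hcong : V.valuation (((δ * δ' : decomp E V) : L ≃ₐ[E] L) g / g
        - algebraMap E L (z δ * z δ')) < 1 := by
      have e2 : ((δ * δ' : decomp E V) : L ≃ₐ[E] L) g / g - algebraMap E L (z δ * z δ')
          = ((δ : L ≃ₐ[E] L) ((δ' : L ≃ₐ[E] L) g / g) - algebraMap E L (z δ'))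
              * ((δ : L ≃ₐ[E] L) g / g)
            + algebraMap E L (z δ') * ((δ : L ≃ₐ[E] L) g / g - algebraMap E L (z δ)) := by
        rw [hprod, map_mul]
        ring
      rw [e2]
      refine lt_of_le_of_lt (Valuation.map_add _ _ _) (max_lt ?_ ?_)
      · rw [map_mul, hvδg δ, mul_one]
        exact hA
      · rw [map_mul, hvz _ (hz1 δ'), one_mul]
        exact hz2 δ
    have := Valuation.map_sub V.valuation
      (((δ * δ' : decomp E V) : L ≃ₐ[E] L) g / g - algebraMap E L (z δ * z δ'))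
      (((δ * δ' : decomp E V) : L ≃ₐ[E] L) g / g - algebraMap E L (z (δ * δ')))
    rw [sub_sub_sub_cancel_left] at this
    exact lt_of_le_of_lt this (max_lt hcong (hz2 _))
  let χ : decomp E V →* Eˣ :=
    MonoidHom.mk' (fun δ => Units.mk0 (z δ) (hz0 δ)) (fun a b => Units.ext (hzmul a b))
  have hχ : ∀ δ : decomp E V, ((χ δ : Eˣ) : E) = z δ := fun δ => rfl
  -- Step 2: extension and Hilbert 90
  obtain ⟨ψ, hψ⟩ := exists_extension hab hm0 hexp hζ (decomp E V) χ
  obtain ⟨β, hβ0, hβ⟩ := exists_eigen ψ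
  obtain ⟨e, he⟩ := hval β hβ0
  have hvβ : V.valuation β ≠ 0 := (Valuation.ne_zero_iff _).2 hβ0
  have he0 : algebraMap E L e ≠ 0 := by
    intro h
    rw [h, map_zero] at he
    exact hvβ he.symm
  set y : L := β / algebraMap E L e with hy
  have hy1 : V.valuation y = 1 := by
    rw [hy, map_div₀, he, div_self hvβ]
  have hy0 : y ≠ 0 := by
    intro h
    rw [h, map_zero] at hy1
    exact zero_ne_one hy1
  have hyδ : ∀ δ : L ≃ₐ[E] L, δ y = algebraMap E L (ψ δ : E) * y := by
    intro δ
    rw [hy, map_div₀, AlgEquiv.commutes, hβ δ, mul_div_assoc]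
  have hψm : ∀ δ : L ≃ₐ[E] L, ((ψ δ : Eˣ) : E) ^ m = 1 := by
    intro δ
    have h1 : ψ δ ^ m = 1 := by rw [← map_pow, hexp δ, map_one]
    have h2 := congrArg (fun u : Eˣ => (u : E)) h1
    simpa using h2
  obtain ⟨u, hu⟩ : ∃ u : E, algebraMap E L u = y ^ m := by
    have hfix : ∀ δ : L ≃ₐ[E] L, δ (y ^ m) = y ^ m := by
      intro δ
      rw [map_pow, hyδ δ, mul_pow, ← map_pow, hψm δ, map_one, one_mul]
    exact (IsGalois.mem_range_algebraMap_iff_fixed (y ^ m)).2 hfix
  -- Step 3: `g'`
  set g' : L := g / y with hg'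
  have hg'1 : V.valuation g' = 1 := by rw [hg', map_div₀, hg, hy1, div_one]
  have hg'0 : g' ≠ 0 := by
    intro h
    rw [h, map_zero] at hg'1
    exact zero_ne_one hg'1
  have hg'δ : ∀ δ : L ≃ₐ[E] L, δ ∈ decomp E V → V.valuation (δ g' - g') < 1 := by
    intro δ hδ
    have h1 := hz2 ⟨δ, hδ⟩
    have h2 : algebraMap E L (ψ δ : E) = algebraMap E L (z ⟨δ, hδ⟩) := by
      have := hψ ⟨δ, hδ⟩
      rw [← hχ, ← this]
    have hψ0 : algebraMap E L (z ⟨δ, hδ⟩) ≠ 0 := by
      simpa using hz0 ⟨δ, hδ⟩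
    have e3 : δ g' - g' = (δ g / g - algebraMap E L (z ⟨δ, hδ⟩)) * (g / (algebraMap E L (z ⟨δ, hδ⟩) * y)) := by
      rw [hg', map_div₀, hyδ δ, h2]
      field_simp
    rw [e3, map_mul, map_div₀, map_mul, hg, hy1, hvz _ (hz1 ⟨δ, hδ⟩), mul_one, div_one, mul_one]
    exact h1
  -- Step 4: approximation and trace
  obtain ⟨a, ha1, ha2⟩ := exists_approx harch hm0 hexp g'
  have hva : V.valuation a = 1 := by
    have : a = 1 + (a - 1) := by ring
    rw [this]
    have := Valuation.map_add_eq_of_lt_left (V.valuation) (x := (1 : L)) (y := a - 1)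
      (by rw [map_one]; exact ha1)
    rw [this, map_one]
  set D : Finset (L ≃ₐ[E] L) := Finset.univ.filter (fun δ => δ ∈ decomp E V) with hD
  set n : ℕ := D.card with hn
  have hn0 : n ≠ 0 := by
    rw [hn]
    exact Finset.card_ne_zero.2 ⟨1, by simp [hD, (decomp E V).one_mem]⟩
  have hncard : n = Nat.card (decomp E V) := by
    rw [hn, hD, Nat.card_eq_fintype_card, Fintype.card_subtype]
  have hvn : V.valuation (n : L) = 1 := by
    apply val_natCast_eq_one hm n hn0
    intro p hp hpn
    have h1 : p ∣ Nat.card (L ≃ₐ[E] L) := by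
      rw [hncard] at hpn
      exact hpn.trans (Subgroup.card_subgroup_dvd_card _)
    have : Fact p.Prime := ⟨hp⟩
    obtain ⟨δ, hδ⟩ := exists_prime_orderOf_dvd_card' p h1
    rw [← hδ]
    exact orderOf_dvd_of_pow_eq_one (hexp δ)
  have htr := trace_eq_sum_automorphisms (K := E) (a * g')
  have hsum : V.valuation (algebraMap E L (Algebra.trace E L (a * g')) - (n : L) * g') < 1 := by
    rw [htr, ← Finset.sum_filter_add_sum_filter_not Finset.univ (fun δ => δ ∈ decomp E V)]
    have e4 : ∑ δ ∈ Finset.univ.filter (fun δ => δ ∈ decomp E V), δ (a * g')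
        + ∑ δ ∈ Finset.univ.filter (fun δ => ¬ δ ∈ decomp E V), δ (a * g') - (n : L) * g'
        = ∑ δ ∈ D, (δ (a * g') - g')
          + ∑ δ ∈ Finset.univ.filter (fun δ => ¬ δ ∈ decomp E V), δ (a * g') := by
      rw [Finset.sum_sub_distrib, Finset.sum_const, nsmul_eq_mul]
      ring
    rw [e4]
    refine lt_of_le_of_lt (Valuation.map_add _ _ _) (max_lt ?_ ?_)
    · apply Valuation.map_sum_lt _ one_ne_zero
      intro δ hδ
      have hδD : δ ∈ decomp E V := by simpa [hD] using hδ
      have e5 : δ (a * g') - g' = δ (a - 1) * δ g' + (δ g' - g') := by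
        rw [map_mul, map_sub, map_one]
        ring
      rw [e5]
      refine lt_of_le_of_lt (Valuation.map_add _ _ _) (max_lt ?_ (hg'δ δ hδD))
      rw [map_mul, (decomp_eq_one hδD g').2 hg'1, mul_one]
      exact (decomp_lt hδD _).2 ha1
    · apply Valuation.map_sum_lt _ one_ne_zero
      intro δ hδ
      have hδD : δ ∉ decomp E V := by simpa using hδ
      exact ha2 δ hδD
  set g0 : E := Algebra.trace E L (a * g') / (n : E) with hg0def
  have hnE : (n : E) ≠ 0 := by
    intro h
    have h1 : algebraMap E L (n : E) = 0 := by rw [h, map_zero]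
    have h2 : (n : L) = 0 := by rwa [map_natCast] at h1
    rw [h2, map_zero] at hvn
    exact zero_ne_one hvn
  have hnL : (n : L) ≠ 0 := by
    intro h
    rw [h, map_zero] at hvn
    exact zero_ne_one hvn
  have hg0g' : V.valuation (algebraMap E L g0 - g') < 1 := by
    have e6 : algebraMap E L g0 - g'
        = (algebraMap E L (Algebra.trace E L (a * g')) - (n : L) * g') / (n : L) := by
      rw [hg0def, map_div₀, map_natCast]
      field_simp
    rw [e6, map_div₀, hvn, div_one]
    exact hsum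
  have hvg0 : V.valuation (algebraMap E L g0) = 1 := by
    have : algebraMap E L g0 = g' + (algebraMap E L g0 - g') := by ring
    rw [this]
    have := Valuation.map_add_eq_of_lt_left (V.valuation) (x := g') (y := algebraMap E L g0 - g')
      (by rw [hg'1]; exact hg0g')
    rw [this, hg'1]
  refine ⟨y, u, g0, hu.symm, hy1, hvg0, ?_⟩
  have e7 : algebraMap E L (f0 - u * g0 ^ m)
      = -(g ^ m - algebraMap E L f0)
        + y ^ m * ((∑ i ∈ Finset.range m, g' ^ i * (algebraMap E L g0) ^ (m - 1 - i))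
            * (g' - algebraMap E L g0)) := by
    rw [geom_sum₂_mul, map_sub, map_mul, map_pow, hu]
    have hgy : g = y * g' := by
      rw [hg']
      field_simp
    have : g ^ m = y ^ m * g' ^ m := by
      rw [← mul_pow, ← hgy]
    rw [this]
    ring
  rw [e7]
  refine lt_of_le_of_lt (Valuation.map_add _ _ _) (max_lt ?_ ?_)
  · rw [Valuation.map_neg]
    exact hfg
  · rw [map_mul, map_pow, hy1, one_pow, one_mul, map_mul]
    have h1 : V.valuation (∑ i ∈ Finset.range m, g' ^ i * (algebraMap E L g0) ^ (m - 1 - i)) ≤ 1 :=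
      Valuation.map_sum_le _ (fun i _ => by
        rw [map_mul, map_pow, map_pow, hg'1, hvg0, one_pow, one_pow, one_mul])
    have h2 : V.valuation (g' - algebraMap E L g0) < 1 := by
      rw [← Valuation.map_neg, neg_sub]
      exact hg0g'
    calc V.valuation (∑ i ∈ Finset.range m, g' ^ i * (algebraMap E L g0) ^ (m - 1 - i))
          * V.valuation (g' - algebraMap E L g0)
        ≤ 1 * V.valuation (g' - algebraMap E L g0) := mul_le_mul_left h1 _
      _ = V.valuation (g' - algebraMap E L g0) := one_mul _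
      _ < 1 := h2

end Main

end Fermat.Agent.NEB.H97
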