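import Fermat.Agent.GTor.H58_A2
import Fermat.Agent.GTor.H75_DescComb

/-!
# LG-NEB, package FH-A2Q (helper30): coefficient descent and ratios of forms with algebraic
coefficients

* `lc_retract` : a `K`-linear functional `π : L → K` applied coefficientwise to an identity
  `∑ cᵢ · ι(zᵢ) = ∑ dⱼ · ι(wⱼ)` (`zᵢ, wⱼ ∈ K((q))`, `cᵢ, dⱼ ∈ L`) gives `∑ π(cᵢ) zᵢ = ∑ π(dⱼ) wⱼ`.
* `descent` : **coefficient descent**: for fields `ℚ ⊆ K ⊆ L` (`ι : K →+* L`), `F₀ ⊆ ℚ((q))` a
  subfield: `g ∈ K((q))` and `ι(g) ∈ F₀ · L` imply `g ∈ F₀ · K`.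
* `descent_rat` : for `g ∈ ℚ((q))`: `g ∈ F₀ · L` implies `g ∈ F₀`.
* `ratio_mem_of_forms` : **FH-A2Q**, `K`-form: if `A`, `B` are modular forms of weight `k` on
  `Γ₀(M)` whose `q`-expansions are `ι(a)`, `ι(b)` with `a, b ∈ K((q))` (`K ⊆ ℂ`), then
  `a / b ∈ F₀(M) · K`.
* `ratio_mem_bar` : the case `K = ℚ̄` (`modularFunctionFieldBar M`);
* `ratio_mem_full` : the case `K = ℚ` (`modularFunctionFieldFull M`).
-/

set_option autoImplicit false
set_option linter.unusedSectionVars false
set_option linter.unusedVariables false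

open ModularCurve

noncomputable section

namespace Fermat.Agent.NEB.H30

open Fermat.Agent.GTor Fermat.Agent.GTor.H75

section Retract

variable {K L : Type} [Field K] [Field L] (ι : K →+* L)

/-- Apply an additive functional `π : L → K`, `K`-linear in the sense `π (c * ι x) = π c * x`,
coefficientwise to an identity between `L`-linear combinations of series over `K`. -/
theorem lc_retract (π : L →+ K)
    (hsmul : ∀ (x : K) (c : L), π (c * ι x) = π c * x)
    {I J : Type*} [Fintype I] [Fintype J]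
    (c : I → L) (z : I → LaurentSeries K) (d : J → L) (w : J → LaurentSeries K)
    (h : ∑ i, c i • coeffMap ι (z i) = ∑ j, d j • coeffMap ι (w j)) :
    ∑ i, π (c i) • z i = ∑ j, π (d j) • w j := by
  ext n
  have hn := congrArg (fun x : LaurentSeries L => π (x.coeff n)) h
  simp only [H56.coeff_sum_smul, coeffMap_coeff, map_sum, hsmul] at hn
  rw [H56.coeff_sum_smul, H56.coeff_sum_smul]
  exact hn

end Retract

section Descent

variable {K L : Type} [Field K] [Field L] [Algebra ℚ K] [Algebra ℚ L] (ι : K →+* L)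
  (F₀ : IntermediateField ℚ (LaurentSeries ℚ))

theorem coeffMap_coeffEmb_eq (y : LaurentSeries ℚ) :
    coeffMap ι (coeffEmb K y) = coeffEmb L y := by
  rw [coeffEmb, coeffEmb, coeffMap_coeffMap]
  exact coeffMap_congr (Subsingleton.elim _ _) y

/-- **Coefficient descent**: `ι(K((q))) ∩ F₀·L = ι(F₀·K)`. -/
theorem descent (g : LaurentSeries K)
    (hg : coeffMap ι g ∈ laurentBaseChange L F₀) : g ∈ laurentBaseChange K F₀ := by
  by_cases hg0 : g = 0
  · rw [hg0]
    exact zero_mem _
  have hf0 : coeffMap ι g ≠ 0 := by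
    intro h
    apply hg0
    ext n
    have := congrArg (fun x : LaurentSeries L => x.coeff n) h
    simp only [coeffMap_coeff, HahnSeries.coeff_zero] at this
    exact (map_eq_zero ι).mp this
  obtain ⟨r, y, a, r', y', b, hy, hy', hP0, hQ0, e⟩ := exists_lc L F₀ hg hf0
  -- a coefficient of the denominator which is not zero
  obtain ⟨m, hm⟩ := exists_coeff_ne_zero hQ0
  rw [lc_coeff] at hm
  set β : L := ∑ i, b i * algebraMap ℚ L ((y' i).coeff m) with hβ
  -- a `K`-linear retraction
  let _ : Algebra K L := ι.toAlgebra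
  have hinj : LinearMap.ker (Algebra.linearMap K L) = ⊥ := by
    rw [LinearMap.ker_eq_bot]
    exact ι.injective
  obtain ⟨ρ, hρ⟩ := LinearMap.exists_leftInverse_of_injective (Algebra.linearMap K L) hinj
  have hρ1 : ∀ x : K, ρ (ι x) = x := fun x => LinearMap.congr_fun hρ x
  let π : L →+ K := (ρ.toAddMonoidHom).comp (AddMonoidHom.mulLeft β⁻¹)
  have hπ : ∀ c, π c = ρ (β⁻¹ * c) := fun c => rfl
  have hsmul : ∀ (x : K) (c : L), π (c * ι x) = π c * x := fun x c => by
    rw [hπ, hπ]
    have : β⁻¹ * (c * ι x) = x • (β⁻¹ * c) := by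
      rw [Algebra.smul_def]
      show β⁻¹ * (c * ι x) = ι x * (β⁻¹ * c)
      ring
    rw [this, map_smul, smul_eq_mul, mul_comm]
  have hπβ : π β = 1 := by
    rw [hπ, inv_mul_cancel₀ hm]
    have := hρ1 1
    rwa [map_one] at this
  -- the identity, as an identity between linear combinations of series over `K`
  have e1 : ∑ i, b i • coeffMap ι (g * coeffEmb K (y' i))
      = ∑ i, a i • coeffMap ι (coeffEmb K (y i)) := by
    have e2 : coeffMap ι g * lc (algebraMap ℚ L) y' b
        = ∑ i, b i • coeffMap ι (g * coeffEmb K (y' i)) := by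
      rw [lc, Finset.mul_sum]
      refine Finset.sum_congr rfl fun i _ => ?_
      rw [map_mul, coeffMap_coeffEmb_eq, H56.smul_eq_algebraMap_mul, H56.smul_eq_algebraMap_mul]
      show coeffMap ι g * (algebraMap L (LaurentSeries L) (b i) * coeffEmb L (y' i)) = _
      ring
    have e3 : lc (algebraMap ℚ L) y a = ∑ i, a i • coeffMap ι (coeffEmb K (y i)) := by
      rw [lc]
      refine Finset.sum_congr rfl fun i _ => ?_
      rw [coeffMap_coeffEmb_eq]
      rfl
    rw [← e2, ← e3, e]
  have e4 := lc_retract ι π hsmul b (fun i => g * coeffEmb K (y' i)) a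
    (fun i => coeffEmb K (y i)) e1
  -- rewrite as `g * Q' = P'`
  have e5 : g * lc (algebraMap ℚ K) y' (fun i => π (b i))
      = lc (algebraMap ℚ K) y (fun i => π (a i)) := by
    rw [lc, lc, Finset.mul_sum]
    refine Eq.trans ?_ e4
    refine Finset.sum_congr rfl fun i _ => ?_
    rw [H56.smul_eq_algebraMap_mul, H56.smul_eq_algebraMap_mul]
    show g * (algebraMap K (LaurentSeries K) (π (b i)) * coeffEmb K (y' i)) = _
    ring
  -- the new denominator is not zero
  have hQ' : lc (algebraMap ℚ K) y' (fun i => π (b i)) ≠ 0 := by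
    intro h
    have h1 := congrArg (fun x : LaurentSeries K => x.coeff m) h
    simp only [lc_coeff, HahnSeries.coeff_zero] at h1
    have h2 : π β = ∑ i, π (b i) * algebraMap ℚ K ((y' i).coeff m) := by
      rw [hβ, map_sum]
      refine Finset.sum_congr rfl fun i _ => ?_
      have : algebraMap ℚ L ((y' i).coeff m) = ι (algebraMap ℚ K ((y' i).coeff m)) :=
        (RingHom.congr_fun (Subsingleton.elim (ι.comp (algebraMap ℚ K)) (algebraMap ℚ L)) _).symm
      rw [this, hsmul]
    rw [hπβ, h1] at h2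
    exact one_ne_zero h2
  have hPmem := lc_mem K F₀ y hy (fun i => π (a i))
  have hQmem := lc_mem K F₀ y' hy' (fun i => π (b i))
  have : g = lc (algebraMap ℚ K) y (fun i => π (a i))
      / lc (algebraMap ℚ K) y' (fun i => π (b i)) := by
    rw [eq_div_iff hQ', e5]
  rw [this]
  exact div_mem hPmem hQmem

theorem laurentBaseChange_rat : laurentBaseChange ℚ F₀ = F₀ := by
  have hid : ∀ x : LaurentSeries ℚ, coeffEmb ℚ x = x := fun x => by
    rw [coeffEmb]
    have : algebraMap ℚ ℚ = RingHom.id ℚ := Subsingleton.elim _ _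
    rw [this, coeffMap_id]
  have : (coeffEmb ℚ '' (F₀ : Set (LaurentSeries ℚ))) = (F₀ : Set (LaurentSeries ℚ)) := by
    ext x
    constructor
    · rintro ⟨y, hy, rfl⟩
      rwa [hid]
    · intro hx
      exact ⟨x, hx, hid x⟩
  rw [laurentBaseChange, this]
  exact IntermediateField.adjoin_self ℚ F₀

/-- **Coefficient descent to `ℚ`**: `ℚ((q)) ∩ F₀·L = F₀`. -/
theorem descent_rat (g : LaurentSeries ℚ)
    (hg : coeffEmb L g ∈ laurentBaseChange L F₀) : g ∈ F₀ := by
  have := descent (algebraMap ℚ L) F₀ g hg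
  rwa [laurentBaseChange_rat] at this

end Descent

section Forms

open CongruenceSubgroup

variable {K : Type} [Field K] [Algebra ℚ K] (ι : K →+* ℂ) {M : ℕ} [NeZero M]

/-- **FH-A2Q**: the ratio of two modular forms of the same weight on `Γ₀(M)` with
`q`-expansion coefficients in `K ⊆ ℂ` lies in `F₀(M) · K`. -/
theorem ratio_mem_of_forms {k : ℤ} (A B : ModularForm (Gamma0 M) k)
    (a b : LaurentSeries K) (ha : coeffMap ι a = qLaurent A) (hb : coeffMap ι b = qLaurent B) :
    a / b ∈ laurentBaseChange K (modularFunctionFieldFull M) := by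
  by_cases hB : B = 0
  · have hb0 : b = 0 := by
      have h1 : coeffMap ι b = 0 := by
        rw [hb, hB, qLaurent]
        have : ((0 : ModularForm (Gamma0 M) k) : UpperHalfPlane → ℂ) = 0 := rfl
        rw [this, UpperHalfPlane.qExpansion_zero, map_zero]
      ext n
      have := congrArg (fun x : LaurentSeries ℂ => x.coeff n) h1
      simp only [coeffMap_coeff, HahnSeries.coeff_zero] at this
      exact (map_eq_zero ι).mp this
    rw [hb0, div_zero]
    exact zero_mem _
  obtain ⟨f, -, hf⟩ := H58.stmt_A2 (N := M) k A B hB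
  have hB0 : qLaurent B ≠ 0 := H58.qLaurent_ne_zero (N := M) hB
  apply descent ι
  have : coeffMap ι (a / b) = (f : LaurentSeries ℂ) := by
    rw [map_div₀, ha, hb, hf, mul_div_assoc, div_self hB0, mul_one]
  rw [this]
  exact f.2

/-- **FH-A2Q over `ℚ̄`**. -/
theorem ratio_mem_bar (ι : AlgebraicClosure ℚ →+* ℂ) {k : ℤ} (A B : ModularForm (Gamma0 M) k)
    (a b : LaurentSeries (AlgebraicClosure ℚ)) (ha : coeffMap ι a = qLaurent A)
    (hb : coeffMap ι b = qLaurent B) : a / b ∈ modularFunctionFieldBar M :=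
  ratio_mem_of_forms ι A B a b ha hb

/-- **FH-A2Q over `ℚ`**. -/
theorem ratio_mem_full {k : ℤ} (A B : ModularForm (Gamma0 M) k)
    (a b : LaurentSeries ℚ) (ha : coeffEmb ℂ a = qLaurent A)
    (hb : coeffEmb ℂ b = qLaurent B) : a / b ∈ modularFunctionFieldFull M := by
  have := ratio_mem_of_forms (algebraMap ℚ ℂ) A B a b ha hb
  rwa [laurentBaseChange_rat] at this

end Forms

end Fermat.Agent.NEB.H30
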