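import Fermat.Agent.RED.H51_Ord
import Fermat.Agent.RED.H17_Place
import Fermat.Prelude.Def_AlgebraicCurve_Correspondence

/-!
# NEB, package FH-UNR, abstract part (helper34): Kummer extensions by unramified classes

`K ⊆ F ⊆ L` (`φ : F →ₐ[K] L`), `w` a place of `L` of degree one, `v` a place of `F` with
`w.ord (φ f) = e · v.ord f`, `e > 0`.  If `L` is generated as a ring over `F` by elements `z` with
`z = 0` or `z ^ m = φ u`, `m ∣ v.ord u` (`m ≠ 0` in `K`), then `w` has a uniformiser in `F`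
(`exists_uniformizer_of_kummer`), i.e. `e = 1`.

Proof without completions: `z' = z / φ(π)^j` is a `w`-unit with `z'^m = φ u'`;
`(z' - φ c) · S = φ (u' - c^m)` with `S = ∑ z'^i (φ c)^(m-1-i)` a `w`-unit as soon as `z' ≡ φ c`;
hence `w.ord (z' - φ c) = e · v.ord (u' - c^m)` and `c` can be improved step by step
(only values at `w` are used).  So `φ F` is `w`-adically dense in `L`.
-/

set_option autoImplicit false
set_option linter.style.haveILetI false

noncomputable section

namespace Fermat.Agent.NEB.H34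

open AlgebraicCurve Fermat.Agent.RED.H51 Fermat.Agent.RED.H17

variable {K F L : Type*} [Field K] [Field F] [Field L] [Algebra K F] [Algebra K L]

/-- `f` is a `w`-adic limit of elements of `φ F`. -/
def Approx (φ : F →ₐ[K] L) (w : Place K L) (f : L) : Prop :=
  ∀ N : ℤ, ∃ g : F, OrdGe w N (f - φ g)

variable {φ : F →ₐ[K] L} {w : Place K L}

theorem approx_map (g : F) : Approx φ w (φ g) := fun _ => ⟨g, by simp⟩

theorem Approx.add {f f' : L} (hf : Approx φ w f) (hf' : Approx φ w f') :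
    Approx φ w (f + f') := by
  intro N
  obtain ⟨g, hg⟩ := hf N
  obtain ⟨g', hg'⟩ := hf' N
  refine ⟨g + g', ?_⟩
  have : f + f' - φ (g + g') = (f - φ g) + (f' - φ g') := by rw [map_add]; ring
  rw [this]
  exact hg.add hg'

theorem Approx.neg {f : L} (hf : Approx φ w f) : Approx φ w (-f) := by
  intro N
  obtain ⟨g, hg⟩ := hf N
  refine ⟨-g, ?_⟩
  have : -f - φ (-g) = -(f - φ g) := by rw [map_neg]; ring
  rw [this]
  exact hg.neg

theorem Approx.mul {f f' : L} (hf : Approx φ w f) (hf' : Approx φ w f') :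
    Approx φ w (f * f') := by
  intro N
  rcases eq_or_ne f' 0 with rfl | hf'0
  · exact ⟨0, by simp⟩
  obtain ⟨g, hg⟩ := hf (N - w.ord f')
  have h1 : OrdGe w N ((f - φ g) * f') := by
    have := hg.mul (ordGe_of_le (v := w) (f := f') le_rfl)
    rwa [sub_add_cancel] at this
  rcases eq_or_ne (φ g) 0 with hg0 | hg0
  · refine ⟨0, ?_⟩
    rw [hg0, sub_zero] at h1
    simpa using h1
  obtain ⟨g', hg'⟩ := hf' (N - w.ord (φ g))
  have h2 : OrdGe w N (φ g * (f' - φ g')) := by
    have := (ordGe_of_le (v := w) (f := φ g) le_rfl).mul hg'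
    rwa [add_sub_cancel] at this
  refine ⟨g * g', ?_⟩
  have : f * f' - φ (g * g') = (f - φ g) * f' + φ g * (f' - φ g') := by rw [map_mul]; ring
  rw [this]
  exact h1.add h2

/-- If `L` is generated as a ring by `φ F` and approximable elements, everything is
approximable. -/
theorem approx_of_closure {S : Set L} (hS : ∀ s ∈ S, Approx φ w s)
    (hgen : ∀ y : L, y ∈ Subring.closure (Set.range φ ∪ S)) (y : L) : Approx φ w y := by
  have := hgen y
  induction this using Subring.closure_induction with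
  | mem x hx =>
    rcases hx with ⟨g, rfl⟩ | hx
    · exact approx_map g
    · exact hS x hx
  | zero => simpa using approx_map (φ := φ) (w := w) 0
  | one => simpa using approx_map (φ := φ) (w := w) 1
  | add x y _ _ hx hy => exact hx.add hy
  | neg x _ hx => exact hx.neg
  | mul x y _ _ hx hy => exact hx.mul hy

/-- If `φ F` is `w`-adically dense, `w` has a uniformiser in `F`. -/
theorem exists_uniformizer_of_approx (h : ∀ y : L, Approx φ w y) : ∃ x : F, w.ord (φ x) = 1 := by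
  obtain ⟨t, ht0, ht⟩ := exists_uniformizer w
  obtain ⟨g, hg⟩ := h t 2
  refine ⟨g, ?_⟩
  have h1 : OrdGe w (w.ord t + 1) (-(t - φ g)) := by
    rw [ht]
    exact hg.neg
  have := (ord_add_eq w ht0 h1).2
  rw [ht] at this
  rw [← this]
  congr 1
  ring

theorem ordGe_pow_sub_pow {x y : L} (hx : OrdGe w 0 x) (hy : OrdGe w 0 y)
    (hxy : OrdGe w 1 (x - y)) (j : ℕ) : OrdGe w 1 (x ^ j - y ^ j) := by
  rw [← geom_sum₂_mul]
  have h1 : OrdGe w 0 (∑ i ∈ Finset.range j, x ^ i * y ^ (j - 1 - i)) := by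
    refine ordGe_sum w 0 _ _ fun i _ => ?_
    have := (ordGe_pow hx i).mul (ordGe_pow hy (j - 1 - i))
    simpa using this
  have := h1.mul hxy
  simpa using this

/-- The basic identity: for a `w`-unit `z` with `z ^ m = φ u` and `c` with `z ≡ φ c`:
`w.ord (z - φ c) = w.ord (φ (u - c ^ m))`. -/
theorem ord_sub_eq_of_pow {m : ℕ} (hm : (m : K) ≠ 0) {z : L} {u c : F}
    (hz : z ^ m = φ u) (hz0 : w.ord z = 0) (hz1 : z ≠ 0) (hc : OrdGe w 1 (z - φ c)) :
    (z - φ c = 0 ∧ u - c ^ m = 0) ∨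
      (z - φ c ≠ 0 ∧ u - c ^ m ≠ 0 ∧ w.ord (z - φ c) = w.ord (φ (u - c ^ m))) := by
  have hm0 : m ≠ 0 := by rintro rfl; simp at hm
  have hzr : OrdGe w 0 z := Or.inr hz0.ge
  have hcr : OrdGe w 0 (φ c) := by
    have := hzr.sub (hc.mono (by norm_num : (0 : ℤ) ≤ 1))
    simpa using this
  set S : L := ∑ i ∈ Finset.range m, z ^ i * (φ c) ^ (m - 1 - i) with hS
  have hSmul : S * (z - φ c) = φ (u - c ^ m) := by
    rw [hS, geom_sum₂_mul, hz, map_sub, map_pow]
  -- `S ≡ m z^(m-1)`
  have hmL : (algebraMap K L (m : K)) ≠ 0 := by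
    intro h
    exact hm ((map_eq_zero_iff _ (algebraMap K L).injective).mp h)
  have hlead0 : algebraMap K L (m : K) * z ^ (m - 1) ≠ 0 :=
    mul_ne_zero hmL (pow_ne_zero _ hz1)
  have hleadord : w.ord (algebraMap K L (m : K) * z ^ (m - 1)) = 0 := by
    rw [w.ord_mul hmL (pow_ne_zero _ hz1), Fermat.Agent.RED.H51.ord_algebraMap, Fermat.Agent.RED.H51.ord_pow, hz0]
    simp
  have hdiff : OrdGe w 1 (S - algebraMap K L (m : K) * z ^ (m - 1)) := by
    have e1 : algebraMap K L (m : K) * z ^ (m - 1) = ∑ i ∈ Finset.range m, z ^ i * z ^ (m - 1 - i) := by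
      rw [Finset.sum_congr rfl (fun i hi => by
        rw [← pow_add, show i + (m - 1 - i) = m - 1 by
          have := Finset.mem_range.mp hi; omega])]
      simp
    rw [e1, hS, ← Finset.sum_sub_distrib]
    refine ordGe_sum w 1 _ _ fun i _ => ?_
    rw [← mul_sub]
    have h2 := ordGe_pow_sub_pow hcr hzr (by
      have := hc.neg
      simpa using this) (m - 1 - i)
    have := (ordGe_pow hzr i).mul h2
    simpa using this
  have hSord : S ≠ 0 ∧ w.ord S = 0 := by
    have := ord_add_eq w hlead0 (g := S - algebraMap K L (m : K) * z ^ (m - 1)) (by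
      rw [hleadord]; simpa using hdiff)
    rw [hleadord] at this
    simpa using this
  by_cases hzc : z - φ c = 0
  · left
    refine ⟨hzc, ?_⟩
    rw [hzc, mul_zero] at hSmul
    exact (map_eq_zero_iff φ φ.injective).mp hSmul.symm
  · right
    have hne : φ (u - c ^ m) ≠ 0 := by
      rw [← hSmul]
      exact mul_ne_zero hSord.1 hzc
    refine ⟨hzc, fun h => hne (by rw [h, map_zero]), ?_⟩
    rw [← hSmul, w.ord_mul hSord.1 hzc, hSord.2, zero_add]


theorem pos_of_mul_pos {e : ℕ} {k n : ℤ} (h : (e : ℤ) * n + 1 ≤ e * k) : n + 1 ≤ k := by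
  by_contra hk
  have hk' : k ≤ n := by omega
  have : (e : ℤ) * k ≤ e * n := mul_le_mul_of_nonneg_left hk' (Int.natCast_nonneg e)
  omega

/-- Step-by-step improvement of the approximation of a `w`-unit `z` with `z ^ m ∈ φ F`. -/
theorem exists_approx_unit {m : ℕ} (hm : (m : K) ≠ 0) (hdeg : w.deg = 1)
    {e : ℕ} (v : Place K F) (hev : ∀ f : F, w.ord (φ f) = e * v.ord f)
    {z : L} {u : F} (hz : z ^ m = φ u) (hz0 : w.ord z = 0) (hz1 : z ≠ 0) (n : ℕ) :
    ∃ c : F, OrdGe w 1 (z - φ c) ∧ OrdGe v (n + 1 : ℤ) (u - c ^ m) := by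
  induction n with
  | zero =>
    obtain ⟨a, ha⟩ := exists_value w hdeg (regAt_of_ord_nonneg (v := w) (f := z) hz0.ge)
    refine ⟨algebraMap K F a, ?_, ?_⟩
    · rw [φ.commutes]
      exact (vanAt_iff_ord w _).mp ha |>.imp id fun h => by omega
    · have hc : OrdGe w 1 (z - φ (algebraMap K F a)) := by
        rw [φ.commutes]
        exact (vanAt_iff_ord w _).mp ha |>.imp id fun h => by omega
      rcases ord_sub_eq_of_pow hm hz hz0 hz1 hc with ⟨-, h⟩ | ⟨h1, h2, h3⟩
      · exact Or.inl h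
      · refine Or.inr ?_
        have h4 := hc.le h1
        rw [h3, hev] at h4
        have := pos_of_mul_pos (e := e) (n := 0) (k := v.ord (u - algebraMap K F a ^ m))
          (by simpa using h4)
        simpa using this
  | succ n ih =>
    obtain ⟨c, hc, hcu⟩ := ih
    rcases ord_sub_eq_of_pow hm hz hz0 hz1 hc with ⟨-, h⟩ | ⟨h1, h2, h3⟩
    · exact ⟨c, hc, Or.inl h⟩
    have hk := hcu.le h2
    by_cases hk2 : ((n + 1 : ℕ) : ℤ) + 1 ≤ v.ord (u - c ^ m)
    · exact ⟨c, hc, Or.inr hk2⟩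
    have hkeq : v.ord (u - c ^ m) = n + 1 := by push_cast at hk2; omega
    obtain ⟨π, hπ0, hπ⟩ := exists_uniformizer v
    have hφπ0 : φ π ≠ 0 := (map_ne_zero_iff φ φ.injective).mpr hπ0
    have hφπ : w.ord (φ π) = e := by rw [hev, hπ, mul_one]
    set r : L := (z - φ c) / φ π ^ (n + 1) with hr
    have hr0 : w.ord r = 0 := by
      rw [hr, Fermat.Agent.RED.H51.ord_div w h1 (pow_ne_zero _ hφπ0),
        Fermat.Agent.RED.H51.ord_pow, hφπ, h3, hev, hkeq]
      push_cast
      ring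
    obtain ⟨a, ha⟩ := exists_value w hdeg (regAt_of_ord_nonneg (v := w) (f := r) hr0.ge)
    have ha' : OrdGe w 1 (r - algebraMap K L a) :=
      (vanAt_iff_ord w _).mp ha |>.imp id fun h => by omega
    set c' : F := c + algebraMap K F a * π ^ (n + 1) with hc'
    have hdiff : z - φ c' = φ π ^ (n + 1) * (r - algebraMap K L a) := by
      rw [hc', map_add, map_mul, map_pow, φ.commutes, hr]
      field_simp
      ring
    have hbig : OrdGe w ((e : ℤ) * (n + 1) + 1) (z - φ c') := by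
      rw [hdiff]
      have h5 : OrdGe w ((e : ℤ) * (n + 1)) (φ π ^ (n + 1)) := by
        refine Or.inr ?_
        rw [Fermat.Agent.RED.H51.ord_pow, hφπ]
        push_cast
        ring_nf
        exact le_rfl
      exact h5.mul ha'
    have hc1 : OrdGe w 1 (z - φ c') :=
      hbig.mono (by
        have : (0 : ℤ) ≤ (e : ℤ) * (n + 1) := by positivity
        omega)
    refine ⟨c', hc1, ?_⟩
    rcases ord_sub_eq_of_pow hm hz hz0 hz1 hc1 with ⟨-, h⟩ | ⟨h1', h2', h3'⟩
    · exact Or.inl h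
    · refine Or.inr ?_
      have h6 := hbig.le h1'
      rw [h3', hev] at h6
      have := pos_of_mul_pos (e := e) (n := n + 1) (k := v.ord (u - c' ^ m)) h6
      push_cast
      omega

/-- A `w`-unit `z` with `z ^ m ∈ φ F` is a `w`-adic limit of elements of `φ F`. -/
theorem approx_unit {m : ℕ} (hm : (m : K) ≠ 0) (hdeg : w.deg = 1)
    {e : ℕ} (he : 0 < e) (v : Place K F) (hev : ∀ f : F, w.ord (φ f) = e * v.ord f)
    {z : L} {u : F} (hz : z ^ m = φ u) (hz0 : w.ord z = 0) (hz1 : z ≠ 0) : Approx φ w z := by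
  intro N
  obtain ⟨c, hc, hcu⟩ := exists_approx_unit hm hdeg v hev hz hz0 hz1 N.toNat
  refine ⟨c, ?_⟩
  rcases ord_sub_eq_of_pow hm hz hz0 hz1 hc with ⟨h, -⟩ | ⟨h1, h2, h3⟩
  · exact Or.inl h
  · refine Or.inr ?_
    rw [h3, hev]
    have hk := hcu.le h2
    have h7 : (N.toNat : ℤ) + 1 ≤ (e : ℤ) * v.ord (u - c ^ m) := by
      have he' : (1 : ℤ) ≤ e := by exact_mod_cast he
      have hk0 : (0 : ℤ) ≤ v.ord (u - c ^ m) := by omega
      nlinarith
    have := Int.self_le_toNat N
    omega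


/-- A Kummer generator `z` (`z ^ m = φ u`, `m ∣ v.ord u`) is a `w`-adic limit of elements of
`φ F`. -/
theorem approx_kummer {m : ℕ} (hm : (m : K) ≠ 0) (hdeg : w.deg = 1)
    {e : ℕ} (he : 0 < e) (v : Place K F) (hev : ∀ f : F, w.ord (φ f) = e * v.ord f)
    {z : L} {u : F} (hu0 : u ≠ 0) (hz : z ^ m = φ u) (hu : (m : ℤ) ∣ v.ord u) :
    Approx φ w z := by
  have hm0 : m ≠ 0 := by rintro rfl; simp at hm
  obtain ⟨j, hj⟩ := hu
  obtain ⟨π, hπ0, hπ⟩ := exists_uniformizer v
  have hφπ0 : φ π ≠ 0 := (map_ne_zero_iff φ φ.injective).mpr hπ0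
  have hφπ : w.ord (φ π) = e := by rw [hev, hπ, mul_one]
  have hz1 : z ≠ 0 := by
    rintro rfl
    rw [zero_pow hm0] at hz
    exact hu0 ((map_eq_zero_iff φ φ.injective).mp hz.symm)
  have hzord : w.ord z = e * j := by
    have h1 : w.ord (z ^ m) = (m : ℤ) * w.ord z := Fermat.Agent.RED.H51.ord_pow w z m
    rw [hz, hev, hj] at h1
    have hm' : (m : ℤ) ≠ 0 := by exact_mod_cast hm0
    have : (m : ℤ) * w.ord z = m * (e * j) := by rw [← h1]; ring
    exact mul_left_cancel₀ hm' this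
  set z' : L := z * (φ π ^ j)⁻¹ with hz'
  have hpj0 : φ π ^ j ≠ 0 := zpow_ne_zero _ hφπ0
  have hz'0 : z' ≠ 0 := mul_ne_zero hz1 (inv_ne_zero hpj0)
  have hz'ord : w.ord z' = 0 := by
    rw [hz', w.ord_mul hz1 (inv_ne_zero hpj0), w.ord_inv, w.ord_zpow, hφπ, hzord]
    ring
  have hz'm : z' ^ m = φ (u * (π ^ j)⁻¹ ^ m) := by
    rw [hz', mul_pow, hz, map_mul, map_pow, map_inv₀, map_zpow₀]
  have h1 := approx_unit hm hdeg he v hev hz'm hz'ord hz'0
  have h2 : Approx φ w (z' * φ (π ^ j)) := h1.mul (approx_map _)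
  have e1 : z' * φ (π ^ j) = z := by
    rw [hz', map_zpow₀, mul_assoc, inv_mul_cancel₀ hpj0, mul_one]
  rwa [e1] at h2

/-- **Kummer extensions by unramified classes are unramified.**  If `L` is generated as a ring
by `φ F` and elements `z` with `z = 0` or `z ^ m = φ u`, `m ∣ v.ord u` (`v` the place below `w`,
`w.ord ∘ φ = e · v.ord`, `e > 0`), and `w` has degree one, then `w` has a uniformiser in `F`. -/
theorem exists_uniformizer_of_kummer {m : ℕ} (hm : (m : K) ≠ 0) (hdeg : w.deg = 1)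
    {e : ℕ} (he : 0 < e) (v : Place K F) (hev : ∀ f : F, w.ord (φ f) = e * v.ord f)
    (S : Set L) (hS : ∀ z ∈ S, z = 0 ∨ ∃ u : F, u ≠ 0 ∧ z ^ m = φ u ∧ (m : ℤ) ∣ v.ord u)
    (hgen : ∀ y : L, y ∈ Subring.closure (Set.range φ ∪ S)) :
    ∃ x : F, w.ord (φ x) = 1 := by
  refine exists_uniformizer_of_approx (approx_of_closure (S := S) ?_ hgen)
  intro z hzS
  rcases hS z hzS with rfl | ⟨u, hu0, hz, hu⟩
  · simpa using approx_map (φ := φ) (w := w) 0
  · exact approx_kummer hm hdeg he v hev hu0 hz hu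

/-- Version along an integral `K`-algebra hom, in the prelude's language. -/
theorem exists_uniformizer_along {m : ℕ} (hm : (m : K) ≠ 0)
    (φ : F →ₐ[K] L) (hφ : φ.toRingHom.IsIntegral) (w : Place K L) (hdeg : w.deg = 1)
    (S : Set L)
    (hS : ∀ z ∈ S, z = 0 ∨ ∃ u : F, u ≠ 0 ∧ z ^ m = φ u ∧
      (m : ℤ) ∣ (w.restrictAlong φ hφ).ord u)
    (hgen : ∀ y : L, y ∈ Subring.closure (Set.range φ ∪ S)) :
    ∃ x : F, w.ord (φ x) = 1 := by
  have he : 0 < Place.ramificationIndexAlong φ w := by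
    letI := algebraAlong φ
    haveI := isScalarTower_along φ
    haveI := isIntegral_along φ hφ
    exact w.ramificationIndex_pos (F := F)
  exact exists_uniformizer_of_kummer hm hdeg he (w.restrictAlong φ hφ)
    (fun f => Place.ord_restrictAlong φ hφ w f) S hS hgen

end Fermat.Agent.NEB.H34
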