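import Fermat.Agent.NEB.H84_Gen
import Fermat.Agent.NEB.H30_A2Q

/-!
# NEB, package FH-GAL, part 4 (helper84): `Γ₀(M)` acts on `F_H(M)·ℚ̄` by `ℚ̄`-algebra automorphisms

For `γ ∈ Γ₀(M)` and an embedding `ι : ℚ̄ → ℂ`: `actHom γ : F_H →ₐ[ℚ̄] F_H` with graph `RelK γ`
(the slash action on ratios of forms, transported by `ι`).
-/

set_option autoImplicit false
set_option linter.unusedSectionVars false

open UpperHalfPlane ModularForm CongruenceSubgroup ModularCurve
open scoped MatrixGroups ModularForm Manifold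

noncomputable section

namespace Fermat.Agent.NEB.H84

open Fermat.Agent.GTor (qLaurent)

/-! ### Coset sets -/

section CosetSet

variable {c : ℕ} (H : Subgroup (ZMod c)ˣ)

theorem zero_not_mem_cosetSet (hc : 2 ≤ c) (a : (ZMod c)ˣ) : (0 : ZMod c) ∉ cosetSet c H a := by
  have : Fact (1 < c) := ⟨hc⟩
  rintro ⟨h, -, h1 | h1⟩
  · exact (Units.ne_zero _) h1.symm
  · exact (Units.ne_zero _) (neg_eq_zero.mp h1.symm)

theorem neg_mem_cosetSet (a : (ZMod c)ˣ) (x : ZMod c) (hx : x ∈ cosetSet c H a) :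
    -x ∈ cosetSet c H a := by
  obtain ⟨h, hh, h1 | h1⟩ := hx
  · exact ⟨h, hh, Or.inr (by rw [h1])⟩
  · exact ⟨h, hh, Or.inl (by rw [h1, neg_neg])⟩

theorem cosetSet_translate (a u : (ZMod c)ˣ) :
    {x : ZMod c | (u : ZMod c) * x ∈ cosetSet c H a} = cosetSet c H (u⁻¹ * a) := by
  ext x
  constructor
  · rintro ⟨h, hh, h1 | h1⟩
    · refine ⟨h, hh, Or.inl ?_⟩
      have : x = ((u⁻¹ : (ZMod c)ˣ) : ZMod c) * ((u : ZMod c) * x) := by
        rw [← mul_assoc, ← Units.val_mul, inv_mul_cancel, Units.val_one, one_mul]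
      rw [this, h1]
      push_cast
      ring
    · refine ⟨h, hh, Or.inr ?_⟩
      have : x = ((u⁻¹ : (ZMod c)ˣ) : ZMod c) * ((u : ZMod c) * x) := by
        rw [← mul_assoc, ← Units.val_mul, inv_mul_cancel, Units.val_one, one_mul]
      rw [this, h1]
      push_cast
      ring
  · rintro ⟨h, hh, h1 | h1⟩
    · refine ⟨h, hh, Or.inl ?_⟩
      rw [h1]
      push_cast
      rw [← mul_assoc, ← mul_assoc, ← Units.val_mul, mul_inv_cancel, Units.val_one, one_mul]
    · refine ⟨h, hh, Or.inr ?_⟩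
      rw [h1]
      push_cast
      rw [mul_neg, ← mul_assoc, ← mul_assoc, ← Units.val_mul, mul_inv_cancel, Units.val_one,
        one_mul]

end CosetSet

/-! ### An induction principle for `F_H(M)·ℚ̄` -/

section Induction

variable (M c : ℕ) (H : Subgroup (ZMod c)ˣ)

theorem FHQ_induction {P : LaurentSeries ℚ → Prop}
    (hconst : ∀ r : ℚ, P (algebraMap ℚ (LaurentSeries ℚ) r))
    (hj : ∀ (d : ℕ) (_ : NeZero d), d ∣ M → P (qExpand ℚ d jq))
    (hgen : ∀ a : (ZMod c)ˣ, P (eisGen c (cosetSet c H a)))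
    (hone : P 1) (hadd : ∀ x y, P x → P y → P (x + y)) (hneg : ∀ x, P x → P (-x))
    (hinv : ∀ x, P x → P x⁻¹) (hmul : ∀ x y, P x → P y → P (x * y))
    {z : LaurentSeries ℚ} (hz : z ∈ FHQ M c H) : P z := by
  have hz' : z ∈ Subfield.closure
      (Set.range (algebraMap ℚ (LaurentSeries ℚ)) ∪ (divisorExpansions M ∪ genSet c H)) := hz
  clear hz
  induction hz' using Subfield.closure_induction with
  | mem w hw =>
    rcases hw with ⟨r, rfl⟩ | ⟨d, hd0, hd, rfl⟩ | ⟨a, rfl⟩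
    · exact hconst r
    · exact hj d hd0 hd
    · exact hgen a
  | one => exact hone
  | add x y _ _ hx hy => exact hadd x y hx hy
  | neg x _ hx => exact hneg x hx
  | inv x _ hx => exact hinv x hx
  | mul x y _ _ hx hy => exact hmul x y hx hy

theorem FHbar_induction {P : LaurentSeries Kbar → Prop}
    (hconst : ∀ a : Kbar, P (algebraMap Kbar (LaurentSeries Kbar) a))
    (hj : ∀ (d : ℕ) (_ : NeZero d), d ∣ M → P (coeffEmb Kbar (qExpand ℚ d jq)))
    (hgen : ∀ a : (ZMod c)ˣ, P (coeffEmb Kbar (eisGen c (cosetSet c H a))))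
    (hone : P 1) (hadd : ∀ x y, P x → P y → P (x + y)) (hneg : ∀ x, P x → P (-x))
    (hinv : ∀ x, P x → P x⁻¹) (hmul : ∀ x y, P x → P y → P (x * y))
    {x : LaurentSeries Kbar} (hx : x ∈ FHbar M c H) : P x := by
  have hx' := mem_laurentBaseChange_iff.mp hx
  clear hx
  induction hx' using Subfield.closure_induction with
  | mem w hw =>
    rcases hw with ⟨a, rfl⟩ | ⟨z, hz, rfl⟩
    · exact hconst a
    · refine FHQ_induction M c H (P := fun z => P (coeffEmb Kbar z)) ?_ hj hgen ?_ ?_ ?_ ?_ ?_ hz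
      · intro r
        have : coeffEmb Kbar (algebraMap ℚ (LaurentSeries ℚ) r) =
            algebraMap Kbar (LaurentSeries Kbar) (algebraMap ℚ Kbar r) := by
          rw [algebraMap_laurentSeries_eq_single, coeffEmb, coeffMap_single,
            ← algebraMap_laurentSeries_eq_single]
        rw [this]
        exact hconst _
      · rw [map_one]; exact hone
      · intro x y hx hy; rw [map_add]; exact hadd _ _ hx hy
      · intro x hx; rw [map_neg]; exact hneg _ hx
      · intro x hx; rw [map_inv₀]; exact hinv _ hx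
      · intro x y hx hy; rw [map_mul]; exact hmul _ _ hx hy
  | one => exact hone
  | add x y _ _ hx hy => exact hadd x y hx hy
  | neg x _ hx => exact hneg x hx
  | inv x _ hx => exact hinv x hx
  | mul x y _ _ hx hy => exact hmul x y hx hy

end Induction

/-! ### Transport to `ℂ` -/

section Transport

variable (ι : Kbar →+* ℂ)

theorem coeffMap_const (a : Kbar) :
    coeffMap ι (algebraMap Kbar (LaurentSeries Kbar) a) = HahnSeries.C (ι a) := by
  rw [algebraMap_laurentSeries_eq_single, coeffMap_single]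
  rfl

theorem coeffMap_inj : Function.Injective (coeffMap ι) := by
  intro x y h
  ext n
  have := congrArg (fun z => z.coeff n) h
  simp only [coeffMap_coeff] at this
  exact ι.injective this

theorem coeffMap_coeffEmb_C (z : LaurentSeries ℚ) :
    coeffMap ι (coeffEmb Kbar z) = coeffEmb ℂ z :=
  Fermat.Agent.NEB.H30.coeffMap_coeffEmb_eq ι z

end Transport

/-! ### The unit `d_γ mod c` -/

section DUnit

variable {M c : ℕ}

/-- The lower right entry of `γ ∈ Γ₀(M)` as a unit mod `c`, `c ∣ M`. -/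
def dUnit (hc : c ∣ M) (γ : SL(2, ℤ)) (hγ : γ ∈ Gamma0 M) : (ZMod c)ˣ :=
  Units.mkOfMulEqOne ((γ 1 1 : ℤ) : ZMod c) ((γ 0 0 : ℤ) : ZMod c) (by
    have h0 : ((γ 1 0 : ℤ) : ZMod c) = 0 := Gamma0_mem.mp (mem_Gamma0_of_dvd hc hγ)
    have hdet : (γ 0 0 : ℤ) * γ 1 1 - γ 0 1 * γ 1 0 = 1 := by
      have := γ.2
      rwa [Matrix.det_fin_two] at this
    have := congrArg (fun z : ℤ => (z : ZMod c)) hdet
    simp only [Int.cast_sub, Int.cast_mul, Int.cast_one, h0, mul_zero, sub_zero] at this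
    rw [mul_comm]
    exact this)

@[simp]
theorem coe_dUnit (hc : c ∣ M) (γ : SL(2, ℤ)) (hγ : γ ∈ Gamma0 M) :
    ((dUnit hc γ hγ : (ZMod c)ˣ) : ZMod c) = ((γ 1 1 : ℤ) : ZMod c) := rfl

end DUnit

/-! ### The graph of the action on `F_H(M)·ℚ̄` -/

section Exists

variable {M c : ℕ} [NeZero M] (H : Subgroup (ZMod c)ˣ) (ι : Kbar →+* ℂ)

theorem relK_gen (hc2 : 2 ≤ c) (hc : c ∣ M) {γ : SL(2, ℤ)} (hγ : γ ∈ Gamma0 M) (a : (ZMod c)ˣ) :
    Rel M γ (coeffMap ι (coeffEmb Kbar (eisGen c (cosetSet c H a))))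
      (coeffMap ι (coeffEmb Kbar (eisGen c (cosetSet c H ((dUnit hc γ hγ)⁻¹ * a))))) := by
  rw [coeffMap_coeffEmb_C, coeffMap_coeffEmb_C]
  have := rel_eisGen hc hγ (cosetSet c H a) (zero_not_mem_cosetSet H hc2 a)
    (neg_mem_cosetSet H a)
  rw [← coe_dUnit hc γ hγ, cosetSet_translate] at this
  exact this

theorem exists_relK (hc2 : 2 ≤ c) (hc : c ∣ M) {γ : SL(2, ℤ)} (hγ : γ ∈ Gamma0 M)
    {x : LaurentSeries Kbar} (hx : x ∈ FHbar M c H) :
    ∃ y ∈ FHbar M c H, Rel M γ (coeffMap ι x) (coeffMap ι y) := by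
  refine FHbar_induction M c H (P := fun x => ∃ y ∈ FHbar M c H,
    Rel M γ (coeffMap ι x) (coeffMap ι y)) ?_ ?_ ?_ ?_ ?_ ?_ ?_ ?_ hx
  · intro a
    refine ⟨_, (FHbar M c H).algebraMap_mem a, ?_⟩
    rw [coeffMap_const]
    exact rel_C M γ _
  · intro d hd0 hd
    have hmem : qExpand ℚ d jq ∈ modularFunctionFieldFull M :=
      IntermediateField.subset_adjoin ℚ _ ⟨d, hd0, hd, rfl⟩
    refine ⟨_, coeffEmb_mem_laurentBaseChange Kbar (full_le_FHQ M c H hmem), ?_⟩
    rw [coeffMap_coeffEmb_C]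
    exact rel_coeffEmb_full hγ hmem
  · intro a
    exact ⟨_, coeffEmb_mem_laurentBaseChange Kbar (eisGen_mem_FHQ M c H _),
      relK_gen H ι hc2 hc hγ a⟩
  · refine ⟨1, one_mem _, ?_⟩
    rw [map_one]
    have := rel_C M γ 1
    rwa [map_one] at this
  · rintro x y ⟨x', hx', h1⟩ ⟨y', hy', h2⟩
    refine ⟨x' + y', add_mem hx' hy', ?_⟩
    rw [map_add, map_add]
    exact rel_add hγ h1 h2
  · rintro x ⟨x', hx', h1⟩
    refine ⟨-x', neg_mem hx', ?_⟩
    rw [map_neg, map_neg]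
    exact rel_neg hγ h1
  · rintro x ⟨x', hx', h1⟩
    by_cases hx0 : x = 0
    · refine ⟨0, zero_mem _, ?_⟩
      rw [hx0, inv_zero, map_zero]
      have := rel_C M γ 0
      rwa [map_zero] at this
    · refine ⟨x'⁻¹, inv_mem hx', ?_⟩
      rw [map_inv₀, map_inv₀]
      exact rel_inv hγ h1 (fun h => hx0 ((map_eq_zero_iff _ (coeffMap_inj ι)).mp h))
  · rintro x y ⟨x', hx', h1⟩ ⟨y', hy', h2⟩
    refine ⟨x' * y', mul_mem hx' hy', ?_⟩
    rw [map_mul, map_mul]
    exact rel_mul hγ h1 h2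

end Exists

end Fermat.Agent.NEB.H84
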