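import Fermat.Agent.NEB.H14_JHLeaves

/-!
# NEB, package JH, leaf GAL-NORM (helper2): Artin's theorem and the norm as a product

`stmt_GalNorm : H14.Stmt_GalNorm`.  Generic form: `galNorm`.
Also `isGaloisGroup_along`: the `IsGaloisGroup` instance of Mathlib for a finite group of
automorphisms whose fixed field is the image of `φ`.
-/

set_option autoImplicit false
set_option linter.style.haveILetI false
set_option linter.unusedSectionVars false

noncomputable section

namespace Fermat.Agent.NEB.H2

open AlgebraicCurve Fermat.Agent.NEB.H14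

variable {K F F' : Type} [Field K] [Field F] [Field F'] [Algebra K F] [Algebra K F']

/-- A group `G` of `K`-automorphisms of `F'` with fixed field `φ(F)` is a Galois group of
`F' / F` (algebra structure along `φ`). -/
theorem isGaloisGroup_along (φ : F →ₐ[K] F') (G : Subgroup (F' ≃ₐ[K] F'))
    (h1 : ∀ x : F', (∀ g ∈ G, g x = x) → x ∈ Set.range φ)
    (h2 : ∀ (g : F' ≃ₐ[K] F') (y : F), g ∈ G → g (φ y) = φ y) :
    letI := algebraAlong φ
    IsGaloisGroup G F F' := by
  letI := algebraAlong φ
  exact
    { faithful := inferInstance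
      commutes := ⟨fun g a x => by
        show (g : F' ≃ₐ[K] F') (a • x) = a • (g : F' ≃ₐ[K] F') x
        rw [Algebra.smul_def, Algebra.smul_def, map_mul]
        congr 1
        exact h2 _ a g.2⟩
      isInvariant := ⟨fun x hx => by
        obtain ⟨y, hy⟩ := h1 x (fun g hg => hx ⟨g, hg⟩)
        exact ⟨y, hy⟩⟩ }

/-- **GAL-NORM**, generic form. -/
theorem galNorm (φ : F →ₐ[K] F') (G : Subgroup (F' ≃ₐ[K] F')) [Fintype G]
    (h1 : ∀ x : F', (∀ g ∈ G, g x = x) → x ∈ Set.range φ)
    (h2 : ∀ (g : F' ≃ₐ[K] F') (y : F), g ∈ G → g (φ y) = φ y) :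
    FiniteAlong K φ ∧ finrankAlong K φ = Fintype.card G ∧
    ∀ x : F', φ (normFn φ x) = ∏ g : G, (g : F' ≃ₐ[K] F') x := by
  letI := algebraAlong φ
  haveI : IsGaloisGroup G F F' := isGaloisGroup_along φ G h1 h2
  haveI hfd : FiniteDimensional F F' := IsGaloisGroup.finiteDimensional G F F'
  haveI : IsGalois F F' := IsGaloisGroup.isGalois G F F'
  refine ⟨hfd, ?_, ?_⟩
  · show Module.finrank F F' = Fintype.card G
    rw [← IsGaloisGroup.card_eq_finrank G F F', Nat.card_eq_fintype_card]
  · intro x
    show algebraMap F F' (Algebra.norm F x) = _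
    rw [Algebra.norm_eq_prod_automorphisms]
    symm
    refine Fintype.prod_equiv (IsGaloisGroup.mulEquivAlgEquiv G F F').toEquiv _ _ (fun g => ?_)
    exact (IsGaloisGroup.mulEquivAlgEquiv_apply_apply G F F' g x).symm

/-- **GAL-NORM**. -/
theorem stmt_GalNorm : Stmt_GalNorm := by
  intro K F F' _ _ _ _ _ φ G _ h1 h2
  exact galNorm φ G h1 h2

end Fermat.Agent.NEB.H2
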