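import Fermat.Agent.NEB.Defs
import Fermat.Agent.NEB.H2_GalNorm
import Fermat.Agent.RED.H95_IsFF
import Fermat.Agent.RED.H73_GAModular

/-!
# Item 72 (LG-NEB), package FH-FF (helper94)

* `laurentBaseChange_adjoin` : `laurentBaseChange L (adjoin ℚ S) = adjoin L (coeffEmb L '' S)`;
* `hasScale_FHbar` : `F_H(M) · ℚ̄` has the scaling property for every valuation ring of `ℚ̄`;
* `isFF_of_finiteAlong` : a finite extension (along `φ`) of a function field is a function field;
* `pmSubgroup c H` : the subgroup `±H`;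
* `finiteAlong_inclBar`, `finrankAlong_inclBar`, `isFF_FHbar` : from `Stmt_FH_gal`.
-/

set_option autoImplicit false
set_option linter.style.haveILetI false
set_option linter.unusedSectionVars false

noncomputable section

namespace Fermat.Agent.NEB.H94

open AlgebraicCurve ModularCurve IntermediateField Fermat.Agent.RED Fermat.Agent.RED.H73
  Fermat.Agent.S28 Fermat.Agent.S28.H73

/-! ## (b) scaling -/

section Scale

variable {L : Type} [Field L] [Algebra ℚ L]

theorem coeffEmb_algebraMap (r : ℚ) :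
    coeffEmb L (algebraMap ℚ (LaurentSeries ℚ) r)
      = algebraMap L (LaurentSeries L) (algebraMap ℚ L r) := by
  rw [algebraMap_laurentSeries_eq_single, coeffEmb, coeffMap_single,
    ← algebraMap_laurentSeries_eq_single]

/-- The base change of the field generated by `S` is generated by the image of `S`. -/
theorem laurentBaseChange_adjoin (S : Set (LaurentSeries ℚ)) :
    laurentBaseChange L (IntermediateField.adjoin ℚ S)
      = IntermediateField.adjoin L (⇑(coeffEmb L) '' S) := by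
  apply le_antisymm
  · rw [laurentBaseChange, IntermediateField.adjoin_le_iff]
    rintro x ⟨y, hy, rfl⟩
    let T : Subfield (LaurentSeries ℚ) :=
      (IntermediateField.adjoin L (⇑(coeffEmb L) '' S)).toSubfield.comap (coeffEmb L)
    have hT : ∀ r : ℚ, algebraMap ℚ (LaurentSeries ℚ) r ∈ T := by
      intro r
      show coeffEmb L (algebraMap ℚ (LaurentSeries ℚ) r) ∈
        IntermediateField.adjoin L (⇑(coeffEmb L) '' S)
      rw [coeffEmb_algebraMap]
      exact (IntermediateField.adjoin L (⇑(coeffEmb L) '' S)).algebraMap_mem _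
    let T' : IntermediateField ℚ (LaurentSeries ℚ) := T.toIntermediateField hT
    have hle : IntermediateField.adjoin ℚ S ≤ T' := by
      rw [IntermediateField.adjoin_le_iff]
      intro z hz
      show coeffEmb L z ∈ IntermediateField.adjoin L (⇑(coeffEmb L) '' S)
      exact IntermediateField.subset_adjoin L _ ⟨z, hz, rfl⟩
    exact hle hy
  · rw [IntermediateField.adjoin_le_iff]
    rintro x ⟨y, hy, rfl⟩
    exact coeffEmb_mem_laurentBaseChange L (IntermediateField.subset_adjoin ℚ _ hy)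

theorem coeffEmb_ofPowerSeries_int (P : PowerSeries ℤ) :
    coeffEmb L (HahnSeries.ofPowerSeries ℤ ℚ (P.map (Int.castRingHom ℚ)))
      = coeffMap (Int.castRingHom L) (HahnSeries.ofPowerSeries ℤ ℤ P) := by
  ext k
  rw [coeffEmb_coeff, coeffMap_coeff]
  by_cases hk : 0 ≤ k
  · obtain ⟨n, rfl⟩ := Int.eq_ofNat_of_zero_le hk
    rw [HahnSeries.ofPowerSeries_apply_coeff, HahnSeries.ofPowerSeries_apply_coeff,
      PowerSeries.coeff_map]
    simp
  · have h1 : (HahnSeries.ofPowerSeries ℤ ℚ (P.map (Int.castRingHom ℚ))).coeff k = 0 := by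
      rw [HahnSeries.ofPowerSeries_apply, HahnSeries.embDomain_of_notMem_range]
      rintro ⟨n, hn⟩
      apply hk
      rw [← hn]
      exact Int.natCast_nonneg n
    have h2 : (HahnSeries.ofPowerSeries ℤ ℤ P).coeff k = 0 := by
      rw [HahnSeries.ofPowerSeries_apply, HahnSeries.embDomain_of_notMem_range]
      rintro ⟨n, hn⟩
      apply hk
      rw [← hn]
      exact Int.natCast_nonneg n
    rw [h1, h2, map_zero, map_zero]

theorem coeffEmb_eisGen_mem_intSpan (c : ℕ) (S : Set (ZMod c)) :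
    coeffEmb L (eisGen c S) ∈ IntSpan L := by
  unfold eisGen
  rw [coeffEmb_ofPowerSeries_int]
  exact coeffMap_int_mem_intSpan _

theorem coeffEmb_divisorExpansions_mem_intSpan (M : ℕ) {x : LaurentSeries ℚ}
    (hx : x ∈ divisorExpansions M) : coeffEmb L x ∈ IntSpan L := by
  obtain ⟨d, hd0, hd, rfl⟩ := hx
  rw [coeffEmb_qExpand_jq]
  exact intSeries_le_intSpan (qExpand_jqModC_mem_intSeries d)

/-- **FH-FF (b)**: `F_H(M) · L` has the scaling property for every valuation subring of `L`. -/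
theorem hasScale_FH (A : ValuationSubring L) (M c : ℕ) (H : Subgroup (ZMod c)ˣ) :
    HasScale A (laurentBaseChange L (FHQ M c H)) := by
  unfold FHQ
  rw [laurentBaseChange_adjoin]
  refine hasScale_adjoin A ?_
  rintro x ⟨y, hy, rfl⟩
  rcases hy with hy | ⟨a, rfl⟩
  · exact coeffEmb_divisorExpansions_mem_intSpan M hy
  · exact coeffEmb_eisGen_mem_intSpan c _

/-- **FH-FF (b)** over `ℚ̄`. -/
theorem hasScale_FHbar (A : ValuationSubring Kbar) (M c : ℕ) (H : Subgroup (ZMod c)ˣ) :
    HasScale A (FHbar M c H) :=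
  hasScale_FH A M c H

end Scale

/-! ## (a) finiteness -/

section FF

variable {K F F' : Type} [Field K] [Field F] [Field F'] [Algebra K F] [Algebra K F']

/-- A finite extension (along `φ`) of a function field of one variable is a function field of
one variable. -/
theorem isFF_of_finiteAlong (hF : IsFF K F) (φ : F →ₐ[K] F') (hφ : FiniteAlong K φ) :
    IsFF K F' := by
  obtain ⟨x, hx, hfin⟩ := hF
  refine ⟨φ x, ?_, ?_⟩
  · intro h
    exact hx ((isAlgebraic_algHom_iff φ φ.toRingHom.injective).mp h)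
  · letI := algebraAlong φ
    haveI := isScalarTower_along φ
    haveI : Module.Finite F F' := hφ
    haveI : Module.Finite ↥K⟮x⟯ F := hfin
    letI : Algebra ↥K⟮x⟯ F' := ((algebraMap F F').comp (algebraMap ↥K⟮x⟯ F)).toAlgebra
    haveI : IsScalarTower ↥K⟮x⟯ F F' := IsScalarTower.of_algebraMap_eq fun _ => rfl
    haveI : Module.Finite ↥K⟮x⟯ F' := Module.Finite.trans F F'
    have hmem : ∀ y : ↥K⟮x⟯, φ (y : F) ∈ K⟮φ x⟯ := by
      intro y
      have h1 : (K⟮x⟯).map φ = K⟮φ x⟯ := by
        rw [IntermediateField.adjoin_map, Set.image_singleton]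
      rw [← h1]
      exact ⟨(y : F), y.2, rfl⟩
    let e : ↥K⟮x⟯ →+* ↥K⟮φ x⟯ :=
      { toFun := fun y => ⟨φ (y : F), hmem y⟩
        map_one' := Subtype.ext (by simp)
        map_mul' := fun a b => Subtype.ext (by simp)
        map_zero' := Subtype.ext (by simp)
        map_add' := fun a b => Subtype.ext (by simp) }
    letI : Algebra ↥K⟮x⟯ ↥K⟮φ x⟯ := e.toAlgebra
    haveI : IsScalarTower ↥K⟮x⟯ ↥K⟮φ x⟯ F' := IsScalarTower.of_algebraMap_eq fun _ => rfl
    exact Module.Finite.of_restrictScalars_finite ↥K⟮x⟯ ↥K⟮φ x⟯ F'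

end FF

/-! ## The subgroup `±H` -/

/-- The subgroup `±H` of `(ℤ/c)ˣ`. -/
def pmSubgroup (c : ℕ) (H : Subgroup (ZMod c)ˣ) : Subgroup (ZMod c)ˣ where
  carrier := {d | d ∈ H ∨ -d ∈ H}
  one_mem' := Or.inl H.one_mem
  mul_mem' := by
    rintro a b (ha | ha) (hb | hb)
    · exact Or.inl (H.mul_mem ha hb)
    · right
      have := H.mul_mem ha hb
      rwa [mul_neg] at this
    · right
      have := H.mul_mem ha hb
      rwa [neg_mul] at this
    · left
      have := H.mul_mem ha hb
      rwa [neg_mul_neg] at this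
  inv_mem' := by
    rintro a (ha | ha)
    · exact Or.inl (H.inv_mem ha)
    · right
      have := H.inv_mem ha
      rwa [inv_neg] at this

theorem mem_pmSubgroup {c : ℕ} {H : Subgroup (ZMod c)ˣ} {d : (ZMod c)ˣ} :
    d ∈ pmSubgroup c H ↔ d ∈ H ∨ -d ∈ H := Iff.rfl

theorem le_pmSubgroup (c : ℕ) (H : Subgroup (ZMod c)ˣ) : H ≤ pmSubgroup c H :=
  fun _ hd => Or.inl hd

/-! ## (a) for `F_H` -/

section FH

variable (M c : ℕ) (H : Subgroup (ZMod c)ˣ)

/-- **FH-FF (a)**: `F_H(M) / F₀(M)` is finite of degree `[(ℤ/c)ˣ : ±H]`. -/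
theorem galNorm_inclBar (hc : 2 ≤ c) (hcM : c ∣ M) (hM : M ≠ 0) (hgal : Stmt_FH_gal M c H) :
    FiniteAlong Kbar (inclBar M c H) ∧
      finrankAlong Kbar (inclBar M c H) = (pmSubgroup c H).index := by
  obtain ⟨ρ, -, hfix, hinv, hker, -⟩ := hgal hc hcM hM
  haveI : NeZero c := ⟨by omega⟩
  haveI : Finite ρ.range := Finite.of_surjective ρ.rangeRestrict ρ.rangeRestrict_surjective
  letI : Fintype ρ.range := Fintype.ofFinite _
  obtain ⟨h1, h2, -⟩ := H2.galNorm (inclBar M c H) ρ.range
    (fun x hx => by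
      obtain ⟨x₀, h⟩ := hinv x (fun d => hx _ ⟨d, rfl⟩)
      exact ⟨x₀, h⟩)
    (by
      rintro g y ⟨d, rfl⟩
      exact hfix d y)
  refine ⟨h1, ?_⟩
  rw [h2, ← Nat.card_eq_fintype_card, ← Subgroup.index_ker]
  congr 1
  ext d
  rw [MonoidHom.mem_ker, mem_pmSubgroup]
  exact hker d

theorem finiteAlong_inclBar (hc : 2 ≤ c) (hcM : c ∣ M) (hM : M ≠ 0)
    (hgal : Stmt_FH_gal M c H) : FiniteAlong Kbar (inclBar M c H) :=
  (galNorm_inclBar M c H hc hcM hM hgal).1

theorem finrankAlong_inclBar (hc : 2 ≤ c) (hcM : c ∣ M) (hM : M ≠ 0)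
    (hgal : Stmt_FH_gal M c H) :
    finrankAlong Kbar (inclBar M c H) = (pmSubgroup c H).index :=
  (galNorm_inclBar M c H hc hcM hM hgal).2

/-- **FH-FF (a)**: `F_H(M) · ℚ̄` is a function field of one variable over `ℚ̄`. -/
theorem isFF_FHbar [NeZero M] (hc : 2 ≤ c) (hcM : c ∣ M) (hgal : Stmt_FH_gal M c H) :
    IsFF Kbar ↥(FHbar M c H) :=
  isFF_of_finiteAlong (Fermat.Agent.RED.H95.isFF_FN M) (inclBar M c H)
    (finiteAlong_inclBar M c H hc hcM (NeZero.ne M) hgal)

end FH

end Fermat.Agent.NEB.H94
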