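import Fermat.Agent.NEB.H34_UnrChar
import Fermat.Agent.NEB.H34_KumUnr
import Fermat.Agent.NEB.H30_A2Q
import Fermat.Agent.NEB.H84_Act
import Fermat.Agent.NEB.H94_FF
import Fermat.Agent.GTor.H75_DescFinal
import Fermat.Agent.RED.H51_Basic

/-!
# NEB, package FH-UNR (helper34), part 4: Kummer generators of `F_H / F₀` over `ℚ̄`
-/

set_option autoImplicit false
set_option linter.unusedSectionVars false
set_option linter.unusedVariables false
set_option linter.style.haveILetI false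

open UpperHalfPlane ModularForm CongruenceSubgroup ModularCurve AlgebraicCurve
open scoped MatrixGroups ModularForm Manifold

noncomputable section

namespace Fermat.Agent.NEB.H34

open Fermat.Agent.GTor

variable {c : ℕ} [NeZero c] (H : Subgroup (ZMod c)ˣ) (M : ℕ)

/-! ## The Kummer generators -/

/-- `y_χ = ∑_a χ(a)⁻¹ e_{±aH}`, an element of `F_H(M)·ℚ̄`. -/
def yBar (χ : (ZMod c)ˣ →* Kbarˣ) : ↥(FHbar M c H) :=
  ∑ a : (ZMod c)ˣ, ((χ a⁻¹ : Kbarˣ) : Kbar) • genBar M c H a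

theorem cosetSet_mul_of_mem (a d : (ZMod c)ˣ) (hd : d ∈ H ∨ -d ∈ H) :
    cosetSet c H (a * d) = cosetSet c H a := by
  ext x
  constructor
  · rintro ⟨h, hh, h1⟩
    rcases hd with hd | hd
    · refine ⟨d * h, H.mul_mem hd hh, ?_⟩
      rw [← mul_assoc]
      exact h1
    · refine ⟨-d * h, H.mul_mem hd hh, ?_⟩
      have e : ((a * (-d * h) : (ZMod c)ˣ) : ZMod c) = -((a * d * h : (ZMod c)ˣ) : ZMod c) := by
        push_cast
        ring
      rw [e, neg_neg]
      exact h1.symm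
  · rintro ⟨h, hh, h1⟩
    rcases hd with hd | hd
    · refine ⟨d⁻¹ * h, H.mul_mem (H.inv_mem hd) hh, ?_⟩
      have e : a * d * (d⁻¹ * h) = a * h := by
        rw [mul_assoc, mul_inv_cancel_left]
      rw [e]
      exact h1
    · refine ⟨(-d)⁻¹ * h, H.mul_mem (H.inv_mem hd) hh, ?_⟩
      have e : ((a * d * ((-d)⁻¹ * h) : (ZMod c)ˣ) : ZMod c) = -((a * h : (ZMod c)ˣ) : ZMod c) := by
        have e1 : a * d * ((-d)⁻¹ * h) = -(a * h) := by
          rw [inv_neg, neg_mul, mul_neg, mul_assoc, mul_inv_cancel_left]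
        rw [e1, Units.val_neg]
      rw [e, neg_neg]
      exact h1.symm

theorem genBar_mul_of_mem (a d : (ZMod c)ˣ) (hd : d ∈ H ∨ -d ∈ H) :
    genBar M c H (a * d) = genBar M c H a := by
  apply Subtype.ext
  show coeffEmb Kbar (eisGen c (cosetSet c H (a * d))) = coeffEmb Kbar (eisGen c (cosetSet c H a))
  rw [cosetSet_mul_of_mem H a d hd]

/-- `y_χ = χ(d)⁻¹ y_χ` for `d ∈ ±H`. -/
theorem yBar_eq_smul (χ : (ZMod c)ˣ →* Kbarˣ) (d : (ZMod c)ˣ) (hd : d ∈ H ∨ -d ∈ H) :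
    yBar H M χ = ((χ d⁻¹ : Kbarˣ) : Kbar) • yBar H M χ := by
  unfold yBar
  rw [Finset.smul_sum]
  refine Fintype.sum_equiv (Equiv.mulRight d⁻¹) _ _ fun a => ?_
  simp only [Equiv.coe_mulRight]
  rw [smul_smul, ← Units.val_mul, ← map_mul]
  have e1 : d⁻¹ * (a * d⁻¹)⁻¹ = a⁻¹ := by
    rw [mul_inv_rev, inv_inv, inv_mul_cancel_left]
  rw [e1]
  congr 1
  have := genBar_mul_of_mem H M (a * d⁻¹) d hd
  rw [inv_mul_cancel_right] at this
  exact this

/-- A nonzero `y_χ` forces `χ` to be trivial on `±H`. -/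
theorem triv_of_yBar_ne_zero (χ : (ZMod c)ˣ →* Kbarˣ) (h0 : yBar H M χ ≠ 0) (d : (ZMod c)ˣ)
    (hd : d ∈ H ∨ -d ∈ H) : χ d = 1 := by
  have h1 := yBar_eq_smul H M χ d hd
  rw [Algebra.smul_def] at h1
  have h2 : (algebraMap Kbar ↥(FHbar M c H) ((1 : Kbar) - ((χ d⁻¹ : Kbarˣ) : Kbar))) *
      yBar H M χ = 0 := by
    rw [map_sub, map_one, sub_mul, one_mul, ← h1, sub_self]
  rcases mul_eq_zero.mp h2 with h3 | h3
  · have h3' := (map_eq_zero (algebraMap Kbar ↥(FHbar M c H))).mp h3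
    have h4 : χ d⁻¹ = 1 := by
      apply Units.ext
      rw [Units.val_one]
      exact (sub_eq_zero.mp h3').symm
    rw [map_inv, inv_eq_one] at h4
    exact h4
  · exact absurd h3 h0

/-- **Fourier inversion**: `φ(c) e_b = ∑_χ χ(b) y_χ`. -/
theorem totient_smul_genBar (b : (ZMod c)ˣ) :
    (c.totient : Kbar) • genBar M c H b =
      ∑ χ : DirichletCharacter Kbar c, (χ (b : ZMod c)) • yBar H M χ.toUnitHom := by
  unfold yBar
  simp only [Finset.smul_sum, smul_smul]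
  rw [Finset.sum_comm]
  simp only [← Finset.sum_smul]
  have key : ∀ a : (ZMod c)ˣ, (∑ χ : DirichletCharacter Kbar c,
      χ (b : ZMod c) * ((χ.toUnitHom a⁻¹ : Kbarˣ) : Kbar)) =
      if a = b then (c.totient : Kbar) else 0 := by
    intro a
    have h1 := DirichletCharacter.sum_char_inv_mul_char_eq Kbar a.isUnit (b : ZMod c)
    have h2 : ∀ χ : DirichletCharacter Kbar c,
        χ (b : ZMod c) * ((χ.toUnitHom a⁻¹ : Kbarˣ) : Kbar) = χ (a : ZMod c)⁻¹ * χ (b : ZMod c) := by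
      intro χ
      rw [MulChar.coe_toUnitHom, mul_comm, ZMod.inv_coe_unit]
    rw [Finset.sum_congr rfl fun χ _ => h2 χ, h1]
    simp only [Units.val_inj]
  simp only [key]
  rw [Finset.sum_eq_single b]
  · rw [if_pos rfl]
  · intro a _ hab
    rw [if_neg hab, zero_smul]
  · intro h
    exact absurd (Finset.mem_univ b) h

/-! ## Base change to `ℂ` -/

variable (ι : Kbar →+* ℂ)

/-- The complex character attached to `χ`. -/
def psiOf (χ : (ZMod c)ˣ →* Kbarˣ) : (ZMod c)ˣ →* ℂˣ :=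
  (Units.map (ι : Kbar →* ℂ)).comp χ

theorem coe_psiOf (χ : (ZMod c)ˣ →* Kbarˣ) (a : (ZMod c)ˣ) :
    ((psiOf ι χ a : ℂˣ) : ℂ) = ι ((χ a : Kbarˣ) : Kbar) := rfl

theorem coe_yBar (χ : (ZMod c)ˣ →* Kbarˣ) :
    ((yBar H M χ : ↥(FHbar M c H)) : LaurentSeries Kbar) =
      ∑ a : (ZMod c)ˣ, ((χ a⁻¹ : Kbarˣ) : Kbar) • coeffEmb Kbar (eisGen c (cosetSet c H a)) := by
  unfold yBar
  rw [AddSubmonoidClass.coe_finsetSum]
  refine Finset.sum_congr rfl fun a _ => ?_
  rw [IntermediateField.coe_smul, Algebra.smul_def,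
    Fermat.Agent.GTor.H56.smul_eq_algebraMap_mul]
  rfl

theorem coeffMap_yBar (χ : (ZMod c)ˣ →* Kbarˣ) :
    coeffMap ι ((yBar H M χ : ↥(FHbar M c H)) : LaurentSeries Kbar) = yC H (psiOf ι χ) := by
  rw [coe_yBar, map_sum]
  unfold yC
  refine Finset.sum_congr rfl fun a _ => ?_
  rw [Fermat.Agent.GTor.H56.coeffMap_smul', Fermat.Agent.GTor.H75.coeffMap_coeffEmb', coe_psiOf]

theorem psiOf_pow (χ : (ZMod c)ˣ →* Kbarˣ) (a : (ZMod c)ˣ) :
    psiOf ι χ a ^ c.totient = 1 := by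
  rw [← map_pow, ← ZMod.card_units_eq_totient, pow_card_eq_one, map_one]


/-! ## Descent -/

section Descent

variable {c : ℕ} [NeZero c] (H : Subgroup (ZMod c)ˣ) (M : ℕ) [NeZero M]

/-- **The Kummer generators are roots of unramified functions.** -/
theorem exists_kummer_yBar (hc2 : 2 ≤ c) (hc : c ∣ M) (hU : UnrCond M c H)
    (χ : (ZMod c)ˣ →* Kbarˣ) (hχ : ∀ d : (ZMod c)ˣ, (d ∈ H ∨ -d ∈ H) → χ d = 1) :
    ∃ u : ↥(modularFunctionFieldBar M), yBar H M χ ^ c.totient = inclBar M c H u ∧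
      (u ≠ 0 → ∀ v : Place Kbar ↥(modularFunctionFieldBar M), (c.totient : ℤ) ∣ v.ord u) := by
  haveI : Fact (1 < c) := ⟨hc2⟩
  have hm : c.totient ≠ 0 := (Nat.totient_pos.mpr (NeZero.pos c)).ne'
  haveI : Algebra.IsAlgebraic ℚ Kbar := AlgebraicClosure.isAlgebraic ℚ
  let ι : Kbar →+* ℂ := (IsAlgClosed.lift : Kbar →ₐ[ℚ] ℂ).toRingHom
  have hψH : ∀ d : (ZMod c)ˣ, (d ∈ H ∨ -d ∈ H) → psiOf ι χ d = 1 := by
    intro d hd
    show (Units.map (ι : Kbar →* ℂ)) (χ d) = 1
    rw [hχ d hd, map_one]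
  obtain ⟨f, hfy, hford⟩ := dvd_ord_yC_pow H hc hU (psiOf ι χ) hm (psiOf_pow ι χ) hψH
  have hmem : coeffMap ι (((yBar H M χ : ↥(FHbar M c H)) : LaurentSeries Kbar) ^ c.totient) ∈
      laurentBaseChange ℂ (modularFunctionFieldFull M) := by
    rw [map_pow, coeffMap_yBar, ← hfy]
    exact f.2
  have hu := Fermat.Agent.NEB.H30.descent ι (modularFunctionFieldFull M) _ hmem
  refine ⟨⟨_, hu⟩, ?_, ?_⟩
  · apply Subtype.ext
    rw [coe_inclBar]
    rfl
  · intro hu0 v
    obtain ⟨bc, hbc, hiff, -, -⟩ := Fermat.Agent.GTor.H75.stmt_DESC M c.totient hm ι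
    have hbcu : bc ⟨_, hu⟩ = f := by
      apply Subtype.ext
      ext n
      rw [hbc ⟨_, hu⟩ n, hfy, ← coeffMap_yBar H M ι χ, ← map_pow, coeffMap_coeff]
    have hf0 : f ≠ 0 := by
      rw [← hbcu]
      exact (map_ne_zero bc).mpr hu0
    have h1 := (hiff ⟨_, hu⟩ hu0).mpr (by
      intro v'
      rw [hbcu]
      exact hford hf0 v')
    exact h1 v

end Descent


/-! ## Generation -/

section Abstract

variable {F L : Type*} [Field F] [Field L] [Algebra F L]

/-- A field generated by finitely many integral elements: finiteness, integrality, and ring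
generation. -/
theorem adjoin_top_consequences (S : Set L) (hfin : S.Finite) (hint : ∀ z ∈ S, IsIntegral F z)
    (htop : IntermediateField.adjoin F S = ⊤) :
    Module.Finite F L ∧ (∀ y : L, IsIntegral F y) ∧
      ∀ y : L, y ∈ Subring.closure (Set.range (algebraMap F L) ∪ S) := by
  haveI : Finite S := hfin
  have h1 : FiniteDimensional F (IntermediateField.adjoin F S) :=
    IntermediateField.finiteDimensional_adjoin hint
  rw [htop] at h1
  have h2 : Module.Finite F L :=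
    Module.Finite.equiv (IntermediateField.topEquiv (F := F) (E := L)).toLinearEquiv
  refine ⟨h2, fun y => IsIntegral.of_finite F y, fun y => ?_⟩
  have h3 : (IntermediateField.adjoin F S).toSubalgebra = Algebra.adjoin F S :=
    IntermediateField.adjoin_toSubalgebra_of_isAlgebraic fun x hx => (hint x hx).isAlgebraic
  have h4 : y ∈ (IntermediateField.adjoin F S).toSubalgebra := by
    rw [htop]
    trivial
  rw [h3] at h4
  have h5 : y ∈ (Algebra.adjoin F S).toSubring := h4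
  rw [Algebra.adjoin_eq_ring_closure] at h5
  exact h5

end Abstract

section Final

variable {c : ℕ} [NeZero c] (H : Subgroup (ZMod c)ˣ) (M : ℕ) [NeZero M]

/-- The set of Kummer generators of `F_H / F₀`. -/
def kumSet : Set ↥(FHbar M c H) :=
  Set.range fun χ : DirichletCharacter Kbar c => yBar H M χ.toUnitHom

theorem kumSet_finite : (kumSet H M).Finite := Set.finite_range _

/-- `F_H = F₀(y_χ : χ)`. -/
theorem adjoin_kumSet_eq_top :
    letI := algebraAlong (inclBar M c H)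
    IntermediateField.adjoin ↥(modularFunctionFieldBar M) (kumSet H M) = ⊤ := by
  letI := algebraAlong (inclBar M c H)
  rw [eq_top_iff]
  rintro ⟨y, hy⟩ -
  set E := IntermediateField.adjoin ↥(modularFunctionFieldBar M) (kumSet H M) with hE
  have hincl : ∀ x : ↥(modularFunctionFieldBar M), inclBar M c H x ∈ E := fun x =>
    E.algebraMap_mem x
  have hconst : ∀ a : Kbar, algebraMap Kbar ↥(FHbar M c H) a ∈ E := by
    intro a
    have : algebraMap Kbar ↥(FHbar M c H) a =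
        inclBar M c H (algebraMap Kbar ↥(modularFunctionFieldBar M) a) :=
      ((inclBar M c H).commutes a).symm
    rw [this]
    exact hincl _
  have hsmul : ∀ (a : Kbar) (z : ↥(FHbar M c H)), z ∈ E → a • z ∈ E := by
    intro a z hz
    rw [Algebra.smul_def]
    exact E.mul_mem (hconst a) hz
  have key : ∃ z : ↥(FHbar M c H), (z : LaurentSeries Kbar) = y ∧ z ∈ E := by
    refine Fermat.Agent.NEB.H84.FHbar_induction M c H
      (P := fun y => ∃ z : ↥(FHbar M c H), (z : LaurentSeries Kbar) = y ∧ z ∈ E)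
      ?_ ?_ ?_ ?_ ?_ ?_ ?_ ?_ hy
    · intro a
      exact ⟨algebraMap Kbar ↥(FHbar M c H) a, rfl, hconst a⟩
    · intro d _ hd
      have h1 : coeffEmb Kbar (qExpand ℚ d jq) ∈ modularFunctionFieldBar M :=
        coeffEmb_mem_laurentBaseChange Kbar (jqd_mem_full M hd)
      exact ⟨inclBar M c H ⟨_, h1⟩, coe_inclBar M c H _, hincl ⟨_, h1⟩⟩
    · intro a
      refine ⟨genBar M c H a, rfl, ?_⟩
      have h1 := totient_smul_genBar H M a
      have h0 : (c.totient : Kbar) ≠ 0 :=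
        Nat.cast_ne_zero.mpr (Nat.totient_pos.mpr (NeZero.pos c)).ne'
      have h2 : genBar M c H a = (c.totient : Kbar)⁻¹ •
          ∑ χ : DirichletCharacter Kbar c, (χ (a : ZMod c)) • yBar H M χ.toUnitHom := by
        rw [← h1, smul_smul, inv_mul_cancel₀ h0, one_smul]
      rw [h2]
      refine hsmul _ _ (E.sum_mem fun χ _ => hsmul _ _ ?_)
      exact IntermediateField.subset_adjoin _ _ ⟨χ, rfl⟩
    · exact ⟨1, rfl, E.one_mem⟩
    · rintro x y ⟨zx, rfl, hx'⟩ ⟨zy, rfl, hy'⟩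
      exact ⟨zx + zy, rfl, E.add_mem hx' hy'⟩
    · rintro x ⟨zx, rfl, hx'⟩
      exact ⟨-zx, rfl, E.neg_mem hx'⟩
    · rintro x ⟨zx, rfl, hx'⟩
      exact ⟨zx⁻¹, IntermediateField.coe_inv _ _, E.inv_mem hx'⟩
    · rintro x y ⟨zx, rfl, hx'⟩ ⟨zy, rfl, hy'⟩
      exact ⟨zx * zy, rfl, E.mul_mem hx' hy'⟩
  obtain ⟨z, hz, h⟩ := key
  have : z = ⟨y, hy⟩ := Subtype.ext hz
  rw [← this]
  exact h

/-- **FH-UNR** (helper34): under `UnrCond`, `F_H(M) / F₀(M)` is unramified. -/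
theorem fh_unr (c M : ℕ) (H : Subgroup (ZMod c)ˣ) : Stmt_FH_unr M c H := by
  intro hc2 hc hM hU w
  haveI : NeZero c := ⟨by omega⟩
  haveI : NeZero M := ⟨hM⟩
  have hm0 : c.totient ≠ 0 := (Nat.totient_pos.mpr (NeZero.pos c)).ne'
  -- the Kummer data
  have hS : ∀ z ∈ kumSet H M, z = 0 ∨ ∃ u : ↥(modularFunctionFieldBar M), u ≠ 0 ∧
      z ^ c.totient = inclBar M c H u ∧
      ∀ v : Place Kbar ↥(modularFunctionFieldBar M), (c.totient : ℤ) ∣ v.ord u := by
    rintro z ⟨χ, rfl⟩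
    by_cases h0 : yBar H M χ.toUnitHom = 0
    · exact Or.inl h0
    · right
      obtain ⟨u, hu, hord⟩ := exists_kummer_yBar H M hc2 hc hU χ.toUnitHom
        (triv_of_yBar_ne_zero H M _ h0)
      have hu0 : u ≠ 0 := by
        rintro rfl
        rw [map_zero] at hu
        exact h0 (pow_eq_zero_iff hm0 |>.mp hu)
      exact ⟨u, hu0, hu, hord hu0⟩
  letI := algebraAlong (inclBar M c H)
  have hint : ∀ z ∈ kumSet H M, IsIntegral ↥(modularFunctionFieldBar M) z := by
    intro z hz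
    rcases hS z hz with rfl | ⟨u, -, hu, -⟩
    · exact isIntegral_zero
    · refine IsIntegral.of_pow (Nat.pos_of_ne_zero hm0) ?_
      rw [hu]
      exact isIntegral_algebraMap
  obtain ⟨hfin, hall, hgen⟩ := adjoin_top_consequences (kumSet H M) (kumSet_finite H M) hint
    (adjoin_kumSet_eq_top H M)
  have hφ : (inclBar M c H).toRingHom.IsIntegral := fun y => hall y
  have hFF : Fermat.Agent.RED.IsFF Kbar ↥(FHbar M c H) :=
    Fermat.Agent.NEB.H94.isFF_of_finiteAlong (Fermat.Agent.RED.H95.isFF_FN M) (inclBar M c H) hfin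
  have hdeg : w.deg = 1 := Fermat.Agent.RED.H51.stmt_FFB_deg Kbar ↥(FHbar M c H) hFF w
  exact exists_uniformizer_along (m := c.totient) (Nat.cast_ne_zero.mpr hm0) (inclBar M c H) hφ w
    hdeg (kumSet H M)
    (fun z hz => (hS z hz).imp id fun ⟨u, hu0, hu, hord⟩ => ⟨u, hu0, hu, hord _⟩) hgen

end Final

end Fermat.Agent.NEB.H34
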