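import Fermat.Agent.GTor.Defs
import Fermat.Prelude.Def_AlgebraicCurve_Correspondence

/-!
# Item 72, LG-NEB (owner-planner helper84): the function field `F_H` of `X_H(M)`, interface layer FH

Plan: `NOTES/plan/LG_NEB.md` (route: helper53's fixed-point trick, `NOTES/plan/S59_TWH.md`).

`c` = conductor level (product of the Taylor–Wiles primes, or the pivot prime), `H ≤ (ℤ/c)ˣ`,
`M` = full level (`c ∣ M`), `Γ_H(M) = {γ ∈ Γ₀(M) : a_γ mod c ∈ ±H}`.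

The field is defined over `ℚ` by EXPLICIT RATIONAL generators (so that the coefficientwise Galois
action of the prelude, `arithmeticGalois`, applies verbatim, and the diamond operators are defined
over `ℚ`: this is the `μ`-model, cusp `∞` rational):

  `e_S := (∑_{n ≥ 1} (∑_{m ∣ n, m mod c ∈ S} (n/m)³) qⁿ) / E₄  ∈ ℤ⟦q⟧`,   `S = ±aH ⊆ ℤ/c`,
  `F_H(M) := F₀(M)(e_{±aH} : a ∈ (ℤ/c)ˣ) ⊆ ℚ((q))`.

Analytically `∑_{m ≡ a (c)} ∑_{n ∈ ℤ} (m z + n)⁻⁴ = C · ∑_n (∑_{m ∣ n, m ≡ ±a} (n/m)³) qⁿ`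
(Lipschitz formula, no constant term since `a ≢ 0`), a modular form of weight `4` on `Γ₁(c)` on which
`γ ∈ Γ₀(c)` acts by `a ↦ a · a_γ`.

Everything here is a definition, a `Prop`-valued statement `Stmt_*`, or a trivial lemma.
No `sorry`.
-/

set_option autoImplicit false

noncomputable section

namespace Fermat.Agent.NEB

open AlgebraicCurve ModularCurve IntermediateField UpperHalfPlane
open scoped MatrixGroups ModularForm Manifold

/-- The base field `ℚ̄`. -/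
abbrev Kbar : Type := AlgebraicClosure ℚ

/-! ## 1. The generators -/

/-- The union of the two cosets `aH` and `-aH`, as a set of residues mod `c`. -/
def cosetSet (c : ℕ) (H : Subgroup (ZMod c)ˣ) (a : (ZMod c)ˣ) : Set (ZMod c) :=
  {x | ∃ h ∈ H, x = ((a * h : (ZMod c)ˣ) : ZMod c) ∨ x = -((a * h : (ZMod c)ˣ) : ZMod c)}

open scoped Classical in
/-- `∑_{m ∣ n, m mod c ∈ S} (n/m)³`. -/
def eisCoeff (c : ℕ) (S : Set (ZMod c)) (n : ℕ) : ℤ :=
  ∑ m ∈ n.divisors, if ((m : ℕ) : ZMod c) ∈ S then ((n / m : ℕ) : ℤ) ^ 3 else 0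

/-- The numerator `∑_n (∑_{m ∣ n, m mod c ∈ S} (n/m)³) qⁿ` (zero constant term). -/
def eisNum (c : ℕ) (S : Set (ZMod c)) : PowerSeries ℤ := PowerSeries.mk (eisCoeff c S)

/-- `e_S = eisNum / E₄`, a power series with INTEGER coefficients. -/
def eisQuot (c : ℕ) (S : Set (ZMod c)) : PowerSeries ℤ :=
  eisNum c S * eisenstein4.invOfUnit 1

/-- `e_S` as a Laurent series over `ℚ`. -/
def eisGen (c : ℕ) (S : Set (ZMod c)) : LaurentSeries ℚ :=
  HahnSeries.ofPowerSeries ℤ ℚ ((eisQuot c S).map (Int.castRingHom ℚ))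

/-- The generators of `F_H` over `F₀`. -/
def genSet (c : ℕ) (H : Subgroup (ZMod c)ˣ) : Set (LaurentSeries ℚ) :=
  {x | ∃ a : (ZMod c)ˣ, x = eisGen c (cosetSet c H a)}

/-! ## 2. The field -/

/-- **The function field of `X_H(M)` over `ℚ`** (`μ`-model), inside `ℚ((q))`. -/
def FHQ (M c : ℕ) (H : Subgroup (ZMod c)ˣ) : IntermediateField ℚ (LaurentSeries ℚ) :=
  adjoin ℚ (divisorExpansions M ∪ genSet c H)

/-- The function field of `X_H(M)` over `ℚ̄`, inside `ℚ̄((q))`. -/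
abbrev FHbar (M c : ℕ) (H : Subgroup (ZMod c)ˣ) :
    IntermediateField Kbar (LaurentSeries Kbar) :=
  laurentBaseChange Kbar (FHQ M c H)

theorem full_le_FHQ (M c : ℕ) (H : Subgroup (ZMod c)ˣ) :
    modularFunctionFieldFull M ≤ FHQ M c H :=
  IntermediateField.adjoin.mono ℚ _ _ Set.subset_union_left

theorem eisGen_mem_FHQ (M c : ℕ) (H : Subgroup (ZMod c)ˣ) (a : (ZMod c)ˣ) :
    eisGen c (cosetSet c H a) ∈ FHQ M c H :=
  subset_adjoin ℚ _ (Set.mem_union_right _ ⟨a, rfl⟩)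

theorem FHQ_mono_level {M M' : ℕ} (h : M ∣ M') (c : ℕ) (H : Subgroup (ZMod c)ˣ) :
    FHQ M c H ≤ FHQ M' c H := by
  refine IntermediateField.adjoin.mono ℚ _ _ (Set.union_subset_union_left _ ?_)
  rintro x ⟨d, hd0, hd, rfl⟩
  exact ⟨d, hd0, hd.trans h, rfl⟩

theorem laurentBaseChange_mono {L : Type*} [Field L] [Algebra ℚ L]
    {F₁ F₂ : IntermediateField ℚ (LaurentSeries ℚ)} (h : F₁ ≤ F₂) :
    laurentBaseChange L F₁ ≤ laurentBaseChange L F₂ :=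
  IntermediateField.adjoin.mono L _ _ (Set.image_mono h)

theorem bar_le_FHbar (M c : ℕ) (H : Subgroup (ZMod c)ˣ) :
    modularFunctionFieldBar M ≤ FHbar M c H :=
  laurentBaseChange_mono (full_le_FHQ M c H)

/-- The inclusion `F₀(M) ⊆ F_H(M)` over `ℚ̄` (= `π^*` on functions). -/
def inclBar (M c : ℕ) (H : Subgroup (ZMod c)ˣ) :
    ↥(modularFunctionFieldBar M) →ₐ[Kbar] ↥(FHbar M c H) :=
  IntermediateField.inclusion (bar_le_FHbar M c H)

@[simp]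
theorem coe_inclBar (M c : ℕ) (H : Subgroup (ZMod c)ˣ) (x : ↥(modularFunctionFieldBar M)) :
    ((inclBar M c H x : ↥(FHbar M c H)) : LaurentSeries Kbar) = (x : LaurentSeries Kbar) :=
  IntermediateField.coe_inclusion (bar_le_FHbar M c H) x

/-- The inclusion `F_H(M) ⊆ F_H(M')` for `M ∣ M'` (degeneracy map `α`). -/
def alphaBar {M M' : ℕ} (h : M ∣ M') (c : ℕ) (H : Subgroup (ZMod c)ˣ) :
    ↥(FHbar M c H) →ₐ[Kbar] ↥(FHbar M' c H) :=
  IntermediateField.inclusion (laurentBaseChange_mono (FHQ_mono_level h c H))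

/-- The generator `e_{±aH}` as an element of `F_H(M)` over `ℚ̄`. -/
def genBar (M c : ℕ) (H : Subgroup (ZMod c)ˣ) (a : (ZMod c)ˣ) : ↥(FHbar M c H) :=
  ⟨coeffEmb Kbar (eisGen c (cosetSet c H a)),
    coeffEmb_mem_laurentBaseChange Kbar (eisGen_mem_FHQ M c H a)⟩

/-! ## 3. Package FH: the statements -/

/-- **FH-GAL**: the diamond operators.  `(ℤ/c)ˣ` acts on `F_H(M)` by `ℚ̄`-automorphisms permuting the
generators, the fixed field is `F₀(M)`, and the action commutes with the coefficientwise Galois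
action (diamond operators are defined over `ℚ`).  Hypotheses `2 ≤ c`, `c ∣ M`. -/
def Stmt_FH_gal (M c : ℕ) (H : Subgroup (ZMod c)ˣ) : Prop :=
  2 ≤ c → c ∣ M → M ≠ 0 →
  ∃ ρ : (ZMod c)ˣ →* (↥(FHbar M c H) ≃ₐ[Kbar] ↥(FHbar M c H)),
    (∀ d a, ρ d (genBar M c H a) = genBar M c H (a * d)) ∧
    (∀ d (x : ↥(modularFunctionFieldBar M)), ρ d (inclBar M c H x) = inclBar M c H x) ∧
    (∀ x : ↥(FHbar M c H), (∀ d, ρ d x = x) → ∃ x₀, inclBar M c H x₀ = x) ∧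
    (∀ d, ρ d = 1 ↔ (d ∈ H ∨ -d ∈ H)) ∧
    (∀ d (σ : Kbar ≃ₐ[ℚ] Kbar) (x : ↥(FHbar M c H)),
      ρ d (arithmeticRingAut (FHQ M c H) σ x) = arithmeticRingAut (FHQ M c H) σ (ρ d x))

/-- The condition under which `X_H(M) → X₀(M)` is unramified: every parabolic and every elliptic
element of `Γ₀(M)` lies in `Γ_H(M)`.  (Holds if the index of `±H` is a power of a prime `p ≥ 5`;
for `p = 3` if moreover `Γ₀(M)` has no element of order `3`.) -/
def UnrCond (M c : ℕ) (H : Subgroup (ZMod c)ˣ) : Prop :=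
  ∀ γ : CongruenceSubgroup.Gamma0 M,
    (IsOfFinOrder γ ∨ ((γ : SL(2, ℤ)) 0 0 + (γ : SL(2, ℤ)) 1 1) ^ 2 = 4) →
      ((((γ : SL(2, ℤ)) 0 0 : ℤ) : ZMod c)) ∈ cosetSet c H 1

/-- **FH-UNR**: under `UnrCond`, every place of `F_H(M)` has a uniformiser in `F₀(M)`
(`F_H / F₀` is unramified). -/
def Stmt_FH_unr (M c : ℕ) (H : Subgroup (ZMod c)ˣ) : Prop :=
  2 ≤ c → c ∣ M → M ≠ 0 → UnrCond M c H →
  ∀ w : Place Kbar ↥(FHbar M c H),
    ∃ x : ↥(modularFunctionFieldBar M), w.ord (inclBar M c H x) = 1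

/-- **FH-BETA**: `f(q) ↦ f(q^ℓ)` maps `F_H(M)` into `F_H(M ℓ)` (degeneracy map `β`), for every
`ℓ ≥ 1` (also for `ℓ ∣ M`). -/
def Stmt_FH_beta (M c ℓ : ℕ) [NeZero ℓ] (H : Subgroup (ZMod c)ˣ) : Prop :=
  2 ≤ c → c ∣ M → M ≠ 0 →
  ∀ x ∈ FHQ M c H, qExpand ℚ ℓ x ∈ FHQ (M * ℓ) c H

/-! ## 4. The analytic side (internal interface of package FH) -/

open scoped Classical in
/-- The lattice Eisenstein series `∑_{(m,n), m mod c ∈ S} (m z + n)⁻⁴`. -/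
def eisAn (c : ℕ) (S : Set (ZMod c)) (z : ℍ) : ℂ :=
  ∑' v : ℤ × ℤ, if ((v.1 : ℤ) : ZMod c) ∈ S then ((v.1 : ℂ) * (z : ℂ) + (v.2 : ℂ)) ^ (-4 : ℤ) else 0

/-- **FH-AN**: for `0 ∉ S`, `S = -S`: `eisAn c S` is holomorphic, bounded at all cusps, satisfies
`eisAn c S ∣[4] γ = eisAn c (a_γ⁻¹ • S)`-type rule for `γ ∈ Γ₀(c)`, and has `q`-expansion
`C · eisNum c S` with `C ≠ 0`. -/
def Stmt_FH_an (c : ℕ) : Prop :=
  2 ≤ c → ∃ C : ℂ, C ≠ 0 ∧
  ∀ S : Set (ZMod c), (0 : ZMod c) ∉ S → (∀ x, x ∈ S → -x ∈ S) →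
    MDifferentiable 𝓘(ℂ) 𝓘(ℂ) (eisAn c S) ∧
    (∀ σ : SL(2, ℤ), IsBoundedAtImInfty (eisAn c S ∣[(4 : ℤ)] σ)) ∧
    (∀ γ : CongruenceSubgroup.Gamma0 c,
      eisAn c S ∣[(4 : ℤ)] (γ : SL(2, ℤ)) =
        eisAn c {x | ((((γ : SL(2, ℤ)) 1 1 : ℤ) : ZMod c)) * x ∈ S}) ∧
    GTor.qLaurent (eisAn c S) =
      C • HahnSeries.ofPowerSeries ℤ ℂ ((eisNum c S).map (Int.castRingHom ℂ))

end Fermat.Agent.NEB
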