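import Mathlib
import Fermat.Agent.Lib.HeckeComm.H2_Principle

/-!
# NEB, package JH (helper14): calculus of correspondences on divisors

An additive map `Φ : Div(F) → Div(F')` is a *correspondence with function `N` and degree `d`*
(`IsCorr Φ N d`) if

* `Φ` has finite preimage supports (`Lib.HeckeComm.FinPre`),
* `Φ (div f) = div (N f)` for every `f ≠ 0` (`HasFn`),
* `deg (Φ D) = d · deg D` (`DegMul`).

Pull-backs (`N = φ`), push-forwards (`N = Norm_φ`), automorphisms (`N = σ`) are correspondences;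
the class is closed under composition, sums and multiples.  By the principle
`Lib.HeckeComm.eq_of_eq_on_principal` two correspondences whose functions have the same divisors
are EQUAL.  `picMap Φ : Pic0 K F →+ Pic0 K F'` is the induced map on classes (total definition:
it is `0` if `Φ` does not preserve degree zero and principal divisors).
-/

set_option autoImplicit false
set_option linter.unusedSectionVars false

noncomputable section

namespace Fermat.Agent.NEB.H14

open AlgebraicCurve Fermat.Agent.Lib.HeckeComm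

section Calc

variable {K F F' F'' : Type*} [Field K] [Field F] [Field F'] [Field F'']
  [Algebra K F] [Algebra K F'] [Algebra K F'']

/-- `Φ (div f) = div (N f)`. -/
def HasFn (Φ : Divisor K F →+ Divisor K F') (N : F → F') : Prop :=
  ∀ f : F, f ≠ 0 → N f ≠ 0 ∧
    ∀ D : Divisor K F, (∀ v, D v = v.ord f) → ∀ w, Φ D w = w.ord (N f)

/-- `deg (Φ D) = d · deg D`. -/
def DegMul (Φ : Divisor K F →+ Divisor K F') (d : ℤ) : Prop :=
  ∀ D, Divisor.degree (Φ D) = d * Divisor.degree D

/-- A correspondence with function `N` and degree `d`. -/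
structure IsCorr (Φ : Divisor K F →+ Divisor K F') (N : F → F') (d : ℤ) : Prop where
  finPre : FinPre Φ
  hasFn : HasFn Φ N
  degMul : DegMul Φ d

theorem HasFn.comp {Φ₂ : Divisor K F' →+ Divisor K F''} {Φ₁ : Divisor K F →+ Divisor K F'}
    {N₂ : F' → F''} {N₁ : F → F'} (h₂ : HasFn Φ₂ N₂) (h₁ : HasFn Φ₁ N₁) :
    HasFn (Φ₂.comp Φ₁) (N₂ ∘ N₁) := by
  intro f hf
  obtain ⟨h1, h1'⟩ := h₁ f hf
  obtain ⟨h2, h2'⟩ := h₂ (N₁ f) h1
  exact ⟨h2, fun D hD w => h2' (Φ₁ D) (h1' D hD) w⟩

theorem IsCorr.comp {Φ₂ : Divisor K F' →+ Divisor K F''} {Φ₁ : Divisor K F →+ Divisor K F'}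
    {N₂ : F' → F''} {N₁ : F → F'} {d₂ d₁ : ℤ} (h₂ : IsCorr Φ₂ N₂ d₂) (h₁ : IsCorr Φ₁ N₁ d₁) :
    IsCorr (Φ₂.comp Φ₁) (N₂ ∘ N₁) (d₂ * d₁) where
  finPre := h₂.finPre.comp h₁.finPre
  hasFn := h₂.hasFn.comp h₁.hasFn
  degMul D := by
    rw [AddMonoidHom.comp_apply, h₂.degMul, h₁.degMul, mul_assoc]

theorem IsCorr.id : IsCorr (AddMonoidHom.id (Divisor K F)) (fun f => f) 1 where
  finPre w := by
    classical
    refine (Set.finite_singleton w).subset fun v hv => ?_
    rw [Set.mem_ofPred_eq, AddMonoidHom.id_apply] at hv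
    rw [Set.mem_singleton_iff]
    by_contra hne
    exact hv (Finsupp.single_eq_of_ne (fun h => hne h.symm))
  hasFn f hf := ⟨hf, fun D hD w => hD w⟩
  degMul D := by rw [AddMonoidHom.id_apply, one_mul]

theorem IsCorr.zero : IsCorr (0 : Divisor K F →+ Divisor K F') (fun _ => 1) 0 where
  finPre w := by
    refine Set.finite_empty.subset fun v hv => ?_
    rw [Set.mem_ofPred_eq, AddMonoidHom.zero_apply] at hv
    exact absurd rfl hv
  hasFn f hf := ⟨one_ne_zero, fun D _ w => by
    rw [AddMonoidHom.zero_apply, Finsupp.zero_apply, Place.ord_one]⟩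
  degMul D := by rw [AddMonoidHom.zero_apply, map_zero, zero_mul]

theorem IsCorr.add {Φ Ψ : Divisor K F →+ Divisor K F'} {N N' : F → F'} {d d' : ℤ}
    (h : IsCorr Φ N d) (h' : IsCorr Ψ N' d') :
    IsCorr (Φ + Ψ) (fun f => N f * N' f) (d + d') where
  finPre w := by
    refine ((h.finPre w).union (h'.finPre w)).subset fun v hv => ?_
    rw [Set.mem_ofPred_eq, AddMonoidHom.add_apply, Finsupp.add_apply] at hv
    by_contra hne
    rw [Set.mem_union, not_or] at hne
    have h1 : Φ (Finsupp.single v 1) w = 0 := by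
      by_contra h0
      exact hne.1 h0
    have h2 : Ψ (Finsupp.single v 1) w = 0 := by
      by_contra h0
      exact hne.2 h0
    exact hv (by rw [h1, h2, add_zero])
  hasFn f hf := by
    obtain ⟨h1, h1'⟩ := h.hasFn f hf
    obtain ⟨h2, h2'⟩ := h'.hasFn f hf
    refine ⟨mul_ne_zero h1 h2, fun D hD w => ?_⟩
    rw [AddMonoidHom.add_apply, Finsupp.add_apply, h1' D hD w, h2' D hD w, w.ord_mul h1 h2]
  degMul D := by
    rw [AddMonoidHom.add_apply, map_add, h.degMul, h'.degMul, add_mul]

theorem IsCorr.sum {ι : Type*} (s : Finset ι) {Φ : ι → (Divisor K F →+ Divisor K F')}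
    {N : ι → F → F'} {d : ι → ℤ} (h : ∀ i ∈ s, IsCorr (Φ i) (N i) (d i)) :
    IsCorr (∑ i ∈ s, Φ i) (fun f => ∏ i ∈ s, N i f) (∑ i ∈ s, d i) := by
  classical
  induction s using Finset.induction_on with
  | empty =>
    simp only [Finset.sum_empty, Finset.prod_empty]
    exact IsCorr.zero
  | insert a s ha ih =>
    simp only [Finset.sum_insert ha, Finset.prod_insert ha]
    exact (h a (Finset.mem_insert_self a s)).add
      (ih fun i hi => h i (Finset.mem_insert_of_mem hi))

theorem IsCorr.nsmul {Φ : Divisor K F →+ Divisor K F'} {N : F → F'} {d : ℤ}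
    (h : IsCorr Φ N d) (n : ℕ) : IsCorr (n • Φ) (fun f => N f ^ n) (n * d) := by
  have h1 := IsCorr.sum (Finset.range n) (Φ := fun _ => Φ) (N := fun _ => N) (d := fun _ => d)
    (fun _ _ => h)
  simp only [Finset.sum_const, Finset.card_range, Finset.prod_const, nsmul_eq_mul] at h1
  rw [← nsmul_eq_mul] at h1
  convert h1 using 1
  rw [nsmul_eq_mul]

/-- Change of the function within the same divisor class of functions (e.g. by constants). -/
theorem IsCorr.congr_fn {Φ : Divisor K F →+ Divisor K F'} {N N' : F → F'} {d : ℤ}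
    (h : IsCorr Φ N d) (hN : ∀ f, f ≠ 0 → N' f = N f) : IsCorr Φ N' d where
  finPre := h.finPre
  hasFn f hf := by
    rw [hN f hf]
    exact h.hasFn f hf
  degMul := h.degMul

/-- **The principle**: correspondences with the same function are equal. -/
theorem IsCorr.eq_of_ord [HasPrincipalDivisors K F] {Φ Ψ : Divisor K F →+ Divisor K F'}
    {N N' : F → F'} {d d' : ℤ} (h : IsCorr Φ N d) (h' : IsCorr Ψ N' d')
    (hN : ∀ f, f ≠ 0 → ∀ w : Place K F', w.ord (N f) = w.ord (N' f)) : Φ = Ψ := by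
  refine eq_of_eq_on_principal Φ Ψ h.finPre h'.finPre fun f D hf hD => ?_
  apply Finsupp.ext
  intro w
  rw [(h.hasFn f hf).2 D hD w, (h'.hasFn f hf).2 D hD w, hN f hf w]

theorem IsCorr.eq [HasPrincipalDivisors K F] {Φ Ψ : Divisor K F →+ Divisor K F'}
    {N N' : F → F'} {d d' : ℤ} (h : IsCorr Φ N d) (h' : IsCorr Ψ N' d')
    (hN : ∀ f, f ≠ 0 → N f = N' f) : Φ = Ψ :=
  h.eq_of_ord h' fun f hf w => by rw [hN f hf]

/-- **Kummer form**: if `n • D = div f` then `n • Φ D = div (N f)`. -/
theorem HasFn.kummer {Φ : Divisor K F →+ Divisor K F'} {N : F → F'} (h : HasFn Φ N)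
    (n : ℤ) (D : Divisor K F) {f : F} (hf : f ≠ 0) (hD : ∀ v, n * D v = v.ord f)
    (w : Place K F') : n * Φ D w = w.ord (N f) := by
  have h1 := (h f hf).2 (n • D) (fun v => by rw [Finsupp.smul_apply, smul_eq_mul, hD v]) w
  rw [map_zsmul, Finsupp.smul_apply, smul_eq_mul] at h1
  exact h1

theorem IsCorr.map_degZero {Φ : Divisor K F →+ Divisor K F'} {N : F → F'} {d : ℤ}
    (h : IsCorr Φ N d) {D : Divisor K F} (hD : D ∈ Divisor.degZero (K := K) (F := F)) :
    Φ D ∈ Divisor.degZero (K := K) (F := F') := by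
  rw [Divisor.mem_degZero] at hD ⊢
  rw [h.degMul, hD, mul_zero]

theorem HasFn.map_principal {Φ : Divisor K F →+ Divisor K F'} {N : F → F'}
    (h : HasFn Φ N) {D : Divisor K F} (hD : D ∈ Divisor.principal (K := K) (F := F)) :
    Φ D ∈ Divisor.principal (K := K) (F := F') := by
  obtain ⟨f, hf, hDf⟩ := hD
  exact ⟨N f, (h f hf).1, (h f hf).2 D hDf⟩

end Calc

section PicMap

variable {K F F' F'' : Type*} [Field K] [Field F] [Field F'] [Field F'']
  [Algebra K F] [Algebra K F'] [Algebra K F'']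

/-- `Φ` preserves degree zero and principal divisors. -/
def IsGood (Φ : Divisor K F →+ Divisor K F') : Prop :=
  (∀ D, D ∈ Divisor.degZero (K := K) (F := F) → Φ D ∈ Divisor.degZero (K := K) (F := F')) ∧
  (∀ D, D ∈ Divisor.principal (K := K) (F := F) → Φ D ∈ Divisor.principal (K := K) (F := F'))

theorem IsCorr.isGood {Φ : Divisor K F →+ Divisor K F'} {N : F → F'} {d : ℤ}
    (h : IsCorr Φ N d) : IsGood Φ :=
  ⟨fun _ hD => h.map_degZero hD, fun _ hD => h.hasFn.map_principal hD⟩

theorem IsGood.comp {Φ₂ : Divisor K F' →+ Divisor K F''} {Φ₁ : Divisor K F →+ Divisor K F'}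
    (h₂ : IsGood Φ₂) (h₁ : IsGood Φ₁) : IsGood (Φ₂.comp Φ₁) :=
  ⟨fun D hD => h₂.1 _ (h₁.1 D hD), fun D hD => h₂.2 _ (h₁.2 D hD)⟩

theorem IsGood.add {Φ Ψ : Divisor K F →+ Divisor K F'} (h : IsGood Φ) (h' : IsGood Ψ) :
    IsGood (Φ + Ψ) :=
  ⟨fun D hD => add_mem (h.1 D hD) (h'.1 D hD), fun D hD => add_mem (h.2 D hD) (h'.2 D hD)⟩

/-- The restriction of a good map to divisors of degree zero. -/
def degZeroMap (Φ : Divisor K F →+ Divisor K F') (h : IsGood Φ) :
    Divisor.degZero (K := K) (F := F) →+ Divisor.degZero (K := K) (F := F') :=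
  (Φ.domRestrict (Divisor.degZero (K := K) (F := F))).codRestrict _ (fun D => h.1 D D.2)

@[simp]
theorem coe_degZeroMap (Φ : Divisor K F →+ Divisor K F') (h : IsGood Φ)
    (D : Divisor.degZero (K := K) (F := F)) :
    (degZeroMap Φ h D : Divisor K F') = Φ (D : Divisor K F) := rfl

open scoped Classical in
/-- The map induced on `Pic⁰` (zero if `Φ` is not good). -/
def picMap (Φ : Divisor K F →+ Divisor K F') : Pic0 K F →+ Pic0 K F' :=
  if h : IsGood Φ then
    QuotientAddGroup.map _ _ (degZeroMap Φ h) (by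
      rintro ⟨D, hD0⟩ hD
      simp only [AddSubgroup.mem_addSubgroupOf] at hD ⊢
      exact h.2 D hD)
  else 0

theorem picMap_mk {Φ : Divisor K F →+ Divisor K F'} (h : IsGood Φ)
    (D : Divisor.degZero (K := K) (F := F)) :
    picMap Φ (Pic0.mk D) = Pic0.mk (degZeroMap Φ h D) := by
  rw [picMap, dif_pos h]
  rfl

theorem picMap_comp {Φ₂ : Divisor K F' →+ Divisor K F''} {Φ₁ : Divisor K F →+ Divisor K F'}
    (h₂ : IsGood Φ₂) (h₁ : IsGood Φ₁) :
    picMap (Φ₂.comp Φ₁) = (picMap Φ₂).comp (picMap Φ₁) := by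
  refine AddMonoidHom.ext fun x => ?_
  obtain ⟨D, rfl⟩ := Pic0.mk_surjective x
  rw [AddMonoidHom.comp_apply, picMap_mk h₁, picMap_mk h₂, picMap_mk (h₂.comp h₁)]
  rfl

theorem picMap_add {Φ Ψ : Divisor K F →+ Divisor K F'} (h : IsGood Φ) (h' : IsGood Ψ) :
    picMap (Φ + Ψ) = picMap Φ + picMap Ψ := by
  refine AddMonoidHom.ext fun x => ?_
  obtain ⟨D, rfl⟩ := Pic0.mk_surjective x
  rw [AddMonoidHom.add_apply, picMap_mk h, picMap_mk h', picMap_mk (h.add h')]
  rfl

theorem picMap_id : picMap (AddMonoidHom.id (Divisor K F)) = AddMonoidHom.id (Pic0 K F) := by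
  refine AddMonoidHom.ext fun x => ?_
  obtain ⟨D, rfl⟩ := Pic0.mk_surjective x
  rw [picMap_mk (IsCorr.id (K := K) (F := F)).isGood]
  rfl

theorem picMap_zero : picMap (0 : Divisor K F →+ Divisor K F') = 0 := by
  refine AddMonoidHom.ext fun x => ?_
  obtain ⟨D, rfl⟩ := Pic0.mk_surjective x
  rw [picMap_mk (IsCorr.zero (K := K) (F := F) (F' := F')).isGood]
  rfl

theorem picMap_sum {ι : Type*} (s : Finset ι) {Φ : ι → (Divisor K F →+ Divisor K F')}
    (h : ∀ i ∈ s, IsGood (Φ i)) : picMap (∑ i ∈ s, Φ i) = ∑ i ∈ s, picMap (Φ i) := by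
  classical
  induction s using Finset.induction_on with
  | empty => simp only [Finset.sum_empty]; exact picMap_zero
  | insert a s ha ih =>
    have hs : IsGood (∑ i ∈ s, Φ i) := by
      clear ih
      induction s using Finset.induction_on with
      | empty =>
        simp only [Finset.sum_empty]
        exact (IsCorr.zero (K := K) (F := F) (F' := F')).isGood
      | insert b t hb iht =>
        rw [Finset.sum_insert hb]
        refine (h b (Finset.mem_insert_of_mem (Finset.mem_insert_self b t))).add (iht ?_ ?_)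
        · exact fun hat => ha (Finset.mem_insert_of_mem hat)
        · intro i hi
          rcases Finset.mem_insert.mp hi with rfl | hi
          · exact h _ (Finset.mem_insert_self _ _)
          · exact h i (Finset.mem_insert_of_mem (Finset.mem_insert_of_mem hi))
    rw [Finset.sum_insert ha, Finset.sum_insert ha,
      picMap_add (h a (Finset.mem_insert_self a s)) hs,
      ih fun i hi => h i (Finset.mem_insert_of_mem hi)]

theorem picMap_nsmul {Φ : Divisor K F →+ Divisor K F'} (h : IsGood Φ) (n : ℕ) :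
    picMap (n • Φ) = n • picMap Φ := by
  have h1 := picMap_sum (Finset.range n) (Φ := fun _ => Φ) (fun _ _ => h)
  simpa using h1

/-- The class of `Φ D` in Kummer form: `picMap Φ (mk D) = mk E` if `E = Φ D` pointwise. -/
theorem picMap_mk_eq {Φ : Divisor K F →+ Divisor K F'} (h : IsGood Φ)
    (D : Divisor.degZero (K := K) (F := F)) (E : Divisor.degZero (K := K) (F := F'))
    (hE : (E : Divisor K F') = Φ (D : Divisor K F)) : picMap Φ (Pic0.mk D) = Pic0.mk E := by
  rw [picMap_mk h]
  exact congrArg Pic0.mk (Subtype.ext hE.symm)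

end PicMap

end Fermat.Agent.NEB.H14
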