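import Mathlib
import Fermat.Agent.NEB.H14_Corr
import Fermat.Agent.Lib.HeckeComm.H2_NormBC
import Fermat.Agent.RED.H51_Final
import Fermat.Agent.RED.H51_Basic

/-!
# NEB, package JH (helper14): pull-back, push-forward and automorphisms as correspondences

`K` algebraically closed, `F`, `F'` function fields of one variable over `K` (`RED.IsFF`).
For every `K`-algebra homomorphism `φ : F →ₐ[K] F'`:

* `pullD φ : Div(F) → Div(F')`, `IsCorr (pullD φ) φ [F' : F]`,
* `pushD φ : Div(F') → Div(F)`, `IsCorr (pushD φ) (Norm_φ) 1`,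
* `pullP φ`, `pushP φ` : the induced maps on `Pic⁰` (total definitions),
* `smulD σ` (the prelude action of `σ : F ≃ₐ[K] F`), `IsCorr (smulD σ) σ 1`, `smulD σ = pullD σ`.

Rules (all by the principle `IsCorr.eq`):
`pullD_comp`, `pushD_comp`, `pushD_comp_pullD` (`φ_* φ^* = [F' : F]`).
-/

set_option autoImplicit false
set_option linter.unusedSectionVars false
set_option linter.style.haveILetI false

noncomputable section

namespace Fermat.Agent.NEB.H14

open AlgebraicCurve Fermat.Agent.Lib.HeckeComm Fermat.Agent.RED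

section FF

variable {K F F' F'' : Type} [Field K] [Field F] [Field F'] [Field F'']
  [Algebra K F] [Algebra K F'] [Algebra K F''] [IsAlgClosed K]

theorem hasPD (hF : IsFF K F) : HasPrincipalDivisors K F :=
  Fermat.Agent.RED.H51.stmt_FFB_principal K F hF

theorem isIntegral_hom (hF : IsFF K F) (hF' : IsFF K F') (φ : F →ₐ[K] F') :
    φ.toRingHom.IsIntegral :=
  (Fermat.Agent.RED.H51.stmt_FFB_finite K F F' hF hF' φ).1

theorem finiteAlong_hom (hF : IsFF K F) (hF' : IsFF K F') (φ : F →ₐ[K] F') :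
    FiniteAlong K φ :=
  (Fermat.Agent.RED.H51.stmt_FFB_finite K F F' hF hF' φ).2

open scoped Classical in
/-- Pull-back of divisors along `φ` (total: zero unless `F`, `F'` are function fields). -/
def pullD (φ : F →ₐ[K] F') : Divisor K F →+ Divisor K F' :=
  if h : IsFF K F ∧ IsFF K F' then
    haveI : HasPrincipalDivisors K F' := hasPD h.2
    Divisor.pullbackAlong φ (isIntegral_hom h.1 h.2 φ)
  else 0

open scoped Classical in
/-- Push-forward of divisors along `φ` (total: zero unless `F`, `F'` are function fields). -/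
def pushD (φ : F →ₐ[K] F') : Divisor K F' →+ Divisor K F :=
  if h : IsFF K F ∧ IsFF K F' then
    Divisor.pushforwardAlong φ (isIntegral_hom h.1 h.2 φ)
  else 0

theorem pullD_eq (hF : IsFF K F) (hF' : IsFF K F') (φ : F →ₐ[K] F') :
    pullD φ = (haveI : HasPrincipalDivisors K F' := hasPD hF';
      Divisor.pullbackAlong φ (isIntegral_hom hF hF' φ)) := by
  rw [pullD, dif_pos ⟨hF, hF'⟩]

theorem pushD_eq (hF : IsFF K F) (hF' : IsFF K F') (φ : F →ₐ[K] F') :
    pushD φ = Divisor.pushforwardAlong φ (isIntegral_hom hF hF' φ) := by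
  rw [pushD, dif_pos ⟨hF, hF'⟩]

/-- The norm along `φ`. -/
def normFn (φ : F →ₐ[K] F') (x : F') : F :=
  letI := algebraAlong φ
  Algebra.norm F x

theorem normFn_eq_normAlongHom (φ : F →ₐ[K] F') (x : F') :
    normFn φ x = normAlongHom (φ : F →+* F') x := rfl

theorem normFn_ne_zero (hF : IsFF K F) (hF' : IsFF K F') (φ : F →ₐ[K] F') {x : F'}
    (hx : x ≠ 0) : normFn φ x ≠ 0 := by
  letI := algebraAlong φ
  haveI : Module.Finite F F' := finiteAlong_hom hF hF' φ
  show Algebra.norm F x ≠ 0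
  exact Algebra.norm_ne_zero_iff.mpr hx

theorem isCorr_pullD (hF : IsFF K F) (hF' : IsFF K F') (φ : F →ₐ[K] F') :
    IsCorr (pullD φ) φ (finrankAlong K φ) := by
  haveI : HasPrincipalDivisors K F' := hasPD hF'
  rw [pullD_eq hF hF']
  refine ⟨finPre_pullbackAlong φ _, ?_, ?_⟩
  · intro f hf
    refine ⟨fun h0 => hf (φ.toRingHom.injective (by simpa using h0)), fun D hD w => ?_⟩
    letI := algebraAlong φ
    haveI := isScalarTower_along φ
    haveI := isIntegral_along φ (isIntegral_hom hF hF' φ)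
    exact Divisor.pullback_apply_eq_ord hD w
  · intro D
    exact Divisor.degree_pullbackAlong φ _
      (Fermat.Agent.RED.H51.stmt_FFB_fundamental K F F' hF hF' φ _ _) D

theorem isCorr_pushD (hF : IsFF K F) (hF' : IsFF K F') (φ : F →ₐ[K] F') :
    IsCorr (pushD φ) (normFn φ) 1 := by
  haveI : HasPrincipalDivisors K F' := hasPD hF'
  rw [pushD_eq hF hF']
  refine ⟨finPre_pushforwardAlong φ _, ?_, ?_⟩
  · intro f hf
    refine ⟨normFn_ne_zero hF hF' φ hf, fun D hD v => ?_⟩
    have hN := Fermat.Agent.RED.H51.stmt_FFB_norm K F F' hF hF' φ (finiteAlong_hom hF hF' φ)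
    letI := algebraAlong φ
    haveI := isScalarTower_along φ
    haveI := isIntegral_along φ (isIntegral_hom hF hF' φ)
    haveI : Module.Finite F F' := finiteAlong_hom hF hF' φ
    exact hN f hf D hD v
  · intro D
    rw [Divisor.degree_pushforwardAlong, one_mul]

/-- The prelude action of an automorphism on divisors, as an additive map. -/
def smulD (σ : F ≃ₐ[K] F) : Divisor K F →+ Divisor K F :=
  DistribSMul.toAddMonoidHom (Divisor K F) σ

@[simp]
theorem smulD_apply (σ : F ≃ₐ[K] F) (D : Divisor K F) : smulD σ D = σ • D := rfl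

theorem isCorr_smulD (σ : F ≃ₐ[K] F) : IsCorr (smulD σ) σ 1 := by
  classical
  refine ⟨fun w => ?_, fun f hf => ⟨by simpa using hf, fun D hD w => ?_⟩, fun D => ?_⟩
  · refine (Set.finite_singleton (σ⁻¹ • w)).subset fun v hv => ?_
    rw [Set.mem_ofPred_eq, smulD_apply, Divisor.smul_single] at hv
    rw [Set.mem_singleton_iff]
    by_contra hne
    apply hv
    rw [Finsupp.single_eq_of_ne]
    intro h
    apply hne
    rw [h, inv_smul_smul]
  · rw [smulD_apply, Divisor.smul_apply, hD (σ⁻¹ • w)]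
    have h := Place.ord_smul σ (σ⁻¹ • w) f
    rw [smul_inv_smul] at h
    exact h.symm
  · rw [smulD_apply, Divisor.degree_smul, one_mul]

/-- The maps on `Pic⁰`. -/
def pullP (φ : F →ₐ[K] F') : Pic0 K F →+ Pic0 K F' := picMap (pullD φ)

/-- The maps on `Pic⁰`. -/
def pushP (φ : F →ₐ[K] F') : Pic0 K F' →+ Pic0 K F := picMap (pushD φ)

theorem picMap_smulD (σ : F ≃ₐ[K] F) (x : Pic0 K F) : picMap (smulD σ) x = σ • x := by
  obtain ⟨D, rfl⟩ := Pic0.mk_surjective x
  rw [picMap_mk (isCorr_smulD σ).isGood, Pic0.smul_mk]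
  rfl

/-! ### Rules -/

theorem smulD_eq_pullD (hF : IsFF K F) (σ : F ≃ₐ[K] F) : smulD σ = pullD (σ : F →ₐ[K] F) := by
  haveI := hasPD hF
  exact (isCorr_smulD σ).eq (isCorr_pullD hF hF _) (fun f _ => rfl)

theorem pullD_comp (hF : IsFF K F) (hF' : IsFF K F') (hF'' : IsFF K F'')
    (φ : F →ₐ[K] F') (ψ : F' →ₐ[K] F'') :
    pullD (ψ.comp φ) = (pullD ψ).comp (pullD φ) := by
  haveI := hasPD hF
  exact (isCorr_pullD hF hF'' _).eq ((isCorr_pullD hF' hF'' ψ).comp (isCorr_pullD hF hF' φ))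
    (fun f _ => rfl)

theorem pushD_comp (hF : IsFF K F) (hF' : IsFF K F') (hF'' : IsFF K F'')
    (φ : F →ₐ[K] F') (ψ : F' →ₐ[K] F'') :
    pushD (ψ.comp φ) = (pushD φ).comp (pushD ψ) := by
  haveI := hasPD hF''
  refine (isCorr_pushD hF hF'' _).eq ((isCorr_pushD hF hF' φ).comp (isCorr_pushD hF' hF'' ψ))
    (fun f _ => ?_)
  exact (normAlongHom_comp (φ : F →+* F') (ψ : F' →+* F'') f).symm

theorem normFn_apply_self (φ : F →ₐ[K] F') (f : F) :
    normFn φ (φ f) = f ^ finrankAlong K φ := by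
  letI := algebraAlong φ
  show Algebra.norm F (algebraMap F F' f) = f ^ Module.finrank F F'
  exact Algebra.norm_algebraMap f

/-- `φ_* φ^* = [F' : F]`. -/
theorem pushD_comp_pullD (hF : IsFF K F) (hF' : IsFF K F') (φ : F →ₐ[K] F') :
    (pushD φ).comp (pullD φ) = finrankAlong K φ • AddMonoidHom.id (Divisor K F) := by
  haveI := hasPD hF
  refine ((isCorr_pushD hF hF' φ).comp (isCorr_pullD hF hF' φ)).eq
    ((IsCorr.id (K := K) (F := F)).nsmul (finrankAlong K φ)) (fun f _ => ?_)
  exact normFn_apply_self φ f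

theorem pullP_comp (hF : IsFF K F) (hF' : IsFF K F') (hF'' : IsFF K F'')
    (φ : F →ₐ[K] F') (ψ : F' →ₐ[K] F'') :
    pullP (ψ.comp φ) = (pullP ψ).comp (pullP φ) := by
  rw [pullP, pullD_comp hF hF' hF'', picMap_comp (isCorr_pullD hF' hF'' ψ).isGood
    (isCorr_pullD hF hF' φ).isGood]
  rfl

theorem pushP_comp (hF : IsFF K F) (hF' : IsFF K F') (hF'' : IsFF K F'')
    (φ : F →ₐ[K] F') (ψ : F' →ₐ[K] F'') :
    pushP (ψ.comp φ) = (pushP φ).comp (pushP ψ) := by
  rw [pushP, pushD_comp hF hF' hF'', picMap_comp (isCorr_pushD hF hF' φ).isGood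
    (isCorr_pushD hF' hF'' ψ).isGood]
  rfl

theorem pushP_pullP (hF : IsFF K F) (hF' : IsFF K F') (φ : F →ₐ[K] F') (x : Pic0 K F) :
    pushP φ (pullP φ x) = finrankAlong K φ • x := by
  have h := picMap_comp (isCorr_pushD hF hF' φ).isGood (isCorr_pullD hF hF' φ).isGood
  rw [pushD_comp_pullD hF hF', picMap_nsmul (IsCorr.id (K := K) (F := F)).isGood, picMap_id] at h
  have h2 := DFunLike.congr_fun h x
  rw [AddMonoidHom.comp_apply] at h2
  rw [pushP, pullP, ← h2]
  rfl

theorem pullP_smul (hF : IsFF K F) (σ : F ≃ₐ[K] F) (x : Pic0 K F) :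
    pullP (σ : F →ₐ[K] F) x = σ • x := by
  rw [pullP, ← smulD_eq_pullD hF, picMap_smulD]

/-- Kummer form of `pullP`. -/
theorem pullD_kummer (hF : IsFF K F) (hF' : IsFF K F') (φ : F →ₐ[K] F')
    (n : ℤ) (D : Divisor K F) {f : F} (hf : f ≠ 0) (hD : ∀ v, n * D v = v.ord f)
    (w : Place K F') : n * pullD φ D w = w.ord (φ f) :=
  (isCorr_pullD hF hF' φ).hasFn.kummer n D hf hD w

/-- Kummer form of `pushP`. -/
theorem pushD_kummer (hF : IsFF K F) (hF' : IsFF K F') (φ : F →ₐ[K] F')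
    (n : ℤ) (D : Divisor K F') {f : F'} (hf : f ≠ 0) (hD : ∀ w, n * D w = w.ord f)
    (v : Place K F) : n * pushD φ D v = v.ord (normFn φ f) :=
  (isCorr_pushD hF hF' φ).hasFn.kummer n D hf hD v

end FF

end Fermat.Agent.NEB.H14
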