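import Mathlib
import Fermat.Agent.NEB.H14_CorrFF
import Fermat.Agent.GTor.H2_Equivariance

/-!
# NEB, package JH (helper14): further rules of the calculus of correspondences

* `pullD_comp_pushD_of_norm` : `φ^* φ_* = ∑_g g` if `φ (Norm_φ x) = ∏_g g x`.
* `square_of_norm` : base change `b^* a_* = a'_* b'^*` in a commutative square if
  `b (Norm_a x) = Norm_a' (b' x)`.
* equivariance of `pullP`, `pushP` under semilinear automorphisms (Galois action on coefficients)
  and under `K`-automorphisms.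
* `correspondence_eq` : the prelude's `Pic0.correspondence φ ψ` is `pushP ψ ∘ pullP φ`.
-/

set_option autoImplicit false
set_option linter.unusedSectionVars false
set_option linter.style.haveILetI false

noncomputable section

namespace Fermat.Agent.NEB.H14

open AlgebraicCurve AlgebraicCurve.SemilinearAut Fermat.Agent.Lib.HeckeComm Fermat.Agent.RED

section Rules

variable {K F F' F₁ F₂ L : Type} [Field K] [Field F] [Field F'] [Field F₁] [Field F₂] [Field L]
  [Algebra K F] [Algebra K F'] [Algebra K F₁] [Algebra K F₂] [Algebra K L] [IsAlgClosed K]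

/-- `φ^* φ_* = ∑_g g` on divisors. -/
theorem pullD_comp_pushD_of_norm (hF : IsFF K F) (hF' : IsFF K F') (φ : F →ₐ[K] F')
    {G : Type*} [Fintype G] (ρ : G → (F' ≃ₐ[K] F'))
    (hnorm : ∀ x : F', x ≠ 0 → φ (normFn φ x) = ∏ g, ρ g x) :
    (pullD φ).comp (pushD φ) = ∑ g, smulD (ρ g) := by
  haveI := hasPD hF'
  exact ((isCorr_pullD hF hF' φ).comp (isCorr_pushD hF hF' φ)).eq
    (IsCorr.sum Finset.univ (fun g _ => isCorr_smulD (ρ g))) hnorm

/-- `φ^* φ_* = ∑_g g` on `Pic⁰`. -/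
theorem pullP_pushP_of_norm (hF : IsFF K F) (hF' : IsFF K F') (φ : F →ₐ[K] F')
    {G : Type*} [Fintype G] (ρ : G → (F' ≃ₐ[K] F'))
    (hnorm : ∀ x : F', x ≠ 0 → φ (normFn φ x) = ∏ g, ρ g x) (y : Pic0 K F') :
    pullP φ (pushP φ y) = ∑ g, ρ g • y := by
  have h := picMap_comp (isCorr_pullD hF hF' φ).isGood (isCorr_pushD hF hF' φ).isGood
  rw [pullD_comp_pushD_of_norm hF hF' φ ρ hnorm,
    picMap_sum Finset.univ (fun g _ => (isCorr_smulD (ρ g)).isGood)] at h
  have h2 := DFunLike.congr_fun h y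
  rw [AddMonoidHom.comp_apply, AddMonoidHom.finsetSum_apply] at h2
  rw [pullP, pushP, ← h2]
  exact Finset.sum_congr rfl fun g _ => picMap_smulD (ρ g) y

/-- Base change in a commutative square, on divisors. -/
theorem square_of_norm (hF : IsFF K F) (hF₁ : IsFF K F₁) (hF₂ : IsFF K F₂) (hL : IsFF K L)
    (a : F →ₐ[K] F₂) (b : F →ₐ[K] F₁) (a' : F₁ →ₐ[K] L) (b' : F₂ →ₐ[K] L)
    (hnorm : ∀ x : F₂, x ≠ 0 → b (normFn a x) = normFn a' (b' x)) :
    (pullD b).comp (pushD a) = (pushD a').comp (pullD b') := by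
  haveI := hasPD hF₂
  exact ((isCorr_pullD hF hF₁ b).comp (isCorr_pushD hF hF₂ a)).eq
    ((isCorr_pushD hF₁ hL a').comp (isCorr_pullD hF₂ hL b')) hnorm

/-- Base change in a commutative square, on `Pic⁰`. -/
theorem square_of_norm_pic (hF : IsFF K F) (hF₁ : IsFF K F₁) (hF₂ : IsFF K F₂) (hL : IsFF K L)
    (a : F →ₐ[K] F₂) (b : F →ₐ[K] F₁) (a' : F₁ →ₐ[K] L) (b' : F₂ →ₐ[K] L)
    (hnorm : ∀ x : F₂, x ≠ 0 → b (normFn a x) = normFn a' (b' x)) :
    (pullP b).comp (pushP a) = (pushP a').comp (pullP b') := by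
  rw [pullP, pushP, pushP, pullP,
    ← picMap_comp (isCorr_pullD hF hF₁ b).isGood (isCorr_pushD hF hF₂ a).isGood,
    ← picMap_comp (isCorr_pushD hF₁ hL a').isGood (isCorr_pullD hF₂ hL b').isGood,
    square_of_norm hF hF₁ hF₂ hL a b a' b' hnorm]

/-- The prelude's correspondence is `ψ_* φ^*`. -/
theorem correspondence_eq (hF : IsFF K F) (hF' : IsFF K F') (φ ψ : F →ₐ[K] F')
    (hφ : φ.toRingHom.IsIntegral) (hψ : ψ.toRingHom.IsIntegral)
    [HasPrincipalDivisors K F']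
    (hFI : FundamentalIdentityAlong K φ hφ)
    (hfin : FiniteAlong K ψ) (hN : NormFormulaAlong K ψ hfin) :
    Pic0.correspondence φ ψ hφ hψ hFI hfin hN = (pushP ψ).comp (pullP φ) := by
  refine AddMonoidHom.ext fun x => ?_
  obtain ⟨D, rfl⟩ := Pic0.mk_surjective x
  rw [AddMonoidHom.comp_apply, pullP, pushP, picMap_mk (isCorr_pullD hF hF' φ).isGood,
    picMap_mk (isCorr_pushD hF hF' ψ).isGood, Pic0.correspondence_mk]
  refine congrArg Pic0.mk (Subtype.ext ?_)
  simp only [Pic0.coe_degZeroCorrespondence, coe_degZeroMap, Divisor.correspondence_apply]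
  rw [pullD_eq hF hF', pushD_eq hF hF']

/-! ### Equivariance -/

/-- Equivariance of `picMap` under semilinear automorphisms. -/
theorem picMap_semilinear {Φ : Divisor K F →+ Divisor K F'} (hΦ : IsGood Φ)
    (g : SemilinearAut K F) (g' : SemilinearAut K F')
    (h : ∀ D : Divisor K F, Φ (g • D) = g' • Φ D) (x : Pic0 K F) :
    picMap Φ (g • x) = g' • picMap Φ x := by
  obtain ⟨D, rfl⟩ := Pic0.mk_surjective x
  rw [pic0_smul_mk, picMap_mk hΦ, picMap_mk hΦ, pic0_smul_mk]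
  refine congrArg Pic0.mk (Subtype.ext ?_)
  simp only [coe_degZeroMap, coe_degZeroSMulHom]
  exact h _

theorem pullP_semilinear (hF : IsFF K F) (hF' : IsFF K F') (φ : F →ₐ[K] F')
    (g : SemilinearAut K F) (g' : SemilinearAut K F')
    (h : IntertwinesAlong (φ : F →+* F') g g') (x : Pic0 K F) :
    pullP φ (g • x) = g' • pullP φ x := by
  haveI := hasPD hF'
  refine picMap_semilinear (isCorr_pullD hF hF' φ).isGood g g' (fun D => ?_) x
  rw [pullD_eq hF hF']
  exact Fermat.Agent.GTor.H2.pullbackAlong_smul g g' φ _ h D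

theorem pushP_semilinear (hF : IsFF K F) (hF' : IsFF K F') (φ : F →ₐ[K] F')
    (g : SemilinearAut K F) (g' : SemilinearAut K F')
    (h : IntertwinesAlong (φ : F →+* F') g g') (y : Pic0 K F') :
    pushP φ (g' • y) = g • pushP φ y := by
  refine picMap_semilinear (isCorr_pushD hF hF' φ).isGood g' g (fun D => ?_) y
  rw [pushD_eq hF hF']
  exact Fermat.Agent.GTor.H2.pushforwardAlong_smul g g' φ _ h D

/-- Equivariance of `pullP` under `K`-automorphisms. -/
theorem pullP_algEquiv (hF : IsFF K F) (hF' : IsFF K F') (φ : F →ₐ[K] F')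
    (g : F ≃ₐ[K] F) (g' : F' ≃ₐ[K] F') (h : ∀ x, φ (g x) = g' (φ x)) (x : Pic0 K F) :
    pullP φ (g • x) = g' • pullP φ x := by
  rw [← pullP_smul hF g, ← pullP_smul hF' g']
  have h1 : φ.comp (g : F →ₐ[K] F) = (g' : F' →ₐ[K] F').comp φ := AlgHom.ext fun x => h x
  have h2 := pullP_comp hF hF hF' (g : F →ₐ[K] F) φ
  have h3 := pullP_comp hF hF' hF' φ (g' : F' →ₐ[K] F')
  rw [h1] at h2
  have h4 := DFunLike.congr_fun (h2.symm.trans h3) x
  simpa using h4

omit [IsAlgClosed K] in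
theorem finrank_toAlgebra_of_bijective {A B : Type*} [Field A] [Field B] (φ : A →+* B)
    (h : Function.Bijective φ) : (letI := φ.toAlgebra; Module.finrank A B) = 1 := by
  letI := φ.toAlgebra
  refine finrank_eq_one (1 : B) one_ne_zero fun w => ?_
  obtain ⟨c, rfl⟩ := h.2 w
  exact ⟨c, by rw [Algebra.smul_def, mul_one]; rfl⟩

/-- The norm along an automorphism is the inverse. -/
theorem pushP_smul (hF : IsFF K F) (σ : F ≃ₐ[K] F) (x : Pic0 K F) :
    pushP (σ : F →ₐ[K] F) x = σ⁻¹ • x := by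
  have h1 := pushP_pullP hF hF (σ : F →ₐ[K] F) (σ⁻¹ • x)
  rw [pullP_smul hF, smul_inv_smul] at h1
  have h2 : finrankAlong K (σ : F →ₐ[K] F) = 1 :=
    finrank_toAlgebra_of_bijective ((σ : F →ₐ[K] F) : F →+* F) σ.bijective
  rw [h2, one_smul] at h1
  exact h1

/-- Equivariance of `pushP` under `K`-automorphisms. -/
theorem pushP_algEquiv (hF : IsFF K F) (hF' : IsFF K F') (φ : F →ₐ[K] F')
    (g : F ≃ₐ[K] F) (g' : F' ≃ₐ[K] F') (h : ∀ x, φ (g x) = g' (φ x)) (y : Pic0 K F') :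
    pushP φ (g' • y) = g • pushP φ y := by
  have hinv : ∀ x, φ (g⁻¹ x) = g'⁻¹ (φ x) := by
    intro x
    have := h (g⁻¹ x)
    rw [show g (g⁻¹ x) = x from g.apply_symm_apply x] at this
    rw [this]
    exact (g'.symm_apply_apply _).symm
  have h1 : φ.comp ((g⁻¹ : F ≃ₐ[K] F) : F →ₐ[K] F) =
      ((g'⁻¹ : F' ≃ₐ[K] F') : F' →ₐ[K] F').comp φ := AlgHom.ext fun x => hinv x
  have h2 := pushP_comp hF hF hF' ((g⁻¹ : F ≃ₐ[K] F) : F →ₐ[K] F) φ
  have h3 := pushP_comp hF hF' hF' φ ((g'⁻¹ : F' ≃ₐ[K] F') : F' →ₐ[K] F')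
  rw [h1] at h2
  have h4 := DFunLike.congr_fun (h2.symm.trans h3) y
  simp only [AddMonoidHom.comp_apply] at h4
  rw [pushP_smul hF, pushP_smul hF', inv_inv, inv_inv] at h4
  exact h4.symm

end Rules

end Fermat.Agent.NEB.H14
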