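import Mathlib
import Fermat.Agent.NEB.H14_CorrFF

/-!
# NEB, package JH (helper14): the two field-theoretic leaves (pure algebra, Mathlib only)

`normFn φ x` is the norm of `x : F'` along `φ : F →ₐ[K] F'` (defined in `H14_CorrFF`;
`normFn φ x = Lib.HeckeComm.normAlongHom ↑φ x` by `rfl`).

* `Stmt_GalNorm` : Artin.  If the fixed field of a finite group `G` of `K`-automorphisms of `F'` is
  `φ(F)`, then `F'/F` is finite of degree `|G|` and `φ (Norm_φ x) = ∏_{g ∈ G} g x`.
* `Stmt_GalSquare` : norms in a Galois square.  `L ⊇ F₂` Galois with group `G`, `F₁ ⊆ L` a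
  `G`-stable subfield on which `G` acts faithfully with fixed field `F`; then `F₁ ⊗_F F₂ = L` and
  the norms `F₂ → F`, `L → F₁` (resp. `F₁ → F`, `L → F₂`) are compatible.

Owners prove `theorem stmt_GalNorm : Stmt_GalNorm`, `theorem stmt_GalSquare : Stmt_GalSquare` in
their own files `Fermat/Agent/NEB/H<seat>_*.lean`.  No `sorry` here.
-/

set_option autoImplicit false

noncomputable section

namespace Fermat.Agent.NEB.H14

open AlgebraicCurve

/-- **GAL-NORM** (Artin). -/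
def Stmt_GalNorm : Prop :=
  ∀ (K F F' : Type) [Field K] [Field F] [Field F'] [Algebra K F] [Algebra K F']
    (φ : F →ₐ[K] F') (G : Subgroup (F' ≃ₐ[K] F')) [Fintype G],
    (∀ x : F', (∀ g ∈ G, g x = x) → x ∈ Set.range φ) →
    (∀ (g : F' ≃ₐ[K] F') (y : F), g ∈ G → g (φ y) = φ y) →
    FiniteAlong K φ ∧ finrankAlong K φ = Fintype.card G ∧
    ∀ x : F', φ (normFn φ x) = ∏ g : G, (g : F' ≃ₐ[K] F') x

/-- **GAL-SQUARE**: a commutative square

```
F₁ --a'--> L
^          ^
b          b'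
F  --a---> F₂
```
in which `L / b'(F₂)` is Galois with group `G`, `a'(F₁)` is `G`-stable, `G` acts faithfully on it
and its fixed field is `b(F)`.  Then the norms commute with the maps. -/
def Stmt_GalSquare : Prop :=
  ∀ (K F F₁ F₂ L : Type) [Field K] [Field F] [Field F₁] [Field F₂] [Field L]
    [Algebra K F] [Algebra K F₁] [Algebra K F₂] [Algebra K L]
    (a : F →ₐ[K] F₂) (b : F →ₐ[K] F₁) (a' : F₁ →ₐ[K] L) (b' : F₂ →ₐ[K] L),
    a'.comp b = b'.comp a →
    FiniteAlong K a →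
    ∀ (G : Subgroup (L ≃ₐ[K] L)) [Fintype G],
    (∀ x : L, (∀ g ∈ G, g x = x) → x ∈ Set.range b') →
    (∀ (g : L ≃ₐ[K] L) (y : F₂), g ∈ G → g (b' y) = b' y) →
    (∀ (g : L ≃ₐ[K] L) (y : F₁), g ∈ G → g (a' y) ∈ Set.range a') →
    (∀ g ∈ G, (∀ y : F₁, g (a' y) = a' y) → g = 1) →
    (∀ y : F₁, (∀ g ∈ G, g (a' y) = a' y) → y ∈ Set.range b) →
    FiniteAlong K a' ∧ finrankAlong K a' = finrankAlong K a ∧
    (∀ x : F₂, b (normFn a x) = normFn a' (b' x)) ∧
    (∀ y : F₁, a (normFn b y) = normFn b' (a' y))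

end Fermat.Agent.NEB.H14
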