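import Mathlib
import Fermat.Agent.NEB.Defs
import Fermat.Agent.NEB.H14_CorrRules
import Fermat.Agent.NEB.H14_JHLeaves

/-!
# NEB, package JH (helper14): the interface of `J_H = Pic⁰(F_H)`

`J_H M c H := Pic0 ℚ̄ (FHbar M c H)`.  All operators are TOTAL definitions (no proof arguments
except `BetaOK`), built from `pullP` / `pushP` of `H14_CorrFF` (`= picMap (pullD φ)`, … ):

* `piUp M c H : JZero M →+ JH M c H` (`π^*`), `piDown M c H` (`π_*`), along `inclBar M c H`;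
* `diamond dd d` : the diamond operator `⟨d⟩`, for `dd : DiamondData M c H` (`= Stmt_FH_gal` as data);
* `betaBar hβ : F_H(M) → F_H(Mℓ)`, `f(q) ↦ f(q^ℓ)` (`hβ : BetaOK M c ℓ H`, the conclusion of
  `Stmt_FH_beta`);
* `TH hβ := α_* β^*`, `UH hβ := β_* α^*` on `J_H(M)`, with Kummer functions
  `THfn hβ f = Norm_α (β f)`, `UHfn hβ f = Norm_β (α f)`;
* `T0 M ℓ := α_* β^*`, `U0 M ℓ := β_* α^*` on `J₀(M)` (`T0_eq_heckeOperatorAlong` in `H14_JHRules`).

The hypotheses of the rules are bundled in `HeckeData M c ℓ H`.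
-/

set_option autoImplicit false
set_option linter.unusedSectionVars false
set_option linter.style.haveILetI false
set_option linter.dupNamespace false

noncomputable section

namespace Fermat.Agent.NEB.JH

open AlgebraicCurve ModularCurve IntermediateField HahnSeries
open Fermat.Agent.NEB Fermat.Agent.NEB.H14 Fermat.Agent.RED

/-- `J_H(M) = Pic⁰` of the function field of `X_H(M)` over `ℚ̄`. -/
abbrev JH (M c : ℕ) (H : Subgroup (ZMod c)ˣ) : Type := Pic0 Kbar ↥(FHbar M c H)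

/-! ## 1. Diamond operators -/

/-- The conclusion of `Stmt_FH_gal M c H`, as data. -/
structure DiamondData (M c : ℕ) (H : Subgroup (ZMod c)ˣ) where
  /-- the action of `(ℤ/c)ˣ` on `F_H(M)` -/
  ρ : (ZMod c)ˣ →* (↥(FHbar M c H) ≃ₐ[Kbar] ↥(FHbar M c H))
  gen : ∀ d a, ρ d (genBar M c H a) = genBar M c H (a * d)
  fix : ∀ d (x : ↥(modularFunctionFieldBar M)), ρ d (inclBar M c H x) = inclBar M c H x
  fixed : ∀ x : ↥(FHbar M c H), (∀ d, ρ d x = x) → ∃ x₀, inclBar M c H x₀ = x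
  ker : ∀ d, ρ d = 1 ↔ (d ∈ H ∨ -d ∈ H)
  gal : ∀ d (σ : Kbar ≃ₐ[ℚ] Kbar) (x : ↥(FHbar M c H)),
    ρ d (arithmeticRingAut (FHQ M c H) σ x) = arithmeticRingAut (FHQ M c H) σ (ρ d x)

theorem nonempty_diamondData {M c : ℕ} {H : Subgroup (ZMod c)ˣ} (h : Stmt_FH_gal M c H)
    (h2 : 2 ≤ c) (hc : c ∣ M) (hM : M ≠ 0) : Nonempty (DiamondData M c H) := by
  obtain ⟨ρ, h1, h2, h3, h4, h5⟩ := h h2 hc hM
  exact ⟨⟨ρ, h1, h2, h3, h4, h5⟩⟩

/-- The diamond operator `⟨d⟩` on `J_H`. -/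
def diamond {M c : ℕ} {H : Subgroup (ZMod c)ˣ} (dd : DiamondData M c H) (d : (ZMod c)ˣ) :
    JH M c H →+ JH M c H :=
  DistribSMul.toAddMonoidHom (JH M c H) (dd.ρ d)

@[simp]
theorem diamond_apply {M c : ℕ} {H : Subgroup (ZMod c)ˣ} (dd : DiamondData M c H)
    (d : (ZMod c)ˣ) (x : JH M c H) : diamond dd d x = dd.ρ d • x := rfl

/-! ## 2. `π^*` and `π_*` -/

/-- `π^* : J₀(M) → J_H(M)`. -/
def piUp (M c : ℕ) (H : Subgroup (ZMod c)ˣ) : JZero M →+ JH M c H := pullP (inclBar M c H)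

/-- `π_* : J_H(M) → J₀(M)`. -/
def piDown (M c : ℕ) (H : Subgroup (ZMod c)ˣ) : JH M c H →+ JZero M := pushP (inclBar M c H)

/-! ## 3. Degeneracy maps and Hecke operators -/

/-- The conclusion of `Stmt_FH_beta`: `f(q) ↦ f(q^ℓ)` maps `F_H(M)` into `F_H(Mℓ)`. -/
def BetaOK (M c ℓ : ℕ) [NeZero ℓ] (H : Subgroup (ZMod c)ˣ) : Prop :=
  ∀ x ∈ FHQ M c H, qExpand ℚ ℓ x ∈ FHQ (M * ℓ) c H

theorem coeffMap_qExpand_jh {R S : Type*} [CommRing R] [CommRing S] (f : R →+* S) (n : ℕ)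
    [NeZero n] (x : LaurentSeries R) : coeffMap f (qExpand R n x) = qExpand S n (coeffMap f x) := by
  ext k
  by_cases hk : (n : ℤ) ∣ k
  · obtain ⟨m, rfl⟩ := hk
    rw [coeffMap_coeff, qExpand_coeff_mul, qExpand_coeff_mul, coeffMap_coeff]
  · rw [coeffMap_coeff, qExpand_coeff_of_not_dvd n _ hk, qExpand_coeff_of_not_dvd n _ hk,
      map_zero]

theorem qExpand_mem_lbc {L : Type*} [Field L] [Algebra ℚ L]
    {F₀ : IntermediateField ℚ (LaurentSeries ℚ)} (n : ℕ)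
    [NeZero n] {F₁ : IntermediateField ℚ (LaurentSeries ℚ)} (hF : ∀ y ∈ F₀, qExpand ℚ n y ∈ F₁)
    {x : LaurentSeries L} (hx : x ∈ laurentBaseChange L F₀) :
    qExpand L n x ∈ laurentBaseChange L F₁ := by
  rw [mem_laurentBaseChange_iff] at hx
  induction hx using Subfield.closure_induction with
  | mem y hy =>
      rcases hy with ⟨a, rfl⟩ | ⟨z, hz, rfl⟩
      · rw [algebraMap_laurentSeries_eq_single, qExpand_single, mul_zero,
          ← algebraMap_laurentSeries_eq_single]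
        exact (laurentBaseChange L F₁).algebraMap_mem _
      · have h : coeffEmb L (qExpand ℚ n z) = qExpand L n (coeffEmb L z) :=
          coeffMap_qExpand_jh _ n z
        rw [← h]
        exact coeffEmb_mem_laurentBaseChange L (hF z hz)
  | one => simp
  | add x y _ _ hx hy => simpa using add_mem hx hy
  | neg x _ hx => simpa using neg_mem hx
  | inv x _ hx => simpa using inv_mem hx
  | mul x y _ _ hx hy => simpa using mul_mem hx hy

section Beta

variable {M c ℓ : ℕ} [NeZero ℓ] {H : Subgroup (ZMod c)ˣ}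

/-- `β` as a ring homomorphism. -/
def betaBarRingHom (hβ : BetaOK M c ℓ H) : ↥(FHbar M c H) →+* ↥(FHbar (M * ℓ) c H) where
  toFun x := ⟨qExpand Kbar ℓ (x : LaurentSeries Kbar), qExpand_mem_lbc ℓ hβ x.2⟩
  map_one' := Subtype.ext (map_one (qExpand Kbar ℓ))
  map_mul' _ _ := Subtype.ext (map_mul (qExpand Kbar ℓ) _ _)
  map_zero' := Subtype.ext (map_zero (qExpand Kbar ℓ))
  map_add' _ _ := Subtype.ext (map_add (qExpand Kbar ℓ) _ _)

/-- The degeneracy map `β : F_H(M) → F_H(Mℓ)`, `f(q) ↦ f(q^ℓ)`. -/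
def betaBar (hβ : BetaOK M c ℓ H) : ↥(FHbar M c H) →ₐ[Kbar] ↥(FHbar (M * ℓ) c H) :=
  { betaBarRingHom hβ with
    commutes' := fun a => Subtype.ext <| by
      show qExpand Kbar ℓ (algebraMap Kbar (LaurentSeries Kbar) a)
        = algebraMap Kbar (LaurentSeries Kbar) a
      rw [algebraMap_laurentSeries_eq_single, qExpand_single, mul_zero] }

@[simp]
theorem coe_betaBar (hβ : BetaOK M c ℓ H) (x : ↥(FHbar M c H)) :
    ((betaBar hβ x : ↥(FHbar (M * ℓ) c H)) : LaurentSeries Kbar)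
      = qExpand Kbar ℓ (x : LaurentSeries Kbar) := rfl

/-- The degeneracy map `α : F_H(M) → F_H(Mℓ)` (inclusion). -/
def alphaH (M c ℓ : ℕ) (H : Subgroup (ZMod c)ˣ) :
    ↥(FHbar M c H) →ₐ[Kbar] ↥(FHbar (M * ℓ) c H) :=
  alphaBar (dvd_mul_right M ℓ) c H

@[simp]
theorem coe_alphaH (x : ↥(FHbar M c H)) :
    ((alphaH M c ℓ H x : ↥(FHbar (M * ℓ) c H)) : LaurentSeries Kbar) = (x : LaurentSeries Kbar) :=
  IntermediateField.coe_inclusion _ x

/-- `T^H := α_* β^*` on `J_H(M)`. -/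
def TH (hβ : BetaOK M c ℓ H) : JH M c H →+ JH M c H :=
  (pushP (alphaH M c ℓ H)).comp (pullP (betaBar hβ))

/-- `U^H := β_* α^*` on `J_H(M)`. -/
def UH (hβ : BetaOK M c ℓ H) : JH M c H →+ JH M c H :=
  (pushP (betaBar hβ)).comp (pullP (alphaH M c ℓ H))

/-- The Kummer function of `T^H`: `Norm_α (β f)`. -/
def THfn (hβ : BetaOK M c ℓ H) (f : ↥(FHbar M c H)) : ↥(FHbar M c H) :=
  normFn (alphaH M c ℓ H) (betaBar hβ f)

/-- The Kummer function of `U^H`: `Norm_β (α f)`. -/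
def UHfn (hβ : BetaOK M c ℓ H) (f : ↥(FHbar M c H)) : ↥(FHbar M c H) :=
  normFn (betaBar hβ) (alphaH M c ℓ H f)

end Beta

/-! ## 4. The operators of `J₀(M)` in the same calculus -/

section Zero

variable (M ℓ : ℕ) [NeZero M] [NeZero ℓ]

/-- `T₀ := α_* β^*` on `J₀(M)` (equal to the prelude's `heckeOperatorAlong`). -/
def T0 : JZero M →+ JZero M :=
  (pushP (heckeAlphaBar Kbar M ℓ)).comp (pullP (heckeBetaBar Kbar M ℓ))

/-- `U₀ := β_* α^*` on `J₀(M)`. -/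
def U0 : JZero M →+ JZero M :=
  (pushP (heckeBetaBar Kbar M ℓ)).comp (pullP (heckeAlphaBar Kbar M ℓ))

end Zero

/-! ## 5. The hypotheses of the rules, bundled -/

/-- Everything the rules need at the pair of levels `M`, `Mℓ`. -/
structure HeckeData (M c ℓ : ℕ) [NeZero M] [NeZero ℓ] (H : Subgroup (ZMod c)ˣ) where
  /-- FH-FF at level `M` -/
  isFF : IsFF Kbar ↥(FHbar M c H)
  /-- FH-FF at level `Mℓ` -/
  isFF' : IsFF Kbar ↥(FHbar (M * ℓ) c H)
  /-- FH-GAL at level `M` -/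
  dd : DiamondData M c H
  /-- FH-GAL at level `Mℓ` -/
  dd' : DiamondData (M * ℓ) c H
  /-- FH-BETA -/
  hβ : BetaOK M c ℓ H
  /-- `α` intertwines the diamond operators -/
  alphaGal : ∀ d x, dd'.ρ d (alphaH M c ℓ H x) = alphaH M c ℓ H (dd.ρ d x)
  /-- `β` intertwines the diamond operators -/
  betaGal : ∀ d x, dd'.ρ d (betaBar hβ x) = betaBar hβ (dd.ρ d x)

/-- **FH-FF** (helper84). -/
def Stmt_FH_FF (M c : ℕ) (H : Subgroup (ZMod c)ˣ) : Prop :=
  2 ≤ c → c ∣ M → M ≠ 0 → IsFF Kbar ↥(FHbar M c H)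

/-- **FH-BETAGAL**: `β` intertwines the diamond operators of levels `M` and `Mℓ`
(analytically: `B_ℓ γ B_ℓ⁻¹ ∈ Γ₀(M)` has the same diagonal as `γ ∈ Γ₀(Mℓ)`). -/
def Stmt_FH_betaGal (M c ℓ : ℕ) [NeZero ℓ] (H : Subgroup (ZMod c)ˣ) : Prop :=
  2 ≤ c → c ∣ M → M ≠ 0 →
  ∀ (hβ : BetaOK M c ℓ H) (dd : DiamondData M c H) (dd' : DiamondData (M * ℓ) c H) d x,
    dd'.ρ d (betaBar hβ x) = betaBar hβ (dd.ρ d x)

/-- **FH-ALPHAGAL**: `α` intertwines the diamond operators of levels `M` and `Mℓ`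
(formal: both sides agree on `F₀(M)` and on the generators). -/
def Stmt_FH_alphaGal (M c ℓ : ℕ) (H : Subgroup (ZMod c)ˣ) : Prop :=
  ∀ (dd : DiamondData M c H) (dd' : DiamondData (M * ℓ) c H) d x,
    dd'.ρ d (alphaH M c ℓ H x) = alphaH M c ℓ H (dd.ρ d x)

end Fermat.Agent.NEB.JH
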