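import Fermat.Agent.NEB.H2_GalNorm
import Fermat.Agent.Lib.HeckeComm.H2_NormBC

/-!
# NEB, package JH, leaf GAL-SQUARE (helper2): norms in a Galois square

```
F₁ --a'--> L
^          ^
b          b'
F  --a---> F₂
```
`L / b'(F₂)` Galois with group `G`, `a'(F₁)` is `G`-stable, `G` acts faithfully on it with fixed
field `b(F)`, `F₂ / F` finite.  Then `[L : F₁] = [F₂ : F]` and the norms commute with the maps.

* `actF1`, `mulSemiringActionF1` : the action of `G` on `F₁`.
* `linearIndependent_square` : an `F`-basis of `F₂` stays linearly independent over `F₁`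
  (Dedekind's independence of characters).
* `stmt_GalSquare : H14.Stmt_GalSquare`.
-/

set_option autoImplicit false
set_option linter.style.haveILetI false
set_option linter.unusedSectionVars false
set_option maxHeartbeats 1000000

noncomputable section

namespace Fermat.Agent.NEB.H2

open AlgebraicCurve Fermat.Agent.NEB.H14 Fermat.Agent.Lib.HeckeComm

variable {K F F₁ F₂ L : Type} [Field K] [Field F] [Field F₁] [Field F₂] [Field L]
  [Algebra K F] [Algebra K F₁] [Algebra K F₂] [Algebra K L]

section Action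

variable (a' : F₁ →ₐ[K] L) (G : Subgroup (L ≃ₐ[K] L))
  (h3 : ∀ (g : L ≃ₐ[K] L) (y : F₁), g ∈ G → g (a' y) ∈ Set.range a')

/-- The action of `g ∈ G` on `F₁`. -/
def actF1 (g : G) (y : F₁) : F₁ := Classical.choose (h3 g y g.2)

theorem map_actF1 (g : G) (y : F₁) : a' (actF1 a' G h3 g y) = (g : L ≃ₐ[K] L) (a' y) :=
  Classical.choose_spec (h3 g y g.2)

/-- `G` acts on `F₁` by ring automorphisms. -/
@[reducible] def mulSemiringActionF1 : MulSemiringAction G F₁ :=
  letI : MulAction G F₁ :=
    { smul := actF1 a' G h3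
      one_smul := fun y => a'.toRingHom.injective (by
        show a' (actF1 a' G h3 1 y) = a' y
        rw [map_actF1]; rfl)
      mul_smul := fun g g' y => a'.toRingHom.injective (by
        show a' (actF1 a' G h3 (g * g') y) = a' (actF1 a' G h3 g (actF1 a' G h3 g' y))
        rw [map_actF1, map_actF1, map_actF1]; rfl) }
  letI : DistribMulAction G F₁ :=
    { smul_zero := fun g => a'.toRingHom.injective (by
        show a' (actF1 a' G h3 g 0) = a' 0
        rw [map_actF1, map_zero, map_zero])
      smul_add := fun g x y => a'.toRingHom.injective (by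
        show a' (actF1 a' G h3 g (x + y)) = a' (actF1 a' G h3 g x + actF1 a' G h3 g y)
        rw [map_add, map_actF1, map_actF1, map_actF1, map_add, map_add]) }
  { smul_one := fun g => a'.toRingHom.injective (by
      show a' (actF1 a' G h3 g 1) = a' 1
      rw [map_actF1, map_one, map_one])
    smul_mul := fun g x y => a'.toRingHom.injective (by
      show a' (actF1 a' G h3 g (x * y)) = a' (actF1 a' G h3 g x * actF1 a' G h3 g y)
      rw [map_mul, map_actF1, map_actF1, map_actF1, map_mul, map_mul]) }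

end Action

/-- The Galois group instance on `F₁ / F`. -/
theorem isGaloisGroup_F1 (b : F →ₐ[K] F₁) (a' : F₁ →ₐ[K] L) (G : Subgroup (L ≃ₐ[K] L))
    (h3 : ∀ (g : L ≃ₐ[K] L) (y : F₁), g ∈ G → g (a' y) ∈ Set.range a')
    (hfix : ∀ (g : L ≃ₐ[K] L) (t : F), g ∈ G → g (a' (b t)) = a' (b t))
    (h4 : ∀ g ∈ G, (∀ y : F₁, g (a' y) = a' y) → g = 1)
    (h5 : ∀ y : F₁, (∀ g ∈ G, g (a' y) = a' y) → y ∈ Set.range b) :
    letI := algebraAlong b
    letI := mulSemiringActionF1 a' G h3
    IsGaloisGroup G F F₁ := by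
  letI := algebraAlong b
  letI := mulSemiringActionF1 a' G h3
  have hact : ∀ (g : G) (y : F₁), a' (g • y) = (g : L ≃ₐ[K] L) (a' y) := map_actF1 a' G h3
  exact
    { faithful := ⟨fun {g g'} h => by
        have h1 : (g'⁻¹ * g : G) = 1 := by
          apply Subtype.ext
          apply h4 _ (g'⁻¹ * g).2
          intro y
          have h2 : (g : L ≃ₐ[K] L) (a' y) = (g' : L ≃ₐ[K] L) (a' y) := by
            rw [← hact, ← hact, h y]
          show ((g' : L ≃ₐ[K] L)⁻¹ * (g : L ≃ₐ[K] L)) (a' y) = a' y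
          rw [AlgEquiv.mul_apply, h2]
          exact (g' : L ≃ₐ[K] L).symm_apply_apply _
        calc g = g' * (g'⁻¹ * g) := by group
          _ = g' := by rw [h1, mul_one]⟩
      commutes := ⟨fun g t y => a'.toRingHom.injective (by
        show a' (g • (t • y)) = a' (t • (g • y))
        rw [hact, Algebra.smul_def, Algebra.smul_def, map_mul, map_mul, map_mul, hact]
        congr 1
        exact hfix _ t g.2)⟩
      isInvariant := ⟨fun y hy => by
        obtain ⟨t, ht⟩ := h5 y (fun g hg => by
          have h6 := hact ⟨g, hg⟩ y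
          rw [hy ⟨g, hg⟩] at h6
          exact h6.symm)
        exact ⟨t, ht⟩⟩ }

/-- An `F`-basis of `F₂` stays linearly independent over `F₁`. -/
theorem linearIndependent_square (a : F →ₐ[K] F₂) (b : F →ₐ[K] F₁) (a' : F₁ →ₐ[K] L)
    (b' : F₂ →ₐ[K] L) (hsq : a'.comp b = b'.comp a) (G : Subgroup (L ≃ₐ[K] L)) [Fintype G]
    (h2 : ∀ (g : L ≃ₐ[K] L) (y : F₂), g ∈ G → g (b' y) = b' y)
    (h3 : ∀ (g : L ≃ₐ[K] L) (y : F₁), g ∈ G → g (a' y) ∈ Set.range a')
    (h4 : ∀ g ∈ G, (∀ y : F₁, g (a' y) = a' y) → g = 1)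
    (h5 : ∀ y : F₁, (∀ g ∈ G, g (a' y) = a' y) → y ∈ Set.range b)
    {ι : Type} [Fintype ι]
    (x : ι → F₂) (hx : letI := algebraAlong a; LinearIndependent F x) :
    letI := algebraAlong a'
    LinearIndependent F₁ (fun i => b' (x i)) := by
  letI algA := algebraAlong a
  letI algA' := algebraAlong a'
  letI algB := algebraAlong b
  letI actG := mulSemiringActionF1 a' G h3
  have hsq' : ∀ t : F, a' (b t) = b' (a t) := fun t => congrArg (fun f => f t) hsq
  have hfix : ∀ (g : L ≃ₐ[K] L) (t : F), g ∈ G → g (a' (b t)) = a' (b t) := by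
    intro g t hg
    rw [hsq', h2 g _ hg]
  haveI : IsGaloisGroup G F F₁ := isGaloisGroup_F1 b a' G h3 hfix h4 h5
  have hact : ∀ (g : G) (y : F₁), a' (g • y) = (g : L ≃ₐ[K] L) (a' y) := map_actF1 a' G h3
  -- the trace
  have htr : ∀ z : F₁, ∃ t : F, b t = ∑ g : G, g • z := by
    intro z
    obtain ⟨t, ht⟩ := Algebra.IsInvariant.isInvariant (A := F) (G := G) (∑ g : G, g • z)
      (fun g₀ => by
        rw [Finset.smul_sum]
        refine Fintype.sum_equiv (Equiv.mulLeft g₀) _ _ (fun g => ?_)
        rw [Equiv.coe_mulLeft, mul_smul])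
    exact ⟨t, ht⟩
  -- Dedekind
  have hded : ∀ c : F₁, (∀ y : F₁, ∑ g : G, g • (y * c) = 0) → c = 0 := by
    intro c hc
    have li := linearIndependent_monoidHom F₁ F₁
    let ψ : G → (F₁ →* F₁) := fun g => (MulSemiringAction.toRingHom G F₁ g : F₁ →+* F₁)
    have hψ : Function.Injective ψ := by
      intro g g' h
      apply (IsGaloisGroup.faithful (G := G) (A := F) (B := F₁)).eq_of_smul_eq_smul
      intro y
      exact congrArg (fun f : F₁ →* F₁ => f y) h
    have li' := li.comp ψ hψ
    have h0 := Fintype.linearIndependent_iff.mp li' (fun g => g • c) (by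
      funext y
      simp only [Function.comp_apply, Finset.sum_apply, Pi.smul_apply, smul_eq_mul, Pi.zero_apply]
      rw [← hc y]
      refine Finset.sum_congr rfl fun g _ => ?_
      rw [smul_mul', mul_comm]
      rfl) 1
    simpa using h0
  rw [Fintype.linearIndependent_iff]
  intro c hc i
  apply hded
  intro y
  -- choose the traces
  choose t ht using fun j => htr (y * c j)
  have hsum : ∑ j, t j • x j = 0 := by
    apply b'.toRingHom.injective
    show b' (∑ j, t j • x j) = b' 0
    rw [map_zero, map_sum]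
    have h1 : ∀ j, b' (t j • x j) = ∑ g : G, (g : L ≃ₐ[K] L) (a' y * (c j • b' (x j))) := by
      intro j
      rw [Algebra.smul_def, map_mul]
      show b' (a (t j)) * b' (x j) = _
      rw [← hsq', ht j, map_sum, Finset.sum_mul]
      refine Finset.sum_congr rfl fun g _ => ?_
      rw [hact, Algebra.smul_def, map_mul, map_mul, map_mul, map_mul, h2 _ (x j) g.2]
      show _ = (g : L ≃ₐ[K] L) (a' y) * ((g : L ≃ₐ[K] L) (a' (c j)) * b' (x j))
      ring
    rw [Finset.sum_congr rfl (fun j _ => h1 j), Finset.sum_comm]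
    refine Finset.sum_eq_zero fun g _ => ?_
    rw [← map_sum, ← Finset.mul_sum, hc, mul_zero, map_zero]
  have ht0 := Fintype.linearIndependent_iff.mp hx t hsum i
  rw [← ht i, ht0, map_zero]

/-- **GAL-SQUARE**, generic form. -/
theorem galSquare (a : F →ₐ[K] F₂) (b : F →ₐ[K] F₁) (a' : F₁ →ₐ[K] L)
    (b' : F₂ →ₐ[K] L) (hsq : a'.comp b = b'.comp a) (hfin : FiniteAlong K a)
    (G : Subgroup (L ≃ₐ[K] L)) [Fintype G]
    (h1 : ∀ x : L, (∀ g ∈ G, g x = x) → x ∈ Set.range b')
    (h2 : ∀ (g : L ≃ₐ[K] L) (y : F₂), g ∈ G → g (b' y) = b' y)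
    (h3 : ∀ (g : L ≃ₐ[K] L) (y : F₁), g ∈ G → g (a' y) ∈ Set.range a')
    (h4 : ∀ g ∈ G, (∀ y : F₁, g (a' y) = a' y) → g = 1)
    (h5 : ∀ y : F₁, (∀ g ∈ G, g (a' y) = a' y) → y ∈ Set.range b) :
    FiniteAlong K a' ∧ finrankAlong K a' = finrankAlong K a ∧
    (∀ x : F₂, b (normFn a x) = normFn a' (b' x)) ∧
    (∀ y : F₁, a (normFn b y) = normFn b' (a' y)) := by
  letI algA := algebraAlong a
  letI algA' := algebraAlong a'
  letI algB := algebraAlong b
  letI algB' := algebraAlong b'
  letI algFL : Algebra F L := (a'.toRingHom.comp b.toRingHom).toAlgebra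
  letI actG := mulSemiringActionF1 a' G h3
  have hsq' : ∀ t : F, a' (b t) = b' (a t) := fun t => congrArg (fun f => f t) hsq
  have hfix : ∀ (g : L ≃ₐ[K] L) (t : F), g ∈ G → g (a' (b t)) = a' (b t) := by
    intro g t hg
    rw [hsq', h2 g _ hg]
  haveI : IsScalarTower F F₁ L := IsScalarTower.of_algebraMap_eq fun _ => rfl
  haveI : IsScalarTower F F₂ L := IsScalarTower.of_algebraMap_eq fun t => hsq' t
  haveI hG1 : IsGaloisGroup G F F₁ := isGaloisGroup_F1 b a' G h3 hfix h4 h5
  have hact : ∀ (g : G) (y : F₁), a' (g • y) = (g : L ≃ₐ[K] L) (a' y) := map_actF1 a' G h3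
  haveI : Module.Finite F F₂ := hfin
  obtain ⟨hfinb', hdegb', hnormb'⟩ := galNorm b' G h1 h2
  haveI : Module.Finite F₂ L := hfinb'
  haveI : Module.Finite F L := Module.Finite.trans F₂ L
  haveI hfinL : Module.Finite F₁ L := Module.Finite.of_restrictScalars_finite F F₁ L
  haveI : FiniteDimensional F F₁ := IsGaloisGroup.finiteDimensional G F F₁
  haveI : IsGalois F F₁ := IsGaloisGroup.isGalois G F F₁
  have hm : Module.finrank F F₁ = Fintype.card G := by
    rw [← IsGaloisGroup.card_eq_finrank G F F₁, Nat.card_eq_fintype_card]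
  have hdeg : Module.finrank F₁ L = Module.finrank F F₂ := by
    have e1 := Module.finrank_mul_finrank F F₁ L
    have e2 := Module.finrank_mul_finrank F F₂ L
    have e3 : Module.finrank F₂ L = Fintype.card G := hdegb'
    rw [hm] at e1
    rw [e3, ← e1, mul_comm] at e2
    have hpos : 0 < Fintype.card G := Fintype.card_pos
    exact (Nat.eq_of_mul_eq_mul_left hpos e2).symm
  refine ⟨hfinL, hdeg, ?_, ?_⟩
  · -- base change of the norm
    intro x
    classical
    let bx := Module.finBasis F F₂
    have hpos : 0 < Module.finrank F F₂ := Module.finrank_pos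
    haveI : Nonempty (Fin (Module.finrank F F₂)) := ⟨⟨0, hpos⟩⟩
    have li : LinearIndependent F₁ (fun i => b' (bx i)) :=
      linearIndependent_square a b a' b' hsq G h2 h3 h4 h5 (fun i => bx i) bx.linearIndependent
    let bL : Module.Basis (Fin (Module.finrank F F₂)) F₁ L :=
      basisOfLinearIndependentOfCardEqFinrank li (by rw [Fintype.card_fin, hdeg])
    exact norm_map_of_basis (b : F →+* F₁) (b' : F₂ →+* L) (fun t => (hsq' t).symm) bx bL
      (fun i => by
        simp only [bL, coe_basisOfLinearIndependentOfCardEqFinrank]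
        rfl) x
  · -- norms as products
    intro y
    apply b'.toRingHom.injective
    show b' (a (normFn b y)) = b' (normFn b' (a' y))
    rw [hnormb', ← hsq']
    have h6 : b (normFn b y) = ∏ g : G, g • y := by
      show algebraMap F F₁ (Algebra.norm F y) = _
      rw [Algebra.norm_eq_prod_automorphisms]
      symm
      refine Fintype.prod_equiv (IsGaloisGroup.mulEquivAlgEquiv G F F₁).toEquiv _ _ (fun g => ?_)
      exact (IsGaloisGroup.mulEquivAlgEquiv_apply_apply G F F₁ g y).symm
    rw [h6, map_prod]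
    exact Finset.prod_congr rfl fun g _ => hact g y

/-- **GAL-SQUARE**. -/
theorem stmt_GalSquare : Stmt_GalSquare := by
  intro K F F₁ F₂ L _ _ _ _ _ _ _ _ _ a b a' b' hsq hfin G _ h1 h2 h3 h4 h5
  exact galSquare a b a' b' hsq hfin G h1 h2 h3 h4 h5

end Fermat.Agent.NEB.H2
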