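import Mathlib
import Fermat.Agent.NEB.H14_JHDefs
import Fermat.Agent.RED.H95_IsFF
import Fermat.Agent.NEB.H2_GalSquare

/-!
# NEB, package JH (helper14): the rules of `J_H`

Notation of `H14_JHDefs`.  `hFF : IsFF ℚ̄ (FHbar M c H)` is FH-FF (helper84).  The two field-theoretic leaves
`Stmt_GalNorm`, `Stmt_GalSquare` are proved by helper2 (`NEB/H2_GalNorm`, `NEB/H2_GalSquare`).

* `T0_eq` : `T0 M ℓ` is the prelude's `heckeOperatorAlong ℚ̄ M ℓ`.
* `piDown_piUp` : `π_* π^* = [F_H : F₀]`;  `finrank_inclBar` : `[F_H : F₀] = |ρ(Δ)|`;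
  `piUp_piDown` : `π^* π_* = ∑_{g ∈ ρ(Δ)} g`.
* `diamond_piUp`, `piDown_diamond`, `TH_diamond`, `UH_diamond`.
* `piUp_T0`, `piDown_TH`, `piUp_U0`, `piDown_UH` : `π^* T₀ = T^H π^*`, `π_* T^H = T₀ π_*`, …
* Galois equivariance: `piUp_galois`, `piDown_galois`, `TH_galois`, `UH_galois`.
* Kummer forms: `TH_kummer`, `UH_kummer`, `piUp_kummer`, `piDown_kummer`.
-/

set_option autoImplicit false
set_option linter.unusedSectionVars false
set_option linter.style.haveILetI false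
set_option linter.dupNamespace false

noncomputable section

namespace Fermat.Agent.NEB.JH

open AlgebraicCurve AlgebraicCurve.SemilinearAut ModularCurve IntermediateField HahnSeries
open Fermat.Agent.NEB Fermat.Agent.NEB.H14 Fermat.Agent.RED

theorem isFF0 (M : ℕ) [NeZero M] : IsFF Kbar ↥(modularFunctionFieldBar M) :=
  Fermat.Agent.RED.H95.stmt_HKA_isFF M

theorem finite_units_zmod (c : ℕ) : Finite (ZMod c)ˣ := by
  rcases Nat.eq_zero_or_pos c with rfl | hc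
  · exact inferInstanceAs (Finite ℤˣ)
  · haveI : NeZero c := ⟨hc.ne'⟩
    infer_instance

theorem finite_range_rho {M c : ℕ} {H : Subgroup (ZMod c)ˣ} (dd : DiamondData M c H) :
    Finite dd.ρ.range := by
  haveI := finite_units_zmod c
  exact Finite.of_surjective dd.ρ.rangeRestrict dd.ρ.rangeRestrict_surjective

theorem neZero_mul (M ℓ : ℕ) [NeZero M] [NeZero ℓ] : NeZero (M * ℓ) :=
  ⟨Nat.mul_ne_zero (NeZero.ne M) (NeZero.ne ℓ)⟩

section T0

variable (M ℓ : ℕ) [NeZero M] [NeZero ℓ]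

/-- `T₀` is the prelude's Hecke operator. -/
theorem T0_eq : heckeOperatorAlong Kbar M ℓ = T0 M ℓ := by
  haveI := neZero_mul M ℓ
  have hF := isFF0 M
  have hF' := isFF0 (M * ℓ)
  haveI : HasPrincipalDivisors Kbar
      ↥(laurentBaseChange Kbar (modularFunctionFieldFull (M * ℓ))) := hasPD hF'
  rw [heckeOperatorAlong_eq (isIntegral_hom hF hF' (heckeAlphaBar Kbar M ℓ))
    (isIntegral_hom hF hF' (heckeBetaBar Kbar M ℓ))
    (Fermat.Agent.RED.H51.stmt_FFB_fundamental _ _ _ hF hF' _ _ _)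
    (finiteAlong_hom hF hF' (heckeAlphaBar Kbar M ℓ))
    (Fermat.Agent.RED.H51.stmt_FFB_norm _ _ _ hF hF' _ _)]
  exact correspondence_eq hF hF' _ _ _ _ _ _ _

end T0

section Pi

variable {M c : ℕ} [NeZero M] {H : Subgroup (ZMod c)ˣ}

/-- `π_* π^* = [F_H : F₀]`. -/
theorem piDown_piUp (hFF : IsFF Kbar ↥(FHbar M c H)) (x : JZero M) :
    piDown M c H (piUp M c H x) = finrankAlong Kbar (inclBar M c H) • x :=
  pushP_pullP (isFF0 M) hFF _ x

theorem galNorm_inclBar (dd : DiamondData M c H)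
    (G : Subgroup (↥(FHbar M c H) ≃ₐ[Kbar] ↥(FHbar M c H))) [Fintype G]
    (hG : G = dd.ρ.range) :
    FiniteAlong Kbar (inclBar M c H) ∧ finrankAlong Kbar (inclBar M c H) = Fintype.card G ∧
    ∀ x : ↥(FHbar M c H), inclBar M c H (normFn (inclBar M c H) x)
      = ∏ g : G, (g : ↥(FHbar M c H) ≃ₐ[Kbar] ↥(FHbar M c H)) x := by
  refine Fermat.Agent.NEB.H2.stmt_GalNorm Kbar _ _ (inclBar M c H) G ?_ ?_
  · intro x hx
    obtain ⟨x₀, hx₀⟩ := dd.fixed x (fun d => hx _ (hG ▸ ⟨d, rfl⟩))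
    exact ⟨x₀, hx₀⟩
  · intro g y hg
    rw [hG] at hg
    obtain ⟨d, rfl⟩ := hg
    exact dd.fix d y

/-- `[F_H : F₀] = |ρ(Δ)|`. -/
theorem finrank_inclBar (dd : DiamondData M c H)
    (G : Subgroup (↥(FHbar M c H) ≃ₐ[Kbar] ↥(FHbar M c H))) [Fintype G]
    (hG : G = dd.ρ.range) : finrankAlong Kbar (inclBar M c H) = Fintype.card G :=
  (galNorm_inclBar dd G hG).2.1

/-- `π^* π_* = ∑_{g ∈ ρ(Δ)} g`. -/
theorem piUp_piDown (hFF : IsFF Kbar ↥(FHbar M c H))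
    (dd : DiamondData M c H)
    (G : Subgroup (↥(FHbar M c H) ≃ₐ[Kbar] ↥(FHbar M c H))) [Fintype G]
    (hG : G = dd.ρ.range) (y : JH M c H) :
    piUp M c H (piDown M c H y)
      = ∑ g : G, (g : ↥(FHbar M c H) ≃ₐ[Kbar] ↥(FHbar M c H)) • y := by
  have hn := (galNorm_inclBar dd G hG).2.2
  have h := pullP_pushP_of_norm (isFF0 M) hFF (inclBar M c H)
    (fun g : G => (g : ↥(FHbar M c H) ≃ₐ[Kbar] ↥(FHbar M c H))) (fun x _ => hn x) y
  rw [piUp, piDown]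
  exact h

/-- Classes coming from `J₀` are fixed by the diamond operators. -/
theorem diamond_piUp (hFF : IsFF Kbar ↥(FHbar M c H)) (dd : DiamondData M c H)
    (d : (ZMod c)ˣ) (x : JZero M) : dd.ρ d • piUp M c H x = piUp M c H x := by
  have h := pullP_algEquiv (isFF0 M) hFF (inclBar M c H) 1 (dd.ρ d)
    (fun x => (dd.fix d x).symm) x
  rw [one_smul] at h
  exact h.symm

/-- `π_*` kills the diamond operators. -/
theorem piDown_diamond (hFF : IsFF Kbar ↥(FHbar M c H)) (dd : DiamondData M c H)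
    (d : (ZMod c)ˣ) (y : JH M c H) : piDown M c H (dd.ρ d • y) = piDown M c H y := by
  have h := pushP_algEquiv (isFF0 M) hFF (inclBar M c H) 1 (dd.ρ d)
    (fun x => (dd.fix d x).symm) y
  rw [one_smul] at h
  exact h

end Pi

section Hecke

variable {M c ℓ : ℕ} [NeZero M] [NeZero ℓ] {H : Subgroup (ZMod c)ˣ}

/-- `T^H` commutes with the diamond operators. -/
theorem TH_diamond (hd : HeckeData M c ℓ H) (d : (ZMod c)ˣ) (x : JH M c H) :
    TH hd.hβ (hd.dd.ρ d • x) = hd.dd.ρ d • TH hd.hβ x := by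
  rw [TH, AddMonoidHom.comp_apply, AddMonoidHom.comp_apply,
    pullP_algEquiv hd.isFF hd.isFF' (betaBar hd.hβ) (hd.dd.ρ d) (hd.dd'.ρ d)
      (fun x => (hd.betaGal d x).symm),
    pushP_algEquiv hd.isFF hd.isFF' (alphaH M c ℓ H) (hd.dd.ρ d) (hd.dd'.ρ d)
      (fun x => (hd.alphaGal d x).symm)]

/-- `U^H` commutes with the diamond operators. -/
theorem UH_diamond (hd : HeckeData M c ℓ H) (d : (ZMod c)ˣ) (x : JH M c H) :
    UH hd.hβ (hd.dd.ρ d • x) = hd.dd.ρ d • UH hd.hβ x := by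
  rw [UH, AddMonoidHom.comp_apply, AddMonoidHom.comp_apply,
    pullP_algEquiv hd.isFF hd.isFF' (alphaH M c ℓ H) (hd.dd.ρ d) (hd.dd'.ρ d)
      (fun x => (hd.alphaGal d x).symm),
    pushP_algEquiv hd.isFF hd.isFF' (betaBar hd.hβ) (hd.dd.ρ d) (hd.dd'.ρ d)
      (fun x => (hd.betaGal d x).symm)]

/-! ### Commutative squares -/

theorem inclBar_comp_alpha :
    (inclBar (M * ℓ) c H).comp (heckeAlphaBar Kbar M ℓ)
      = (alphaH M c ℓ H).comp (inclBar M c H) := by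
  refine AlgHom.ext fun x => Subtype.ext ?_
  simp only [AlgHom.comp_apply, coe_inclBar, coe_alphaH, coe_heckeAlphaBar]

theorem inclBar_comp_beta (hβ : BetaOK M c ℓ H) :
    (inclBar (M * ℓ) c H).comp (heckeBetaBar Kbar M ℓ)
      = (betaBar hβ).comp (inclBar M c H) := by
  refine AlgHom.ext fun x => Subtype.ext ?_
  simp only [AlgHom.comp_apply, coe_inclBar, coe_betaBar, coe_heckeBetaBar]

/-- The Galois square of `α`. -/
theorem galSquare_alpha (hd : HeckeData M c ℓ H) :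
    (∀ x : ↥(modularFunctionFieldBar (M * ℓ)),
      inclBar M c H (normFn (heckeAlphaBar Kbar M ℓ) x)
        = normFn (alphaH M c ℓ H) (inclBar (M * ℓ) c H x)) ∧
    (∀ y : ↥(FHbar M c H),
      heckeAlphaBar Kbar M ℓ (normFn (inclBar M c H) y)
        = normFn (inclBar (M * ℓ) c H) (alphaH M c ℓ H y)) := by
  haveI := neZero_mul M ℓ
  haveI := finite_range_rho hd.dd'
  haveI : Fintype hd.dd'.ρ.range := Fintype.ofFinite _
  have h := Fermat.Agent.NEB.H2.stmt_GalSquare Kbar _ _ _ _ (heckeAlphaBar Kbar M ℓ) (inclBar M c H) (alphaH M c ℓ H)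
    (inclBar (M * ℓ) c H) inclBar_comp_alpha.symm
    (finiteAlong_hom (isFF0 M) (isFF0 (M * ℓ)) _) hd.dd'.ρ.range ?_ ?_ ?_ ?_ ?_
  · exact ⟨h.2.2.1, h.2.2.2⟩
  · intro x hx
    obtain ⟨x₀, hx₀⟩ := hd.dd'.fixed x (fun d => hx _ ⟨d, rfl⟩)
    exact ⟨x₀, hx₀⟩
  · rintro g y ⟨d, rfl⟩
    exact hd.dd'.fix d y
  · rintro g y ⟨d, rfl⟩
    exact ⟨hd.dd.ρ d y, (hd.alphaGal d y).symm⟩
  · rintro g ⟨d, rfl⟩ hg
    have h1 : hd.dd.ρ d = 1 := by
      refine AlgEquiv.ext fun y => ?_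
      have h2 := hg y
      rw [hd.alphaGal d y] at h2
      exact (alphaH M c ℓ H).toRingHom.injective h2
    exact (hd.dd'.ker d).mpr ((hd.dd.ker d).mp h1)
  · intro y hy
    obtain ⟨x₀, hx₀⟩ := hd.dd.fixed y (fun d => by
      have h2 := hy _ ⟨d, rfl⟩
      rw [hd.alphaGal d y] at h2
      exact (alphaH M c ℓ H).toRingHom.injective h2)
    exact ⟨x₀, hx₀⟩

/-- The Galois square of `β`. -/
theorem galSquare_beta (hd : HeckeData M c ℓ H) :
    (∀ x : ↥(modularFunctionFieldBar (M * ℓ)),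
      inclBar M c H (normFn (heckeBetaBar Kbar M ℓ) x)
        = normFn (betaBar hd.hβ) (inclBar (M * ℓ) c H x)) ∧
    (∀ y : ↥(FHbar M c H),
      heckeBetaBar Kbar M ℓ (normFn (inclBar M c H) y)
        = normFn (inclBar (M * ℓ) c H) (betaBar hd.hβ y)) := by
  haveI := neZero_mul M ℓ
  haveI := finite_range_rho hd.dd'
  haveI : Fintype hd.dd'.ρ.range := Fintype.ofFinite _
  have h := Fermat.Agent.NEB.H2.stmt_GalSquare Kbar _ _ _ _ (heckeBetaBar Kbar M ℓ) (inclBar M c H) (betaBar hd.hβ)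
    (inclBar (M * ℓ) c H) (inclBar_comp_beta hd.hβ).symm
    (finiteAlong_hom (isFF0 M) (isFF0 (M * ℓ)) _) hd.dd'.ρ.range ?_ ?_ ?_ ?_ ?_
  · exact ⟨h.2.2.1, h.2.2.2⟩
  · intro x hx
    obtain ⟨x₀, hx₀⟩ := hd.dd'.fixed x (fun d => hx _ ⟨d, rfl⟩)
    exact ⟨x₀, hx₀⟩
  · rintro g y ⟨d, rfl⟩
    exact hd.dd'.fix d y
  · rintro g y ⟨d, rfl⟩
    exact ⟨hd.dd.ρ d y, (hd.betaGal d y).symm⟩
  · rintro g ⟨d, rfl⟩ hg
    have h1 : hd.dd.ρ d = 1 := by
      refine AlgEquiv.ext fun y => ?_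
      have h2 := hg y
      rw [hd.betaGal d y] at h2
      exact (betaBar hd.hβ).toRingHom.injective h2
    exact (hd.dd'.ker d).mpr ((hd.dd.ker d).mp h1)
  · intro y hy
    obtain ⟨x₀, hx₀⟩ := hd.dd.fixed y (fun d => by
      have h2 := hy _ ⟨d, rfl⟩
      rw [hd.betaGal d y] at h2
      exact (betaBar hd.hβ).toRingHom.injective h2)
    exact ⟨x₀, hx₀⟩

/-- `π^* T₀ = T^H π^*`. -/
theorem piUp_T0 (hd : HeckeData M c ℓ H) (x : JZero M) :
    piUp M c H (T0 M ℓ x) = TH hd.hβ (piUp M c H x) := by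
  haveI := neZero_mul M ℓ
  have hF := isFF0 M
  have hF' := isFF0 (M * ℓ)
  have hsq := square_of_norm_pic hF hd.isFF hF' hd.isFF' (heckeAlphaBar Kbar M ℓ)
    (inclBar M c H) (alphaH M c ℓ H) (inclBar (M * ℓ) c H)
    (fun x _ => (galSquare_alpha hd).1 x)
  have h1 := DFunLike.congr_fun hsq (pullP (heckeBetaBar Kbar M ℓ) x)
  simp only [AddMonoidHom.comp_apply] at h1
  have h2 := DFunLike.congr_fun (pullP_comp hF hF' hd.isFF' (heckeBetaBar Kbar M ℓ)
    (inclBar (M * ℓ) c H)) x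
  have h3 := DFunLike.congr_fun (pullP_comp hF hd.isFF hd.isFF' (inclBar M c H)
    (betaBar hd.hβ)) x
  rw [inclBar_comp_beta hd.hβ] at h2
  simp only [AddMonoidHom.comp_apply] at h2 h3
  rw [piUp, T0, TH, AddMonoidHom.comp_apply, AddMonoidHom.comp_apply, h1, ← h2, h3]

/-- `π_* T^H = T₀ π_*`. -/
theorem piDown_TH (hd : HeckeData M c ℓ H) (y : JH M c H) :
    piDown M c H (TH hd.hβ y) = T0 M ℓ (piDown M c H y) := by
  haveI := neZero_mul M ℓ
  have hF := isFF0 M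
  have hF' := isFF0 (M * ℓ)
  have hsq := square_of_norm_pic hF hF' hd.isFF hd.isFF' (inclBar M c H)
    (heckeBetaBar Kbar M ℓ) (inclBar (M * ℓ) c H) (betaBar hd.hβ)
    (fun y _ => (galSquare_beta hd).2 y)
  have h1 := DFunLike.congr_fun hsq y
  simp only [AddMonoidHom.comp_apply] at h1
  have h2 := DFunLike.congr_fun (pushP_comp hF hF' hd.isFF' (heckeAlphaBar Kbar M ℓ)
    (inclBar (M * ℓ) c H)) (pullP (betaBar hd.hβ) y)
  have h3 := DFunLike.congr_fun (pushP_comp hF hd.isFF hd.isFF' (inclBar M c H)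
    (alphaH M c ℓ H)) (pullP (betaBar hd.hβ) y)
  rw [inclBar_comp_alpha] at h2
  simp only [AddMonoidHom.comp_apply] at h2 h3
  rw [piDown, T0, TH, AddMonoidHom.comp_apply, AddMonoidHom.comp_apply, h1, ← h2, h3]

/-- `π^* U₀ = U^H π^*`. -/
theorem piUp_U0 (hd : HeckeData M c ℓ H) (x : JZero M) :
    piUp M c H (U0 M ℓ x) = UH hd.hβ (piUp M c H x) := by
  haveI := neZero_mul M ℓ
  have hF := isFF0 M
  have hF' := isFF0 (M * ℓ)
  have hsq := square_of_norm_pic hF hd.isFF hF' hd.isFF' (heckeBetaBar Kbar M ℓ)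
    (inclBar M c H) (betaBar hd.hβ) (inclBar (M * ℓ) c H)
    (fun x _ => (galSquare_beta hd).1 x)
  have h1 := DFunLike.congr_fun hsq (pullP (heckeAlphaBar Kbar M ℓ) x)
  simp only [AddMonoidHom.comp_apply] at h1
  have h2 := DFunLike.congr_fun (pullP_comp hF hF' hd.isFF' (heckeAlphaBar Kbar M ℓ)
    (inclBar (M * ℓ) c H)) x
  have h3 := DFunLike.congr_fun (pullP_comp hF hd.isFF hd.isFF' (inclBar M c H)
    (alphaH M c ℓ H)) x
  rw [inclBar_comp_alpha] at h2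
  simp only [AddMonoidHom.comp_apply] at h2 h3
  rw [piUp, U0, UH, AddMonoidHom.comp_apply, AddMonoidHom.comp_apply, h1, ← h2, h3]

/-- `π_* U^H = U₀ π_*`. -/
theorem piDown_UH (hd : HeckeData M c ℓ H) (y : JH M c H) :
    piDown M c H (UH hd.hβ y) = U0 M ℓ (piDown M c H y) := by
  haveI := neZero_mul M ℓ
  have hF := isFF0 M
  have hF' := isFF0 (M * ℓ)
  have hsq := square_of_norm_pic hF hF' hd.isFF hd.isFF' (inclBar M c H)
    (heckeAlphaBar Kbar M ℓ) (inclBar (M * ℓ) c H) (alphaH M c ℓ H)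
    (fun y _ => (galSquare_alpha hd).2 y)
  have h1 := DFunLike.congr_fun hsq y
  simp only [AddMonoidHom.comp_apply] at h1
  have h2 := DFunLike.congr_fun (pushP_comp hF hF' hd.isFF' (heckeBetaBar Kbar M ℓ)
    (inclBar (M * ℓ) c H)) (pullP (alphaH M c ℓ H) y)
  have h3 := DFunLike.congr_fun (pushP_comp hF hd.isFF hd.isFF' (inclBar M c H)
    (betaBar hd.hβ)) (pullP (alphaH M c ℓ H) y)
  rw [inclBar_comp_beta hd.hβ] at h2
  simp only [AddMonoidHom.comp_apply] at h2 h3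
  rw [piDown, U0, UH, AddMonoidHom.comp_apply, AddMonoidHom.comp_apply, h1, ← h2, h3]

end Hecke

/-! ### Galois equivariance -/

section Galois

variable {M c ℓ : ℕ} [NeZero M] [NeZero ℓ] {H : Subgroup (ZMod c)ˣ}

theorem intertwines_inclBar (σ : Kbar ≃ₐ[ℚ] Kbar) :
    IntertwinesAlong ((inclBar M c H : _ →ₐ[Kbar] _) : _ →+* _)
      (arithmeticGalois (modularFunctionFieldFull M) σ) (arithmeticGalois (FHQ M c H) σ) := by
  intro x
  apply Subtype.ext
  rw [coe_arithmeticGalois_smul]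
  show coeffMap (σ : Kbar →+* Kbar) ((inclBar M c H x : _) : LaurentSeries Kbar) =
    ((inclBar M c H (arithmeticGalois (modularFunctionFieldFull M) σ • x) : _) :
      LaurentSeries Kbar)
  rw [coe_inclBar, coe_inclBar, coe_arithmeticGalois_smul]

theorem intertwines_alphaH (σ : Kbar ≃ₐ[ℚ] Kbar) :
    IntertwinesAlong ((alphaH M c ℓ H : _ →ₐ[Kbar] _) : _ →+* _)
      (arithmeticGalois (FHQ M c H) σ) (arithmeticGalois (FHQ (M * ℓ) c H) σ) := by
  intro x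
  apply Subtype.ext
  rw [coe_arithmeticGalois_smul]
  show coeffMap (σ : Kbar →+* Kbar) ((alphaH M c ℓ H x : _) : LaurentSeries Kbar) =
    ((alphaH M c ℓ H (arithmeticGalois (FHQ M c H) σ • x) : _) : LaurentSeries Kbar)
  rw [coe_alphaH, coe_alphaH, coe_arithmeticGalois_smul]

theorem intertwines_betaBar (hβ : BetaOK M c ℓ H) (σ : Kbar ≃ₐ[ℚ] Kbar) :
    IntertwinesAlong ((betaBar hβ : _ →ₐ[Kbar] _) : _ →+* _)
      (arithmeticGalois (FHQ M c H) σ) (arithmeticGalois (FHQ (M * ℓ) c H) σ) := by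
  intro x
  apply Subtype.ext
  rw [coe_arithmeticGalois_smul]
  show coeffMap (σ : Kbar →+* Kbar) ((betaBar hβ x : _) : LaurentSeries Kbar) =
    ((betaBar hβ (arithmeticGalois (FHQ M c H) σ • x) : _) : LaurentSeries Kbar)
  rw [coe_betaBar, coe_betaBar, coe_arithmeticGalois_smul, coeffMap_qExpand_jh]

/-- `π^*` commutes with the Galois action. -/
theorem piUp_galois (hFF : IsFF Kbar ↥(FHbar M c H)) (σ : Kbar ≃ₐ[ℚ] Kbar) (x : JZero M) :
    piUp M c H (σ • x) = σ • piUp M c H x := by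
  rw [galois_smul_pic0_def, galois_smul_pic0_def]
  exact pullP_semilinear (isFF0 M) hFF _ _ _ (intertwines_inclBar σ) x

/-- `π_*` commutes with the Galois action. -/
theorem piDown_galois (hFF : IsFF Kbar ↥(FHbar M c H)) (σ : Kbar ≃ₐ[ℚ] Kbar) (y : JH M c H) :
    piDown M c H (σ • y) = σ • piDown M c H y := by
  rw [galois_smul_pic0_def, galois_smul_pic0_def]
  exact pushP_semilinear (isFF0 M) hFF _ _ _ (intertwines_inclBar σ) y

/-- `T^H` commutes with the Galois action. -/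
theorem TH_galois (hFF : IsFF Kbar ↥(FHbar M c H)) (hFF' : IsFF Kbar ↥(FHbar (M * ℓ) c H))
    (hβ : BetaOK M c ℓ H) (σ : Kbar ≃ₐ[ℚ] Kbar) (x : JH M c H) :
    TH hβ (σ • x) = σ • TH hβ x := by
  rw [galois_smul_pic0_def, galois_smul_pic0_def, TH, AddMonoidHom.comp_apply,
    AddMonoidHom.comp_apply,
    pullP_semilinear hFF hFF' _ _ _ (intertwines_betaBar hβ σ) x,
    pushP_semilinear hFF hFF' _ _ _ (intertwines_alphaH σ)]

/-- `U^H` commutes with the Galois action. -/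
theorem UH_galois (hFF : IsFF Kbar ↥(FHbar M c H)) (hFF' : IsFF Kbar ↥(FHbar (M * ℓ) c H))
    (hβ : BetaOK M c ℓ H) (σ : Kbar ≃ₐ[ℚ] Kbar) (x : JH M c H) :
    UH hβ (σ • x) = σ • UH hβ x := by
  rw [galois_smul_pic0_def, galois_smul_pic0_def, UH, AddMonoidHom.comp_apply,
    AddMonoidHom.comp_apply,
    pullP_semilinear hFF hFF' _ _ _ (intertwines_alphaH σ) x,
    pushP_semilinear hFF hFF' _ _ _ (intertwines_betaBar hβ σ)]

/-- The diamond operators commute with the Galois action. -/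
theorem diamond_galois (hFF : IsFF Kbar ↥(FHbar M c H)) (dd : DiamondData M c H)
    (d : (ZMod c)ˣ) (σ : Kbar ≃ₐ[ℚ] Kbar) (x : JH M c H) :
    dd.ρ d • (σ • x) = σ • (dd.ρ d • x) := by
  rw [← pullP_smul hFF (dd.ρ d), ← pullP_smul hFF (dd.ρ d), galois_smul_pic0_def,
    galois_smul_pic0_def]
  refine pullP_semilinear hFF hFF _ _ _ (fun y => ?_) x
  exact (dd.gal d σ y).symm

end Galois

/-! ### The operators as correspondences (Kummer forms) -/

section Kummer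

variable {M c ℓ : ℕ} [NeZero M] [NeZero ℓ] {H : Subgroup (ZMod c)ˣ}

/-- `T^H` on divisors. -/
def THdiv (hβ : BetaOK M c ℓ H) : Divisor Kbar ↥(FHbar M c H) →+ Divisor Kbar ↥(FHbar M c H) :=
  (pushD (alphaH M c ℓ H)).comp (pullD (betaBar hβ))

/-- `U^H` on divisors. -/
def UHdiv (hβ : BetaOK M c ℓ H) : Divisor Kbar ↥(FHbar M c H) →+ Divisor Kbar ↥(FHbar M c H) :=
  (pushD (betaBar hβ)).comp (pullD (alphaH M c ℓ H))

theorem isCorr_THdiv (hFF : IsFF Kbar ↥(FHbar M c H)) (hFF' : IsFF Kbar ↥(FHbar (M * ℓ) c H))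
    (hβ : BetaOK M c ℓ H) :
    IsCorr (THdiv hβ) (THfn hβ) (1 * finrankAlong Kbar (betaBar hβ)) :=
  (isCorr_pushD hFF hFF' (alphaH M c ℓ H)).comp (isCorr_pullD hFF hFF' (betaBar hβ))

theorem isCorr_UHdiv (hFF : IsFF Kbar ↥(FHbar M c H)) (hFF' : IsFF Kbar ↥(FHbar (M * ℓ) c H))
    (hβ : BetaOK M c ℓ H) :
    IsCorr (UHdiv hβ) (UHfn hβ) (1 * finrankAlong Kbar (alphaH M c ℓ H)) :=
  (isCorr_pushD hFF hFF' (betaBar hβ)).comp (isCorr_pullD hFF hFF' (alphaH M c ℓ H))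

theorem TH_eq_picMap (hFF : IsFF Kbar ↥(FHbar M c H)) (hFF' : IsFF Kbar ↥(FHbar (M * ℓ) c H))
    (hβ : BetaOK M c ℓ H) : TH hβ = picMap (THdiv hβ) :=
  (picMap_comp (isCorr_pushD hFF hFF' (alphaH M c ℓ H)).isGood
    (isCorr_pullD hFF hFF' (betaBar hβ)).isGood).symm

theorem UH_eq_picMap (hFF : IsFF Kbar ↥(FHbar M c H)) (hFF' : IsFF Kbar ↥(FHbar (M * ℓ) c H))
    (hβ : BetaOK M c ℓ H) : UH hβ = picMap (UHdiv hβ) :=
  (picMap_comp (isCorr_pushD hFF hFF' (betaBar hβ)).isGood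
    (isCorr_pullD hFF hFF' (alphaH M c ℓ H)).isGood).symm

/-- **Kummer form of `T^H`**: if `x = [D]` and `n D = div f`, then `T^H x = [E]` with
`n E = div (Norm_α (β f))`. -/
theorem TH_kummer (hFF : IsFF Kbar ↥(FHbar M c H)) (hFF' : IsFF Kbar ↥(FHbar (M * ℓ) c H))
    (hβ : BetaOK M c ℓ H) (n : ℤ) (D : Divisor.degZero (K := Kbar) (F := ↥(FHbar M c H)))
    {f : ↥(FHbar M c H)} (hf : f ≠ 0)
    (hD : ∀ v, n * (D : Divisor Kbar ↥(FHbar M c H)) v = v.ord f) :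
    ∃ E : Divisor.degZero (K := Kbar) (F := ↥(FHbar M c H)),
      TH hβ (Pic0.mk D) = Pic0.mk E ∧ THfn hβ f ≠ 0 ∧
      ∀ v, n * (E : Divisor Kbar ↥(FHbar M c H)) v = v.ord (THfn hβ f) := by
  have hc := isCorr_THdiv hFF hFF' hβ
  refine ⟨degZeroMap (THdiv hβ) hc.isGood D, ?_, (hc.hasFn f hf).1, fun v => ?_⟩
  · rw [TH_eq_picMap hFF hFF', picMap_mk hc.isGood]
  · exact hc.hasFn.kummer n _ hf hD v

/-- **Kummer form of `U^H`**. -/
theorem UH_kummer (hFF : IsFF Kbar ↥(FHbar M c H)) (hFF' : IsFF Kbar ↥(FHbar (M * ℓ) c H))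
    (hβ : BetaOK M c ℓ H) (n : ℤ) (D : Divisor.degZero (K := Kbar) (F := ↥(FHbar M c H)))
    {f : ↥(FHbar M c H)} (hf : f ≠ 0)
    (hD : ∀ v, n * (D : Divisor Kbar ↥(FHbar M c H)) v = v.ord f) :
    ∃ E : Divisor.degZero (K := Kbar) (F := ↥(FHbar M c H)),
      UH hβ (Pic0.mk D) = Pic0.mk E ∧ UHfn hβ f ≠ 0 ∧
      ∀ v, n * (E : Divisor Kbar ↥(FHbar M c H)) v = v.ord (UHfn hβ f) := by
  have hc := isCorr_UHdiv hFF hFF' hβ
  refine ⟨degZeroMap (UHdiv hβ) hc.isGood D, ?_, (hc.hasFn f hf).1, fun v => ?_⟩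
  · rw [UH_eq_picMap hFF hFF', picMap_mk hc.isGood]
  · exact hc.hasFn.kummer n _ hf hD v

/-- **Kummer form of `π^*`**. -/
theorem piUp_kummer (hFF : IsFF Kbar ↥(FHbar M c H)) (n : ℤ)
    (D : Divisor.degZero (K := Kbar) (F := ↥(modularFunctionFieldBar M)))
    {f : ↥(modularFunctionFieldBar M)} (hf : f ≠ 0)
    (hD : ∀ v, n * (D : Divisor Kbar ↥(modularFunctionFieldBar M)) v = v.ord f) :
    ∃ E : Divisor.degZero (K := Kbar) (F := ↥(FHbar M c H)),
      piUp M c H (Pic0.mk D) = Pic0.mk E ∧ inclBar M c H f ≠ 0 ∧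
      ∀ w, n * (E : Divisor Kbar ↥(FHbar M c H)) w = w.ord (inclBar M c H f) := by
  have hc := isCorr_pullD (isFF0 M) hFF (inclBar M c H)
  refine ⟨degZeroMap _ hc.isGood D, ?_, (hc.hasFn f hf).1, fun v => ?_⟩
  · rw [piUp, pullP, picMap_mk hc.isGood]
  · exact hc.hasFn.kummer n _ hf hD v

/-- **Kummer form of `π_*`**. -/
theorem piDown_kummer (hFF : IsFF Kbar ↥(FHbar M c H)) (n : ℤ)
    (D : Divisor.degZero (K := Kbar) (F := ↥(FHbar M c H)))
    {f : ↥(FHbar M c H)} (hf : f ≠ 0)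
    (hD : ∀ w, n * (D : Divisor Kbar ↥(FHbar M c H)) w = w.ord f) :
    ∃ E : Divisor.degZero (K := Kbar) (F := ↥(modularFunctionFieldBar M)),
      piDown M c H (Pic0.mk D) = Pic0.mk E ∧ normFn (inclBar M c H) f ≠ 0 ∧
      ∀ v, n * (E : Divisor Kbar ↥(modularFunctionFieldBar M)) v
        = v.ord (normFn (inclBar M c H) f) := by
  have hc := isCorr_pushD (isFF0 M) hFF (inclBar M c H)
  refine ⟨degZeroMap _ hc.isGood D, ?_, (hc.hasFn f hf).1, fun v => ?_⟩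
  · rw [piDown, pushP, picMap_mk hc.isGood]
  · exact hc.hasFn.kummer n _ hf hD v

/-- **Kummer form of the diamond operators**. -/
theorem diamond_kummer (dd : DiamondData M c H) (d : (ZMod c)ˣ) (n : ℤ)
    (D : Divisor.degZero (K := Kbar) (F := ↥(FHbar M c H)))
    {f : ↥(FHbar M c H)} (hf : f ≠ 0)
    (hD : ∀ w, n * (D : Divisor Kbar ↥(FHbar M c H)) w = w.ord f) :
    ∃ E : Divisor.degZero (K := Kbar) (F := ↥(FHbar M c H)),
      dd.ρ d • (Pic0.mk D) = Pic0.mk E ∧ dd.ρ d f ≠ 0 ∧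
      ∀ w, n * (E : Divisor Kbar ↥(FHbar M c H)) w = w.ord (dd.ρ d f) := by
  have hc := isCorr_smulD (dd.ρ d)
  refine ⟨degZeroMap _ hc.isGood D, ?_, (hc.hasFn f hf).1, fun v => ?_⟩
  · rw [← picMap_smulD, picMap_mk hc.isGood]
  · exact hc.hasFn.kummer n _ hf hD v

end Kummer

end Fermat.Agent.NEB.JH
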