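import Mathlib.FieldTheory.Galois.Basic
import Mathlib.RepresentationTheory.Homological.GroupCohomology.Hilbert90
import Mathlib.Tactic

/-!
# LG-NEB, package INV-ABS (helper29)

Pure algebra.  `L / E` finite Galois with group `Δ`, `m n : ℕ`, and `T : Lˣ →* Lˣ` a
`Δ`-equivariant endomorphism which acts on the `m`-th roots of unity by `ζ ↦ ζ ^ n`.

* `stmt_INV_ABS`: if the Kummer class of `f : Lˣ` is `Δ`-invariant (`δ f = f * h ^ m`), then
  `T f / f ^ n` is, up to an `m`-th power of `Lˣ`, an element of `Eˣ`.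
  (The obstruction `c(δ, δ') = h_δ · δ h_δ' / h_{δδ'}` is `μ_m`-valued, hence killed by
  `T - n`; Hilbert 90 does the rest.)
* `stmt_SIGMA_ABS`: if `y : Lˣ` has `y ^ m ∈ E`, then `T (y ^ m) / (y ^ m) ^ n` is the `m`-th
  power of an element of `Eˣ`.
-/

set_option autoImplicit false

namespace Fermat.Agent.NEB.H29

open groupCohomology

section CommGroupLemmas

variable {G : Type*} [CommGroup G]

theorem invabs_cancel_aux (a b c ta tb tc : G) (n : ℕ)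
    (h4 : ta * tb * tc⁻¹ = (a * b * c⁻¹) ^ n) :
    tc * (c ^ n)⁻¹ = tb * (b ^ n)⁻¹ * (ta * (a ^ n)⁻¹) := by
  have h5 : tc = ta * tb * ((a * b * c⁻¹) ^ n)⁻¹ := by
    rw [← h4, mul_inv_rev, inv_inv, mul_comm tc, mul_inv_cancel_left]
  rw [h5]
  simp only [mul_pow, inv_pow, mul_inv_rev, inv_inv]
  have : (c ^ n) * (c ^ n)⁻¹ = 1 := mul_inv_cancel _
  calc ta * tb * (c ^ n * ((b ^ n)⁻¹ * (a ^ n)⁻¹)) * (c ^ n)⁻¹
      = tb * (b ^ n)⁻¹ * (ta * (a ^ n)⁻¹) * ((c ^ n) * (c ^ n)⁻¹) := by ac_rfl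
    _ = _ := by rw [this, mul_one]

theorem invabs_fix_aux (f tf β hd thd : G) (m n : ℕ) :
    tf * thd ^ m * ((f * hd ^ m) ^ n)⁻¹ * ((β * (thd * (hd ^ n)⁻¹))⁻¹) ^ m
      = tf * (f ^ n)⁻¹ * (β⁻¹) ^ m := by
  simp only [mul_pow, inv_pow, mul_inv_rev, inv_inv, ← pow_mul]
  have e1 : hd ^ (n * m) = hd ^ (m * n) := by rw [mul_comm]
  rw [e1]
  have h1 : (hd ^ (m * n)) * (hd ^ (m * n))⁻¹ = 1 := mul_inv_cancel _
  have h2 : (thd ^ m) * (thd ^ m)⁻¹ = 1 := mul_inv_cancel _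
  calc tf * thd ^ m * ((hd ^ (m * n))⁻¹ * (f ^ n)⁻¹) * (hd ^ (m * n) * (thd ^ m)⁻¹ * (β ^ m)⁻¹)
      = tf * (f ^ n)⁻¹ * (β ^ m)⁻¹ * ((hd ^ (m * n)) * (hd ^ (m * n))⁻¹)
          * ((thd ^ m) * (thd ^ m)⁻¹) := by ac_rfl
    _ = _ := by rw [h1, h2, mul_one, mul_one]

end CommGroupLemmas

section InvAbs

variable {E L : Type*} [Field E] [Field L] [Algebra E L] [FiniteDimensional E L] [IsGalois E L]

/-- A unit of `L` fixed by the Galois group comes from a unit of `E`. -/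
theorem exists_unit_of_fixed (x : Lˣ) (hx : ∀ δ : L ≃ₐ[E] L, δ (x : L) = x) :
    ∃ e : Eˣ, (x : L) = algebraMap E L e := by
  obtain ⟨e, he⟩ := (IsGalois.mem_range_algebraMap_iff_fixed (F := E) (E := L) (x : L)).2 hx
  have he0 : e ≠ 0 := by
    rintro rfl
    rw [map_zero] at he
    exact x.ne_zero he.symm
  exact ⟨Units.mk0 e he0, he.symm⟩

/-- **INV-ABS**.  If the Kummer class of `f` is Galois invariant and `T` is a Galois
equivariant endomorphism of `Lˣ` acting on `μ_m` by `ζ ↦ ζ ^ n`, then `T f / f ^ n` is an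
element of `Eˣ` up to `m`-th powers. -/
theorem stmt_INV_ABS (m n : ℕ) (f : Lˣ)
    (hf : ∀ δ : L ≃ₐ[E] L, ∃ h : Lˣ, δ (f : L) = f * (h : L) ^ m)
    (T : Lˣ →* Lˣ)
    (hT : ∀ (δ : L ≃ₐ[E] L) (x : Lˣ), Units.map (δ : L →* L) (T x) = T (Units.map (δ : L →* L) x))
    (hζ : ∀ ζ : Lˣ, ζ ^ m = 1 → T ζ = ζ ^ n) :
    ∃ g : Lˣ, ∃ e : Eˣ, ((T f : Lˣ) : L) * ((f : L) ^ n)⁻¹ * (g : L) ^ m = algebraMap E L e := by
  classical
  choose h hh using hf
  -- unit form of the invariance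
  have hh' : ∀ δ : L ≃ₐ[E] L, Units.map (δ : L →* L) f = f * h δ ^ m := by
    intro δ
    ext
    simpa using hh δ
  -- the obstruction is `μ_m`-valued
  have hc : ∀ δ δ' : L ≃ₐ[E] L,
      (h δ * Units.map (δ : L →* L) (h δ') * (h (δ * δ'))⁻¹) ^ m = 1 := by
    intro δ δ'
    have h1 : Units.map ((δ * δ' : L ≃ₐ[E] L) : L →* L) f = f * h (δ * δ') ^ m := hh' _
    have h2 : Units.map ((δ * δ' : L ≃ₐ[E] L) : L →* L) f
        = Units.map (δ : L →* L) (Units.map (δ' : L →* L) f) := by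
      ext; simp [AlgEquiv.mul_apply]
    rw [h2, hh' δ', map_mul, map_pow, hh' δ, mul_assoc] at h1
    have h3 := mul_left_cancel h1
    rw [mul_pow, mul_pow, h3, inv_pow, mul_inv_cancel]
  -- the new cochain
  set h' : (L ≃ₐ[E] L) → Lˣ := fun δ => T (h δ) * (h δ ^ n)⁻¹ with hh'def
  have hcoc : IsMulCocycle₁ h' := by
    intro δ δ'
    have h4 := hζ _ (hc δ δ')
    rw [map_mul, map_mul, map_inv, ← hT] at h4
    simp only [hh'def, AlgEquiv.smul_units_def, map_mul, map_inv, map_pow]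
    exact invabs_cancel_aux _ _ _ _ _ _ n h4
  obtain ⟨β, hβ⟩ := isMulCoboundary₁_of_isMulCocycle₁_of_aut_to_units h' hcoc
  -- `δ β / β = h' δ`
  have hfix : ∀ δ : L ≃ₐ[E] L,
      Units.map (δ : L →* L) (T f * (f ^ n)⁻¹ * (β⁻¹) ^ m) = T f * (f ^ n)⁻¹ * (β⁻¹) ^ m := by
    intro δ
    have hb : Units.map (δ : L →* L) β = β * h' δ := by
      have := hβ δ
      rw [AlgEquiv.smul_units_def, div_eq_iff_eq_mul] at this
      rw [this, mul_comm]
    rw [map_mul, map_mul, map_inv, map_pow, map_pow, map_inv, hT, hh' δ, hb, map_mul, map_pow]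
    exact invabs_fix_aux _ _ _ _ _ m n
  obtain ⟨e, he⟩ := exists_unit_of_fixed (E := E) (T f * (f ^ n)⁻¹ * (β⁻¹) ^ m) (by
    intro δ
    have := congrArg Units.val (hfix δ)
    simpa using this)
  refine ⟨β⁻¹, e, ?_⟩
  rw [← he]
  simp

/-- **SIGMA-ABS**.  If `y ^ m ∈ E`, then `T (y ^ m) / (y ^ m) ^ n` is the `m`-th power of an
element of `Eˣ` (namely of `T y / y ^ n`, which is Galois invariant). -/
theorem stmt_SIGMA_ABS (m n : ℕ) (y : Lˣ)
    (hy : ∃ e : E, algebraMap E L e = (y : L) ^ m)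
    (T : Lˣ →* Lˣ)
    (hT : ∀ (δ : L ≃ₐ[E] L) (x : Lˣ), Units.map (δ : L →* L) (T x) = T (Units.map (δ : L →* L) x))
    (hζ : ∀ ζ : Lˣ, ζ ^ m = 1 → T ζ = ζ ^ n) :
    ∃ e : Eˣ, ((T y : Lˣ) : L) * ((y : L) ^ n)⁻¹ = algebraMap E L e ∧
      ((T (y ^ m) : Lˣ) : L) * (((y : L) ^ m) ^ n)⁻¹ = algebraMap E L ((e ^ m : Eˣ) : E) := by
  classical
  obtain ⟨e0, he0⟩ := hy
  have hψ : ∀ δ : L ≃ₐ[E] L, (Units.map (δ : L →* L) y * y⁻¹) ^ m = 1 := by
    intro δ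
    ext
    have h1 : δ ((y : L) ^ m) = (y : L) ^ m := by
      rw [← he0]; exact δ.commutes e0
    rw [map_pow] at h1
    simp only [mul_pow, inv_pow, Units.val_mul, Units.val_pow_eq_pow_val, Units.coe_map,
      MonoidHom.coe_coe, Units.val_inv_eq_inv_val, Units.val_one]
    rw [h1]
    exact mul_inv_cancel₀ (pow_ne_zero _ y.ne_zero)
  have hfix : ∀ δ : L ≃ₐ[E] L,
      Units.map (δ : L →* L) (T y * (y ^ n)⁻¹) = T y * (y ^ n)⁻¹ := by
    intro δ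
    have h1 := hζ _ (hψ δ)
    rw [map_mul, map_inv, ← hT] at h1
    rw [map_mul, map_inv, map_pow]
    -- `h1 : δ (T y) * (T y)⁻¹ = (δ y * y⁻¹) ^ n`
    have h2 : Units.map (δ : L →* L) (T y) = (Units.map (δ : L →* L) y * y⁻¹) ^ n * T y := by
      rw [← h1]; simp
    rw [h2]
    simp only [mul_pow, inv_pow]
    have h3 : (Units.map (δ : L →* L) y ^ n) * (Units.map (δ : L →* L) y ^ n)⁻¹ = 1 :=
      mul_inv_cancel _
    calc Units.map (δ : L →* L) y ^ n * (y ^ n)⁻¹ * T y * (Units.map (δ : L →* L) y ^ n)⁻¹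
        = T y * (y ^ n)⁻¹ * ((Units.map (δ : L →* L) y ^ n)
            * (Units.map (δ : L →* L) y ^ n)⁻¹) := by ac_rfl
      _ = _ := by rw [h3, mul_one]
  obtain ⟨e, he⟩ := exists_unit_of_fixed (E := E) (T y * (y ^ n)⁻¹) (by
    intro δ
    have := congrArg Units.val (hfix δ)
    simpa using this)
  refine ⟨e, ?_, ?_⟩
  · rw [← he]; simp
  · have h1 : ((T (y ^ m) : Lˣ) : L) * (((y : L) ^ m) ^ n)⁻¹
        = (((T y * (y ^ n)⁻¹ : Lˣ) : L)) ^ m := by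
      rw [map_pow]
      simp only [Units.val_mul, Units.val_pow_eq_pow_val, Units.val_inv_eq_inv_val, mul_pow,
        inv_pow, ← pow_mul]
      rw [mul_comm m n]
    rw [h1, he]
    simp

end InvAbs

end Fermat.Agent.NEB.H29
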