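import Mathlib
import Fermat.Agent.NEB.H14_CorrFF
import Fermat.Agent.NEB.H29_InvAbs
import Fermat.Agent.GTor.H33_KUM

/-!
# LG-NEB, package INV, the core (helper29)

`K` algebraically closed, `E → L` an extension of fields with principal divisors over `K`
(function fields), `G` a finite group acting on `L` through `ρ` with fixed field `φ(E)`, `m ≠ 0`.
`Φ : Div(L) → Div(L)` a correspondence with function `N` (helper14's calculus `IsCorr`), with
`N` multiplicative, `G`-equivariant and `N ζ = ζ ^ n` on `μ_m(K)` (for `T_ℓ^H = α_* β^*`: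
`N = Norm_α ∘ β`, `n = ℓ + 1`).

* `stmt_INV_core` : if `y ∈ Pic⁰(L)[m]` is `G`-invariant then `Φ y - n y = π^* y₀` with
  `y₀ ∈ Pic⁰(E)[m]`, provided `L / E` is unramified (in the form `hunr`).
* `stmt_SIGMA_core` : if `y₀ ∈ Pic⁰(E)[m]` has `π^* y₀ = 0` then `Φ₀ y₀ - n y₀ = 0`
  (`ker π^*` is Eisenstein), for a correspondence `Φ₀` of `E` with function `N₀`, `φ ∘ N₀ = N ∘ φ`.
-/

set_option autoImplicit false
set_option linter.style.haveILetI false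

noncomputable section

namespace Fermat.Agent.NEB.H29

open AlgebraicCurve Fermat.Agent.NEB.H14 Fermat.Agent.GTor

/-! ### Action forms of INV-ABS and SIGMA-ABS -/

section Act

variable {L : Type*} [Field L] {G : Type*} [Group G] [Finite G] [MulSemiringAction G L]

/-- **INV-ABS**, for a finite group acting on `L` (not necessarily faithfully). -/
theorem stmt_INV_ABS_act (m n : ℕ) (f : Lˣ)
    (hf : ∀ δ : G, ∃ h : Lˣ, δ • (f : L) = f * (h : L) ^ m)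
    (T : Lˣ →* Lˣ)
    (hT : ∀ (δ : G) (x y : Lˣ), (y : L) = δ • (x : L) → ((T y : Lˣ) : L) = δ • ((T x : Lˣ) : L))
    (hζ : ∀ ζ : Lˣ, ζ ^ m = 1 → T ζ = ζ ^ n) :
    ∃ g : Lˣ, ∀ δ : G, δ • (((T f : Lˣ) : L) * ((f : L) ^ n)⁻¹ * (g : L) ^ m)
      = ((T f : Lˣ) : L) * ((f : L) ^ n)⁻¹ * (g : L) ^ m := by
  classical
  have hsurj := FixedPoints.toAlgAut_surjective G L
  obtain ⟨g, e, he⟩ := stmt_INV_ABS (E := FixedPoints.subfield G L) (L := L) m n f
    (by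
      intro δ'
      obtain ⟨δ, rfl⟩ := hsurj δ'
      exact hf δ)
    T
    (by
      intro δ' x
      obtain ⟨δ, rfl⟩ := hsurj δ'
      ext
      exact (hT δ x (Units.map _ x) rfl).symm)
    hζ
  refine ⟨g, fun δ => ?_⟩
  rw [he]
  exact (e : FixedPoints.subfield G L).2 δ

/-- **SIGMA-ABS**, for a finite group acting on `L`. -/
theorem stmt_SIGMA_ABS_act (m n : ℕ) (y : Lˣ)
    (hy : ∀ δ : G, δ • ((y : L) ^ m) = (y : L) ^ m)
    (T : Lˣ →* Lˣ)
    (hT : ∀ (δ : G) (x y : Lˣ), (y : L) = δ • (x : L) → ((T y : Lˣ) : L) = δ • ((T x : Lˣ) : L))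
    (hζ : ∀ ζ : Lˣ, ζ ^ m = 1 → T ζ = ζ ^ n) :
    (∀ δ : G, δ • (((T y : Lˣ) : L) * ((y : L) ^ n)⁻¹) = ((T y : Lˣ) : L) * ((y : L) ^ n)⁻¹) ∧
      ((T (y ^ m) : Lˣ) : L) * (((y : L) ^ m) ^ n)⁻¹
        = (((T y : Lˣ) : L) * ((y : L) ^ n)⁻¹) ^ m := by
  classical
  have hsurj := FixedPoints.toAlgAut_surjective G L
  obtain ⟨e, he1, he2⟩ := stmt_SIGMA_ABS (E := FixedPoints.subfield G L) (L := L) m n y
    ⟨⟨(y : L) ^ m, hy⟩, rfl⟩
    T
    (by
      intro δ' x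
      obtain ⟨δ, rfl⟩ := hsurj δ'
      ext
      exact (hT δ x (Units.map _ x) rfl).symm)
    hζ
  refine ⟨fun δ => ?_, ?_⟩
  · rw [he1]
    exact (e : FixedPoints.subfield G L).2 δ
  · rw [he2, he1]
    simp

end Act

/-! ### Kummer representatives -/

section Kummer

variable {K F : Type} [Field K] [Field F] [Algebra K F]

/-- A function without zeros and poles is constant. -/
def ConstHyp (K F : Type) [Field K] [Field F] [Algebra K F] : Prop :=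
  ∀ f : F, f ≠ 0 → (∀ v : Place K F, v.ord f = 0) → ∃ c : K, algebraMap K F c = f

/-- A class killed by `m` is the class of `(1/m) div f`. -/
theorem exists_kummer_rep (m : ℕ) (y : Pic0 K F) (hy : (m : ℤ) • y = 0) :
    ∃ (D : Divisor.degZero (K := K) (F := F)) (f : F), f ≠ 0 ∧ Pic0.mk D = y ∧
      ∀ v : Place K F, (m : ℤ) * (D : Divisor K F) v = v.ord f := by
  obtain ⟨D, rfl⟩ := Pic0.mk_surjective y
  have h : (m : ℤ) • Pic0.mk D = Pic0.mk ((m : ℤ) • D) := rfl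
  rw [h, H33.mk_eq_zero_iff] at hy
  obtain ⟨f, hf, hD⟩ := hy
  refine ⟨D, f, hf, rfl, fun v => ?_⟩
  have := hD v
  rw [AddSubgroup.coe_zsmul, Finsupp.smul_apply, smul_eq_mul] at this
  exact this

theorem ord_pow_nat (v : Place K F) (f : F) (n : ℕ) : v.ord (f ^ n) = n * v.ord f := by
  rw [← zpow_natCast, v.ord_zpow]

/-- Two functions with the same divisor differ by a constant. -/
theorem exists_const_mul [IsAlgClosed K] (hconst : ConstHyp K F) {a b : F} (ha : a ≠ 0)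
    (hb : b ≠ 0) (h : ∀ v : Place K F, v.ord a = v.ord b) (m : ℕ) (hm : m ≠ 0) :
    ∃ c : K, c ≠ 0 ∧ a = b * (algebraMap K F c) ^ m := by
  obtain ⟨c, hc⟩ := hconst (a * b⁻¹) (mul_ne_zero ha (inv_ne_zero hb)) (fun v => by
    rw [v.ord_mul ha (inv_ne_zero hb), v.ord_inv, h v, add_neg_cancel])
  obtain ⟨c', hc'⟩ := IsAlgClosed.exists_pow_nat_eq c (Nat.pos_of_ne_zero hm)
  have hc0 : c ≠ 0 := by
    rintro rfl
    rw [map_zero] at hc
    exact mul_ne_zero ha (inv_ne_zero hb) hc.symm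
  have hc'0 : c' ≠ 0 := by
    rintro rfl
    rw [zero_pow hm] at hc'
    exact hc0 hc'.symm
  refine ⟨c', hc'0, ?_⟩
  rw [← map_pow, hc', hc]
  field_simp

/-- If the class of `(1/m) div f` is `σ`-invariant then `σ f = f h ^ m`. -/
theorem exists_root_of_smul_eq [IsAlgClosed K] (hconst : ConstHyp K F) (m : ℕ) (hm : m ≠ 0)
    (σ : F ≃ₐ[K] F) (D : Divisor.degZero (K := K) (F := F)) (f : F) (hf : f ≠ 0)
    (hD : ∀ v : Place K F, (m : ℤ) * (D : Divisor K F) v = v.ord f)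
    (hσ : σ • Pic0.mk D = Pic0.mk D) :
    ∃ h : Fˣ, σ f = f * (h : F) ^ m := by
  have h1 : Pic0.mk (Pic0.degZeroSMulHom σ D - D) = 0 := by
    have : Pic0.mk (Pic0.degZeroSMulHom σ D - D) = σ • Pic0.mk D - Pic0.mk D := rfl
    rw [this, hσ, sub_self]
  rw [H33.mk_eq_zero_iff] at h1
  obtain ⟨h, hh0, hh⟩ := h1
  have hσf : σ f ≠ 0 := by simpa using hf
  have hord : ∀ w : Place K F, w.ord (σ f) = w.ord (f * h ^ m) := by
    intro w
    have h2 := (isCorr_smulD σ).hasFn.kummer (m : ℤ) (D : Divisor K F) hf hD w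
    have h3 := hh w
    rw [AddSubgroup.coe_sub, Finsupp.sub_apply, Pic0.coe_degZeroSMulHom] at h3
    rw [smulD_apply] at h2
    rw [w.ord_mul hf (pow_ne_zero _ hh0), ord_pow_nat, ← h2, ← hD w, ← h3]
    ring
  obtain ⟨c, hc0, hc⟩ := exists_const_mul hconst hσf (mul_ne_zero hf (pow_ne_zero _ hh0)) hord m hm
  have hu : algebraMap K F c * h ≠ 0 :=
    mul_ne_zero (by simpa using hc0) hh0
  refine ⟨Units.mk0 _ hu, ?_⟩
  rw [hc, Units.val_mk0]
  ring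

end Kummer

/-! ### The core of INV -/

section Core

variable {K E L : Type} [Field K] [Field E] [Field L] [Algebra K E] [Algebra K L]

/-- The hypotheses on the operator: a function `N` on `L`, multiplicative, equivariant for the
group action, acting on the `m`-th roots of unity of `K` by `ζ ↦ ζ ^ n`. -/
structure OpHyp {G : Type} [Group G] (ρ : G →* (L ≃ₐ[K] L)) (N : L → L) (m n : ℕ) : Prop where
  ne_zero : ∀ x : L, x ≠ 0 → N x ≠ 0
  mul : ∀ x y : L, N (x * y) = N x * N y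
  equiv : ∀ (d : G) (x : L), ρ d (N x) = N (ρ d x)
  const : ∀ ζ : K, ζ ^ m = 1 → N (algebraMap K L ζ) = algebraMap K L (ζ ^ n)

namespace OpHyp

variable {G : Type} [Group G] {ρ : G →* (L ≃ₐ[K] L)} {N : L → L} {m n : ℕ}

theorem map_one (h : OpHyp ρ N m n) : N 1 = 1 := by
  have h1 := h.mul 1 1
  rw [mul_one] at h1
  have h0 := h.ne_zero 1 one_ne_zero
  exact (mul_right_cancel₀ h0 (by rw [one_mul]; exact h1)).symm

/-- The operator on units. -/
def toHom (h : OpHyp ρ N m n) : Lˣ →* Lˣ where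
  toFun x := Units.mk0 (N x) (h.ne_zero x x.ne_zero)
  map_one' := by
    ext
    simp [h.map_one]
  map_mul' x y := by
    ext
    simp [h.mul]

@[simp]
theorem coe_toHom (h : OpHyp ρ N m n) (x : Lˣ) : ((h.toHom x : Lˣ) : L) = N x := rfl

theorem toHom_equiv (h : OpHyp ρ N m n) (δ : G) (x y : Lˣ) (hxy : (y : L) = ρ δ (x : L)) :
    ((h.toHom y : Lˣ) : L) = ρ δ ((h.toHom x : Lˣ) : L) := by
  rw [coe_toHom, coe_toHom, hxy, h.equiv]

theorem toHom_root (h : OpHyp ρ N m n) (hm : m ≠ 0) (hconst : ConstHyp K L) (ζ : Lˣ)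
    (hζ : ζ ^ m = 1) : h.toHom ζ = ζ ^ n := by
  have h1 : ((ζ : L)) ^ m = 1 := by
    have := congrArg Units.val hζ
    simpa using this
  obtain ⟨c, hc⟩ := hconst (ζ : L) ζ.ne_zero (fun v => by
    have h2 : v.ord ((ζ : L) ^ m) = 0 := by rw [h1, Place.ord_one]
    rw [ord_pow_nat] at h2
    rcases mul_eq_zero.mp h2 with h3 | h3
    · exact absurd (by exact_mod_cast h3) hm
    · exact h3)
  have hcm : c ^ m = 1 := by
    apply (algebraMap K L).injective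
    rw [map_pow, hc, h1, _root_.map_one]
  ext
  rw [coe_toHom, ← hc, h.const c hcm, map_pow, Units.val_pow_eq_pow_val, ← hc]

end OpHyp

/-- **INV, core.**  If `y ∈ Pic⁰(L)[m]` is invariant under the group then
`Φ y - n y ∈ π^* (Pic⁰(E)[m])`. -/
theorem stmt_INV_core [IsAlgClosed K] [HasPrincipalDivisors K E] (hconstL : ConstHyp K L)
    (φ : E →ₐ[K] L) {Ψ : Divisor K E →+ Divisor K L} {d₀ : ℤ} (hΨ : IsCorr Ψ φ d₀)
    {G : Type} [Group G] [Finite G] (ρ : G →* (L ≃ₐ[K] L))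
    (hfix : ∀ x : L, (∀ d, ρ d x = x) → ∃ x₀ : E, φ x₀ = x)
    (m n : ℕ) (hm : m ≠ 0)
    (hunr : ∀ e : E, e ≠ 0 → (∀ w : Place K L, (m : ℤ) ∣ w.ord (φ e)) →
      ∀ v : Place K E, (m : ℤ) ∣ v.ord e)
    {Φ : Divisor K L →+ Divisor K L} {N : L → L} {d : ℤ} (hΦ : IsCorr Φ N d)
    (hN : OpHyp ρ N m n)
    (y : Pic0 K L) (hy : (m : ℤ) • y = 0) (hyG : ∀ d, ρ d • y = y) :
    ∃ y₀ : Pic0 K E, (m : ℤ) • y₀ = 0 ∧ picMap Ψ y₀ = picMap Φ y - n • y := by
  classical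
  obtain ⟨D, f, hf, rfl, hD⟩ := exists_kummer_rep m y hy
  letI : MulSemiringAction G L := MulSemiringAction.compHom L ρ
  have hsmul : ∀ (δ : G) (x : L), δ • x = ρ δ x := fun _ _ => rfl
  -- the Kummer class of `f` is invariant
  have hb : ∀ δ : G, ∃ h : Lˣ,
      δ • ((Units.mk0 f hf : Lˣ) : L) = ((Units.mk0 f hf : Lˣ) : L) * (h : L) ^ m := by
    intro δ
    obtain ⟨h, hh⟩ := exists_root_of_smul_eq hconstL m hm (ρ δ) D f hf hD (hyG δ)
    exact ⟨h, hh⟩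
  obtain ⟨g, hg⟩ := stmt_INV_ABS_act m n (Units.mk0 f hf) hb hN.toHom
    (fun δ x y hxy => hN.toHom_equiv δ x y hxy) (hN.toHom_root hm hconstL)
  simp only [OpHyp.coe_toHom, Units.val_mk0, hsmul] at hg
  obtain ⟨e, he⟩ := hfix _ hg
  have hNf : N f ≠ 0 := hN.ne_zero f hf
  have hfn : ((f : L) ^ n)⁻¹ ≠ 0 := inv_ne_zero (pow_ne_zero _ hf)
  have hgm : (g : L) ^ m ≠ 0 := pow_ne_zero _ g.ne_zero
  have he0 : e ≠ 0 := by
    rintro rfl
    rw [map_zero] at he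
    exact mul_ne_zero (mul_ne_zero hNf hfn) hgm he.symm
  have hord : ∀ w : Place K L,
      w.ord (φ e) = (m : ℤ) * (Φ (D : Divisor K L) w - n * (D : Divisor K L) w + w.ord (g : L)) := by
    intro w
    rw [he, w.ord_mul (mul_ne_zero hNf hfn) hgm, w.ord_mul hNf hfn, w.ord_inv, ord_pow_nat,
      ord_pow_nat, ← hΦ.hasFn.kummer (m : ℤ) (D : Divisor K L) hf hD w, ← hD w]
    ring
  have hdiv : ∀ v : Place K E, (m : ℤ) ∣ v.ord e := hunr e he0 (fun w => ⟨_, hord w⟩)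
  let fe : unrSubgroup K E m := ⟨Units.mk0 e he0, hdiv⟩
  have hD₀ : ∀ v : Place K E, (m : ℤ) * (H33.divQuot hm fe : Divisor K E) v = v.ord e :=
    H33.divQuot_apply hm fe
  refine ⟨Pic0.mk (H33.divQuot hm fe), H33.nsmul_mk_divQuot hm fe, ?_⟩
  rw [picMap_mk hΨ.isGood, picMap_mk hΦ.isGood]
  have key : Pic0.mk (degZeroMap Ψ hΨ.isGood (H33.divQuot hm fe)
      - (degZeroMap Φ hΦ.isGood D - n • D)) = 0 := by
    rw [H33.mk_eq_zero_iff]
    refine ⟨(g : L), g.ne_zero, fun w => ?_⟩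
    have h1 := hΨ.hasFn.kummer (m : ℤ) (H33.divQuot hm fe : Divisor K E) he0 hD₀ w
    rw [hord w] at h1
    have h2 := mul_left_cancel₀ (by exact_mod_cast hm : (m : ℤ) ≠ 0) h1
    rw [AddSubgroup.coe_sub, AddSubgroup.coe_sub, AddSubgroup.coe_nsmul, coe_degZeroMap,
      coe_degZeroMap, Finsupp.sub_apply, Finsupp.sub_apply, Finsupp.smul_apply, h2]
    simp only [nsmul_eq_mul]
    ring
  have h3 : Pic0.mk (degZeroMap Ψ hΨ.isGood (H33.divQuot hm fe)
      - (degZeroMap Φ hΦ.isGood D - n • D))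
      = Pic0.mk (degZeroMap Ψ hΨ.isGood (H33.divQuot hm fe))
        - (Pic0.mk (degZeroMap Φ hΦ.isGood D) - n • Pic0.mk D) := rfl
  rw [h3, sub_eq_zero] at key
  exact key

/-- **SIGMA, core.**  The kernel of `π^*` on `Pic⁰(E)[m]` is Eisenstein: it is killed by
`Φ₀ - n` for every correspondence `Φ₀` of `E` whose function `N₀` is the restriction of an
operator `N` of `L` as in `OpHyp`. -/
theorem stmt_SIGMA_core [IsAlgClosed K] (hconstL : ConstHyp K L)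
    (φ : E →ₐ[K] L) {Ψ : Divisor K E →+ Divisor K L} {d₀ : ℤ} (hΨ : IsCorr Ψ φ d₀)
    {G : Type} [Group G] [Finite G] (ρ : G →* (L ≃ₐ[K] L))
    (hfixE : ∀ (d : G) (x : E), ρ d (φ x) = φ x)
    (hfix : ∀ x : L, (∀ d, ρ d x = x) → ∃ x₀ : E, φ x₀ = x)
    (m n : ℕ) (hm : m ≠ 0)
    {Φ₀ : Divisor K E →+ Divisor K E} {N₀ : E → E} {d : ℤ} (hΦ₀ : IsCorr Φ₀ N₀ d)
    {N : L → L} (hN : OpHyp ρ N m n) (hNN : ∀ x : E, φ (N₀ x) = N (φ x))
    (y₀ : Pic0 K E) (hy : (m : ℤ) • y₀ = 0) (hker : picMap Ψ y₀ = 0) :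
    picMap Φ₀ y₀ - n • y₀ = 0 := by
  classical
  obtain ⟨D₀, e, he0, rfl, hD₀⟩ := exists_kummer_rep m y₀ hy
  letI : MulSemiringAction G L := MulSemiringAction.compHom L ρ
  have hsmul : ∀ (δ : G) (x : L), δ • x = ρ δ x := fun _ _ => rfl
  rw [picMap_mk hΨ.isGood, H33.mk_eq_zero_iff] at hker
  obtain ⟨g, hg0, hg⟩ := hker
  have hφe : φ e ≠ 0 := by simpa using he0
  -- `φ e` is an `m`-th power
  have hord : ∀ w : Place K L, w.ord (φ e) = w.ord (g ^ m) := by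
    intro w
    rw [ord_pow_nat, ← hΨ.hasFn.kummer (m : ℤ) (D₀ : Divisor K E) he0 hD₀ w, ← hg w,
      coe_degZeroMap]
  obtain ⟨c, hc0, hc⟩ := exists_const_mul hconstL hφe (pow_ne_zero _ hg0) hord m hm
  have hy0 : g * algebraMap K L c ≠ 0 := mul_ne_zero hg0 (by simpa using hc0)
  have hym : ((Units.mk0 _ hy0 : Lˣ) : L) ^ m = φ e := by
    rw [Units.val_mk0, hc, mul_pow]
  obtain ⟨hfixu, hpow⟩ := stmt_SIGMA_ABS_act (G := G) m n (Units.mk0 _ hy0)
    (fun δ => by rw [hym, hsmul, hfixE]) hN.toHom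
    (fun δ x y hxy => hN.toHom_equiv δ x y hxy) (hN.toHom_root hm hconstL)
  simp only [hsmul] at hfixu
  obtain ⟨e', he'⟩ := hfix _ hfixu
  have hu0 : ((hN.toHom (Units.mk0 _ hy0) : Lˣ) : L) * (((Units.mk0 _ hy0 : Lˣ) : L) ^ n)⁻¹ ≠ 0 :=
    mul_ne_zero (Units.ne_zero _) (inv_ne_zero (pow_ne_zero _ (Units.ne_zero _)))
  have he'0 : e' ≠ 0 := by
    rintro rfl
    rw [map_zero] at he'
    exact hu0 he'.symm
  -- `N₀ e / e ^ n = e' ^ m`
  have hkey : N₀ e * (e ^ n)⁻¹ = e' ^ m := by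
    apply φ.toRingHom.injective
    show φ (N₀ e * (e ^ n)⁻¹) = φ (e' ^ m)
    rw [map_mul, map_inv₀, map_pow, map_pow, hNN, he', ← hpow, OpHyp.coe_toHom,
      Units.val_pow_eq_pow_val, hym]
  have hN₀e : N₀ e ≠ 0 := (hΦ₀.hasFn e he0).1
  rw [picMap_mk hΦ₀.isGood]
  have h3 : Pic0.mk (degZeroMap Φ₀ hΦ₀.isGood D₀ - n • D₀)
      = Pic0.mk (degZeroMap Φ₀ hΦ₀.isGood D₀) - n • Pic0.mk D₀ := rfl
  rw [← h3, H33.mk_eq_zero_iff]
  refine ⟨e', he'0, fun v => ?_⟩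
  have h1 := hΦ₀.hasFn.kummer (m : ℤ) (D₀ : Divisor K E) he0 hD₀ v
  have h2 : v.ord (N₀ e * (e ^ n)⁻¹) = v.ord (e' ^ m) := by rw [hkey]
  rw [v.ord_mul hN₀e (inv_ne_zero (pow_ne_zero _ he0)), v.ord_inv, ord_pow_nat, ord_pow_nat,
    ← h1, ← hD₀ v] at h2
  have h4 : (m : ℤ) * (Φ₀ (D₀ : Divisor K E) v - n * (D₀ : Divisor K E) v) = (m : ℤ) * v.ord e' := by
    rw [← h2]; ring
  have h5 := mul_left_cancel₀ (by exact_mod_cast hm : (m : ℤ) ≠ 0) h4
  rw [AddSubgroup.coe_sub, AddSubgroup.coe_nsmul, coe_degZeroMap, Finsupp.sub_apply,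
    Finsupp.smul_apply, ← h5]
  simp only [nsmul_eq_mul]

end Core

end Fermat.Agent.NEB.H29
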