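import Mathlib
import Fermat.Agent.NEB.H29_InvCore
import Fermat.Agent.RED.H17_LiftMove

/-!
# LG-NEB, package INV for function fields (helper29)

`K` algebraically closed, `E`, `L` function fields of one variable over `K` (`RED.IsFF`),
`φ : E →ₐ[K] L`, a finite group `G` acting on `L` through `ρ` with fixed field `φ(E)`, and
`L / E` unramified in the form of FH-UNR: every place of `L` has a uniformiser in `E`.

* `stmt_INV_FF` : `y ∈ Pic⁰(L)[m]^G ⟹ Φ y - n y = π^* y₀`, `y₀ ∈ Pic⁰(E)[m]`;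
* `stmt_SIGMA_FF` : `y₀ ∈ Pic⁰(E)[m]`, `π^* y₀ = 0 ⟹ Φ₀ y₀ - n y₀ = 0`.

Here `π^* = pullP φ` (helper14), `Φ` is any correspondence of `L` with function `N` satisfying
`OpHyp ρ N m n` (for `T_ℓ^H`: `N = Norm_α ∘ β`, `n = ℓ + 1`).
-/

set_option autoImplicit false
set_option linter.style.haveILetI false

noncomputable section

namespace Fermat.Agent.NEB.H29

open AlgebraicCurve Fermat.Agent.NEB.H14 Fermat.Agent.GTor Fermat.Agent.RED

section FF

variable {K E L : Type} [Field K] [Field E] [Field L] [Algebra K E] [Algebra K L] [IsAlgClosed K]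

/-- A function without zeros and poles on a function field is constant. -/
theorem constHyp_of_isFF (hL : IsFF K L) : ConstHyp K L := by
  intro f _ hord
  obtain ⟨c, hc⟩ := (H17.ffHyp_of_isFF K L hL).const_of_regular (f := f)
    (fun v => le_of_eq (hord v).symm)
  exact ⟨c, hc.symm⟩

/-- Every place of `E` lies under a place of `L`. -/
theorem exists_place_above (hE : IsFF K E) (hL : IsFF K L) (φ : E →ₐ[K] L)
    (v : Place K E) : ∃ w : Place K L, w.restrictAlong φ (isIntegral_hom hE hL φ) = v := by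
  classical
  haveI : HasPrincipalDivisors K L := hasPD hL
  have hFI := Fermat.Agent.RED.H51.stmt_FFB_fundamental K E L hE hL φ (isIntegral_hom hE hL φ)
    inferInstance
  have hfin : FiniteAlong K φ := finiteAlong_hom hE hL φ
  have hdeg := Fermat.Agent.RED.H51.stmt_FFB_deg K E hE v
  letI := algebraAlong φ
  haveI := isScalarTower_along φ
  haveI := isIntegral_along φ (isIntegral_hom hE hL φ)
  haveI : Module.Finite E L := hfin
  haveI : FundamentalIdentity K E L := hFI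
  have h1 := FundamentalIdentity.sum_ramificationIndex_mul_deg (K := K) (F := E) (F' := L) v
  have hpos : 0 < Module.finrank E L := Module.finrank_pos
  by_contra hcon
  push Not at hcon
  have hempty : v.fiber L = ∅ := by
    rw [Finset.eq_empty_iff_forall_notMem]
    intro w hw
    rw [Place.mem_fiber] at hw
    exact hcon w hw
  rw [hempty, Finset.sum_empty, hdeg] at h1
  have : (Module.finrank E L : ℤ) = 0 := by simpa using h1.symm
  omega

/-- FH-UNR gives: divisibility of orders descends from `L` to `E`. -/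
theorem dvd_ord_of_uniformiser (hE : IsFF K E) (hL : IsFF K L) (φ : E →ₐ[K] L)
    (hunr : ∀ w : Place K L, ∃ x : E, w.ord (φ x) = 1) (m : ℕ) (e : E)
    (he : ∀ w : Place K L, (m : ℤ) ∣ w.ord (φ e)) (v : Place K E) : (m : ℤ) ∣ v.ord e := by
  obtain ⟨w, rfl⟩ := exists_place_above hE hL φ v
  obtain ⟨x, hx⟩ := hunr w
  have h1 := Place.ord_restrictAlong φ (isIntegral_hom hE hL φ) w x
  rw [hx] at h1
  have h2 : (Place.ramificationIndexAlong φ w : ℤ) = 1 := by
    have h3 : (Place.ramificationIndexAlong φ w : ℤ) ∣ 1 := ⟨_, h1⟩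
    have h4 : (0 : ℤ) ≤ (Place.ramificationIndexAlong φ w : ℤ) := Int.natCast_nonneg _
    exact Int.eq_one_of_dvd_one h4 h3
  have h5 := Place.ord_restrictAlong φ (isIntegral_hom hE hL φ) w e
  rw [h2, one_mul] at h5
  rw [← h5]
  exact he w

/-- **INV** for an unramified Galois cover of function fields. -/
theorem stmt_INV_FF (hE : IsFF K E) (hL : IsFF K L) (φ : E →ₐ[K] L)
    {G : Type} [Group G] [Finite G] (ρ : G →* (L ≃ₐ[K] L))
    (hfix : ∀ x : L, (∀ d, ρ d x = x) → ∃ x₀ : E, φ x₀ = x)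
    (hunr : ∀ w : Place K L, ∃ x : E, w.ord (φ x) = 1)
    (m n : ℕ) (hm : m ≠ 0)
    {Φ : Divisor K L →+ Divisor K L} {N : L → L} {d : ℤ} (hΦ : IsCorr Φ N d)
    (hN : OpHyp ρ N m n)
    (y : Pic0 K L) (hy : (m : ℤ) • y = 0) (hyG : ∀ d, ρ d • y = y) :
    ∃ y₀ : Pic0 K E, (m : ℤ) • y₀ = 0 ∧ pullP φ y₀ = picMap Φ y - n • y := by
  haveI : HasPrincipalDivisors K E := hasPD hE
  exact stmt_INV_core (constHyp_of_isFF hL) φ (isCorr_pullD hE hL φ) ρ hfix m n hm
    (fun e _ he v => dvd_ord_of_uniformiser hE hL φ hunr m e he v) hΦ hN y hy hyG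

/-- **SIGMA**: the kernel of `π^*` on `m`-torsion is Eisenstein. -/
theorem stmt_SIGMA_FF (hE : IsFF K E) (hL : IsFF K L) (φ : E →ₐ[K] L)
    {G : Type} [Group G] [Finite G] (ρ : G →* (L ≃ₐ[K] L))
    (hfixE : ∀ (d : G) (x : E), ρ d (φ x) = φ x)
    (hfix : ∀ x : L, (∀ d, ρ d x = x) → ∃ x₀ : E, φ x₀ = x)
    (m n : ℕ) (hm : m ≠ 0)
    {Φ₀ : Divisor K E →+ Divisor K E} {N₀ : E → E} {d : ℤ} (hΦ₀ : IsCorr Φ₀ N₀ d)
    {N : L → L} (hN : OpHyp ρ N m n) (hNN : ∀ x : E, φ (N₀ x) = N (φ x))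
    (y₀ : Pic0 K E) (hy : (m : ℤ) • y₀ = 0) (hker : pullP φ y₀ = 0) :
    picMap Φ₀ y₀ - n • y₀ = 0 :=
  stmt_SIGMA_core (constHyp_of_isFF hL) φ (isCorr_pullD hE hL φ) ρ hfixE hfix m n hm hΦ₀ hN hNN
    y₀ hy hker

end FF

end Fermat.Agent.NEB.H29
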