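import Mathlib
import Fermat.Agent.NEB.H14_JHRules
import Fermat.Agent.NEB.H29_Inv
import Fermat.Agent.RED.ES.H95_NormAlpha

/-!
# LG-NEB, package INV at the level of `J_H` (helper29)

Instantiation of `stmt_INV_FF`, `stmt_SIGMA_FF` at helper14's interface (`NEB/H14_JHDefs.lean`,
`H14_JHRules.lean`): for `hd : HeckeData M c ℓ H` and `n = [F_H(Mℓ) : α F_H(M)]` (`= ℓ + 1`):

* `stmt_INV_JH` : `y ∈ J_H[m]` fixed by the diamond operators, `F_H / F₀` unramified (FH-UNR)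
  `⟹ T^H y - n y = π^* y₀`, `y₀ ∈ J₀(M)[m]`;
* `stmt_SIGMA_JH` : `y₀ ∈ J₀(M)[m]`, `π^* y₀ = 0 ⟹ T₀ y₀ - n y₀ = 0`.
-/

set_option autoImplicit false
set_option linter.style.haveILetI false

noncomputable section

namespace Fermat.Agent.NEB.H29

open AlgebraicCurve ModularCurve
open Fermat.Agent.NEB Fermat.Agent.NEB.H14 Fermat.Agent.NEB.JH Fermat.Agent.RED

section NormEquiv

variable {K F F' : Type} [Field K] [Field F] [Field F'] [Algebra K F] [Algebra K F']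

/-- The norm commutes with compatible automorphisms. -/
theorem normFn_algEquiv (φ : F →ₐ[K] F') (g : F ≃ₐ[K] F) (g' : F' ≃ₐ[K] F')
    (h : ∀ x, g' (φ x) = φ (g x)) (z : F') : g (normFn φ z) = normFn φ (g' z) := by
  letI := algebraAlong φ
  have h1 := Algebra.norm_eq_of_equiv_equiv (A₁ := F) (B₁ := F') (A₂ := F) (B₂ := F')
    (g : F ≃+* F) (g' : F' ≃+* F') (by
      ext x
      exact (h x).symm) z
  show g (Algebra.norm F z) = Algebra.norm F (g' z)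
  rw [h1]
  exact (g : F ≃+* F).apply_symm_apply _

theorem normFn_mul (φ : F →ₐ[K] F') (x y : F') :
    normFn φ (x * y) = normFn φ x * normFn φ y := by
  letI := algebraAlong φ
  show Algebra.norm F (x * y) = Algebra.norm F x * Algebra.norm F y
  exact map_mul _ x y

end NormEquiv

section JH

variable {M c ℓ : ℕ} [NeZero M] [NeZero ℓ] {H : Subgroup (ZMod c)ˣ}

/-- The Kummer function of `T^H` satisfies `OpHyp` with `n = [F_H(Mℓ) : α F_H(M)]`. -/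
theorem opHyp_THfn (hd : HeckeData M c ℓ H) (m : ℕ) :
    OpHyp hd.dd.ρ (THfn hd.hβ) m (finrankAlong Kbar (alphaH M c ℓ H)) where
  ne_zero x hx := ((isCorr_THdiv hd.isFF hd.isFF' hd.hβ).hasFn x hx).1
  mul x y := by
    show normFn (alphaH M c ℓ H) (betaBar hd.hβ (x * y)) = _
    rw [map_mul, normFn_mul]
    rfl
  equiv d x := by
    show hd.dd.ρ d (normFn (alphaH M c ℓ H) (betaBar hd.hβ x))
      = normFn (alphaH M c ℓ H) (betaBar hd.hβ (hd.dd.ρ d x))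
    rw [← hd.betaGal d x]
    exact normFn_algEquiv (alphaH M c ℓ H) (hd.dd.ρ d) (hd.dd'.ρ d) (hd.alphaGal d) _
  const ζ _ := by
    show normFn (alphaH M c ℓ H) (betaBar hd.hβ (algebraMap Kbar _ ζ)) = _
    rw [AlgHom.commutes, ← (alphaH M c ℓ H).commutes ζ, normFn_apply_self, map_pow]

/-- **INV** for `J_H`. -/
theorem stmt_INV_JH (hd : HeckeData M c ℓ H)
    (hunr : ∀ w : Place Kbar ↥(FHbar M c H),
      ∃ x : ↥(modularFunctionFieldBar M), w.ord (inclBar M c H x) = 1)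
    (m : ℕ) (hm : m ≠ 0) (y : JH M c H) (hy : (m : ℤ) • y = 0)
    (hyG : ∀ d, hd.dd.ρ d • y = y) :
    ∃ y₀ : JZero M, (m : ℤ) • y₀ = 0 ∧
      piUp M c H y₀ = TH hd.hβ y - finrankAlong Kbar (alphaH M c ℓ H) • y := by
  haveI := finite_units_zmod c
  rw [TH_eq_picMap hd.isFF hd.isFF' hd.hβ]
  exact stmt_INV_FF (isFF0 M) hd.isFF (inclBar M c H) hd.dd.ρ hd.dd.fixed hunr m _ hm
    (isCorr_THdiv hd.isFF hd.isFF' hd.hβ) (opHyp_THfn hd m) y hy hyG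

/-- **SIGMA** for `J_H`: the kernel of `π^*` on `J₀(M)[m]` is killed by `T₀ - n`. -/
theorem stmt_SIGMA_JH (hd : HeckeData M c ℓ H)
    (m : ℕ) (hm : m ≠ 0) (y₀ : JZero M) (hy : (m : ℤ) • y₀ = 0)
    (hker : piUp M c H y₀ = 0) :
    T0 M ℓ y₀ - finrankAlong Kbar (alphaH M c ℓ H) • y₀ = 0 := by
  haveI := finite_units_zmod c
  haveI := neZero_mul M ℓ
  have hF := isFF0 M
  have hF' := isFF0 (M * ℓ)
  have hcorr : IsCorr ((pushD (heckeAlphaBar Kbar M ℓ)).comp (pullD (heckeBetaBar Kbar M ℓ)))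
      (normFn (heckeAlphaBar Kbar M ℓ) ∘ heckeBetaBar Kbar M ℓ)
      (1 * finrankAlong Kbar (heckeBetaBar Kbar M ℓ)) :=
    (isCorr_pushD hF hF' (heckeAlphaBar Kbar M ℓ)).comp (isCorr_pullD hF hF' (heckeBetaBar Kbar M ℓ))
  have hT0 : T0 M ℓ
      = picMap ((pushD (heckeAlphaBar Kbar M ℓ)).comp (pullD (heckeBetaBar Kbar M ℓ))) :=
    (picMap_comp (isCorr_pushD hF hF' (heckeAlphaBar Kbar M ℓ)).isGood
      (isCorr_pullD hF hF' (heckeBetaBar Kbar M ℓ)).isGood).symm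
  rw [hT0]
  refine stmt_SIGMA_FF hF hd.isFF (inclBar M c H) hd.dd.ρ hd.dd.fix hd.dd.fixed m _ hm
    hcorr (opHyp_THfn hd m) (fun x => ?_) y₀ hy hker
  show inclBar M c H (normFn (heckeAlphaBar Kbar M ℓ) (heckeBetaBar Kbar M ℓ x))
    = normFn (alphaH M c ℓ H) (betaBar hd.hβ (inclBar M c H x))
  rw [(galSquare_alpha hd).1]
  have h2 := congrArg (fun f => f x) (inclBar_comp_beta (M := M) (c := c) (H := H) hd.hβ)
  simp only [AlgHom.comp_apply] at h2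
  rw [h2]

/-- `[F_H(Mℓ) : α F_H(M)] = [F₀(Mℓ) : α F₀(M)]` (Galois square). -/
theorem finrankAlong_alphaH_eq (hd : HeckeData M c ℓ H) :
    finrankAlong Kbar (alphaH M c ℓ H) = finrankAlong Kbar (heckeAlphaBar Kbar M ℓ) := by
  haveI := neZero_mul M ℓ
  haveI := finite_range_rho hd.dd'
  haveI : Fintype hd.dd'.ρ.range := Fintype.ofFinite _
  have h := Fermat.Agent.NEB.H2.stmt_GalSquare Kbar _ _ _ _ (heckeAlphaBar Kbar M ℓ)
    (inclBar M c H) (alphaH M c ℓ H)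
    (inclBar (M * ℓ) c H) inclBar_comp_alpha.symm
    (finiteAlong_hom (isFF0 M) (isFF0 (M * ℓ)) _) hd.dd'.ρ.range ?_ ?_ ?_ ?_ ?_
  · exact h.2.1
  · intro x hx
    obtain ⟨x₀, hx₀⟩ := hd.dd'.fixed x (fun d => hx _ ⟨d, rfl⟩)
    exact ⟨x₀, hx₀⟩
  · rintro g y ⟨d, rfl⟩
    exact hd.dd'.fix d y
  · rintro g y ⟨d, rfl⟩
    exact ⟨hd.dd.ρ d y, (hd.alphaGal d y).symm⟩
  · rintro g ⟨d, rfl⟩ hg
    have h1 : hd.dd.ρ d = 1 := by
      refine AlgEquiv.ext fun y => ?_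
      have h2 := hg y
      rw [hd.alphaGal d y] at h2
      exact (alphaH M c ℓ H).toRingHom.injective h2
    exact (hd.dd'.ker d).mpr ((hd.dd.ker d).mp h1)
  · intro y hy
    obtain ⟨x₀, hx₀⟩ := hd.dd.fixed y (fun d => by
      have h2 := hy _ ⟨d, rfl⟩
      rw [hd.alphaGal d y] at h2
      exact (alphaH M c ℓ H).toRingHom.injective h2)
    exact ⟨x₀, hx₀⟩

/-- `[F_H(Mℓ) : α F_H(M)] = ℓ + 1` for a prime `ℓ ∤ M`. -/
theorem finrankAlong_alphaH (hd : HeckeData M c ℓ H) (hℓ : ℓ.Prime) (hM : ¬ ℓ ∣ M) :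
    finrankAlong Kbar (alphaH M c ℓ H) = ℓ + 1 := by
  rw [finrankAlong_alphaH_eq hd]
  exact Fermat.Agent.RED.H95.finrankAlong_alpha hℓ hM

/-- **INV** for `J_H`, `ℓ ∤ M` prime: `(T^H_ℓ - (ℓ + 1)) y ∈ π^* J₀(M)[m]`. -/
theorem stmt_INV_JH' (hd : HeckeData M c ℓ H) (hℓ : ℓ.Prime) (hM : ¬ ℓ ∣ M)
    (hunr : ∀ w : Place Kbar ↥(FHbar M c H),
      ∃ x : ↥(modularFunctionFieldBar M), w.ord (inclBar M c H x) = 1)
    (m : ℕ) (hm : m ≠ 0) (y : JH M c H) (hy : (m : ℤ) • y = 0)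
    (hyG : ∀ d, hd.dd.ρ d • y = y) :
    ∃ y₀ : JZero M, (m : ℤ) • y₀ = 0 ∧ piUp M c H y₀ = TH hd.hβ y - (ℓ + 1) • y := by
  have h := stmt_INV_JH hd hunr m hm y hy hyG
  rwa [finrankAlong_alphaH hd hℓ hM] at h

/-- **SIGMA** for `J_H`, `ℓ ∤ M` prime: `(T_ℓ - (ℓ + 1)) ker π^* = 0` on `J₀(M)[m]`. -/
theorem stmt_SIGMA_JH' (hd : HeckeData M c ℓ H) (hℓ : ℓ.Prime) (hM : ¬ ℓ ∣ M)
    (m : ℕ) (hm : m ≠ 0) (y₀ : JZero M) (hy : (m : ℤ) • y₀ = 0)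
    (hker : piUp M c H y₀ = 0) :
    T0 M ℓ y₀ - (ℓ + 1) • y₀ = 0 := by
  have h := stmt_SIGMA_JH hd m hm y₀ hy hker
  rwa [finrankAlong_alphaH hd hℓ hM] at h

end JH

end Fermat.Agent.NEB.H29
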