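import Fermat.Agent.NEB.H84_Ker

/-!
# NEB, package FH-GAL, part 8 (helper84): the fixed field of the diamond operators is `F₀(M)`

* `exists_norm` : for a form `B ≠ 0` on `Γ₁(M)` there is a form `C ≠ 0` on `Γ₁(M)` such that `B C`
  is invariant under `Γ₀(M)` (the norm over `Γ₁(M) \ Γ₀(M)`);
* `mem_bar_of_fixed` : an element of `F_H(M)·ℚ̄` fixed by all diamond operators lies in `F₀(M)·ℚ̄`;
* `stmt_FH_gal : Stmt_FH_gal M c H`.
-/

set_option autoImplicit false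
set_option linter.unusedSectionVars false

open UpperHalfPlane ModularForm CongruenceSubgroup ModularCurve
open scoped MatrixGroups ModularForm Manifold

noncomputable section

namespace Fermat.Agent.NEB.H84

open Fermat.Agent.S23.H22 (Nice)
open Fermat.Agent.GTor (qLaurent)
open Fermat.Agent.GTor.H56 (qLaurent_mul qLaurent_injective qLaurent_eq_zero_iff qLaurent_zero)

/-! ### Products of forms -/

section Prod

variable {M : ℕ} {k : ℤ} {U : Type*}

theorem isW_mul_ne_zero {k₁ k₂ : ℤ} {A B : ℍ → ℂ} (hA : IsW M k₁ A) (hB : IsW M k₂ B)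
    (hA0 : A ≠ 0) (hB0 : B ≠ 0) : A * B ≠ 0 := by
  intro h0
  have := congrArg qLaurent h0
  rw [qLaurent_mul hA.nice hB.nice, qLaurent_zero] at this
  rcases mul_eq_zero.mp this with h5 | h5
  · exact qLaurent_ne_zero hA.nice hA0 h5
  · exact qLaurent_ne_zero hB.nice hB0 h5

theorem one_fun_ne_zero : (1 : ℍ → ℂ) ≠ 0 := by
  intro h
  have := congrFun h UpperHalfPlane.I
  simp at this

theorem isW_one (M : ℕ) : IsW M 0 (1 : ℍ → ℂ) := IsW.const M 1

theorem prod_isW [DecidableEq U] (s : Finset U) (f : U → ℍ → ℂ)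
    (hf : ∀ u ∈ s, IsW M k (f u) ∧ f u ≠ 0) :
    IsW M ((s.card : ℤ) * k) (∏ u ∈ s, f u) ∧ (∏ u ∈ s, f u) ≠ 0 := by
  induction s using Finset.induction_on with
  | empty =>
    rw [Finset.prod_empty, Finset.card_empty, Nat.cast_zero, zero_mul]
    exact ⟨isW_one M, one_fun_ne_zero⟩
  | insert a s ha ih =>
    have h1 := ih (fun u hu => hf u (Finset.mem_insert_of_mem hu))
    have h2 := hf a (Finset.mem_insert_self a s)
    rw [Finset.prod_insert ha, Finset.card_insert_of_notMem ha]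
    have hw : ((s.card + 1 : ℕ) : ℤ) * k = k + (s.card : ℤ) * k := by
      push_cast
      ring
    rw [hw]
    exact ⟨h2.1.mul h1.1, isW_mul_ne_zero h2.1 h1.1 h2.2 h1.2⟩

theorem prod_slash [DecidableEq U] (s : Finset U) (f : U → ℍ → ℂ) (k : ℤ) (γ : SL(2, ℤ)) :
    (∏ u ∈ s, f u) ∣[(s.card : ℤ) * k] γ = ∏ u ∈ s, (f u ∣[k] γ) := by
  induction s using Finset.induction_on with
  | empty =>
    rw [Finset.prod_empty, Finset.prod_empty, Finset.card_empty, Nat.cast_zero, zero_mul]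
    exact const_slash_zero 1 γ
  | insert a s ha ih =>
    rw [Finset.prod_insert ha, Finset.prod_insert ha, Finset.card_insert_of_notMem ha]
    have hw : ((s.card + 1 : ℕ) : ℤ) * k = k + (s.card : ℤ) * k := by
      push_cast
      ring
    rw [hw, mul_slash_SL2, ih]

end Prod

/-! ### The norm over `Γ₁(M) \\ Γ₀(M)` -/

section Norm

variable {M : ℕ} {k : ℤ} {B : ℍ → ℂ}

theorem mem_Gamma1_of_map_eq_one (g : Gamma0 M) (hg : Gamma0Map M g = 1) :
    (g : SL(2, ℤ)) ∈ Gamma1 M :=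
  (Gamma1_mem M _).mpr ((Gamma1_to_Gamma0_mem g).mp (Gamma1_mem'.mpr hg))

theorem slash_eq_of_map_eq (hB : IsW M k B) (γ₁ γ₂ : Gamma0 M)
    (h : Gamma0Map M γ₁ = Gamma0Map M γ₂) :
    B ∣[k] (γ₁ : SL(2, ℤ)) = B ∣[k] (γ₂ : SL(2, ℤ)) := by
  have hg : Gamma0Map M (γ₁ * γ₂⁻¹) = 1 := by
    rw [map_mul, h, ← map_mul, mul_inv_cancel, map_one]
  have h1 : (γ₁ : SL(2, ℤ)) = ((γ₁ * γ₂⁻¹ : Gamma0 M) : SL(2, ℤ)) * (γ₂ : SL(2, ℤ)) := by
    rw [← Subgroup.coe_mul, inv_mul_cancel_right]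
  rw [h1, SlashAction.slash_mul, hB.slash _ (mem_Gamma1_of_map_eq_one _ hg)]

/-- The image of `Γ₀(M) → ℤ/M`, `γ ↦ d_γ`. -/
def RangeU (M : ℕ) : Type := {u : ZMod M // ∃ γ : Gamma0 M, Gamma0Map M γ = u}

/-- Right multiplication by `d_δ` on the image. -/
def shiftEquiv (δ : Gamma0 M) : RangeU M ≃ RangeU M where
  toFun u := ⟨u.1 * Gamma0Map M δ, by
    obtain ⟨γ, hγ⟩ := u.2
    exact ⟨γ * δ, by rw [map_mul, hγ]⟩⟩
  invFun u := ⟨u.1 * Gamma0Map M δ⁻¹, by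
    obtain ⟨γ, hγ⟩ := u.2
    exact ⟨γ * δ⁻¹, by rw [map_mul, hγ]⟩⟩
  left_inv u := Subtype.ext (by
    show u.1 * Gamma0Map M δ * Gamma0Map M δ⁻¹ = u.1
    rw [mul_assoc, ← map_mul, mul_inv_cancel, map_one, mul_one])
  right_inv u := Subtype.ext (by
    show u.1 * Gamma0Map M δ⁻¹ * Gamma0Map M δ = u.1
    rw [mul_assoc, ← map_mul, inv_mul_cancel, map_one, mul_one])

theorem shiftEquiv_val (δ : Gamma0 M) (u : RangeU M) :
    (shiftEquiv δ u).1 = u.1 * Gamma0Map M δ := rfl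

theorem exists_norm [NeZero M] (hB : IsW M k B) (hB0 : B ≠ 0) :
    ∃ (k' : ℤ) (C : ℍ → ℂ), IsW M k' C ∧ C ≠ 0 ∧
      ∀ δ : SL(2, ℤ), δ ∈ Gamma0 M → (B * C) ∣[k + k'] δ = B * C := by
  classical
  have : Finite (RangeU M) := Subtype.finite
  let _ : Fintype (RangeU M) := Fintype.ofFinite _
  let rep : RangeU M → Gamma0 M := fun u => Classical.choose u.2
  have hrep : ∀ u, Gamma0Map M (rep u) = u.1 := fun u => Classical.choose_spec u.2
  let u₁ : RangeU M := ⟨1, 1, map_one _⟩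
  let f : RangeU M → ℍ → ℂ := fun u => B ∣[k] (rep u : SL(2, ℤ))
  have hf : ∀ u, IsW M k (f u) ∧ f u ≠ 0 := fun u =>
    ⟨hB.slash_Gamma0 (rep u).2, slash_ne_zero k _ hB0⟩
  have hf1 : f u₁ = B := by
    have h1 := slash_eq_of_map_eq hB (rep u₁) 1 (by rw [hrep, map_one])
    rw [Subgroup.coe_one, SlashAction.slash_one] at h1
    exact h1
  set s := (Finset.univ : Finset (RangeU M)).erase u₁ with hs
  have hP := prod_isW (M := M) (k := k) s f (fun u _ => hf u)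
  refine ⟨(s.card : ℤ) * k, ∏ u ∈ s, f u, hP.1, hP.2, ?_⟩
  intro δ hδ
  have hprod : B * ∏ u ∈ s, f u = ∏ u, f u := by
    conv_lhs => rw [← hf1]
    exact Finset.mul_prod_erase _ _ (Finset.mem_univ _)
  have hcard : k + (s.card : ℤ) * k = ((Finset.univ : Finset (RangeU M)).card : ℤ) * k := by
    have h1 : 1 ≤ (Finset.univ : Finset (RangeU M)).card :=
      Finset.card_pos.mpr ⟨u₁, Finset.mem_univ _⟩
    rw [hs, Finset.card_erase_of_mem (Finset.mem_univ _), Nat.cast_sub h1]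
    push_cast
    ring
  rw [hprod, hcard, prod_slash]
  rw [← Equiv.prod_comp (shiftEquiv ⟨δ, hδ⟩) (fun u => f u)]
  apply Finset.prod_congr rfl
  intro u _
  show (B ∣[k] (rep u : SL(2, ℤ))) ∣[k] δ = B ∣[k] (rep (shiftEquiv ⟨δ, hδ⟩ u) : SL(2, ℤ))
  rw [← SlashAction.slash_mul]
  exact slash_eq_of_map_eq hB (rep u * ⟨δ, hδ⟩) (rep (shiftEquiv ⟨δ, hδ⟩ u))
    (by rw [map_mul, hrep, hrep, shiftEquiv_val])

end Norm

/-! ### Fixed elements -/

section Fixed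

variable {M : ℕ} [NeZero M]

/-- A Laurent series which is, for every `γ ∈ Γ₀(M)`, related to itself is a ratio of two forms on
`Γ₀(M)`, hence lies in `F₀(M)·ℂ`. -/
theorem mem_FNL_of_rel {x : LaurentSeries ℂ}
    (h : ∀ γ : SL(2, ℤ), γ ∈ Gamma0 M → Rel M γ x x) :
    x ∈ laurentBaseChange ℂ (modularFunctionFieldFull M) := by
  obtain ⟨k, A, B, hA, hB, hB0, hx, -⟩ := h 1 (Gamma0 M).one_mem
  -- the slash action on this particular pair
  have hfix : ∀ γ : SL(2, ℤ), γ ∈ Gamma0 M → qLaurent (A ∣[k] γ) = x * qLaurent (B ∣[k] γ) := by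
    intro γ hγ
    have nBγ : qLaurent (B ∣[k] γ) ≠ 0 :=
      qLaurent_ne_zero (hB.slash_Gamma0 hγ).nice (slash_ne_zero k γ hB0)
    have h2 : Rel M γ x (qLaurent (A ∣[k] γ) / qLaurent (B ∣[k] γ)) :=
      ⟨k, A, B, hA, hB, hB0, hx, by field_simp⟩
    have h3 := rel_unique hγ (h γ hγ) h2
    rw [h3]
    field_simp
  obtain ⟨k', C, hC, hC0, hnorm⟩ := exists_norm hB hB0
  have hAC : IsW M (k + k') (A * C) := hA.mul hC
  have hBC : IsW M (k + k') (B * C) := hB.mul hC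
  have hBC0 : B * C ≠ 0 := isW_mul_ne_zero hB hC hB0 hC0
  have hxBC : qLaurent (A * C) = x * qLaurent (B * C) := by
    rw [qLaurent_mul hA.nice hC.nice, qLaurent_mul hB.nice hC.nice, hx]
    ring
  have hfixA : ∀ δ : SL(2, ℤ), δ ∈ Gamma0 M → (A * C) ∣[k + k'] δ = A * C := by
    intro δ hδ
    apply qLaurent_injective (hAC.slash_Gamma0 hδ).nice hAC.nice
    have h1 : qLaurent ((A * C) ∣[k + k'] δ) = x * qLaurent ((B * C) ∣[k + k'] δ) := by
      rw [mul_slash_SL2, mul_slash_SL2,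
        qLaurent_mul (hA.slash_Gamma0 hδ).nice (hC.slash_Gamma0 hδ).nice,
        qLaurent_mul (hB.slash_Gamma0 hδ).nice (hC.slash_Gamma0 hδ).nice, hfix δ hδ]
      ring
    rw [h1, hnorm δ hδ, hxBC]
  set A₀ := toModularForm0 hAC hfixA with hA₀
  set B₀ := toModularForm0 hBC hnorm with hB₀
  have hB₀0 : B₀ ≠ 0 := by
    intro h0
    apply hBC0
    have : (B₀ : ℍ → ℂ) = 0 := by rw [h0]; rfl
    rwa [hB₀, toModularForm0_coe] at this
  obtain ⟨f, -, hf⟩ := Fermat.Agent.GTor.H58.stmt_A2 M (k + k') A₀ B₀ hB₀0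
  have e1 : qLaurent (A₀ : ℍ → ℂ) = qLaurent (A * C) := rfl
  have e2 : qLaurent (B₀ : ℍ → ℂ) = qLaurent (B * C) := rfl
  rw [e1, e2, hxBC] at hf
  have n0 : qLaurent (B * C) ≠ 0 := qLaurent_ne_zero hBC.nice hBC0
  have : x = (f : LaurentSeries ℂ) := mul_right_cancel₀ n0 hf
  rw [this]
  exact f.2

variable {c : ℕ} (H : Subgroup (ZMod c)ˣ) (ι : Kbar →+* ℂ) (hc2 : 2 ≤ c) (hc : c ∣ M)

theorem mem_bar_of_fixed (x : ↥(FHbar M c H)) (hx : ∀ d, rho H ι hc2 hc d x = x) :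
    (x : LaurentSeries Kbar) ∈ modularFunctionFieldBar M := by
  apply Fermat.Agent.NEB.H30.descent ι (modularFunctionFieldFull M)
  apply mem_FNL_of_rel
  intro γ hγ
  have h1 := actHom_rel H ι hc2 hc ⟨γ, hγ⟩ x
  have h2 : actHom H ι hc2 hc ⟨γ, hγ⟩ x = x := by
    rw [actHom_eq_rho, ← rho_apply]
    exact hx _
  rwa [h2] at h1

/-- **FH-GAL.** -/
theorem stmt_FH_gal (M c : ℕ) (H : Subgroup (ZMod c)ˣ) : Stmt_FH_gal M c H := by
  intro hc2 hc hM
  have : NeZero M := ⟨hM⟩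
  have halg : Algebra.IsAlgebraic ℚ (AlgebraicClosure ℚ) := AlgebraicClosure.isAlgebraic ℚ
  have ι : Kbar →+* ℂ := (IsAlgClosed.lift : AlgebraicClosure ℚ →ₐ[ℚ] ℂ).toRingHom
  refine ⟨rho H ι hc2 hc, rho_gen H ι hc2 hc, rho_incl H ι hc2 hc, ?_, rho_eq_one_iff H ι hc2 hc,
    rho_arith H ι hc2 hc⟩
  intro x hx
  exact ⟨⟨x, mem_bar_of_fixed H ι hc2 hc x hx⟩, Subtype.ext (by rw [coe_inclBar])⟩

end Fixed

end Fermat.Agent.NEB.H84
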