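import Fermat.Agent.NEB.H84_Beta
import Fermat.Agent.NEB.H14_JHDefs

/-!
# NEB, package FH-BETA, part 3 (helper84): `β` intertwines the diamond operators

* `diamondData_unique` : the diamond operators of a `DiamondData` are the ones of `H84.rho`
  (`F_H` is generated by `F₀` and the `genBar a`);
* `stmt_FH_betaGal : JH.Stmt_FH_betaGal M c ℓ H`;
* `diamondData M c H` : the `DiamondData` of `stmt_FH_gal`, `betaOK` : `BetaOK`.
-/

set_option autoImplicit false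
set_option linter.unusedSectionVars false
set_option linter.style.haveILetI false

open UpperHalfPlane ModularForm CongruenceSubgroup ModularCurve
open scoped MatrixGroups ModularForm Manifold

noncomputable section

namespace Fermat.Agent.NEB.H84

open Fermat.Agent.NEB.JH

section Unique

variable {M c : ℕ} [NeZero M] (H : Subgroup (ZMod c)ˣ) (ι : Kbar →+* ℂ)
  (hc2 : 2 ≤ c) (hc : c ∣ M)

theorem diamondData_unique (dd : DiamondData M c H) (d : (ZMod c)ˣ) (x : ↥(FHbar M c H)) :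
    dd.ρ d x = rhoHom H ι hc2 hc d x := by
  have : ((dd.ρ d : ↥(FHbar M c H) ≃ₐ[Kbar] ↥(FHbar M c H)) :
      ↥(FHbar M c H) →ₐ[Kbar] ↥(FHbar M c H)) = rhoHom H ι hc2 hc d := by
    apply algHom_ext_FHbar
    · intro x₀
      rw [rhoHom_incl]
      exact dd.fix d x₀
    · intro a
      rw [rhoHom_gen]
      exact dd.gen d a
  exact congrArg (fun f : ↥(FHbar M c H) →ₐ[Kbar] ↥(FHbar M c H) => f x) this

end Unique

section BetaGal

variable {M c : ℕ} [NeZero M] (ℓ : ℕ) [NeZero ℓ] (H : Subgroup (ZMod c)ˣ) (ι : Kbar →+* ℂ)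

theorem betaBar_inclBar (hβ : BetaOK M c ℓ H) (x₀ : ↥(modularFunctionFieldBar M)) :
    betaBar hβ (inclBar M c H x₀) = inclBar (M * ℓ) c H (heckeBetaBar Kbar M ℓ x₀) := by
  apply Subtype.ext
  rw [coe_betaBar, coe_inclBar, coe_inclBar, coe_heckeBetaBar]

theorem coe_betaBar_genBar (hβ : BetaOK M c ℓ H) (a : (ZMod c)ˣ) :
    ((betaBar hβ (genBar M c H a) : ↥(FHbar (M * ℓ) c H)) : LaurentSeries Kbar) =
      qExpand Kbar ℓ (coeffEmb Kbar (eisGen c (cosetSet c H a))) := rfl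

theorem coeffMap_betaBar_genBar (hβ : BetaOK M c ℓ H) (a : (ZMod c)ˣ) :
    coeffMap ι ((betaBar hβ (genBar M c H a) : ↥(FHbar (M * ℓ) c H)) : LaurentSeries Kbar) =
      qExpand ℂ ℓ (coeffEmb ℂ (eisGen c (cosetSet c H a))) := by
  rw [coe_betaBar_genBar, coeffMap_qExpand_jh, coeffMap_coeffEmb_C]

theorem actHom_betaBar_genBar (hc2 : 2 ≤ c) (hc : c ∣ M) (hβ : BetaOK M c ℓ H)
    (γ : Gamma0 (M * ℓ)) (a : (ZMod c)ˣ) :
    haveI : NeZero (M * ℓ) := ⟨mul_ne_zero (NeZero.ne M) (NeZero.ne ℓ)⟩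
    actHom H ι hc2 (hc.trans (dvd_mul_right M ℓ)) γ (betaBar hβ (genBar M c H a)) =
      betaBar hβ (genBar M c H ((dUnit (hc.trans (dvd_mul_right M ℓ)) γ γ.2)⁻¹ * a)) := by
  haveI : NeZero (M * ℓ) := ⟨mul_ne_zero (NeZero.ne M) (NeZero.ne ℓ)⟩
  apply actHom_eq
  rw [coeffMap_betaBar_genBar, coeffMap_betaBar_genBar]
  exact relC_gen_beta H ℓ hc2 hc γ.2 a

/-- **FH-BETAGAL.** -/
theorem stmt_FH_betaGal (M c ℓ : ℕ) [NeZero ℓ] (H : Subgroup (ZMod c)ˣ) :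
    Stmt_FH_betaGal M c ℓ H := by
  intro hc2 hc hM hβ dd dd' d x
  haveI : NeZero M := ⟨hM⟩
  haveI : NeZero (M * ℓ) := ⟨mul_ne_zero hM (NeZero.ne ℓ)⟩
  have halg : Algebra.IsAlgebraic ℚ (AlgebraicClosure ℚ) := AlgebraicClosure.isAlgebraic ℚ
  have ι : Kbar →+* ℂ := (IsAlgClosed.lift : AlgebraicClosure ℚ →ₐ[ℚ] ℂ).toRingHom
  have hc' : c ∣ M * ℓ := hc.trans (dvd_mul_right M ℓ)
  have key := ringHom_ext_FHbar H
    (((dd'.ρ d : ↥(FHbar (M * ℓ) c H) ≃ₐ[Kbar] ↥(FHbar (M * ℓ) c H)) :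
        ↥(FHbar (M * ℓ) c H) →+* ↥(FHbar (M * ℓ) c H)).comp
      (betaBar hβ : ↥(FHbar M c H) →+* ↥(FHbar (M * ℓ) c H)))
    ((betaBar hβ : ↥(FHbar M c H) →+* ↥(FHbar (M * ℓ) c H)).comp
      ((dd.ρ d : ↥(FHbar M c H) ≃ₐ[Kbar] ↥(FHbar M c H)) :
        ↥(FHbar M c H) →+* ↥(FHbar M c H))) ?_ ?_ ?_
  · exact congrArg (fun h : ↥(FHbar M c H) →+* ↥(FHbar (M * ℓ) c H) => h x) key
  · intro a
    simp only [RingHom.comp_apply, RingHom.coe_coe, AlgHom.commutes, AlgEquiv.commutes]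
  · intro x₀
    simp only [RingHom.comp_apply, RingHom.coe_coe]
    rw [dd.fix, betaBar_inclBar, dd'.fix]
  · intro a
    simp only [RingHom.comp_apply, RingHom.coe_coe]
    rw [dd.gen, diamondData_unique H ι hc2 hc' dd' d, rhoHom, actHom_betaBar_genBar ℓ H ι hc2 hc hβ,
      dUnit_gam, inv_inv, mul_comm d a]

end BetaGal

/-! ### Packaged outputs for the `J_H` interface -/

section Package

/-- The diamond operators as `DiamondData`. -/
theorem nonempty_diamondData' (M c : ℕ) (H : Subgroup (ZMod c)ˣ) (hc2 : 2 ≤ c) (hc : c ∣ M)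
    (hM : M ≠ 0) : Nonempty (DiamondData M c H) :=
  nonempty_diamondData (stmt_FH_gal M c H) hc2 hc hM

theorem betaOK (M c ℓ : ℕ) [NeZero ℓ] (H : Subgroup (ZMod c)ˣ) (hc2 : 2 ≤ c) (hc : c ∣ M)
    (hM : M ≠ 0) : BetaOK M c ℓ H :=
  stmt_FH_beta M c ℓ H hc2 hc hM

end Package

end Fermat.Agent.NEB.H84
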