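import Fermat.Agent.NEB.H84_Act

/-!
# NEB, package FH-GAL, part 5 (helper84): the action of `Γ₀(M)` on `F_H(M)·ℚ̄` as algebra maps

* `actHom γ : F_H →ₐ[ℚ̄] F_H` with graph `Rel M γ` (after `ι : ℚ̄ → ℂ`);
* `actHom_gen`, `actHom_incl` : values on the generators and on `F₀`;
* `ringHom_ext_FHbar` : ring homomorphisms on `F_H` are determined by their values on the constants,
  on `F₀` and on the generators.
-/

set_option autoImplicit false
set_option linter.unusedSectionVars false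

open UpperHalfPlane ModularForm CongruenceSubgroup ModularCurve
open scoped MatrixGroups ModularForm Manifold

noncomputable section

namespace Fermat.Agent.NEB.H84

open Fermat.Agent.GTor (qLaurent)

section BC

variable (ι : Kbar →+* ℂ) {F₀ : IntermediateField ℚ (LaurentSeries ℚ)}

theorem coeffMap_mem_bcC {x : LaurentSeries Kbar} (hx : x ∈ laurentBaseChange Kbar F₀) :
    coeffMap ι x ∈ laurentBaseChange ℂ F₀ := by
  rw [mem_laurentBaseChange_iff] at hx
  induction hx using Subfield.closure_induction with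
  | mem y hy =>
      rcases hy with ⟨a, rfl⟩ | ⟨z, hz, rfl⟩
      · rw [coeffMap_const]
        have : (HahnSeries.C (ι a) : LaurentSeries ℂ) =
            algebraMap ℂ (LaurentSeries ℂ) (ι a) := by
          rw [algebraMap_laurentSeries_eq_single]
          rfl
        rw [this]
        exact (laurentBaseChange ℂ F₀).algebraMap_mem _
      · rw [coeffMap_coeffEmb_C]
        exact coeffEmb_mem_laurentBaseChange ℂ hz
  | one => simp
  | add x y _ _ hx hy => simpa using add_mem hx hy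
  | neg x _ hx => simpa using neg_mem hx
  | inv x _ hx => simpa using inv_mem hx
  | mul x y _ _ hx hy => simpa using mul_mem hx hy

end BC

section Hom

variable {M c : ℕ} [NeZero M] (H : Subgroup (ZMod c)ˣ) (ι : Kbar →+* ℂ)
  (hc2 : 2 ≤ c) (hc : c ∣ M)

/-- The action of `γ ∈ Γ₀(M)` on `F_H(M)·ℚ̄`, as a function. -/
def actFun (γ : Gamma0 M) (x : ↥(FHbar M c H)) : ↥(FHbar M c H) :=
  ⟨Classical.choose (exists_relK H ι hc2 hc γ.2 x.2),
    (Classical.choose_spec (exists_relK H ι hc2 hc γ.2 x.2)).1⟩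

theorem actFun_rel (γ : Gamma0 M) (x : ↥(FHbar M c H)) :
    Rel M γ (coeffMap ι (x : LaurentSeries Kbar))
      (coeffMap ι (actFun H ι hc2 hc γ x : LaurentSeries Kbar)) :=
  (Classical.choose_spec (exists_relK H ι hc2 hc γ.2 x.2)).2

theorem actFun_eq {γ : Gamma0 M} {x y : ↥(FHbar M c H)}
    (h : Rel M γ (coeffMap ι (x : LaurentSeries Kbar)) (coeffMap ι (y : LaurentSeries Kbar))) :
    actFun H ι hc2 hc γ x = y :=
  Subtype.ext (coeffMap_inj ι (rel_unique γ.2 (actFun_rel H ι hc2 hc γ x) h))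

/-- The action of `γ ∈ Γ₀(M)` on `F_H(M)·ℚ̄`, as a `ℚ̄`-algebra homomorphism. -/
def actHom (γ : Gamma0 M) : ↥(FHbar M c H) →ₐ[Kbar] ↥(FHbar M c H) where
  toFun := actFun H ι hc2 hc γ
  map_one' := by
    apply actFun_eq
    have := rel_C M γ 1
    simpa using this
  map_mul' x y := by
    apply actFun_eq
    have := rel_mul γ.2 (actFun_rel H ι hc2 hc γ x) (actFun_rel H ι hc2 hc γ y)
    simpa using this
  map_zero' := by
    apply actFun_eq
    have := rel_C M γ 0
    simpa using this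
  map_add' x y := by
    apply actFun_eq
    have := rel_add γ.2 (actFun_rel H ι hc2 hc γ x) (actFun_rel H ι hc2 hc γ y)
    simpa using this
  commutes' a := by
    apply actFun_eq
    have := rel_C M γ (ι a)
    rw [← coeffMap_const] at this
    exact this

theorem actHom_rel (γ : Gamma0 M) (x : ↥(FHbar M c H)) :
    Rel M γ (coeffMap ι (x : LaurentSeries Kbar))
      (coeffMap ι (actHom H ι hc2 hc γ x : LaurentSeries Kbar)) :=
  actFun_rel H ι hc2 hc γ x

theorem actHom_eq {γ : Gamma0 M} {x y : ↥(FHbar M c H)}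
    (h : Rel M γ (coeffMap ι (x : LaurentSeries Kbar)) (coeffMap ι (y : LaurentSeries Kbar))) :
    actHom H ι hc2 hc γ x = y :=
  actFun_eq H ι hc2 hc h

theorem actHom_gen (γ : Gamma0 M) (a : (ZMod c)ˣ) :
    actHom H ι hc2 hc γ (genBar M c H a) = genBar M c H ((dUnit hc γ γ.2)⁻¹ * a) :=
  actHom_eq H ι hc2 hc (relK_gen H ι hc2 hc γ.2 a)

theorem actHom_incl (γ : Gamma0 M) (x : ↥(modularFunctionFieldBar M)) :
    actHom H ι hc2 hc γ (inclBar M c H x) = inclBar M c H x := by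
  apply actHom_eq
  rw [coe_inclBar]
  exact rel_of_mem_FNL γ.2 ⟨coeffMap ι (x : LaurentSeries Kbar), coeffMap_mem_bcC ι x.2⟩

end Hom

/-! ### Extensionality -/

section Ext

variable {M c : ℕ} (H : Subgroup (ZMod c)ˣ) {R : Type*} [DivisionRing R]

theorem ringHom_ext_FHbar (f g : ↥(FHbar M c H) →+* R)
    (hconst : ∀ a : Kbar, f (algebraMap Kbar _ a) = g (algebraMap Kbar _ a))
    (hincl : ∀ x : ↥(modularFunctionFieldBar M), f (inclBar M c H x) = g (inclBar M c H x))
    (hgen : ∀ a : (ZMod c)ˣ, f (genBar M c H a) = g (genBar M c H a)) : f = g := by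
  ext ⟨x, hx⟩
  have key : ∃ hx' : x ∈ FHbar M c H, f ⟨x, hx'⟩ = g ⟨x, hx'⟩ := by
    refine FHbar_induction M c H (P := fun x => ∃ hx' : x ∈ FHbar M c H,
      f ⟨x, hx'⟩ = g ⟨x, hx'⟩) ?_ ?_ ?_ ?_ ?_ ?_ ?_ ?_ hx
    · intro a
      exact ⟨(FHbar M c H).algebraMap_mem a, hconst a⟩
    · intro d hd0 hd
      have hmem : qExpand ℚ d jq ∈ modularFunctionFieldFull M :=
        IntermediateField.subset_adjoin ℚ _ ⟨d, hd0, hd, rfl⟩
      exact ⟨coeffEmb_mem_laurentBaseChange Kbar (full_le_FHQ M c H hmem),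
        hincl ⟨_, coeffEmb_mem_laurentBaseChange Kbar hmem⟩⟩
    · intro a
      exact ⟨_, hgen a⟩
    · exact ⟨one_mem _, by
        have : (⟨1, one_mem _⟩ : ↥(FHbar M c H)) = 1 := rfl
        rw [this, map_one, map_one]⟩
    · rintro x y ⟨hx, ex⟩ ⟨hy, ey⟩
      refine ⟨add_mem hx hy, ?_⟩
      have : (⟨x + y, add_mem hx hy⟩ : ↥(FHbar M c H)) = ⟨x, hx⟩ + ⟨y, hy⟩ := rfl
      rw [this, map_add, map_add, ex, ey]
    · rintro x ⟨hx, ex⟩
      refine ⟨neg_mem hx, ?_⟩
      have : (⟨-x, neg_mem hx⟩ : ↥(FHbar M c H)) = -⟨x, hx⟩ := rfl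
      rw [this, map_neg, map_neg, ex]
    · rintro x ⟨hx, ex⟩
      refine ⟨inv_mem hx, ?_⟩
      have : (⟨x⁻¹, inv_mem hx⟩ : ↥(FHbar M c H)) = (⟨x, hx⟩ : ↥(FHbar M c H))⁻¹ := rfl
      rw [this, map_inv₀, map_inv₀, ex]
    · rintro x y ⟨hx, ex⟩ ⟨hy, ey⟩
      refine ⟨mul_mem hx hy, ?_⟩
      have : (⟨x * y, mul_mem hx hy⟩ : ↥(FHbar M c H)) = ⟨x, hx⟩ * ⟨y, hy⟩ := rfl
      rw [this, map_mul, map_mul, ex, ey]
  exact key.2

theorem algHom_ext_FHbar (f g : ↥(FHbar M c H) →ₐ[Kbar] ↥(FHbar M c H))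
    (hincl : ∀ x : ↥(modularFunctionFieldBar M), f (inclBar M c H x) = g (inclBar M c H x))
    (hgen : ∀ a : (ZMod c)ˣ, f (genBar M c H a) = g (genBar M c H a)) : f = g := by
  have := ringHom_ext_FHbar H (f : ↥(FHbar M c H) →+* ↥(FHbar M c H)) g
    (fun a => by simp) hincl hgen
  apply AlgHom.ext
  intro x
  exact congrArg (fun h : ↥(FHbar M c H) →+* ↥(FHbar M c H) => h x) this

end Ext

end Fermat.Agent.NEB.H84
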