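import Fermat.Agent.NEB.H14_JHDefs
import Fermat.Agent.NEB.H84_Hom

/-!
# Item 72 (LG-NEB), leaf FH-ALPHAGAL (helper94)

`stmt_FH_alphaGal M c ℓ H : JH.Stmt_FH_alphaGal M c ℓ H`: the degeneracy map `α` (inclusion
`F_H(M) ⊆ F_H(Mℓ)`) intertwines the diamond operators of levels `M` and `Mℓ`.  Formal: both sides
are ring homomorphisms `F_H(M) → F_H(Mℓ)` which agree on the constants, on `F₀(M)` and on the
generators `e_{±aH}` (helper84's `ringHom_ext_FHbar`).
-/

set_option autoImplicit false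
set_option linter.style.haveILetI false

noncomputable section

namespace Fermat.Agent.NEB.H94

open AlgebraicCurve ModularCurve IntermediateField
open Fermat.Agent.NEB Fermat.Agent.NEB.JH

theorem alphaGal_full_mono {N M : ℕ} (h : N ∣ M) :
    modularFunctionFieldFull N ≤ modularFunctionFieldFull M := by
  apply IntermediateField.adjoin.mono
  rintro x ⟨d, hd0, hd, hx⟩
  exact ⟨d, hd0, hd.trans h, hx⟩

theorem alphaGal_bar_mono {N M : ℕ} (h : N ∣ M) :
    modularFunctionFieldBar N ≤ modularFunctionFieldBar M :=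
  laurentBaseChange_mono (alphaGal_full_mono h)

variable (M c ℓ : ℕ) (H : Subgroup (ZMod c)ˣ)

theorem alphaGal_coe_alphaH (x : ↥(FHbar M c H)) :
    ((alphaH M c ℓ H x : ↥(FHbar (M * ℓ) c H)) : LaurentSeries Kbar) = (x : LaurentSeries Kbar) :=
  IntermediateField.coe_inclusion _ x

/-- `α (e_{±aH}) = e_{±aH}`. -/
theorem alphaH_genBar (a : (ZMod c)ˣ) :
    alphaH M c ℓ H (genBar M c H a) = genBar (M * ℓ) c H a :=
  Subtype.ext (by rw [alphaGal_coe_alphaH]; rfl)

/-- `α` restricted to `F₀(M)` is the inclusion `F₀(M) ⊆ F₀(Mℓ)`. -/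
theorem alphaH_inclBar (x : ↥(modularFunctionFieldBar M)) :
    alphaH M c ℓ H (inclBar M c H x)
      = inclBar (M * ℓ) c H
          (IntermediateField.inclusion (alphaGal_bar_mono (dvd_mul_right M ℓ)) x) :=
  Subtype.ext (by
    rw [alphaGal_coe_alphaH, coe_inclBar, coe_inclBar, IntermediateField.coe_inclusion])

/-- **FH-ALPHAGAL**. -/
theorem stmt_FH_alphaGal : Stmt_FH_alphaGal M c ℓ H := by
  intro dd dd' d x
  have key := H84.ringHom_ext_FHbar H
    (((dd'.ρ d : ↥(FHbar (M * ℓ) c H) ≃ₐ[Kbar] ↥(FHbar (M * ℓ) c H)) :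
        ↥(FHbar (M * ℓ) c H) →+* ↥(FHbar (M * ℓ) c H)).comp
      (alphaH M c ℓ H : ↥(FHbar M c H) →+* ↥(FHbar (M * ℓ) c H)))
    ((alphaH M c ℓ H : ↥(FHbar M c H) →+* ↥(FHbar (M * ℓ) c H)).comp
      ((dd.ρ d : ↥(FHbar M c H) ≃ₐ[Kbar] ↥(FHbar M c H)) :
        ↥(FHbar M c H) →+* ↥(FHbar M c H)))
    ?_ ?_ ?_
  · exact congrArg (fun f : ↥(FHbar M c H) →+* ↥(FHbar (M * ℓ) c H) => f x) key
  · intro a
    simp only [RingHom.comp_apply, RingHom.coe_coe, AlgHom.commutes, AlgEquiv.commutes]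
  · intro y
    simp only [RingHom.comp_apply, RingHom.coe_coe]
    rw [dd.fix, alphaH_inclBar, dd'.fix]
  · intro a
    simp only [RingHom.comp_apply, RingHom.coe_coe]
    rw [dd.gen, alphaH_genBar, alphaH_genBar, dd'.gen]

end Fermat.Agent.NEB.H94
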