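import Mathlib
import Fermat.Agent.NEB.H14_JHRules
import Fermat.Agent.NEB.H84_BetaGal
import Fermat.Agent.NEB.H94_AlphaGal
import Fermat.Agent.NEB.H94_FF

/-!
# NEB, package JH (helper14): the data `HeckeData M c ℓ H`, unconditionally

All inputs of the rules of `H14_JHRules` are now theorems (FH-GAL, FH-BETA, FH-betaGal: helper84;
FH-FF, FH-alphaGal: helper94), so for `2 ≤ c`, `c ∣ M`, `M ≠ 0`:

* `diamondData M c H h2 hc : DiamondData M c H`;
* `heckeData M c ℓ H h2 hc : HeckeData M c ℓ H`;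
* `isFF_JH`, `betaOK'`.
-/

set_option autoImplicit false
set_option linter.unusedSectionVars false
set_option linter.style.haveILetI false
set_option linter.dupNamespace false

noncomputable section

namespace Fermat.Agent.NEB.JH

open AlgebraicCurve ModularCurve IntermediateField HahnSeries
open Fermat.Agent.NEB Fermat.Agent.NEB.H14 Fermat.Agent.RED

/-- FH-FF, unconditionally. -/
theorem isFF_JH (M c : ℕ) [NeZero M] (H : Subgroup (ZMod c)ˣ) (h2 : 2 ≤ c) (hc : c ∣ M) :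
    IsFF Kbar ↥(FHbar M c H) :=
  Fermat.Agent.NEB.H94.isFF_FHbar M c H h2 hc (Fermat.Agent.NEB.H84.stmt_FH_gal M c H)

/-- The diamond operators of `F_H(M)`. -/
def diamondData (M c : ℕ) [NeZero M] (H : Subgroup (ZMod c)ˣ) (h2 : 2 ≤ c) (hc : c ∣ M) :
    DiamondData M c H :=
  (Fermat.Agent.NEB.H84.nonempty_diamondData' M c H h2 hc (NeZero.ne M)).some

/-- Two `DiamondData` have the same `ρ`. -/
theorem diamondData_rho_eq {M c : ℕ} {H : Subgroup (ZMod c)ˣ} (dd dd₁ : DiamondData M c H)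
    (d : (ZMod c)ˣ) (x : ↥(FHbar M c H)) : dd.ρ d x = dd₁.ρ d x := by
  have key := Fermat.Agent.NEB.H84.ringHom_ext_FHbar H
    ((dd.ρ d : ↥(FHbar M c H) ≃ₐ[Kbar] ↥(FHbar M c H)) : ↥(FHbar M c H) →+* ↥(FHbar M c H))
    ((dd₁.ρ d : ↥(FHbar M c H) ≃ₐ[Kbar] ↥(FHbar M c H)) : ↥(FHbar M c H) →+* ↥(FHbar M c H))
    ?_ ?_ ?_
  · exact congrArg (fun f : ↥(FHbar M c H) →+* ↥(FHbar M c H) => f x) key
  · intro a
    simp only [RingHom.coe_coe, AlgEquiv.commutes]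
  · intro y
    simp only [RingHom.coe_coe]
    rw [dd.fix, dd₁.fix]
  · intro a
    simp only [RingHom.coe_coe]
    rw [dd.gen, dd₁.gen]

/-- FH-BETA, unconditionally. -/
theorem betaOK' (M c ℓ : ℕ) [NeZero M] [NeZero ℓ] (H : Subgroup (ZMod c)ˣ) (h2 : 2 ≤ c)
    (hc : c ∣ M) : BetaOK M c ℓ H :=
  Fermat.Agent.NEB.H84.betaOK M c ℓ H h2 hc (NeZero.ne M)

/-- The data of the rules of `J_H` at the levels `M`, `Mℓ`. -/
def heckeData (M c ℓ : ℕ) [NeZero M] [NeZero ℓ] (H : Subgroup (ZMod c)ˣ) (h2 : 2 ≤ c)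
    (hc : c ∣ M) : HeckeData M c ℓ H :=
  haveI : NeZero (M * ℓ) := neZero_mul M ℓ
  { isFF := isFF_JH M c H h2 hc
    isFF' := isFF_JH (M * ℓ) c H h2 (hc.trans (dvd_mul_right M ℓ))
    dd := diamondData M c H h2 hc
    dd' := diamondData (M * ℓ) c H h2 (hc.trans (dvd_mul_right M ℓ))
    hβ := betaOK' M c ℓ H h2 hc
    alphaGal := Fermat.Agent.NEB.H94.stmt_FH_alphaGal M c ℓ H _ _
    betaGal := Fermat.Agent.NEB.H84.stmt_FH_betaGal M c ℓ H h2 hc (NeZero.ne M) _ _ _ }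

end Fermat.Agent.NEB.JH
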