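import Fermat.Agent.RED.ES.H95_KronGauss
import Fermat.Agent.RED.H73_GAMainA
import Fermat.Agent.RED.H33_UniGal
import Fermat.Agent.BAD.H91_GaussInertia

/-!
# LG-NEB, package RED-q (helper70), part 1: Kronecker's congruence for the operators of `X_H`,
series level

`C` a field, `O : ValuationSubring C`, residue field `k = kV O`.  Everything here is a statement
about Laurent series in `C((q))`, their Gauss reduction `gaussRedV O`, and the formal operators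

* `uSeries ℓ s  = ∏_{ζ^ℓ = 1} s (ζ q^{1/ℓ})`          (Kummer function of `U_ℓ`),
* `twNorm ℓ y s = y (q^ℓ) · ∏_{ζ^ℓ = 1} s (ζ q^{1/ℓ})`  (Kummer function of `T_ℓ` on `X_H`:
  `y = ⟨ℓ⟩ s`, or `y = s` and `s` replaced by `⟨ℓ⟩⁻¹ s`; `twNorm ℓ s s = H44.normSeries s`).

Vocabulary:

* `RedTo O x y`     : `x` lies in the Gauss ring and reduces to `y`;
* `IsRedOneC O x`   : some constant multiple of `x` reduces to `1`
  (`x ∈ Cˣ · (1 + 𝔪_Gauss)`: the class of `x` in the kernel `K_A` of the reduction map).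

Results (residue characteristic `ℓ`, `s` a Frobenius lift: a ring automorphism of `C` preserving
`O` and inducing `a ↦ a ^ ℓ` on `k`; all series are "scalable": a constant multiple is a Gauss
unit):

* `RedTo.uSer`      : `res (uSeries x) = Frob (res x)`                      (Kronecker for `U_ℓ`);
* `RedTo.twN`       : `res (twNorm y x) = (res y)(q^ℓ) · Frob (res x)`      (Kronecker for `T_ℓ`);
* `isRedOneC_U`     : `uSeries x / s x ∈ Cˣ (1 + 𝔪)`                      (`(U_ℓ - φ) J ⊆ K_A`);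
* `isRedOneC_ES`    : `s² x₂ · twNorm (s x₁) (s x₂)⁻¹ · x₁ ^ ℓ ∈ Cˣ (1 + 𝔪)`
                      (`(φ² d₂ - T_ℓ φ + ℓ d₁) J ⊆ K_A`, the Eichler–Shimura relation);
* `isRedOneC_inertia` : `σ x / x ∈ Cˣ (1 + 𝔪)` for `σ` inertial           (`(σ - 1) J ⊆ K_A`).

No `sorry`.
-/

set_option autoImplicit false

noncomputable section

open ModularCurve Fermat.Agent.S28 Fermat.Agent.S28.H73 Fermat.Agent.RED.H73 Fermat.Agent.GTor

namespace Fermat.Agent.NEB.H70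

/-! ## 1. The formal operators -/

section Ops

variable {C : Type} [Field C] (ℓ : ℕ) [NeZero ℓ]

/-- `uSeries ℓ s = ∏_{ζ^ℓ = 1} s (ζ q^{1/ℓ})`. -/
def uSeries (s : LaurentSeries C) : LaurentSeries C :=
  H44.descend ℓ (H44.twistProd C ℓ s)

/-- `twNorm ℓ y s = y (q^ℓ) · ∏_{ζ^ℓ = 1} s (ζ q^{1/ℓ})`. -/
def twNorm (y s : LaurentSeries C) : LaurentSeries C :=
  qExpand C ℓ y * uSeries ℓ s

theorem normSeries_eq_twNorm (s : LaurentSeries C) :
    H44.normSeries C ℓ s = twNorm ℓ s s := rfl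

variable {ℓ}

theorem uSeries_mul {ζ₀ : Cˣ} (hζ : IsPrimitiveRoot ζ₀ ℓ) (s t : LaurentSeries C) :
    uSeries ℓ (s * t) = uSeries ℓ s * uSeries ℓ t := by
  unfold uSeries
  rw [H44.twistProd_mul, H44.descend_mul (H44.isSupp_twistProd hζ s) (H44.isSupp_twistProd hζ t)]

theorem uSeries_one : uSeries ℓ (1 : LaurentSeries C) = 1 := by
  unfold uSeries
  rw [H44.twistProd_one, H44.descend_one]

theorem uSeries_C {ζ₀ : Cˣ} (hζ : IsPrimitiveRoot ζ₀ ℓ) (c : C) :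
    uSeries ℓ (HahnSeries.C c : LaurentSeries C) = HahnSeries.C (c ^ ℓ) := by
  unfold uSeries
  rw [H44.twistProd_eq_prod_range hζ]
  have h1 : ∏ j ∈ Finset.range ℓ, H44.twistBy (ζ₀ ^ j) (HahnSeries.C c : LaurentSeries C)
      = (HahnSeries.C c : LaurentSeries C) ^ ℓ := by
    rw [Finset.prod_congr rfl (g := fun _ => (HahnSeries.C c : LaurentSeries C))
      (fun j _ => H44.twistBy_C _ c), Finset.prod_const, Finset.card_range]
  have h2 : (HahnSeries.C (c ^ ℓ) : LaurentSeries C) = qExpand C ℓ (HahnSeries.C (c ^ ℓ)) :=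
    (qExpand_C (R := C) (N := ℓ) (c ^ ℓ)).symm
  rw [h1, ← map_pow]
  conv_lhs => rw [h2]
  exact H44.descend_qExpand ℓ _

theorem uSeries_ne_zero {ζ₀ : Cˣ} (hζ : IsPrimitiveRoot ζ₀ ℓ) {s : LaurentSeries C}
    (hs : s ≠ 0) : uSeries ℓ s ≠ 0 := by
  intro h0
  have h1 : uSeries ℓ s * uSeries ℓ s⁻¹ = 1 := by
    rw [← uSeries_mul hζ, mul_inv_cancel₀ hs, uSeries_one]
  rw [h0, zero_mul] at h1
  exact zero_ne_one h1

theorem uSeries_inv {ζ₀ : Cˣ} (hζ : IsPrimitiveRoot ζ₀ ℓ) {s : LaurentSeries C} (hs : s ≠ 0) :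
    uSeries ℓ s⁻¹ = (uSeries ℓ s)⁻¹ := by
  have h1 : uSeries ℓ s * uSeries ℓ s⁻¹ = 1 := by
    rw [← uSeries_mul hζ, mul_inv_cancel₀ hs, uSeries_one]
  exact eq_inv_of_mul_eq_one_right h1

theorem twNorm_mul {ζ₀ : Cˣ} (hζ : IsPrimitiveRoot ζ₀ ℓ) (y y' s s' : LaurentSeries C) :
    twNorm ℓ (y * y') (s * s') = twNorm ℓ y s * twNorm ℓ y' s' := by
  unfold twNorm
  rw [map_mul, uSeries_mul hζ]
  ring

theorem twNorm_C {ζ₀ : Cˣ} (hζ : IsPrimitiveRoot ζ₀ ℓ) (c d : C) :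
    twNorm ℓ (HahnSeries.C c : LaurentSeries C) (HahnSeries.C d) = HahnSeries.C (c * d ^ ℓ) := by
  unfold twNorm
  rw [qExpand_C, uSeries_C hζ, ← map_mul]

theorem uSeries_C_mul {ζ₀ : Cˣ} (hζ : IsPrimitiveRoot ζ₀ ℓ) (c : C) (s : LaurentSeries C) :
    uSeries ℓ (HahnSeries.C c * s) = HahnSeries.C (c ^ ℓ) * uSeries ℓ s := by
  rw [uSeries_mul hζ, uSeries_C hζ]

theorem twNorm_C_mul {ζ₀ : Cˣ} (hζ : IsPrimitiveRoot ζ₀ ℓ) (c d : C) (y s : LaurentSeries C) :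
    twNorm ℓ (HahnSeries.C c * y) (HahnSeries.C d * s)
      = HahnSeries.C (c * d ^ ℓ) * twNorm ℓ y s := by
  rw [twNorm_mul hζ, twNorm_C hζ]

end Ops

/-! ## 2. `RedTo`: membership in the Gauss ring together with the value of the reduction -/

section RedTo

variable {C : Type} [Field C] (O : ValuationSubring C)

/-- `x` lies in the Gauss ring of `O` and reduces to `y`. -/
def RedTo (x : LaurentSeries C) (y : LaurentSeries (kV O)) : Prop :=
  ∃ hx : x ∈ gaussRingV O, gaussRedV O ⟨x, hx⟩ = y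

variable {O}

theorem RedTo.mem {x : LaurentSeries C} {y : LaurentSeries (kV O)} (h : RedTo O x y) :
    x ∈ gaussRingV O := h.1

theorem RedTo.eq {x : LaurentSeries C} {y : LaurentSeries (kV O)} (h : RedTo O x y)
    (hx : x ∈ gaussRingV O) : gaussRedV O ⟨x, hx⟩ = y := h.2

theorem redTo_of_mem {x : LaurentSeries C} (hx : x ∈ gaussRingV O) :
    RedTo O x (gaussRedV O ⟨x, hx⟩) := ⟨hx, rfl⟩

theorem RedTo.unique {x : LaurentSeries C} {y y' : LaurentSeries (kV O)} (h : RedTo O x y)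
    (h' : RedTo O x y') : y = y' := by
  obtain ⟨hx, rfl⟩ := h
  obtain ⟨hx', rfl⟩ := h'
  rfl

theorem RedTo.one : RedTo O (1 : LaurentSeries C) 1 :=
  ⟨(gaussRingV O).one_mem, map_one (gaussRedV O)⟩

theorem RedTo.mul {x x' : LaurentSeries C} {y y' : LaurentSeries (kV O)} (h : RedTo O x y)
    (h' : RedTo O x' y') : RedTo O (x * x') (y * y') := by
  obtain ⟨hx, rfl⟩ := h
  obtain ⟨hx', rfl⟩ := h'
  refine ⟨(gaussRingV O).mul_mem hx hx', ?_⟩
  have e : (⟨x * x', (gaussRingV O).mul_mem hx hx'⟩ : gaussRingV O)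
      = (⟨x, hx⟩ : gaussRingV O) * ⟨x', hx'⟩ := Subtype.ext rfl
  rw [e, map_mul]

theorem RedTo.pow {x : LaurentSeries C} {y : LaurentSeries (kV O)} (h : RedTo O x y) (n : ℕ) :
    RedTo O (x ^ n) (y ^ n) := by
  induction n with
  | zero => rw [pow_zero, pow_zero]; exact RedTo.one
  | succ n ih => rw [pow_succ, pow_succ]; exact ih.mul h

theorem RedTo.inv {x : LaurentSeries C} {y : LaurentSeries (kV O)} (h : RedTo O x y)
    (hy : y ≠ 0) : RedTo O x⁻¹ y⁻¹ := by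
  obtain ⟨hx, rfl⟩ := h
  have hinv : x⁻¹ ∈ gaussRingV O := inv_mem_gaussRingV O hx hy
  refine ⟨hinv, ?_⟩
  have hx0 : x ≠ 0 := by
    rintro rfl
    apply hy
    exact map_zero (gaussRedV O)
  have h1 : gaussRedV O ⟨x, hx⟩ * gaussRedV O ⟨x⁻¹, hinv⟩ = 1 := by
    rw [← map_mul]
    have e : (⟨x, hx⟩ * ⟨x⁻¹, hinv⟩ : gaussRingV O) = 1 :=
      Subtype.ext (mul_inv_cancel₀ hx0)
    rw [e, map_one]
  exact eq_inv_of_mul_eq_one_right h1

theorem RedTo.ne_zero {x : LaurentSeries C} {y : LaurentSeries (kV O)} (h : RedTo O x y)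
    (hy : y ≠ 0) : x ≠ 0 := by
  rintro rfl
  obtain ⟨hx, rfl⟩ := h
  exact hy (map_zero (gaussRedV O))

theorem RedTo.gaussUnit {x : LaurentSeries C} {y : LaurentSeries (kV O)} (h : RedTo O x y)
    (hy : y ≠ 0) : GaussUnit O x := by
  obtain ⟨hx, rfl⟩ := h
  exact gaussUnit_of_gaussRedV_ne_zero O hx hy

theorem redTo_of_gaussUnit {x : LaurentSeries C} (hx : GaussUnit O x) :
    ∃ y : LaurentSeries (kV O), y ≠ 0 ∧ RedTo O x y :=
  ⟨gaussRedV O ⟨x, hx.mem⟩, gaussRedV_ne_zero_of_gaussUnit O hx hx.mem, hx.mem, rfl⟩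

theorem RedTo.qExp (N : ℕ) [NeZero N] {x : LaurentSeries C} {y : LaurentSeries (kV O)}
    (h : RedTo O x y) : RedTo O (qExpand C N x) (qExpand (kV O) N y) := by
  obtain ⟨hx, rfl⟩ := h
  exact ⟨qExpand_mem_gaussRingV O N hx, gaussRedV_qExpand O N ⟨x, hx⟩ _⟩

theorem RedTo.cMap (s : C ≃+* C) (hs : ∀ a : C, s a ∈ O ↔ a ∈ O) {x : LaurentSeries C}
    {y : LaurentSeries (kV O)} (h : RedTo O x y) :
    RedTo O (coeffMap (s : C →+* C) x) (coeffMap (RED.H33.autkHom O s hs) y) := by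
  obtain ⟨hx, rfl⟩ := h
  exact ⟨RED.H33.coeffMap_mem_gaussRingV O s hs hx, RED.H33.gaussRedV_coeffMap O s hs hx⟩

theorem RedTo.inertial {σ : C →+* C} (hσ : BAD.H91.InertialOn O σ) {x : LaurentSeries C}
    {y : LaurentSeries (kV O)} (h : RedTo O x y) : RedTo O (coeffMap σ x) y := by
  obtain ⟨hx, rfl⟩ := h
  exact ⟨BAD.H91.coeffMap_mem_gaussRingV hσ hx, BAD.H91.gaussRedV_coeffMap hσ hx _⟩

theorem RedTo.C_mem {c : C} (hc : c ∈ O) :
    RedTo O (HahnSeries.C c : LaurentSeries C) (HahnSeries.C (resV O ⟨c, hc⟩)) :=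
  ⟨C_mem_gaussRingV O hc, gaussRedV_C O ⟨c, hc⟩ _⟩

end RedTo

/-! ## 3. Kronecker's congruence for `uSeries` and `twNorm` -/

section Kron

variable {C : Type} [Field C] (O : ValuationSubring C) (ℓ : ℕ) [Fact ℓ.Prime] [CharP (kV O) ℓ]

/-- The Frobenius on the coefficients of a series over the residue field. -/
abbrev Fr : LaurentSeries (kV O) →+* LaurentSeries (kV O) :=
  coeffMap (frobenius (kV O) ℓ)

variable {O ℓ}

theorem RedTo.nSer {ζ₀ : Cˣ} (hζ : IsPrimitiveRoot ζ₀ ℓ) {x : LaurentSeries C}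
    {y : LaurentSeries (kV O)} (h : RedTo O x y) :
    RedTo O (H44.normSeries C ℓ x) (qExpand (kV O) ℓ y * Fr O ℓ y) := by
  obtain ⟨hx, rfl⟩ := h
  exact ⟨RED.H95.normSeries_mem_gaussRingV O ℓ hζ hx,
    RED.H95.gaussRedV_normSeries O ℓ hζ hx _⟩

/-- **Kronecker for `U_ℓ`**: `res (∏ x (ζ q^{1/ℓ})) = Frob (res x)` for Gauss units `x`. -/
theorem RedTo.uSer {ζ₀ : Cˣ} (hζ : IsPrimitiveRoot ζ₀ ℓ) {x : LaurentSeries C}
    {y : LaurentSeries (kV O)} (h : RedTo O x y) (hy : y ≠ 0) :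
    RedTo O (uSeries ℓ x) (Fr O ℓ y) := by
  have hx0 : x ≠ 0 := h.ne_zero hy
  have hq0 : qExpand C ℓ x ≠ 0 := RED.H73.qExpand_ne_zero ℓ hx0
  have hqy0 : qExpand (kV O) ℓ y ≠ 0 := RED.H73.qExpand_ne_zero ℓ hy
  have e : uSeries ℓ x = (qExpand C ℓ x)⁻¹ * H44.normSeries C ℓ x := by
    rw [normSeries_eq_twNorm, twNorm, ← mul_assoc, inv_mul_cancel₀ hq0, one_mul]
  have h1 := ((h.qExp ℓ).inv hqy0).mul (h.nSer hζ)
  rw [← e] at h1
  have e2 : (qExpand (kV O) ℓ y)⁻¹ * (qExpand (kV O) ℓ y * Fr O ℓ y) = Fr O ℓ y := by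
    rw [← mul_assoc, inv_mul_cancel₀ hqy0, one_mul]
  rwa [e2] at h1

/-- **Kronecker for `T_ℓ`**: `res (y (q^ℓ) ∏ x (ζ q^{1/ℓ})) = (res y)(q^ℓ) · Frob (res x)`. -/
theorem RedTo.twN {ζ₀ : Cˣ} (hζ : IsPrimitiveRoot ζ₀ ℓ) {x x' : LaurentSeries C}
    {y y' : LaurentSeries (kV O)} (h' : RedTo O x' y') (h : RedTo O x y) (hy : y ≠ 0) :
    RedTo O (twNorm ℓ x' x) (qExpand (kV O) ℓ y' * Fr O ℓ y) :=
  (h'.qExp ℓ).mul (h.uSer hζ hy)

/-- In characteristic `ℓ`: `(Frob y)(q^ℓ) = y ^ ℓ`. -/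
theorem qExpand_Fr (y : LaurentSeries (kV O)) :
    qExpand (kV O) ℓ (Fr O ℓ y) = y ^ ℓ :=
  (RED.H10.pow_char_eq ℓ y).symm

end Kron

/-! ## 4. Classes reducing to `1` -/

section RedOne

variable {C : Type} [Field C] (O : ValuationSubring C)

/-- Some constant multiple of `x` reduces to `1`. -/
def IsRedOneC (x : LaurentSeries C) : Prop :=
  ∃ c : C, c ≠ 0 ∧ RedTo O (HahnSeries.C c * x) 1

/-- Some constant multiple of `x` is a Gauss unit. -/
def Scalable (x : LaurentSeries C) : Prop :=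
  ∃ c : C, c ≠ 0 ∧ GaussUnit O (HahnSeries.C c * x)

variable {O}

theorem Scalable.exists_redTo {x : LaurentSeries C} (hx : Scalable O x) :
    ∃ (c : C) (y : LaurentSeries (kV O)), c ≠ 0 ∧ y ≠ 0 ∧ RedTo O (HahnSeries.C c * x) y := by
  obtain ⟨c, hc, hu⟩ := hx
  obtain ⟨y, hy, h⟩ := redTo_of_gaussUnit hu
  exact ⟨c, y, hc, hy, h⟩

theorem IsRedOneC.scalable {x : LaurentSeries C} (hx : IsRedOneC O x) : Scalable O x := by
  obtain ⟨c, hc, h⟩ := hx
  exact ⟨c, hc, h.gaussUnit one_ne_zero⟩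

theorem isRedOneC_one : IsRedOneC O (1 : LaurentSeries C) :=
  ⟨1, one_ne_zero, by rw [map_one, one_mul]; exact RedTo.one⟩

theorem isRedOneC_C {c : C} (hc : c ≠ 0) : IsRedOneC O (HahnSeries.C c : LaurentSeries C) :=
  ⟨c⁻¹, inv_ne_zero hc, by rw [← map_mul, inv_mul_cancel₀ hc, map_one]; exact RedTo.one⟩

theorem IsRedOneC.mul {x x' : LaurentSeries C} (h : IsRedOneC O x) (h' : IsRedOneC O x') :
    IsRedOneC O (x * x') := by
  obtain ⟨c, hc, h1⟩ := h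
  obtain ⟨c', hc', h1'⟩ := h'
  refine ⟨c * c', mul_ne_zero hc hc', ?_⟩
  have := h1.mul h1'
  rw [one_mul] at this
  have e : HahnSeries.C (c * c') * (x * x')
      = HahnSeries.C c * x * (HahnSeries.C c' * x') := by
    rw [map_mul]; ring
  rwa [e]

theorem IsRedOneC.inv {x : LaurentSeries C} (h : IsRedOneC O x) : IsRedOneC O x⁻¹ := by
  obtain ⟨c, hc, h1⟩ := h
  refine ⟨c⁻¹, inv_ne_zero hc, ?_⟩
  have := h1.inv one_ne_zero
  rw [inv_one] at this
  have e : HahnSeries.C c⁻¹ * x⁻¹ = (HahnSeries.C c * x)⁻¹ := by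
    rw [mul_inv, RED.H73.C_inv']
  rwa [e]

theorem IsRedOneC.pow {x : LaurentSeries C} (h : IsRedOneC O x) (n : ℕ) :
    IsRedOneC O (x ^ n) := by
  induction n with
  | zero => rw [pow_zero]; exact isRedOneC_one
  | succ n ih => rw [pow_succ]; exact ih.mul h

theorem IsRedOneC.C_mul {x : LaurentSeries C} (h : IsRedOneC O x) {c : C} (hc : c ≠ 0) :
    IsRedOneC O (HahnSeries.C c * x) :=
  (isRedOneC_C hc).mul h

/-- A series which, up to a constant, is in the Gauss ring with reduction `y`, `y'` twice: the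
quotient reduces to `1` up to a constant as soon as `y = y'`. -/
theorem isRedOneC_of_redTo {x x' : LaurentSeries C} {c c' : C} (hc : c ≠ 0) (hc' : c' ≠ 0)
    {y : LaurentSeries (kV O)} (hy : y ≠ 0) (h : RedTo O (HahnSeries.C c * x) y)
    (h' : RedTo O (HahnSeries.C c' * x') y) : IsRedOneC O (x * x'⁻¹) := by
  refine ⟨c * c'⁻¹, mul_ne_zero hc (inv_ne_zero hc'), ?_⟩
  have := h.mul (h'.inv hy)
  rw [mul_inv_cancel₀ hy] at this
  have e : HahnSeries.C (c * c'⁻¹) * (x * x'⁻¹)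
      = HahnSeries.C c * x * (HahnSeries.C c' * x')⁻¹ := by
    rw [map_mul, mul_inv, RED.H73.C_inv']; ring
  rwa [e]

end RedOne

/-! ## 5. The three relations -/

section Relations

variable {C : Type} [Field C] {O : ValuationSubring C}

theorem assemble_aux (a b d : C) (X T P : LaurentSeries C) :
    HahnSeries.C (a * b⁻¹ * d) * (X * T⁻¹ * P)
      = HahnSeries.C a * X * (HahnSeries.C b * T)⁻¹ * (HahnSeries.C d * P) := by
  rw [map_mul, map_mul, mul_inv, RED.H73.C_inv']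
  ring

theorem coeffMap_C' {R S : Type*} [CommRing R] [CommRing S] (f : R →+* S) (c : R) :
    coeffMap f (HahnSeries.C c : LaurentSeries R) = HahnSeries.C (f c) :=
  coeffMap_single f 0 c

/-- **Inertia**: `σ x / x` reduces to `1` up to a constant, for `σ` inertial
(`(σ - 1) J ⊆ K_A`). -/
theorem isRedOneC_inertia {σ : C →+* C} (hσ : BAD.H91.InertialOn O σ) {x : LaurentSeries C}
    (hx : Scalable O x) : IsRedOneC O (coeffMap σ x * x⁻¹) := by
  obtain ⟨c, y, hc, hy, h⟩ := hx.exists_redTo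
  have h1 := h.inertial hσ
  rw [map_mul, coeffMap_C'] at h1
  exact isRedOneC_of_redTo (c := σ c) (c' := c) ((map_ne_zero σ).2 hc) hc hy h1 h

variable {ℓ : ℕ} [Fact ℓ.Prime] [CharP (kV O) ℓ]

/-- The residual automorphism of a Frobenius lift is the Frobenius. -/
theorem autkHom_eq_frobenius (s : C ≃+* C) (hs : ∀ a : C, s a ∈ O ↔ a ∈ O)
    (hFr : ∀ a : kV O, RED.H33.autkHom O s hs a = a ^ ℓ) :
    RED.H33.autkHom O s hs = frobenius (kV O) ℓ :=
  RingHom.ext fun a => by rw [hFr, frobenius_def]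

theorem RedTo.frob (s : C ≃+* C) (hs : ∀ a : C, s a ∈ O ↔ a ∈ O)
    (hFr : ∀ a : kV O, RED.H33.autkHom O s hs a = a ^ ℓ) {x : LaurentSeries C}
    {y : LaurentSeries (kV O)} (h : RedTo O x y) :
    RedTo O (coeffMap (s : C →+* C) x) (Fr O ℓ y) := by
  have := h.cMap s hs
  rwa [autkHom_eq_frobenius s hs hFr] at this

theorem Fr_ne_zero {y : LaurentSeries (kV O)} (hy : y ≠ 0) : Fr O ℓ y ≠ 0 := fun h0 =>
  hy (RED.H95.coeffMap_frobenius_injective O ℓ (by rw [h0, map_zero]))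

/-- **`U_ℓ` and Frobenius**: `uSeries x / φ x` reduces to `1` up to a constant
(`(U_ℓ - φ) J ⊆ K_A`). -/
theorem isRedOneC_U {ζ₀ : Cˣ} (hζ : IsPrimitiveRoot ζ₀ ℓ) (s : C ≃+* C)
    (hs : ∀ a : C, s a ∈ O ↔ a ∈ O) (hFr : ∀ a : kV O, RED.H33.autkHom O s hs a = a ^ ℓ)
    {x : LaurentSeries C} (hx : Scalable O x) :
    IsRedOneC O (uSeries ℓ x * (coeffMap (s : C →+* C) x)⁻¹) := by
  obtain ⟨c, y, hc, hy, h⟩ := hx.exists_redTo
  have h1 := h.uSer hζ hy
  rw [uSeries_C_mul hζ] at h1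
  have h2 := h.frob s hs hFr
  rw [map_mul, coeffMap_C'] at h2
  exact isRedOneC_of_redTo (pow_ne_zero ℓ hc) ((map_ne_zero (s : C →+* C)).2 hc)
    (Fr_ne_zero hy) h1 h2

/-- **Eichler–Shimura on Kummer functions**: for scalable series `x₁ = d₁ f`, `x₂ = d₂ f`
(`d₁`, `d₂` diamond operators commuting with the Frobenius lift `φ`),
`φ² x₂ · (T (φ f))⁻¹ · x₁ ^ ℓ`, with `T (φ f) = twNorm (φ x₁) (φ x₂)`, reduces to `1` up to a
constant: `(φ² d₂ - T_ℓ φ + ℓ d₁) J ⊆ K_A`. -/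
theorem isRedOneC_ES {ζ₀ : Cˣ} (hζ : IsPrimitiveRoot ζ₀ ℓ) (s : C ≃+* C)
    (hs : ∀ a : C, s a ∈ O ↔ a ∈ O) (hFr : ∀ a : kV O, RED.H33.autkHom O s hs a = a ^ ℓ)
    {x₁ x₂ : LaurentSeries C} (hx₁ : Scalable O x₁) (hx₂ : Scalable O x₂) :
    IsRedOneC O (coeffMap (s : C →+* C) (coeffMap (s : C →+* C) x₂)
      * (twNorm ℓ (coeffMap (s : C →+* C) x₁) (coeffMap (s : C →+* C) x₂))⁻¹ * x₁ ^ ℓ) := by
  obtain ⟨c₁, y₁, hc₁, hy₁, h₁⟩ := hx₁.exists_redTo
  obtain ⟨c₂, y₂, hc₂, hy₂, h₂⟩ := hx₂.exists_redTo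
  have hs0 : ∀ {c : C}, c ≠ 0 → (s : C →+* C) c ≠ 0 := fun hc =>
    (map_ne_zero (s : C →+* C)).2 hc
  -- reductions of `φ x₁`, `φ x₂`, `φ² x₂`
  have g₁ := h₁.frob s hs hFr
  have g₂ := h₂.frob s hs hFr
  have g₂₂ := g₂.frob s hs hFr
  rw [map_mul, coeffMap_C'] at g₁ g₂
  rw [map_mul, coeffMap_C', map_mul, coeffMap_C'] at g₂₂
  -- reduction of `T (φ f)`
  have gT := RedTo.twN hζ g₁ g₂ (Fr_ne_zero hy₂)
  rw [twNorm_C_mul hζ, qExpand_Fr] at gT
  -- reduction of `x₁ ^ ℓ`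
  have gP := h₁.pow ℓ
  rw [mul_pow, ← map_pow] at gP
  -- assemble
  have hy₁ℓ : y₁ ^ ℓ ≠ 0 := pow_ne_zero ℓ hy₁
  have hF2 : Fr O ℓ (Fr O ℓ y₂) ≠ 0 := Fr_ne_zero (Fr_ne_zero hy₂)
  have hT0 : y₁ ^ ℓ * Fr O ℓ (Fr O ℓ y₂) ≠ 0 := mul_ne_zero hy₁ℓ hF2
  have hall := (g₂₂.mul (gT.inv hT0)).mul gP
  have e1 : Fr O ℓ (Fr O ℓ y₂) * (y₁ ^ ℓ * Fr O ℓ (Fr O ℓ y₂))⁻¹ * y₁ ^ ℓ = 1 := by
    field_simp
  rw [e1] at hall
  have ha0 : (s : C →+* C) ((s : C →+* C) c₂) ≠ 0 := hs0 (hs0 hc₂)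
  have hb0 : (s : C →+* C) c₁ * (s : C →+* C) c₂ ^ ℓ ≠ 0 :=
    mul_ne_zero (hs0 hc₁) (pow_ne_zero ℓ (hs0 hc₂))
  have hcℓ : c₁ ^ ℓ ≠ 0 := pow_ne_zero ℓ hc₁
  refine ⟨(s : C →+* C) ((s : C →+* C) c₂) * ((s : C →+* C) c₁ * (s : C →+* C) c₂ ^ ℓ)⁻¹
    * c₁ ^ ℓ, mul_ne_zero (mul_ne_zero ha0 (inv_ne_zero hb0)) hcℓ, ?_⟩
  rw [assemble_aux]
  exact hall

end Relations

/-! ## 6. Reduction commutes with `twistBy` and `descend` (any residue characteristic) -/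

section TwistDescend

open Fermat.Agent.GTor

theorem coeffMap_twistBy {R S : Type*} [CommRing R] [CommRing S] (f : R →+* S) (u : Rˣ)
    (x : LaurentSeries R) :
    coeffMap f (H44.twistBy u x) = H44.twistBy (Units.map (f : R →* S) u) (coeffMap f x) := by
  ext n
  simp only [coeffMap_coeff, H44.twistBy_coeff, map_mul, ← map_zpow]
  rfl

theorem coeffMap_descend {R S : Type*} [CommRing R] [CommRing S] (f : R →+* S) (ℓ : ℕ)
    [NeZero ℓ] (x : LaurentSeries R) :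
    coeffMap f (H44.descend ℓ x) = H44.descend ℓ (coeffMap f x) := by
  ext n
  simp only [coeffMap_coeff, H44.descend_coeff]

theorem isSupp_coeffMap {R S : Type*} [CommRing R] [CommRing S] (f : R →+* S) {ℓ : ℕ}
    [NeZero ℓ] {x : LaurentSeries R} (hx : H44.IsSupp ℓ x) : H44.IsSupp ℓ (coeffMap f x) := by
  intro m hm
  rw [coeffMap_coeff, hx m hm, map_zero]

theorem twistBy_injective {R : Type*} [CommRing R] (u : Rˣ) :
    Function.Injective (H44.twistBy u : LaurentSeries R → LaurentSeries R) := by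
  intro x y hxy
  have := congrArg (H44.twistBy u⁻¹) hxy
  rwa [H44.twistBy_twistBy, H44.twistBy_twistBy, inv_mul_cancel, H44.twistBy_one,
    H44.twistBy_one] at this

theorem descend_ne_zero {R : Type*} [CommRing R] {ℓ : ℕ} [NeZero ℓ] {x : LaurentSeries R}
    (hx : H44.IsSupp ℓ x) (h0 : x ≠ 0) : H44.descend ℓ x ≠ 0 := by
  intro h
  apply h0
  rw [← H44.qExpand_descend hx, h, map_zero]

variable {C : Type} [Field C] {O : ValuationSubring C}

/-- A unit of `C` which lies in `O` together with its inverse, as a unit of `O`. -/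
def unitO (ζ : Cˣ) (h1 : (ζ : C) ∈ O) (h2 : ((ζ⁻¹ : Cˣ) : C) ∈ O) : (↥O)ˣ :=
  ⟨⟨ζ, h1⟩, ⟨(ζ⁻¹ : Cˣ), h2⟩,
    Subtype.ext (by show (ζ : C) * ((ζ⁻¹ : Cˣ) : C) = 1; rw [← Units.val_mul, mul_inv_cancel,
      Units.val_one]),
    Subtype.ext (by show ((ζ⁻¹ : Cˣ) : C) * (ζ : C) = 1; rw [← Units.val_mul, inv_mul_cancel,
      Units.val_one])⟩

theorem map_unitO (ζ : Cˣ) (h1 : (ζ : C) ∈ O) (h2 : ((ζ⁻¹ : Cˣ) : C) ∈ O) :
    Units.map ((O.subtype : ↥O →+* C) : ↥O →* C) (unitO ζ h1 h2) = ζ := Units.ext rfl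

/-- The residue of a unit of `O`. -/
def resUnit (u : (↥O)ˣ) : (kV O)ˣ := Units.map ((resV O : ↥O →+* kV O) : ↥O →* kV O) u

theorem iotaV_twistBy (u : (↥O)ˣ) (g : LaurentSeries ↥O) :
    iotaV O (H44.twistBy u g)
      = H44.twistBy (Units.map ((O.subtype : ↥O →+* C) : ↥O →* C) u) (iotaV O g) :=
  coeffMap_twistBy _ u g

theorem redV_twistBy (u : (↥O)ˣ) (g : LaurentSeries ↥O) :
    redV O (H44.twistBy u g) = H44.twistBy (resUnit u) (redV O g) :=
  coeffMap_twistBy _ u g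

/-- **Reduction commutes with `q ↦ ζ q`**, `ζ` a unit of `O`. -/
theorem RedTo.twist (u : (↥O)ˣ) {x : LaurentSeries C} {y : LaurentSeries (kV O)}
    (h : RedTo O x y) :
    RedTo O (H44.twistBy (Units.map ((O.subtype : ↥O →+* C) : ↥O →* C) u) x)
      (H44.twistBy (resUnit u) y) := by
  obtain ⟨hx, rfl⟩ := h
  have hx' := hx
  obtain ⟨g, hh, hg, e⟩ := hx'
  have hg' : redV O (H44.twistBy u g) ≠ 0 := by
    rw [redV_twistBy]
    intro h0
    exact hg (twistBy_injective (resUnit u) (by rw [h0, map_zero]))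
  have e' : iotaV O (H44.twistBy u g)
      * H44.twistBy (Units.map ((O.subtype : ↥O →+* C) : ↥O →* C) u) x
      = iotaV O (H44.twistBy u hh) := by
    rw [iotaV_twistBy, iotaV_twistBy, ← map_mul, e]
  have hm : H44.twistBy (Units.map ((O.subtype : ↥O →+* C) : ↥O →* C) u) x ∈ gaussRingV O :=
    ⟨_, _, hg', e'⟩
  refine ⟨hm, ?_⟩
  rw [gaussRedV_eq O ⟨_, hm⟩ hg' e', gaussRedV_eq O ⟨x, hx⟩ hg e, redV_twistBy, redV_twistBy,
    map_div₀]

theorem isSupp_of_iotaV {ℓ : ℕ} [NeZero ℓ] {g : LaurentSeries ↥O}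
    (h : H44.IsSupp ℓ (iotaV O g)) : H44.IsSupp ℓ g := by
  intro m hm
  have := h m hm
  apply Subtype.val_injective
  simpa [iotaV] using this

/-- **Reduction commutes with `descend`** (`∑ a_{ℓ m} q^{ℓ m} ↦ ∑ a_{ℓ m} q^m`). -/
theorem RedTo.desc {ℓ : ℕ} [NeZero ℓ] {ζ₀ : Cˣ} (hζ : IsPrimitiveRoot ζ₀ ℓ)
    {P : LaurentSeries C} {y : LaurentSeries (kV O)} (h : RedTo O P y) (hP : H44.IsSupp ℓ P) :
    RedTo O (H44.descend ℓ P) (H44.descend ℓ y) := by
  classical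
  obtain ⟨hx, rfl⟩ := h
  have hx' := hx
  obtain ⟨g, hh, hg, e⟩ := hx'
  have hℓ0 : ℓ ≠ 0 := NeZero.ne ℓ
  -- the root of unity as a unit of `O`
  have hpow : (ζ₀ : C) ^ ℓ = 1 := by
    rw [← Units.val_pow_eq_pow_val, hζ.pow_eq_one, Units.val_one]
  have hpow' : ((ζ₀⁻¹ : Cˣ) : C) ^ ℓ = 1 := by
    rw [← Units.val_pow_eq_pow_val, inv_pow, hζ.pow_eq_one, inv_one, Units.val_one]
  have mem_of_pow : ∀ z : C, z ^ ℓ = 1 → z ∈ O := by
    intro z hz
    rcases O.mem_or_inv_mem z with hm | hm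
    · exact hm
    · have hz0 : z ≠ 0 := by
        rintro rfl
        rw [zero_pow hℓ0] at hz
        exact zero_ne_one hz
      have h1 : z * z ^ (ℓ - 1) = 1 := by
        rw [← pow_succ', Nat.sub_add_cancel (Nat.pos_of_ne_zero hℓ0), hz]
      have h2 : z = z⁻¹ ^ (ℓ - 1) := by
        rw [inv_pow]
        exact eq_inv_of_mul_eq_one_left h1
      rw [h2]
      exact pow_mem hm _
  set u : (↥O)ˣ := unitO ζ₀ (mem_of_pow _ hpow) (mem_of_pow _ hpow') with hu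
  have hmap : Units.map ((O.subtype : ↥O →+* C) : ↥O →* C) u = ζ₀ := map_unitO _ _ _
  -- the norm of `g` and its cofactor
  set R : LaurentSeries ↥O := ∏ j ∈ (Finset.range ℓ).erase 0, H44.twistBy (u ^ j) g with hR
  have hG : g * R = ∏ j ∈ Finset.range ℓ, H44.twistBy (u ^ j) g := by
    have h0 : (0 : ℕ) ∈ Finset.range ℓ := Finset.mem_range.2 (Nat.pos_of_ne_zero hℓ0)
    have := Finset.mul_prod_erase (Finset.range ℓ) (fun j => H44.twistBy (u ^ j) g) h0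
    simp only [pow_zero, H44.twistBy_one] at this
    exact this
  have hιG : iotaV O (g * R) = H44.twistProd C ℓ (iotaV O g) := by
    rw [hG, map_prod, H44.twistProd_eq_prod_range hζ]
    refine Finset.prod_congr rfl fun j _ => ?_
    rw [iotaV_twistBy, map_pow, hmap]
  have hsG : H44.IsSupp ℓ (iotaV O (g * R)) := by
    rw [hιG]
    exact H44.isSupp_twistProd hζ _
  have hιH : iotaV O (R * hh) = iotaV O (g * R) * P := by
    rw [map_mul, map_mul, ← e]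
    ring
  have hsH : H44.IsSupp ℓ (iotaV O (R * hh)) := by
    rw [hιH]
    exact hsG.mul hP
  have hsG' : H44.IsSupp ℓ (g * R) := isSupp_of_iotaV hsG
  -- nonvanishing of the reduction
  have hredG : redV O (g * R) ≠ 0 := by
    rw [hG, map_prod]
    rw [Finset.prod_ne_zero_iff]
    intro j _
    rw [redV_twistBy]
    intro h0
    exact hg (twistBy_injective _ (by rw [h0, map_zero]))
  have hg₂ : redV O (H44.descend ℓ (g * R)) ≠ 0 := by
    have e1 : redV O (H44.descend ℓ (g * R)) = H44.descend ℓ (redV O (g * R)) :=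
      coeffMap_descend _ ℓ _
    rw [e1]
    exact descend_ne_zero (isSupp_coeffMap _ hsG') hredG
  have e₂ : iotaV O (H44.descend ℓ (g * R)) * H44.descend ℓ P
      = iotaV O (H44.descend ℓ (R * hh)) := by
    have e1 : iotaV O (H44.descend ℓ (g * R)) = H44.descend ℓ (iotaV O (g * R)) :=
      coeffMap_descend _ ℓ _
    have e2 : iotaV O (H44.descend ℓ (R * hh)) = H44.descend ℓ (iotaV O (R * hh)) :=
      coeffMap_descend _ ℓ _
    rw [e1, e2, hιH, H44.descend_mul hsG hP]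
  have hm : H44.descend ℓ P ∈ gaussRingV O := ⟨_, _, hg₂, e₂⟩
  refine ⟨hm, ?_⟩
  -- identify the reduction through `qExpand`
  have hq := (redTo_of_mem hm).qExp ℓ
  rw [H44.qExpand_descend hP] at hq
  have := hq.unique (redTo_of_mem hx)
  rw [← this, H44.descend_qExpand]

/-- **Reduction of `uSeries`** when `x` reduces to `1` (any residue characteristic). -/
theorem RedTo.uSer_one {ℓ : ℕ} [NeZero ℓ] {ζ₀ : Cˣ} (hζ : IsPrimitiveRoot ζ₀ ℓ)
    {x : LaurentSeries C} (h : RedTo O x 1) : RedTo O (uSeries ℓ x) 1 := by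
  classical
  have hℓ0 : ℓ ≠ 0 := NeZero.ne ℓ
  have mem_of_pow : ∀ z : C, z ^ ℓ = 1 → z ∈ O := by
    intro z hz
    rcases O.mem_or_inv_mem z with hm | hm
    · exact hm
    · have hz0 : z ≠ 0 := by
        rintro rfl
        rw [zero_pow hℓ0] at hz
        exact zero_ne_one hz
      have h1 : z * z ^ (ℓ - 1) = 1 := by
        rw [← pow_succ', Nat.sub_add_cancel (Nat.pos_of_ne_zero hℓ0), hz]
      have h2 : z = z⁻¹ ^ (ℓ - 1) := by
        rw [inv_pow]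
        exact eq_inv_of_mul_eq_one_left h1
      rw [h2]
      exact pow_mem hm _
  have hprod : RedTo O (H44.twistProd C ℓ x) 1 := by
    unfold H44.twistProd
    have key : ∀ T : Finset Cˣ, (∀ ζ ∈ T, ζ ^ ℓ = 1) →
        RedTo O (∏ ζ ∈ T, H44.twistBy ζ x) 1 := by
      intro T
      induction T using Finset.induction_on with
      | empty => intro _; rw [Finset.prod_empty]; exact RedTo.one
      | insert a T ha ih =>
        intro hT
        rw [Finset.prod_insert ha]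
        have ha1 : a ^ ℓ = 1 := hT a (Finset.mem_insert_self a T)
        have hm1 : (a : C) ∈ O := mem_of_pow _ (by
          rw [← Units.val_pow_eq_pow_val, ha1, Units.val_one])
        have hm2 : ((a⁻¹ : Cˣ) : C) ∈ O := mem_of_pow _ (by
          rw [← Units.val_pow_eq_pow_val, inv_pow, ha1, inv_one, Units.val_one])
        have h1 := h.twist (unitO a hm1 hm2)
        rw [map_unitO, map_one] at h1
        have := h1.mul (ih fun ζ hζ' => hT ζ (Finset.mem_insert_of_mem hζ'))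
        rwa [one_mul] at this
    exact key _ fun ζ hζ' => H44.mem_rootsFinset.1 hζ'
  have := hprod.desc hζ (H44.isSupp_twistProd hζ x)
  rwa [H44.descend_one] at this

/-- **Stability**: `twNorm` of two series reducing to `1` (up to constants) reduces to `1` (up to
a constant), in any residue characteristic (`T_ℓ K_A ⊆ K_A`). -/
theorem IsRedOneC.twNorm {ℓ : ℕ} [NeZero ℓ] {ζ₀ : Cˣ} (hζ : IsPrimitiveRoot ζ₀ ℓ)
    {y x : LaurentSeries C} (hy : IsRedOneC O y) (hx : IsRedOneC O x) :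
    IsRedOneC O (H70.twNorm ℓ y x) := by
  obtain ⟨c, hc, h1⟩ := hy
  obtain ⟨d, hd, h2⟩ := hx
  refine ⟨c * d ^ ℓ, mul_ne_zero hc (pow_ne_zero ℓ hd), ?_⟩
  rw [← twNorm_C_mul hζ]
  have := (h1.qExp ℓ).mul (h2.uSer_one hζ)
  rw [map_one, one_mul] at this
  exact this

/-- **Stability**: `uSeries` of a series reducing to `1` (up to a constant). -/
theorem IsRedOneC.uSeries {ℓ : ℕ} [NeZero ℓ] {ζ₀ : Cˣ} (hζ : IsPrimitiveRoot ζ₀ ℓ)
    {x : LaurentSeries C} (hx : IsRedOneC O x) : IsRedOneC O (H70.uSeries ℓ x) := by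
  obtain ⟨d, hd, h2⟩ := hx
  refine ⟨d ^ ℓ, pow_ne_zero ℓ hd, ?_⟩
  rw [← uSeries_C_mul hζ]
  exact h2.uSer_one hζ

/-- **Stability**: `q ↦ q^N`. -/
theorem IsRedOneC.qExpand (N : ℕ) [NeZero N] {x : LaurentSeries C} (hx : IsRedOneC O x) :
    IsRedOneC O (ModularCurve.qExpand C N x) := by
  obtain ⟨d, hd, h2⟩ := hx
  refine ⟨d, hd, ?_⟩
  have := h2.qExp N
  rwa [map_mul, qExpand_C, map_one] at this

end TwistDescend

end Fermat.Agent.NEB.H70
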