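import Fermat.Agent.NEB.H70_RelN
import Fermat.Agent.NEB.H70_RedQ
import Fermat.Agent.NEB.H84_BetaGal
import Fermat.Agent.NEB.H29_InvJH

/-!
# LG-NEB, package RED-q (helper70), part 2b: the `q`-expansion of the Kummer functions of
`T^H_ℓ`, `U^H_ℓ`

For a prime `ℓ ∤ M` and `f ∈ F_H(M)`:

* `coe_THfn` : `THfn f = f (q^ℓ) · ∏_{ζ^ℓ=1} (⟨ℓ⟩ f) (ζ q^{1/ℓ}) = twNorm ℓ f (ρ(ℓ) f)`;
* `coe_UHfn` : `UHfn f = (⟨ℓ⟩⁻¹ f) (q^ℓ) · ∏_{ζ^ℓ=1} f (ζ q^{1/ℓ}) = twNorm ℓ (ρ(ℓ⁻¹) f) f`.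

Method: the `ℓ + 1` conjugates of `F_H(Mℓ)` over `α F_H(M)` (resp. `β F_H(M)`) are constructed as
ring homomorphisms `F_H(Mℓ) → ℂ((q))` from the relation `RelN g` (`H70_RelN`), and the norm is the
product of the conjugates (`H95.norm_eq_prod_of_injective`).
-/

set_option autoImplicit false
set_option linter.unusedSectionVars false
set_option linter.style.haveILetI false

open UpperHalfPlane ModularForm CongruenceSubgroup ModularCurve
open scoped MatrixGroups ModularForm Manifold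

noncomputable section

namespace Fermat.Agent.NEB.H70

open Fermat.Agent.S23.H22 (Nice)
open Fermat.Agent.GTor (qLaurent)
open Fermat.Agent.NEB.H84 Fermat.Agent.NEB.JH Fermat.Agent.GTor

/-! ## 1. Embeddings of `F_H(Mℓ)` from `RelN` -/

/-- The data describing the embedding "slash by `g`" of `F_H(Mℓ)` on `α F_H(M)` and on
`β F_H(M)`. -/
structure EmbData (M ℓ : ℕ) [NeZero ℓ] (g : GL (Fin 2) ℝ) where
  pos : 0 < (g.det : ℝ)
  /-- the element of `Γ₀(M)` acting on `α F_H(M)` -/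
  δα : Gamma0 M
  Dα : GL (Fin 2) ℝ
  Eα : LaurentSeries ℂ →+* LaurentSeries ℂ
  hα : Expands Dα Eα
  mα : g = Matrix.SpecialLinearGroup.mapGL ℝ (δα : SL(2, ℤ)) * Dα
  /-- the element of `Γ₀(M)` acting on `β F_H(M)` -/
  δβ : Gamma0 M
  Dβ : GL (Fin 2) ℝ
  Eβ : LaurentSeries ℂ →+* LaurentSeries ℂ
  hβ : Expands Dβ Eβ
  mβ : heckeDiagMatrix ℓ * g = Matrix.SpecialLinearGroup.mapGL ℝ (δβ : SL(2, ℤ)) * Dβ

section Emb

variable {M c ℓ : ℕ} [NeZero M] [NeZero ℓ] (H : Subgroup (ZMod c)ˣ) (ι : Kbar →+* ℂ)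
  (hc2 : 2 ≤ c) (hc : c ∣ M) {g : GL (Fin 2) ℝ} (e : EmbData M ℓ g)

theorem relN_alpha (x : ↥(FHbar M c H)) :
    RelN g (coeffMap ι (x : LaurentSeries Kbar))
      (e.Eα (coeffMap ι (actHom H ι hc2 hc e.δα x : LaurentSeries Kbar))) := by
  have h := relN_of_rel (g := g) e.δα.2 expands_one e.hα (by rw [one_mul]; exact e.mα)
    (actHom_rel H ι hc2 hc e.δα x)
  exact h

theorem relN_beta (x : ↥(FHbar M c H)) :
    RelN g (qExpand ℂ ℓ (coeffMap ι (x : LaurentSeries Kbar)))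
      (e.Eβ (coeffMap ι (actHom H ι hc2 hc e.δβ x : LaurentSeries Kbar))) :=
  relN_of_rel (g := g) e.δβ.2 (expands_diag ℓ) e.hβ e.mβ (actHom_rel H ι hc2 hc e.δβ x)

include hc2 hc e in
theorem exists_relN (hℓ : ℓ.Prime) {x : LaurentSeries Kbar} (hx : x ∈ FHbar (M * ℓ) c H) :
    ∃ y, RelN g (coeffMap ι x) y := by
  refine FHbar_induction (M * ℓ) c H (P := fun x => ∃ y, RelN g (coeffMap ι x) y)
    ?_ ?_ ?_ ?_ ?_ ?_ ?_ ?_ hx
  · intro a
    rw [coeffMap_const]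
    exact ⟨_, relN_C e.pos _⟩
  · intro d hd0 hd
    rcases Fermat.Agent.RED.H95.dvd_mul_prime_cases hℓ hd with hdM | ⟨d', hd'M, rfl⟩
    · have hmem : coeffEmb Kbar (qExpand ℚ d jq) ∈ FHbar M c H :=
        coeffEmb_mem_laurentBaseChange Kbar (full_le_FHQ M c H
          (IntermediateField.subset_adjoin ℚ _ ⟨d, hd0, hdM, rfl⟩))
      exact ⟨_, relN_alpha H ι hc2 hc e ⟨_, hmem⟩⟩
    · have hd'0 : NeZero d' := ⟨fun h => by
        rw [h, mul_zero] at hd0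
        exact hd0.out rfl⟩
      have hmem : coeffEmb Kbar (qExpand ℚ d' jq) ∈ FHbar M c H :=
        coeffEmb_mem_laurentBaseChange Kbar (full_le_FHQ M c H
          (IntermediateField.subset_adjoin ℚ _ ⟨d', hd'0, hd'M, rfl⟩))
      have h := relN_beta H ι hc2 hc e ⟨_, hmem⟩
      have e1 : coeffMap ι (coeffEmb Kbar (qExpand ℚ (ℓ * d') jq))
          = qExpand ℂ ℓ (coeffMap ι (coeffEmb Kbar (qExpand ℚ d' jq))) := by
        rw [← qExpand_qExpand, coeffMap_coeffEmb_C, coeffMap_coeffEmb_C]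
        exact Fermat.Agent.S28.H10.coeffMap_qExpand ℓ _
      rw [e1]
      exact ⟨_, h⟩
  · intro a
    exact ⟨_, relN_alpha H ι hc2 hc e (genBar M c H a)⟩
  · rw [map_one]
    exact ⟨_, relN_one e.pos⟩
  · rintro x y ⟨x', h1⟩ ⟨y', h2⟩
    rw [map_add]
    exact ⟨_, relN_add h1 h2⟩
  · rintro x ⟨x', h1⟩
    rw [map_neg]
    exact ⟨_, relN_neg h1⟩
  · rintro x ⟨x', h1⟩
    by_cases hx0 : x = 0
    · rw [hx0, inv_zero, map_zero]
      exact ⟨_, relN_zero e.pos⟩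
    · rw [map_inv₀]
      exact ⟨_, relN_inv h1 (fun h => hx0 ((map_eq_zero_iff _ (coeffMap_inj ι)).mp h))⟩
  · rintro x y ⟨x', h1⟩ ⟨y', h2⟩
    rw [map_mul]
    exact ⟨_, relN_mul h1 h2⟩

/-- The embedding "slash by `g`" of `F_H(Mℓ)` into `ℂ((q))`, as a function. -/
def embFun (hℓ : ℓ.Prime) (x : ↥(FHbar (M * ℓ) c H)) : LaurentSeries ℂ :=
  Classical.choose (exists_relN H ι hc2 hc e hℓ x.2)

theorem embFun_rel (hℓ : ℓ.Prime) (x : ↥(FHbar (M * ℓ) c H)) :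
    RelN g (coeffMap ι (x : LaurentSeries Kbar)) (embFun H ι hc2 hc e hℓ x) :=
  Classical.choose_spec (exists_relN H ι hc2 hc e hℓ x.2)

theorem embFun_eq (hℓ : ℓ.Prime) {x : ↥(FHbar (M * ℓ) c H)} {y : LaurentSeries ℂ}
    (h : RelN g (coeffMap ι (x : LaurentSeries Kbar)) y) : embFun H ι hc2 hc e hℓ x = y :=
  relN_unique (embFun_rel H ι hc2 hc e hℓ x) h

/-- The embedding "slash by `g`" of `F_H(Mℓ)` into `ℂ((q))`. -/
def embHom (hℓ : ℓ.Prime) : ↥(FHbar (M * ℓ) c H) →+* LaurentSeries ℂ where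
  toFun := embFun H ι hc2 hc e hℓ
  map_one' := by
    apply embFun_eq
    have := relN_one e.pos
    simpa using this
  map_mul' x y := by
    apply embFun_eq
    have := relN_mul (embFun_rel H ι hc2 hc e hℓ x) (embFun_rel H ι hc2 hc e hℓ y)
    simpa using this
  map_zero' := by
    apply embFun_eq
    have := relN_zero e.pos
    simpa using this
  map_add' x y := by
    apply embFun_eq
    have := relN_add (embFun_rel H ι hc2 hc e hℓ x) (embFun_rel H ι hc2 hc e hℓ y)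
    simpa using this

theorem embHom_eq (hℓ : ℓ.Prime) {x : ↥(FHbar (M * ℓ) c H)} {y : LaurentSeries ℂ}
    (h : RelN g (coeffMap ι (x : LaurentSeries Kbar)) y) : embHom H ι hc2 hc e hℓ x = y :=
  embFun_eq H ι hc2 hc e hℓ h

theorem embHom_alpha (hℓ : ℓ.Prime) (f : ↥(FHbar M c H)) :
    embHom H ι hc2 hc e hℓ (alphaH M c ℓ H f)
      = e.Eα (coeffMap ι (actHom H ι hc2 hc e.δα f : LaurentSeries Kbar)) := by
  apply embHom_eq
  rw [coe_alphaH]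
  exact relN_alpha H ι hc2 hc e f

theorem embHom_beta (hℓ : ℓ.Prime) (hβ : BetaOK M c ℓ H) (f : ↥(FHbar M c H)) :
    embHom H ι hc2 hc e hℓ (betaBar hβ f)
      = e.Eβ (coeffMap ι (actHom H ι hc2 hc e.δβ f : LaurentSeries Kbar)) := by
  apply embHom_eq
  rw [coe_betaBar, coeffMap_qExpand_jh]
  exact relN_beta H ι hc2 hc e f

end Emb

/-! ## 2. The matrices -/

section Matrices

/-- The matrix `[a b; c d]` of determinant `1`. -/
def mkSL (a b c d : ℤ) (h : a * d - b * c = 1) : SL(2, ℤ) :=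
  ⟨!![a, b; c, d], by rw [Matrix.det_fin_two_of]; exact h⟩

theorem coe_mkSL (a b c d : ℤ) (h : a * d - b * c = 1) :
    (mkSL a b c d h : Matrix (Fin 2) (Fin 2) ℤ) = !![a, b; c, d] := rfl

theorem mkSL_mem_Gamma0 {M : ℕ} (a b c d : ℤ) (h : a * d - b * c = 1) (hM : (M : ℤ) ∣ c) :
    mkSL a b c d h ∈ Gamma0 M := by
  rw [Gamma0_mem]
  show (((mkSL a b c d h : Matrix (Fin 2) (Fin 2) ℤ) 1 0 : ℤ) : ZMod M) = 0
  rw [coe_mkSL]
  simpa using (ZMod.intCast_zmod_eq_zero_iff_dvd c M).mpr hM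

/-- `diag(ℓ,1) · [a, b'+aj; c, cj+d'ℓ] = [ℓa, b'; c, d'] · [1 j; 0 ℓ]`. -/
theorem hecke_mat_id (ℓ : ℕ) [NeZero ℓ] (a b' c d' : ℤ) (j : ℕ)
    (h₁ : a * (c * j + d' * ℓ) - (b' + a * j) * c = 1) (h₂ : (ℓ * a) * d' - b' * c = 1) :
    heckeDiagMatrix ℓ * Matrix.SpecialLinearGroup.mapGL ℝ (mkSL a (b' + a * j) c (c * j + d' * ℓ) h₁)
      = Matrix.SpecialLinearGroup.mapGL ℝ (mkSL (ℓ * a) b' c d' h₂) * heckeMatrix ℓ j := by
  have hℓ : ℓ ≠ 0 := NeZero.ne ℓ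
  apply Matrix.GeneralLinearGroup.ext
  intro i k
  simp only [Matrix.GeneralLinearGroup.coe_mul, val_heckeDiagMatrix hℓ, val_heckeMatrix hℓ,
    Matrix.SpecialLinearGroup.mapGL_coe_matrix]
  fin_cases i <;> fin_cases k <;>
    simp [Matrix.mul_apply, Fin.sum_univ_two, coe_mkSL,
      Matrix.SpecialLinearGroup.map_apply_coe, RingHom.mapMatrix_apply, Matrix.map_apply]
  ring

theorem det_mapGL_mul_pos (γ : SL(2, ℤ)) (D : GL (Fin 2) ℝ) (hD : 0 < (D.det : ℝ)) :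
    0 < ((Matrix.SpecialLinearGroup.mapGL ℝ γ * D).det : ℝ) := by
  have h1 : ((Matrix.SpecialLinearGroup.mapGL ℝ γ).det : ℝ) = 1 := by
    rw [Matrix.GeneralLinearGroup.val_det_apply, Matrix.SpecialLinearGroup.mapGL_coe_matrix]
    exact (Matrix.SpecialLinearGroup.map (algebraMap ℤ ℝ) γ).det_coe
  rw [map_mul, Units.val_mul, h1, one_mul]
  exact hD

theorem det_mul_pos' (D D' : GL (Fin 2) ℝ) (hD : 0 < (D.det : ℝ)) (hD' : 0 < (D'.det : ℝ)) :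
    0 < ((D * D').det : ℝ) := by
  rw [map_mul, Units.val_mul]
  exact mul_pos hD hD'

variable (M ℓ : ℕ) [NeZero ℓ] (s q : ℤ) (hdet : (ℓ : ℤ) * s - q * M = 1)

/-- The embedding data of the conjugate `h ↦ h ∘ γ_b` of `F_H(Mℓ)` over `α F_H(M)`:
`γ_b = [1, q+b; M, Mb+sℓ] ∈ Γ₁(M)`, `diag(ℓ,1) γ_b = δ [1 b; 0 ℓ]`, `δ = [ℓ q; M s]`. -/
def embT (b : ℕ) :
    EmbData M ℓ (Matrix.SpecialLinearGroup.mapGL ℝ
      (mkSL 1 (q + 1 * b) M (M * b + s * ℓ) (by linear_combination hdet)) * heckeDiagMatrix ℓ) where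
  pos := det_mapGL_mul_pos _ _ (det_heckeDiagMatrix_pos ℓ)
  δα := ⟨mkSL 1 (q + 1 * b) M (M * b + s * ℓ) (by linear_combination hdet),
    mkSL_mem_Gamma0 _ _ _ _ _ dvd_rfl⟩
  Dα := heckeDiagMatrix ℓ
  Eα := qExpand ℂ ℓ
  hα := expands_diag ℓ
  mα := rfl
  δβ := ⟨mkSL (ℓ * 1) q M s (by linear_combination hdet), mkSL_mem_Gamma0 _ _ _ _ _ dvd_rfl⟩
  Dβ := heckeMatrix ℓ b * heckeDiagMatrix ℓ
  Eβ := H44.twistBy (expUnit ((b : ℝ) / ℓ))
  hβ := expands_trans ℓ b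
  mβ := by
    rw [← mul_assoc, hecke_mat_id ℓ 1 q M s b _ (by linear_combination hdet), mul_assoc]

/-- The embedding data of the conjugate of `F_H(Mℓ)` over `β F_H(M)` which is not a twist:
`δ' = [s q; M ℓ]`, `diag(ℓ,1) δ' = γ' [1 0; 0 ℓ]`, `γ' = [ℓs, q; M, 1] ∈ Γ₁(M)`. -/
def embU :
    EmbData M ℓ (Matrix.SpecialLinearGroup.mapGL ℝ
      (mkSL s (q + s * (0 : ℕ)) M (M * (0 : ℕ) + 1 * ℓ) (by push_cast; linear_combination hdet))
        * (heckeDiagMatrix ℓ * heckeDiagMatrix ℓ)) where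
  pos := det_mapGL_mul_pos _ _
    (det_mul_pos' _ _ (det_heckeDiagMatrix_pos ℓ) (det_heckeDiagMatrix_pos ℓ))
  δα := ⟨mkSL s (q + s * (0 : ℕ)) M (M * (0 : ℕ) + 1 * ℓ) (by push_cast; linear_combination hdet),
    mkSL_mem_Gamma0 _ _ _ _ _ dvd_rfl⟩
  Dα := heckeDiagMatrix ℓ * heckeDiagMatrix ℓ
  Eα := (qExpand ℂ ℓ).comp (qExpand ℂ ℓ)
  hα := (expands_diag ℓ).mul (expands_diag ℓ)
  mα := rfl
  δβ := ⟨mkSL (ℓ * s) q M 1 (by linear_combination hdet), mkSL_mem_Gamma0 _ _ _ _ _ dvd_rfl⟩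
  Dβ := heckeMatrix ℓ 0 * heckeDiagMatrix ℓ * heckeDiagMatrix ℓ
  Eβ := (qExpand ℂ ℓ).comp (H44.twistBy (expUnit (((0 : ℕ) : ℝ) / ℓ)))
  hβ := (expands_trans ℓ 0).mul (expands_diag ℓ)
  mβ := by
    rw [← mul_assoc, hecke_mat_id ℓ s q M 1 0 _ (by linear_combination hdet)]
    simp only [mul_assoc]

end Matrices

/-! ## 3. Norms through embeddings -/

section Abstract

open AlgebraicCurve Fermat.Agent.NEB.H14

/-- The norm along `φ` is the product of the conjugates. -/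
theorem norm_via_emb {K₀ F F' : Type} [Field K₀] [Field F] [Field F'] [Algebra K₀ F]
    [Algebra K₀ F'] {L : Type} [Field L] (φ : F →ₐ[K₀] F') (hfin : FiniteAlong K₀ φ)
    (ψ : F →+* L) {ι : Type} [Fintype ι] (σ : ι → (F' →+* L))
    (hσφ : ∀ i x, σ i (φ x) = ψ x) (hinj : Function.Injective σ)
    (hcard : Fintype.card ι = finrankAlong K₀ φ) (y : F') :
    ψ (normFn φ y) = ∏ i, σ i y := by
  letI := algebraAlong φ
  letI : Algebra F L := ψ.toAlgebra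
  haveI : FiniteDimensional F F' := hfin
  let σ' : ι → (F' →ₐ[F] L) := fun i => { σ i with commutes' := fun x => hσφ i x }
  have hinj' : Function.Injective σ' := by
    intro i j h
    apply hinj
    ext z
    exact congrArg (fun f : F' →ₐ[F] L => f z) h
  exact Fermat.Agent.RED.H95.norm_eq_prod_of_injective σ' hinj' hcard y

end Abstract

/-! ## 4. Roots of unity -/

section Roots

variable (ℓ : ℕ) [NeZero ℓ]

theorem expUnit_div (b : ℕ) : expUnit ((b : ℝ) / ℓ) = expUnit (1 / (ℓ : ℝ)) ^ b := by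
  apply Units.ext
  rw [Units.val_pow_eq_pow_val, coe_expUnit, coe_expUnit, ← Complex.exp_nat_mul]
  congr 1
  push_cast
  ring

theorem isPrimitiveRoot_expUnit : IsPrimitiveRoot (expUnit (1 / (ℓ : ℝ))) ℓ := by
  rw [← IsPrimitiveRoot.coe_units_iff, coe_expUnit]
  have h := Complex.isPrimitiveRoot_exp ℓ (NeZero.ne ℓ)
  convert h using 2
  push_cast
  ring

theorem prod_twistBy_expUnit (s : LaurentSeries ℂ) :
    ∏ b : Fin ℓ, H44.twistBy (expUnit (((b : ℕ) : ℝ) / ℓ)) s = H44.twistProd ℂ ℓ s := by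
  rw [H44.twistProd_eq_prod_range (isPrimitiveRoot_expUnit ℓ), ← Fin.prod_univ_eq_prod_range]
  refine Finset.prod_congr rfl fun b _ => ?_
  rw [expUnit_div]

theorem expUnit_zero : expUnit (((0 : ℕ) : ℝ) / ℓ) = 1 := by
  apply Units.ext
  rw [coe_expUnit]
  simp

/-- `coeffMap ι` commutes with `uSeries`. -/
theorem coeffMap_uSeries (ι : Kbar →+* ℂ) (s : LaurentSeries Kbar) :
    coeffMap ι (uSeries ℓ s) = uSeries ℓ (coeffMap ι s) := by
  obtain ⟨z, hz⟩ := HasEnoughRootsOfUnity.exists_primitiveRoot Kbar ℓ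
  have hz0 : z ≠ 0 := hz.ne_zero (NeZero.ne ℓ)
  have hζ : IsPrimitiveRoot (Units.mk0 z hz0) ℓ :=
    IsPrimitiveRoot.coe_units_iff.mp (by simpa using hz)
  have hζ' : IsPrimitiveRoot (Units.map (ι : Kbar →* ℂ) (Units.mk0 z hz0)) ℓ :=
    hζ.map_of_injective (Units.map_injective (f := (ι : Kbar →* ℂ)) ι.injective)
  unfold uSeries
  rw [coeffMap_descend, H44.twistProd_eq_prod_range hζ, H44.twistProd_eq_prod_range hζ', map_prod]
  congr 1
  refine Finset.prod_congr rfl fun j _ => ?_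
  rw [coeffMap_twistBy, map_pow]

theorem coeffMap_twNorm (ι : Kbar →+* ℂ) (y s : LaurentSeries Kbar) :
    coeffMap ι (twNorm ℓ y s) = twNorm ℓ (coeffMap ι y) (coeffMap ι s) := by
  unfold twNorm
  rw [map_mul, coeffMap_uSeries, coeffMap_qExpand_jh]

theorem qExpand_uSeries (s : LaurentSeries ℂ) :
    qExpand ℂ ℓ (uSeries ℓ s) = H44.twistProd ℂ ℓ s := by
  unfold uSeries
  exact H44.qExpand_descend (H44.isSupp_twistProd (isPrimitiveRoot_expUnit ℓ) s)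

end Roots

/-! ## 5. Values of the embeddings -/

section Values

variable {M c ℓ : ℕ} [NeZero M] [NeZero ℓ] (H : Subgroup (ZMod c)ˣ) (ι : Kbar →+* ℂ)
  (hc2 : 2 ≤ c) (hc : c ∣ M)

/-- `x ↦ coeffMap ι x` on `F_H(M)`. -/
def iotaHom (M c : ℕ) (H : Subgroup (ZMod c)ˣ) (ι : Kbar →+* ℂ) :
    ↥(FHbar M c H) →+* LaurentSeries ℂ :=
  (coeffMap ι).comp (algebraMap ↥(FHbar M c H) (LaurentSeries Kbar))

theorem iotaHom_apply (x : ↥(FHbar M c H)) :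
    iotaHom M c H ι x = coeffMap ι (x : LaurentSeries Kbar) := rfl

/-- The action of `γ ∈ Γ₀(M)` is the diamond operator of `a_γ`. -/
theorem actHom_of_a (γ : Gamma0 M) (u : (ZMod c)ˣ)
    (hu : (u : ZMod c) = ((((γ : SL(2, ℤ)) 0 0 : ℤ)) : ZMod c)) :
    actHom H ι hc2 hc γ = rhoHom H ι hc2 hc u := by
  rw [actHom_eq_rho]
  congr 1
  apply Units.ext
  rw [hu]
  rfl

theorem actHom_of_a_one (γ : Gamma0 M)
    (hu : ((((γ : SL(2, ℤ)) 0 0 : ℤ)) : ZMod c) = 1) (f : ↥(FHbar M c H)) :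
    actHom H ι hc2 hc γ f = f := by
  rw [actHom_of_a H ι hc2 hc γ 1 (by rw [hu]; rfl), rhoHom_one]
  rfl

/-- The `j`-function in `F_H(M)`. -/
def jH (M c : ℕ) [NeZero M] (H : Subgroup (ZMod c)ˣ) : ↥(FHbar M c H) :=
  inclBar M c H ⟨Fermat.Agent.S24.jBar, Fermat.Agent.S24.jBar_mem M⟩

theorem coeffMap_jH : coeffMap ι ((jH M c H : ↥(FHbar M c H)) : LaurentSeries Kbar)
    = coeffEmb ℂ jq := by
  rw [jH, coe_inclBar]
  exact coeffMap_coeffEmb_C ι jq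

theorem coeffMap_jH_coeff :
    (coeffMap ι ((jH M c H : ↥(FHbar M c H)) : LaurentSeries Kbar)).coeff (-1 : ℤ) = 1 := by
  rw [coeffMap_jH, coeffEmb_coeff, coeff_jq_neg_one, map_one]

theorem actHom_jH (γ : Gamma0 M) : actHom H ι hc2 hc γ (jH M c H) = jH M c H :=
  actHom_incl H ι hc2 hc γ _

end Values

/-! ## 6. The Kummer function of `T^H_ℓ` -/

section TH

open AlgebraicCurve Fermat.Agent.NEB.H14

variable {M c ℓ : ℕ} [NeZero M] [NeZero ℓ] (H : Subgroup (ZMod c)ˣ) (ι : Kbar →+* ℂ)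
  (hc2 : 2 ≤ c) (hc : c ∣ M) (s q : ℤ) (hdet : (ℓ : ℤ) * s - q * M = 1) (hℓ : ℓ.Prime)

/-- The `ℓ + 1` conjugates of `F_H(Mℓ)` over `α F_H(M)`. -/
def sigmaT : Option (Fin ℓ) → (↥(FHbar (M * ℓ) c H) →+* LaurentSeries ℂ)
  | none => (qExpand ℂ ℓ).comp (iotaHom (M * ℓ) c H ι)
  | some b => embHom H ι hc2 hc (embT M ℓ s q hdet b) hℓ

theorem sigmaT_alpha (i : Option (Fin ℓ)) (f : ↥(FHbar M c H)) :
    sigmaT H ι hc2 hc s q hdet hℓ i (alphaH M c ℓ H f)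
      = ((qExpand ℂ ℓ).comp (iotaHom M c H ι)) f := by
  cases i with
  | none =>
    show qExpand ℂ ℓ (coeffMap ι ((alphaH M c ℓ H f : ↥(FHbar (M * ℓ) c H)) : LaurentSeries Kbar))
      = qExpand ℂ ℓ (coeffMap ι (f : LaurentSeries Kbar))
    rw [coe_alphaH]
  | some b =>
    show embHom H ι hc2 hc (embT M ℓ s q hdet b) hℓ (alphaH M c ℓ H f) = _
    rw [embHom_alpha, actHom_of_a_one]
    · rfl
    · have : (((embT M ℓ s q hdet b).δα : SL(2, ℤ)) 0 0 : ℤ) = 1 := rfl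
      rw [this, Int.cast_one]

theorem sigmaT_none_beta (hβ : BetaOK M c ℓ H) (f : ↥(FHbar M c H)) :
    sigmaT H ι hc2 hc s q hdet hℓ none (betaBar hβ f)
      = qExpand ℂ ℓ (qExpand ℂ ℓ (coeffMap ι (f : LaurentSeries Kbar))) := by
  show qExpand ℂ ℓ (coeffMap ι ((betaBar hβ f : ↥(FHbar (M * ℓ) c H)) : LaurentSeries Kbar)) = _
  rw [coe_betaBar, coeffMap_qExpand_jh]

theorem sigmaT_some_beta (hβ : BetaOK M c ℓ H) (u : (ZMod c)ˣ) (hu : (u : ZMod c) = (ℓ : ZMod c))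
    (b : Fin ℓ) (f : ↥(FHbar M c H)) :
    sigmaT H ι hc2 hc s q hdet hℓ (some b) (betaBar hβ f)
      = H44.twistBy (expUnit (((b : ℕ) : ℝ) / ℓ))
          (coeffMap ι (rhoHom H ι hc2 hc u f : LaurentSeries Kbar)) := by
  show embHom H ι hc2 hc (embT M ℓ s q hdet b) hℓ (betaBar hβ f) = _
  rw [embHom_beta, actHom_of_a H ι hc2 hc _ u]
  · rfl
  · have : (((embT M ℓ s q hdet b).δβ : SL(2, ℤ)) 0 0 : ℤ) = (ℓ : ℤ) * 1 := rfl
    rw [hu, this]
    push_cast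
    rw [mul_one]

theorem sigmaT_injective (hβ : BetaOK M c ℓ H) :
    Function.Injective (sigmaT H ι hc2 hc s q hdet hℓ) := by
  have hℓ2 : 2 ≤ ℓ := hℓ.two_le
  obtain ⟨u, hu⟩ : ∃ u : (ZMod c)ˣ, (u : ZMod c) = (ℓ : ZMod c) := by
    refine ⟨Units.mkOfMulEqOne (ℓ : ZMod c) ((s : ℤ) : ZMod c) ?_, rfl⟩
    have h1 := congrArg (fun z : ℤ => (z : ZMod c)) hdet
    simp only [Int.cast_sub, Int.cast_mul, Int.cast_natCast, Int.cast_one] at h1
    have h2 : ((M : ℕ) : ZMod c) = 0 := (ZMod.natCast_eq_zero_iff M c).mpr hc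
    rw [h2, mul_zero, sub_zero] at h1
    exact h1
  -- values at `β j`
  have v0 : (sigmaT H ι hc2 hc s q hdet hℓ none (betaBar hβ (jH M c H))).coeff (-1 : ℤ) = 0 := by
    rw [sigmaT_none_beta]
    apply qExpand_coeff_of_not_dvd
    intro hdvd
    have : (ℓ : ℤ) ∣ 1 := (dvd_neg (a := (ℓ : ℤ)) (b := 1)).mp hdvd
    have h3 := Int.le_of_dvd one_pos this
    omega
  have v1 : ∀ b : Fin ℓ,
      (sigmaT H ι hc2 hc s q hdet hℓ (some b) (betaBar hβ (jH M c H))).coeff (-1 : ℤ)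
        = (((expUnit (1 / (ℓ : ℝ)) ^ (b : ℕ)) ^ (-1 : ℤ) : ℂˣ) : ℂ) := by
    intro b
    rw [sigmaT_some_beta H ι hc2 hc s q hdet hℓ hβ u hu, H44.twistBy_coeff]
    have e : rhoHom H ι hc2 hc u (jH M c H) = jH M c H := rhoHom_incl H ι hc2 hc u _
    rw [e, coeffMap_jH_coeff, mul_one, expUnit_div]
  intro i j hij
  have hval := congrArg (fun σ : ↥(FHbar (M * ℓ) c H) →+* LaurentSeries ℂ =>
    (σ (betaBar hβ (jH M c H))).coeff (-1 : ℤ)) hij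
  beta_reduce at hval
  cases i with
  | none =>
    cases j with
    | none => rfl
    | some b =>
      rw [v0, v1] at hval
      exact absurd hval.symm (Units.ne_zero _)
  | some a =>
    cases j with
    | none =>
      rw [v0, v1] at hval
      exact absurd hval (Units.ne_zero _)
    | some b =>
      rw [v1, v1] at hval
      have h1 : (expUnit (1 / (ℓ : ℝ)) ^ (a : ℕ)) ^ (-1 : ℤ)
          = (expUnit (1 / (ℓ : ℝ)) ^ (b : ℕ)) ^ (-1 : ℤ) := Units.ext hval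
      rw [zpow_neg_one, zpow_neg_one, inv_inj] at h1
      have h2 := (isPrimitiveRoot_expUnit ℓ).pow_inj a.2 b.2 h1
      exact congrArg some (Fin.ext h2)

end TH

section MainT

open AlgebraicCurve Fermat.Agent.NEB.H14

variable {M c ℓ : ℕ} [NeZero M] [NeZero ℓ] {H : Subgroup (ZMod c)ˣ}

theorem exists_bezout' (hℓ : ℓ.Prime) (hℓM : ¬ ℓ ∣ M) :
    ∃ s q : ℤ, (ℓ : ℤ) * s - q * M = 1 := by
  have hco : Nat.Coprime ℓ M := (Nat.Prime.coprime_iff_not_dvd hℓ).mpr hℓM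
  obtain ⟨a, b, hab⟩ := Nat.isCoprime_iff_coprime.mpr hco
  exact ⟨a, -b, by linear_combination hab⟩

/-- An embedding `ℚ̄ → ℂ`. -/
def iotaC : Kbar →+* ℂ :=
  haveI : Algebra.IsAlgebraic ℚ (AlgebraicClosure ℚ) := AlgebraicClosure.isAlgebraic ℚ
  (IsAlgClosed.lift : AlgebraicClosure ℚ →ₐ[ℚ] ℂ).toRingHom

/-- **The `q`-expansion of the Kummer function of `T^H_ℓ`**, `ℓ ∤ M` prime:
`THfn f = f (q^ℓ) · ∏_{ζ^ℓ = 1} (⟨ℓ⟩ f) (ζ q^{1/ℓ})`. -/
theorem coe_THfn (hd : HeckeData M c ℓ H) (hc2 : 2 ≤ c) (hc : c ∣ M) (hℓ : ℓ.Prime)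
    (hℓM : ¬ ℓ ∣ M) (u : (ZMod c)ˣ) (hu : (u : ZMod c) = (ℓ : ZMod c)) (f : ↥(FHbar M c H)) :
    ((THfn hd.hβ f : ↥(FHbar M c H)) : LaurentSeries Kbar)
      = twNorm ℓ (f : LaurentSeries Kbar) ((hd.dd.ρ u f : ↥(FHbar M c H)) : LaurentSeries Kbar) := by
  obtain ⟨s, q, hdet⟩ := exists_bezout' hℓ hℓM
  have key := norm_via_emb (alphaH M c ℓ H) (finiteAlong_hom hd.isFF hd.isFF' _)
    ((qExpand ℂ ℓ).comp (iotaHom M c H iotaC)) (sigmaT H iotaC hc2 hc s q hdet hℓ)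
    (fun i x => sigmaT_alpha H iotaC hc2 hc s q hdet hℓ i x)
    (sigmaT_injective H iotaC hc2 hc s q hdet hℓ hd.hβ)
    (by rw [Fintype.card_option, Fintype.card_fin]
        exact (Fermat.Agent.NEB.H29.finrankAlong_alphaH hd hℓ hℓM).symm)
    (betaBar hd.hβ f)
  rw [Fintype.prod_option, sigmaT_none_beta] at key
  simp only [sigmaT_some_beta H iotaC hc2 hc s q hdet hℓ hd.hβ u hu] at key
  rw [prod_twistBy_expUnit, ← qExpand_uSeries, ← map_mul] at key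
  have key2 := qExpand_injective (R := ℂ) ℓ key
  apply coeffMap_inj iotaC
  rw [coeffMap_twNorm, diamondData_unique H iotaC hc2 hc hd.dd u f]
  exact key2

end MainT

/-! ## 7. The Kummer function of `U^H_ℓ` -/

section UH

open AlgebraicCurve Fermat.Agent.NEB.H14

variable {M c ℓ : ℕ} [NeZero M] [NeZero ℓ] (H : Subgroup (ZMod c)ˣ) (ι : Kbar →+* ℂ)
  (hc2 : 2 ≤ c) (hc : c ∣ M) (s q : ℤ) (hdet : (ℓ : ℤ) * s - q * M = 1) (hℓ : ℓ.Prime)

/-- Twisting by an `ℓ`-th root of unity fixes the series in `q^ℓ`. -/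
theorem twistBy_qExpand_of_pow_eq_one {K : Type} [Field K] {ζ : Kˣ} (hζ : ζ ^ ℓ = 1)
    (x : LaurentSeries K) : H44.twistBy ζ (qExpand K ℓ x) = qExpand K ℓ x := by
  ext m
  rw [H44.twistBy_coeff]
  by_cases hm : (ℓ : ℤ) ∣ m
  · obtain ⟨k, rfl⟩ := hm
    have : ζ ^ ((ℓ : ℤ) * k) = 1 := by
      rw [zpow_mul, zpow_natCast, hζ, one_zpow]
    rw [this, Units.val_one, one_mul]
  · rw [qExpand_coeff_of_not_dvd ℓ _ hm, mul_zero]

theorem expUnit_div_pow (b : ℕ) : expUnit ((b : ℝ) / ℓ) ^ ℓ = 1 := by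
  rw [expUnit_div, ← pow_mul, mul_comm, pow_mul, (isPrimitiveRoot_expUnit ℓ).pow_eq_one, one_pow]

/-- The twist conjugates of `F_H(Mℓ)` over `β F_H(M)`. -/
def sigmaTw (b : ℕ) : ↥(FHbar (M * ℓ) c H) →+* LaurentSeries ℂ :=
  (H44.twistBy (expUnit ((b : ℝ) / ℓ))).comp (iotaHom (M * ℓ) c H ι)

theorem sigmaTw_beta (hβ : BetaOK M c ℓ H) (b : ℕ) (f : ↥(FHbar M c H)) :
    sigmaTw (ℓ := ℓ) H ι b (betaBar hβ f) = ((qExpand ℂ ℓ).comp (iotaHom M c H ι)) f := by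
  show H44.twistBy _ (coeffMap ι ((betaBar hβ f : ↥(FHbar (M * ℓ) c H)) : LaurentSeries Kbar))
    = qExpand ℂ ℓ (coeffMap ι (f : LaurentSeries Kbar))
  rw [coe_betaBar, coeffMap_qExpand_jh, twistBy_qExpand_of_pow_eq_one (expUnit_div_pow b)]

theorem sigmaTw_alpha (b : ℕ) (f : ↥(FHbar M c H)) :
    sigmaTw (ℓ := ℓ) H ι b (alphaH M c ℓ H f)
      = H44.twistBy (expUnit ((b : ℝ) / ℓ)) (coeffMap ι (f : LaurentSeries Kbar)) := by
  show H44.twistBy _ (coeffMap ι ((alphaH M c ℓ H f : ↥(FHbar (M * ℓ) c H)) : LaurentSeries Kbar))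
    = _
  rw [coe_alphaH]

theorem sigmaTw_alpha_jH_coeff (b : ℕ) :
    (sigmaTw (ℓ := ℓ) H ι b (alphaH M c ℓ H (jH M c H))).coeff (-1 : ℤ)
      = (((expUnit (1 / (ℓ : ℝ)) ^ b) ^ (-1 : ℤ) : ℂˣ) : ℂ) := by
  rw [sigmaTw_alpha, H44.twistBy_coeff, coeffMap_jH_coeff, mul_one, expUnit_div]

theorem sigmaTw_injOn {a b : ℕ} (ha : a < ℓ) (hb : b < ℓ)
    (h : sigmaTw (ℓ := ℓ) (M := M) H ι a = sigmaTw (ℓ := ℓ) H ι b) : a = b := by
  have hval := congrArg (fun σ : ↥(FHbar (M * ℓ) c H) →+* LaurentSeries ℂ =>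
    (σ (alphaH M c ℓ H (jH M c H))).coeff (-1 : ℤ)) h
  beta_reduce at hval
  rw [sigmaTw_alpha_jH_coeff, sigmaTw_alpha_jH_coeff] at hval
  have h1 : (expUnit (1 / (ℓ : ℝ)) ^ a) ^ (-1 : ℤ)
      = (expUnit (1 / (ℓ : ℝ)) ^ b) ^ (-1 : ℤ) := Units.ext hval
  rw [zpow_neg_one, zpow_neg_one, inv_inj] at h1
  exact (isPrimitiveRoot_expUnit ℓ).pow_inj ha hb h1

/-- The `ℓ + 1` conjugates of `F_H(Mℓ)` over `β F_H(M)`. -/
def sigmaU : Option (Fin ℓ) → (↥(FHbar (M * ℓ) c H) →+* LaurentSeries ℂ)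
  | none => embHom H ι hc2 hc (embU M ℓ s q hdet) hℓ
  | some b => sigmaTw H ι (b : ℕ)

include hc hdet in
theorem cast_ls_eq_one : (((ℓ : ℤ) * s : ℤ) : ZMod c) = 1 := by
  have h1 := congrArg (fun z : ℤ => (z : ZMod c)) hdet
  simp only [Int.cast_sub, Int.cast_mul, Int.cast_natCast, Int.cast_one] at h1
  have h2 : ((M : ℕ) : ZMod c) = 0 := (ZMod.natCast_eq_zero_iff M c).mpr hc
  rw [h2, mul_zero, sub_zero] at h1
  push_cast
  exact h1

theorem sigmaU_beta (hβ : BetaOK M c ℓ H) (i : Option (Fin ℓ)) (f : ↥(FHbar M c H)) :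
    sigmaU H ι hc2 hc s q hdet hℓ i (betaBar hβ f)
      = ((qExpand ℂ ℓ).comp (iotaHom M c H ι)) f := by
  cases i with
  | some b => exact sigmaTw_beta H ι hβ b f
  | none =>
    show embHom H ι hc2 hc (embU M ℓ s q hdet) hℓ (betaBar hβ f) = _
    rw [embHom_beta, actHom_of_a_one]
    · show qExpand ℂ ℓ (H44.twistBy (expUnit (((0 : ℕ) : ℝ) / ℓ))
        (coeffMap ι (f : LaurentSeries Kbar))) = _
      rw [expUnit_zero, H44.twistBy_one]
      rfl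
    · have : (((embU M ℓ s q hdet).δβ : SL(2, ℤ)) 0 0 : ℤ) = (ℓ : ℤ) * s := rfl
      rw [this]
      exact cast_ls_eq_one hc s q hdet

theorem sigmaU_none_alpha (u : (ZMod c)ˣ) (hu : (u : ZMod c) = (ℓ : ZMod c))
    (f : ↥(FHbar M c H)) :
    sigmaU H ι hc2 hc s q hdet hℓ none (alphaH M c ℓ H f)
      = qExpand ℂ ℓ (qExpand ℂ ℓ (coeffMap ι (rhoHom H ι hc2 hc u⁻¹ f : LaurentSeries Kbar))) := by
  show embHom H ι hc2 hc (embU M ℓ s q hdet) hℓ (alphaH M c ℓ H f) = _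
  rw [embHom_alpha, actHom_of_a H ι hc2 hc _ u⁻¹]
  · rfl
  · have : (((embU M ℓ s q hdet).δα : SL(2, ℤ)) 0 0 : ℤ) = s := rfl
    rw [this]
    apply Units.inv_eq_of_mul_eq_one_right
    rw [hu]
    have := cast_ls_eq_one hc s q hdet
    push_cast at this
    exact this

theorem sigmaU_injective (u : (ZMod c)ˣ) (hu : (u : ZMod c) = (ℓ : ZMod c)) :
    Function.Injective (sigmaU (M := M) H ι hc2 hc s q hdet hℓ) := by
  have hℓ2 : 2 ≤ ℓ := hℓ.two_le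
  have v0 : (sigmaU H ι hc2 hc s q hdet hℓ none (alphaH M c ℓ H (jH M c H))).coeff (-1 : ℤ)
      = 0 := by
    rw [sigmaU_none_alpha H ι hc2 hc s q hdet hℓ u hu]
    apply qExpand_coeff_of_not_dvd
    intro hdvd
    have : (ℓ : ℤ) ∣ 1 := (dvd_neg (a := (ℓ : ℤ)) (b := 1)).mp hdvd
    have h3 := Int.le_of_dvd one_pos this
    omega
  have v1 : ∀ b : Fin ℓ,
      (sigmaU H ι hc2 hc s q hdet hℓ (some b) (alphaH M c ℓ H (jH M c H))).coeff (-1 : ℤ)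
        = (((expUnit (1 / (ℓ : ℝ)) ^ (b : ℕ)) ^ (-1 : ℤ) : ℂˣ) : ℂ) :=
    fun b => sigmaTw_alpha_jH_coeff H ι b
  intro i j hij
  have hval := congrArg (fun σ : ↥(FHbar (M * ℓ) c H) →+* LaurentSeries ℂ =>
    (σ (alphaH M c ℓ H (jH M c H))).coeff (-1 : ℤ)) hij
  beta_reduce at hval
  cases i with
  | none =>
    cases j with
    | none => rfl
    | some b =>
      rw [v0, v1] at hval
      exact absurd hval.symm (Units.ne_zero _)
  | some a =>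
    cases j with
    | none =>
      rw [v0, v1] at hval
      exact absurd hval (Units.ne_zero _)
    | some b =>
      have h2 : (a : ℕ) = b := sigmaTw_injOn H ι a.2 b.2 hij
      exact congrArg some (Fin.ext h2)

end UH

section MainU

open AlgebraicCurve Fermat.Agent.NEB.H14

variable {M c ℓ : ℕ} [NeZero M] [NeZero ℓ] {H : Subgroup (ZMod c)ˣ}

/-- `[F_H(Mℓ) : β F_H(M)] = [F₀(Mℓ) : β F₀(M)]` (Galois square). -/
theorem finrankAlong_betaH_eq (hd : HeckeData M c ℓ H) :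
    finrankAlong Kbar (betaBar hd.hβ) = finrankAlong Kbar (heckeBetaBar Kbar M ℓ) := by
  haveI := neZero_mul M ℓ
  haveI := finite_range_rho hd.dd'
  haveI : Fintype hd.dd'.ρ.range := Fintype.ofFinite _
  have h := Fermat.Agent.NEB.H2.stmt_GalSquare Kbar _ _ _ _ (heckeBetaBar Kbar M ℓ)
    (inclBar M c H) (betaBar hd.hβ)
    (inclBar (M * ℓ) c H) (inclBar_comp_beta hd.hβ).symm
    (finiteAlong_hom (isFF0 M) (isFF0 (M * ℓ)) _) hd.dd'.ρ.range ?_ ?_ ?_ ?_ ?_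
  · exact h.2.1
  · intro x hx
    obtain ⟨x₀, hx₀⟩ := hd.dd'.fixed x (fun d => hx _ ⟨d, rfl⟩)
    exact ⟨x₀, hx₀⟩
  · rintro g y ⟨d, rfl⟩
    exact hd.dd'.fix d y
  · rintro g y ⟨d, rfl⟩
    exact ⟨hd.dd.ρ d y, (hd.betaGal d y).symm⟩
  · rintro g ⟨d, rfl⟩ hg
    have h1 : hd.dd.ρ d = 1 := by
      refine AlgEquiv.ext fun y => ?_
      have h2 := hg y
      rw [hd.betaGal d y] at h2
      exact (betaBar hd.hβ).toRingHom.injective h2
    exact (hd.dd'.ker d).mpr ((hd.dd.ker d).mp h1)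
  · intro y hy
    obtain ⟨x₀, hx₀⟩ := hd.dd.fixed y (fun d => by
      have h2 := hy _ ⟨d, rfl⟩
      rw [hd.betaGal d y] at h2
      exact (betaBar hd.hβ).toRingHom.injective h2)
    exact ⟨x₀, hx₀⟩

/-- `[F_H(Mℓ) : β F_H(M)] = ℓ + 1` for a prime `ℓ ∤ M`. -/
theorem finrankAlong_betaH (hd : HeckeData M c ℓ H) (hℓ : ℓ.Prime) (hM : ¬ ℓ ∣ M) :
    finrankAlong Kbar (betaBar hd.hβ) = ℓ + 1 := by
  rw [finrankAlong_betaH_eq hd]
  exact Fermat.Agent.RED.H95.finrankAlong_beta hℓ hM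

/-- **The `q`-expansion of the Kummer function of `U^H_ℓ`**, `ℓ ∤ M` prime:
`UHfn f = (⟨ℓ⟩⁻¹ f) (q^ℓ) · ∏_{ζ^ℓ = 1} f (ζ q^{1/ℓ})`. -/
theorem coe_UHfn (hd : HeckeData M c ℓ H) (hc2 : 2 ≤ c) (hc : c ∣ M) (hℓ : ℓ.Prime)
    (hℓM : ¬ ℓ ∣ M) (u : (ZMod c)ˣ) (hu : (u : ZMod c) = (ℓ : ZMod c)) (f : ↥(FHbar M c H)) :
    ((UHfn hd.hβ f : ↥(FHbar M c H)) : LaurentSeries Kbar)
      = twNorm ℓ ((hd.dd.ρ u⁻¹ f : ↥(FHbar M c H)) : LaurentSeries Kbar)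
          (f : LaurentSeries Kbar) := by
  obtain ⟨s, q, hdet⟩ := exists_bezout' hℓ hℓM
  have key := norm_via_emb (betaBar hd.hβ) (finiteAlong_hom hd.isFF hd.isFF' _)
    ((qExpand ℂ ℓ).comp (iotaHom M c H iotaC)) (sigmaU H iotaC hc2 hc s q hdet hℓ)
    (fun i x => sigmaU_beta H iotaC hc2 hc s q hdet hℓ hd.hβ i x)
    (sigmaU_injective H iotaC hc2 hc s q hdet hℓ u hu)
    (by rw [Fintype.card_option, Fintype.card_fin]
        exact (finrankAlong_betaH hd hℓ hℓM).symm)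
    (alphaH M c ℓ H f)
  rw [Fintype.prod_option, sigmaU_none_alpha H iotaC hc2 hc s q hdet hℓ u hu] at key
  have e : ∀ b : Fin ℓ, sigmaU H iotaC hc2 hc s q hdet hℓ (some b) (alphaH M c ℓ H f)
      = H44.twistBy (expUnit (((b : ℕ) : ℝ) / ℓ)) (coeffMap iotaC (f : LaurentSeries Kbar)) :=
    fun b => sigmaTw_alpha H iotaC b f
  simp only [e] at key
  rw [prod_twistBy_expUnit, ← qExpand_uSeries, ← map_mul] at key
  have key2 := qExpand_injective (R := ℂ) ℓ key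
  apply coeffMap_inj iotaC
  rw [coeffMap_twNorm, diamondData_unique H iotaC hc2 hc hd.dd u⁻¹ f]
  exact key2

/-- **The `q`-expansion of the Kummer function of `U^H_ℓ`** when `[F_H(Mℓ) : β F_H(M)] = ℓ`
(the case `ℓ ∣ M`): `UHfn f = ∏_{ζ^ℓ = 1} f (ζ q^{1/ℓ})`. -/
theorem coe_UHfn_of_finrank (hd : HeckeData M c ℓ H)
    (hdeg : finrankAlong Kbar (betaBar hd.hβ) = ℓ) (f : ↥(FHbar M c H)) :
    ((UHfn hd.hβ f : ↥(FHbar M c H)) : LaurentSeries Kbar)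
      = uSeries ℓ (f : LaurentSeries Kbar) := by
  have key := norm_via_emb (betaBar hd.hβ) (finiteAlong_hom hd.isFF hd.isFF' _)
    ((qExpand ℂ ℓ).comp (iotaHom M c H iotaC))
    (fun b : Fin ℓ => sigmaTw (ℓ := ℓ) H iotaC (b : ℕ))
    (fun i x => sigmaTw_beta H iotaC hd.hβ i x)
    (fun a b hab => Fin.ext (sigmaTw_injOn H iotaC a.2 b.2 hab))
    (by rw [Fintype.card_fin]; exact hdeg.symm)
    (alphaH M c ℓ H f)
  have e : ∀ b : Fin ℓ, sigmaTw (ℓ := ℓ) H iotaC (b : ℕ) (alphaH M c ℓ H f)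
      = H44.twistBy (expUnit (((b : ℕ) : ℝ) / ℓ)) (coeffMap iotaC (f : LaurentSeries Kbar)) :=
    fun b => sigmaTw_alpha H iotaC b f
  simp only [e] at key
  rw [prod_twistBy_expUnit, ← qExpand_uSeries] at key
  have key2 := qExpand_injective (R := ℂ) ℓ key
  apply coeffMap_inj iotaC
  rw [coeffMap_uSeries]
  exact key2

end MainU

end Fermat.Agent.NEB.H70
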