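import Fermat.Agent.NEB.Defs
import Fermat.Agent.GTor.H56_Common

/-!
# NEB, package FH-GAL, part 1 (helper84): forms on `Γ₁(M)` as bare functions, slash by `Γ₀(M)`

`IsW M k R` : `R : ℍ → ℂ` is holomorphic, invariant under the weight-`k` slash action of `Γ₁(M)` and
bounded at every cusp.  Such functions are `Nice 1` (so they have `q`-expansions with the usual
algebra), they are closed under products and sums, and `Γ₀(M)` acts on them by the slash action
(because `Γ₁(M)` is normal in `Γ₀(M)`).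
-/

set_option autoImplicit false

open UpperHalfPlane ModularForm CongruenceSubgroup
open scoped MatrixGroups ModularForm Manifold

noncomputable section

namespace Fermat.Agent.NEB.H84

open Fermat.Agent.S23.H22 (Nice)
open Fermat.Agent.GTor (qLaurent)

/-- A modular form of weight `k` on `Γ₁(M)`, as a bare function. -/
structure IsW (M : ℕ) (k : ℤ) (R : ℍ → ℂ) : Prop where
  mdiff : MDifferentiable 𝓘(ℂ) 𝓘(ℂ) R
  slash : ∀ γ : SL(2, ℤ), γ ∈ Gamma1 M → R ∣[k] γ = R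
  bdd : ∀ σ : SL(2, ℤ), IsBoundedAtImInfty (R ∣[k] σ)

variable {M : ℕ} {k k₁ k₂ : ℤ} {R R₁ R₂ : ℍ → ℂ}

theorem T_mem_Gamma1 (M : ℕ) : ModularGroup.T ∈ Gamma1 M := by
  rw [Gamma1_mem]
  simp [ModularGroup.T]

theorem IsW.periodic (h : IsW M k R) : Function.Periodic (R ∘ ofComplex) (1 : ℝ) := by
  intro w
  by_cases hw : 0 < w.im
  · have h1 : 0 < (w + (1 : ℝ)).im := by simpa using hw
    have hT := congrFun (h.slash ModularGroup.T (T_mem_Gamma1 M)) ⟨w, hw⟩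
    rw [SL_slash_apply] at hT
    simp only [Function.comp_apply, ofComplex_apply_of_im_pos hw, ofComplex_apply_of_im_pos h1]
    have h2 : ModularGroup.T • (⟨w, hw⟩ : ℍ) = ⟨w + (1 : ℝ), h1⟩ := by
      ext
      rw [UpperHalfPlane.modular_T_smul]
      simp [add_comm]
    have h3 : denom (ModularGroup.T : SL(2, ℤ)) (⟨w, hw⟩ : ℍ) = 1 := by
      rw [ModularGroup.denom_apply]
      simp [ModularGroup.T]
    rw [h2] at hT
    erw [h3] at hT
    rw [one_zpow, mul_one] at hT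
    exact hT
  · have h1 : ¬ 0 < (w + (1 : ℝ)).im := by simpa using hw
    simp only [Function.comp_apply]
    rw [ofComplex_apply_of_im_nonpos (not_lt.mp hw), ofComplex_apply_of_im_nonpos (not_lt.mp h1)]

theorem IsW.nice (h : IsW M k R) : Nice 1 R where
  per := h.periodic
  hol := h.mdiff
  bdd := by
    have := h.bdd 1
    rwa [SlashAction.slash_one] at this

theorem IsW.mul (h₁ : IsW M k₁ R₁) (h₂ : IsW M k₂ R₂) : IsW M (k₁ + k₂) (R₁ * R₂) where
  mdiff := h₁.mdiff.mul h₂.mdiff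
  slash γ hγ := by rw [mul_slash_SL2, h₁.slash γ hγ, h₂.slash γ hγ]
  bdd σ := by
    rw [mul_slash_SL2]
    exact (h₁.bdd σ).mul (h₂.bdd σ)

theorem IsW.add (h₁ : IsW M k R₁) (h₂ : IsW M k R₂) : IsW M k (R₁ + R₂) where
  mdiff := h₁.mdiff.add h₂.mdiff
  slash γ hγ := by rw [SlashAction.add_slash, h₁.slash γ hγ, h₂.slash γ hγ]
  bdd σ := by
    rw [SlashAction.add_slash]
    exact (h₁.bdd σ).add (h₂.bdd σ)

theorem IsW.neg (h : IsW M k R) : IsW M k (-R) where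
  mdiff := h.mdiff.neg
  slash γ hγ := by rw [SlashAction.neg_slash, h.slash γ hγ]
  bdd σ := by
    rw [SlashAction.neg_slash]
    exact (h.bdd σ).neg

theorem const_slash_zero (c : ℂ) (σ : SL(2, ℤ)) :
    (fun _ : ℍ => c) ∣[(0 : ℤ)] σ = fun _ => c := by
  funext z
  rw [SL_slash_apply]
  simp

theorem IsW.const (M : ℕ) (c : ℂ) : IsW M 0 (fun _ => c) where
  mdiff := mdifferentiable_const
  slash γ _ := const_slash_zero c γ
  bdd σ := by
    rw [const_slash_zero]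
    exact Filter.const_boundedAtFilter _ c

/-- `Γ₁(M)` is normalised by `Γ₀(M)`. -/
theorem conj_mem_Gamma1 {γ g : SL(2, ℤ)} (hγ : γ ∈ Gamma0 M) (hg : g ∈ Gamma1 M) :
    γ * g * γ⁻¹ ∈ Gamma1 M := by
  have h0 : g ∈ Gamma0 M := Gamma1_in_Gamma0 M hg
  have hmem : γ * g * γ⁻¹ ∈ Gamma0 M := (Gamma0 M).mul_mem ((Gamma0 M).mul_mem hγ h0)
    ((Gamma0 M).inv_mem hγ)
  have key : (⟨γ * g * γ⁻¹, hmem⟩ : Gamma0 M) ∈ Gamma1' M := by
    have : (⟨γ * g * γ⁻¹, hmem⟩ : Gamma0 M) = ⟨γ, hγ⟩ * ⟨g, h0⟩ * ⟨γ, hγ⟩⁻¹ := rfl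
    have hg1 : Gamma0Map M ⟨g, h0⟩ = 1 := by
      rw [← Gamma1_mem', Gamma1_to_Gamma0_mem]
      exact (Gamma1_mem M g).mp hg
    have hu : Gamma0Map M ⟨γ, hγ⟩ * Gamma0Map M (⟨γ, hγ⟩⁻¹) = 1 := by
      rw [← map_mul, mul_inv_cancel, map_one]
    rw [this, Gamma1_mem', map_mul, map_mul, hg1, mul_one, hu]
  rw [Gamma1_to_Gamma0_mem] at key
  exact (Gamma1_mem M _).mpr key

/-- `Γ₀(M)` acts on the forms on `Γ₁(M)` by the slash action. -/
theorem IsW.slash_Gamma0 (h : IsW M k R) {γ : SL(2, ℤ)} (hγ : γ ∈ Gamma0 M) :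
    IsW M k (R ∣[k] γ) where
  mdiff := by
    rw [SL_slash]
    exact h.mdiff.slash k _
  slash g hg := by
    have h1 : γ * g = (γ * g * γ⁻¹) * γ := by group
    rw [← SlashAction.slash_mul, h1, SlashAction.slash_mul, h.slash _ (conj_mem_Gamma1 hγ hg)]
  bdd σ := by
    rw [← SlashAction.slash_mul]
    exact h.bdd (γ * σ)

theorem slash_ne_zero {R : ℍ → ℂ} (k : ℤ) (γ : SL(2, ℤ)) (hR : R ≠ 0) : R ∣[k] γ ≠ 0 := by
  intro h0
  apply hR
  have : (R ∣[k] γ) ∣[k] γ⁻¹ = 0 := by rw [h0, SlashAction.zero_slash]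
  rwa [← SlashAction.slash_mul, mul_inv_cancel, SlashAction.slash_one] at this

/-- A modular form on `Γ₀(M)` is a form on `Γ₁(M)`, fixed by the slash action of `Γ₀(M)`. -/
theorem isW_of_modularForm [NeZero M] (A : ModularForm (Gamma0 M) k) : IsW M k (A : ℍ → ℂ) where
  mdiff := A.holo'
  slash γ hγ := by
    rw [SL_slash]
    exact SlashInvariantFormClass.slash_action_eq A _ ⟨γ, Gamma1_in_Gamma0 M hγ, rfl⟩
  bdd σ := ModularFormClass.bdd_at_infty_slash A σ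

theorem slash_modularForm [NeZero M] (A : ModularForm (Gamma0 M) k) {γ : SL(2, ℤ)}
    (hγ : γ ∈ Gamma0 M) : (A : ℍ → ℂ) ∣[k] γ = A := by
  rw [SL_slash]
  exact SlashInvariantFormClass.slash_action_eq A _ ⟨γ, hγ, rfl⟩

/-- A form on `Γ₁(M)` fixed by `Γ₀(M)` is a modular form on `Γ₀(M)`. -/
def toModularForm0 [NeZero M] (h : IsW M k R)
    (hfix : ∀ γ : SL(2, ℤ), γ ∈ Gamma0 M → R ∣[k] γ = R) : ModularForm (Gamma0 M) k :=
  Fermat.Agent.GTor.H56.toModularForm (N := M) (n := 1) (k := k) (R := R)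
    { mdiff := h.mdiff
      slash := fun γ => by
        rw [AddMonoidHom.zero_apply, Fermat.Agent.GTor.H56.zetaPow_zero, one_smul]
        exact hfix γ γ.2
      bdd := h.bdd }

@[simp]
theorem toModularForm0_coe [NeZero M] (h : IsW M k R)
    (hfix : ∀ γ : SL(2, ℤ), γ ∈ Gamma0 M → R ∣[k] γ = R) :
    (toModularForm0 h hfix : ℍ → ℂ) = R := rfl

end Fermat.Agent.NEB.H84
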