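import Fermat.Agent.NEB.H94_FF

/-!
# Item 72 (LG-NEB), package FH-FF (c) (helper94): `F_{H'} ⊆ F_H` for `H ≤ H'`

`FHQ_mono_sub : H ≤ H' → FHQ M c H' ≤ FHQ M c H`, because
`e_{±aH'} = ∑_{κ ∈ ±H' / ±H} e_{± a r_κ H}`.
-/

set_option autoImplicit false
set_option linter.style.haveILetI false
set_option linter.unusedSectionVars false

noncomputable section

namespace Fermat.Agent.NEB.H94

open AlgebraicCurve ModularCurve IntermediateField

variable {c : ℕ}

/-- `cosetSet c H a` is the image of the coset `a (±H)`. -/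
theorem mem_cosetSet_iff (H : Subgroup (ZMod c)ˣ) (a : (ZMod c)ˣ) (x : ZMod c) :
    x ∈ cosetSet c H a ↔ ∃ d ∈ pmSubgroup c H, x = ((a * d : (ZMod c)ˣ) : ZMod c) := by
  constructor
  · rintro ⟨h, hh, rfl | rfl⟩
    · exact ⟨h, Or.inl hh, rfl⟩
    · refine ⟨-h, Or.inr (by rwa [neg_neg]), ?_⟩
      rw [mul_neg, Units.val_neg]
  · rintro ⟨d, hd | hd, rfl⟩
    · exact ⟨d, hd, Or.inl rfl⟩
    · refine ⟨-d, hd, Or.inr ?_⟩
      rw [mul_neg, Units.val_neg, neg_neg]

theorem pmSubgroup_mono {H H' : Subgroup (ZMod c)ˣ} (h : H ≤ H') :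
    pmSubgroup c H ≤ pmSubgroup c H' := by
  rintro d (hd | hd)
  · exact Or.inl (h hd)
  · exact Or.inr (h hd)

section Decomp

variable [NeZero c] {H H' : Subgroup (ZMod c)ˣ}

open scoped Classical in
/-- The indicator of `±aH'` is the sum of the indicators of the `±a r H`, `r` running through
representatives of `±H' / ±H`. -/
theorem indicator_cosetSet (hH : H ≤ H') (a : (ZMod c)ˣ) (x : ZMod c) :
    (if x ∈ cosetSet c H' a then (1 : ℤ) else 0)
      = ∑ κ : ↥(pmSubgroup c H') ⧸ (pmSubgroup c H).subgroupOf (pmSubgroup c H'),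
          if x ∈ cosetSet c H (a * ((Quotient.out κ : ↥(pmSubgroup c H')) : (ZMod c)ˣ))
            then (1 : ℤ) else 0 := by
  have hP := pmSubgroup_mono hH
  by_cases hx : x ∈ cosetSet c H' a
  · rw [if_pos hx]
    obtain ⟨d', hd', rfl⟩ := (mem_cosetSet_iff H' a x).1 hx
    set κ₀ : ↥(pmSubgroup c H') ⧸ (pmSubgroup c H).subgroupOf (pmSubgroup c H') :=
      QuotientGroup.mk (⟨d', hd'⟩ : ↥(pmSubgroup c H')) with hκ₀
    have key : ∀ κ : ↥(pmSubgroup c H') ⧸ (pmSubgroup c H).subgroupOf (pmSubgroup c H'),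
        ((a * d' : (ZMod c)ˣ) : ZMod c)
          ∈ cosetSet c H (a * ((Quotient.out κ : ↥(pmSubgroup c H')) : (ZMod c)ˣ)) ↔ κ = κ₀ := by
      intro κ
      rw [mem_cosetSet_iff]
      constructor
      · rintro ⟨d, hd, he⟩
        have he' : a * d' = a * ((Quotient.out κ : ↥(pmSubgroup c H')) : (ZMod c)ˣ) * d :=
          Units.ext he
        have hd'eq : d' = ((Quotient.out κ : ↥(pmSubgroup c H')) : (ZMod c)ˣ) * d := by
          rw [mul_assoc] at he'
          exact mul_left_cancel he'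
        rw [← QuotientGroup.out_eq' κ, hκ₀, QuotientGroup.eq, Subgroup.mem_subgroupOf]
        show ((Quotient.out κ : ↥(pmSubgroup c H')) : (ZMod c)ˣ)⁻¹ * d' ∈ pmSubgroup c H
        rw [hd'eq, inv_mul_cancel_left]
        exact hd
      · intro hκ
        have h1 : (QuotientGroup.mk (Quotient.out κ : ↥(pmSubgroup c H')) :
            ↥(pmSubgroup c H') ⧸ (pmSubgroup c H).subgroupOf (pmSubgroup c H')) = κ₀ := by
          rw [QuotientGroup.out_eq', hκ]
        rw [hκ₀, QuotientGroup.eq, Subgroup.mem_subgroupOf] at h1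
        have h2 : ((Quotient.out κ : ↥(pmSubgroup c H')) : (ZMod c)ˣ)⁻¹ * d'
            ∈ pmSubgroup c H := h1
        refine ⟨_, h2, ?_⟩
        rw [mul_assoc, mul_inv_cancel_left]
    rw [Finset.sum_eq_single κ₀]
    · rw [if_pos ((key κ₀).2 rfl)]
    · intro κ _ hκ
      rw [if_neg (fun h => hκ ((key κ).1 h))]
    · intro h
      exact absurd (Finset.mem_univ _) h
  · rw [if_neg hx]
    symm
    refine Finset.sum_eq_zero fun κ _ => ?_
    rw [if_neg]
    intro h
    apply hx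
    obtain ⟨d, hd, rfl⟩ := (mem_cosetSet_iff H _ x).1 h
    rw [mem_cosetSet_iff]
    refine ⟨((Quotient.out κ : ↥(pmSubgroup c H')) : (ZMod c)ˣ) * d,
      (pmSubgroup c H').mul_mem (Quotient.out κ).2 (hP hd), ?_⟩
    rw [mul_assoc]

open scoped Classical in
theorem eisCoeff_cosetSet (hH : H ≤ H') (a : (ZMod c)ˣ) (n : ℕ) :
    eisCoeff c (cosetSet c H' a) n
      = ∑ κ : ↥(pmSubgroup c H') ⧸ (pmSubgroup c H).subgroupOf (pmSubgroup c H'),
          eisCoeff c (cosetSet c H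
            (a * ((Quotient.out κ : ↥(pmSubgroup c H')) : (ZMod c)ˣ))) n := by
  unfold eisCoeff
  rw [Finset.sum_comm]
  refine Finset.sum_congr rfl fun m _ => ?_
  have h1 : ∀ (p : Prop) [Decidable p] (v : ℤ),
      (if p then v else 0) = (if p then (1 : ℤ) else 0) * v := by
    intro p _ v
    split_ifs <;> simp
  rw [h1, indicator_cosetSet hH a, Finset.sum_mul]
  refine Finset.sum_congr rfl fun κ _ => ?_
  rw [← h1]

open scoped Classical in
theorem eisNum_cosetSet (hH : H ≤ H') (a : (ZMod c)ˣ) :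
    eisNum c (cosetSet c H' a)
      = ∑ κ : ↥(pmSubgroup c H') ⧸ (pmSubgroup c H).subgroupOf (pmSubgroup c H'),
          eisNum c (cosetSet c H
            (a * ((Quotient.out κ : ↥(pmSubgroup c H')) : (ZMod c)ˣ))) := by
  ext n
  unfold eisNum
  rw [PowerSeries.coeff_mk, map_sum, eisCoeff_cosetSet hH a n]
  refine Finset.sum_congr rfl fun κ _ => ?_
  rw [PowerSeries.coeff_mk]

open scoped Classical in
theorem eisGen_cosetSet (hH : H ≤ H') (a : (ZMod c)ˣ) :
    eisGen c (cosetSet c H' a)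
      = ∑ κ : ↥(pmSubgroup c H') ⧸ (pmSubgroup c H).subgroupOf (pmSubgroup c H'),
          eisGen c (cosetSet c H
            (a * ((Quotient.out κ : ↥(pmSubgroup c H')) : (ZMod c)ˣ))) := by
  unfold eisGen eisQuot
  rw [eisNum_cosetSet hH a, Finset.sum_mul, map_sum, map_sum]

end Decomp

/-- **FH-FF (c)**: `F_{H'}(M) ⊆ F_H(M)` for `H ≤ H'`. -/
theorem FHQ_mono_sub (M : ℕ) [NeZero c] {H H' : Subgroup (ZMod c)ˣ} (hH : H ≤ H') :
    FHQ M c H' ≤ FHQ M c H := by
  classical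
  unfold FHQ
  rw [IntermediateField.adjoin_le_iff]
  rintro x (hx | ⟨a, rfl⟩)
  · exact IntermediateField.subset_adjoin ℚ _ (Set.mem_union_left _ hx)
  · rw [eisGen_cosetSet hH a]
    exact sum_mem fun κ _ => eisGen_mem_FHQ M c H _

/-- The same over `ℚ̄`. -/
theorem FHbar_mono_sub (M : ℕ) [NeZero c] {H H' : Subgroup (ZMod c)ˣ} (hH : H ≤ H') :
    FHbar M c H' ≤ FHbar M c H :=
  laurentBaseChange_mono (FHQ_mono_sub M hH)

end Fermat.Agent.NEB.H94
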