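import Mathlib
import Fermat.Agent.NEB.H14_JHData
import Fermat.Agent.NEB.H94_Mono

/-!
# NEB, package JH-REL (helper14): the relative cover `F_{H'}(M) ⊆ F_H(M)` for `H ≤ H'`, fields

* `mem_range_of_fixed` : generic Galois correspondence in the shape used here.
* `inclRel M hH : F_{H'}(M) → F_H(M)`, `inclRel_comp_inclBar`, `inclRel_genBar`.
* `rho_inclRel` : `ρ_H d ∘ inclRel = inclRel ∘ ρ_{H'} d`; `rho_inclRel_of_mem` (`d ∈ H'`).
* `relFixed` : `x ∈ F_H(M)` fixed by `ρ_H d` for all `d ∈ H'` lies in `F_{H'}(M)`.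
* `relGal dd H'` : the Galois group `ρ_H(H')` of `F_H / F_{H'}`; `galNorm_inclRel`.
* squares with `α`, `β`: `inclRel_comp_alphaH`, `inclRel_comp_betaBar`.
-/

set_option autoImplicit false
set_option linter.unusedSectionVars false
set_option linter.style.haveILetI false
set_option linter.dupNamespace false

noncomputable section

namespace Fermat.Agent.NEB.JH

open AlgebraicCurve ModularCurve IntermediateField HahnSeries
open Fermat.Agent.NEB Fermat.Agent.NEB.H14 Fermat.Agent.RED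

section Generic

variable {K F E L : Type} [Field K] [Field F] [Field E] [Field L]
  [Algebra K F] [Algebra K E] [Algebra K L]

/-- Galois correspondence: if `G` is a finite group of automorphisms of `L` with fixed field
`φ(F)` and `φ(F) ⊆ ψ(E)`, then an element fixed by the stabiliser of `ψ(E)` lies in `ψ(E)`. -/
theorem mem_range_of_fixed (φ : F →ₐ[K] L) (ψ : E →ₐ[K] L) (G : Subgroup (L ≃ₐ[K] L))
    [Finite G]
    (h1 : ∀ x : L, (∀ g ∈ G, g x = x) → x ∈ Set.range φ)
    (h2 : ∀ (g : L ≃ₐ[K] L) (y : F), g ∈ G → g (φ y) = φ y)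
    (hφψ : ∀ y : F, φ y ∈ Set.range ψ)
    (x : L) (hx : ∀ g ∈ G, (∀ e : E, g (ψ e) = ψ e) → g x = x) : x ∈ Set.range ψ := by
  classical
  letI := algebraAlong φ
  haveI : IsGaloisGroup G F L := Fermat.Agent.NEB.H2.isGaloisGroup_along φ G h1 h2
  let Ei : IntermediateField F L :=
    Subfield.toIntermediateField (ψ : E →+* L).fieldRange (fun y => by
      obtain ⟨e, he⟩ := hφψ y
      exact ⟨e, he⟩)
  have key := IsGaloisGroup.fixedPoints_fixingSubgroup G F L Ei
  have hxmem : x ∈ FixedPoints.intermediateField (F := F)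
      (fixingSubgroup G (Ei : Set L)) := by
    rw [FixedPoints.mem_intermediateField_iff]
    rintro ⟨g, hg⟩
    show (g : L ≃ₐ[K] L) x = x
    refine hx g g.2 (fun e => ?_)
    exact (mem_fixingSubgroup_iff G).1 hg (ψ e) ⟨e, rfl⟩
  rw [key] at hxmem
  obtain ⟨e, he⟩ := hxmem
  exact ⟨e, he⟩

end Generic

section Rel

variable {M c : ℕ} [NeZero c] {H H' : Subgroup (ZMod c)ˣ}

/-- The inclusion `F_{H'}(M) ⊆ F_H(M)` for `H ≤ H'`. -/
def inclRel (M : ℕ) {c : ℕ} [NeZero c] {H H' : Subgroup (ZMod c)ˣ} (hH : H ≤ H') :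
    ↥(FHbar M c H') →ₐ[Kbar] ↥(FHbar M c H) :=
  IntermediateField.inclusion (Fermat.Agent.NEB.H94.FHbar_mono_sub M hH)

@[simp]
theorem coe_inclRel (hH : H ≤ H') (x : ↥(FHbar M c H')) :
    ((inclRel M hH x : ↥(FHbar M c H)) : LaurentSeries Kbar) = (x : LaurentSeries Kbar) :=
  IntermediateField.coe_inclusion _ x

theorem inclRel_injective (hH : H ≤ H') : Function.Injective (inclRel M hH) :=
  (inclRel M hH).toRingHom.injective

theorem inclRel_comp_inclBar (hH : H ≤ H') :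
    (inclRel M hH).comp (inclBar M c H') = inclBar M c H := by
  refine AlgHom.ext fun x => Subtype.ext ?_
  simp only [AlgHom.comp_apply, coe_inclRel, coe_inclBar]

theorem inclRel_inclBar (hH : H ≤ H') (x : ↥(modularFunctionFieldBar M)) :
    inclRel M hH (inclBar M c H' x) = inclBar M c H x :=
  DFunLike.congr_fun (inclRel_comp_inclBar hH) x

theorem inclRel_refl_apply (x : ↥(FHbar M c H)) : inclRel M (le_refl H) x = x :=
  Subtype.ext (coe_inclRel _ x)

theorem inclRel_trans {H'' : Subgroup (ZMod c)ˣ} (hH : H ≤ H') (hH' : H' ≤ H'') :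
    (inclRel M hH).comp (inclRel M hH') = inclRel M (hH.trans hH') := by
  refine AlgHom.ext fun x => Subtype.ext ?_
  simp only [AlgHom.comp_apply, coe_inclRel]

theorem coe_genBar_jh (M : ℕ) (H : Subgroup (ZMod c)ˣ) (a : (ZMod c)ˣ) :
    ((genBar M c H a : ↥(FHbar M c H)) : LaurentSeries Kbar)
      = coeffEmb Kbar (eisGen c (cosetSet c H a)) := rfl

open scoped Classical in
/-- `e_{±aH'} = ∑_κ e_{±a r_κ H}`. -/
theorem inclRel_genBar (hH : H ≤ H') (a : (ZMod c)ˣ) :
    inclRel M hH (genBar M c H' a)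
      = ∑ κ : ↥(Fermat.Agent.NEB.H94.pmSubgroup c H') ⧸
            (Fermat.Agent.NEB.H94.pmSubgroup c H).subgroupOf
              (Fermat.Agent.NEB.H94.pmSubgroup c H'),
          genBar M c H
            (a * ((Quotient.out κ : ↥(Fermat.Agent.NEB.H94.pmSubgroup c H')) : (ZMod c)ˣ)) := by
  apply Subtype.ext
  rw [coe_inclRel, coe_genBar_jh, Fermat.Agent.NEB.H94.eisGen_cosetSet hH a, map_sum]
  rw [AddSubmonoidClass.coe_finsetSum]
  rfl

/-- The diamond operators of `F_H` restrict to those of `F_{H'}`. -/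
theorem rho_inclRel (hH : H ≤ H') (dd : DiamondData M c H) (dd' : DiamondData M c H')
    (d : (ZMod c)ˣ) (x : ↥(FHbar M c H')) :
    dd.ρ d (inclRel M hH x) = inclRel M hH (dd'.ρ d x) := by
  classical
  have key := Fermat.Agent.NEB.H84.ringHom_ext_FHbar H'
    (((dd.ρ d : ↥(FHbar M c H) ≃ₐ[Kbar] ↥(FHbar M c H)) :
        ↥(FHbar M c H) →+* ↥(FHbar M c H)).comp
      (inclRel M hH : ↥(FHbar M c H') →+* ↥(FHbar M c H)))
    ((inclRel M hH : ↥(FHbar M c H') →+* ↥(FHbar M c H)).comp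
      ((dd'.ρ d : ↥(FHbar M c H') ≃ₐ[Kbar] ↥(FHbar M c H')) :
        ↥(FHbar M c H') →+* ↥(FHbar M c H'))) ?_ ?_ ?_
  · exact congrArg (fun f : ↥(FHbar M c H') →+* ↥(FHbar M c H) => f x) key
  · intro a
    simp only [RingHom.comp_apply, RingHom.coe_coe, AlgHom.commutes, AlgEquiv.commutes]
  · intro y
    simp only [RingHom.comp_apply, RingHom.coe_coe]
    rw [dd'.fix, inclRel_inclBar, dd.fix]
  · intro a
    simp only [RingHom.comp_apply, RingHom.coe_coe]
    rw [dd'.gen, inclRel_genBar, inclRel_genBar, map_sum]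
    refine Finset.sum_congr rfl fun κ _ => ?_
    rw [dd.gen, mul_right_comm]

theorem rho_neg_one (dd : DiamondData M c H) : dd.ρ (-1) = 1 :=
  (dd.ker (-1)).mpr (Or.inr (by rw [neg_neg]; exact H.one_mem))

theorem rho_neg (dd : DiamondData M c H) (d : (ZMod c)ˣ) : dd.ρ (-d) = dd.ρ d := by
  have h : -d = -1 * d := by rw [neg_one_mul]
  rw [h, map_mul, rho_neg_one, one_mul]

/-- For `d ∈ H'` the diamond operator `ρ_H d` fixes `F_{H'}`. -/
theorem rho_inclRel_of_mem (hH : H ≤ H') (dd : DiamondData M c H) (dd' : DiamondData M c H')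
    {d : (ZMod c)ˣ} (hd : d ∈ H') (x : ↥(FHbar M c H')) :
    dd.ρ d (inclRel M hH x) = inclRel M hH x := by
  rw [rho_inclRel hH dd dd', (dd'.ker d).mpr (Or.inl hd)]
  rfl

/-- **Relative fixed field**: an element of `F_H` fixed by `ρ_H d` for all `d ∈ H'` lies in
`F_{H'}`. -/
theorem relFixed (hH : H ≤ H') (dd : DiamondData M c H) (dd' : DiamondData M c H')
    (x : ↥(FHbar M c H)) (hx : ∀ d ∈ H', dd.ρ d x = x) : ∃ x₀, inclRel M hH x₀ = x := by
  haveI := finite_range_rho dd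
  refine mem_range_of_fixed (inclBar M c H) (inclRel M hH) dd.ρ.range ?_ ?_ ?_ x ?_
  · intro y hy
    obtain ⟨y₀, hy₀⟩ := dd.fixed y (fun d => hy _ ⟨d, rfl⟩)
    exact ⟨y₀, hy₀⟩
  · rintro g y ⟨d, rfl⟩
    exact dd.fix d y
  · intro y
    exact ⟨inclBar M c H' y, inclRel_inclBar hH y⟩
  · rintro g ⟨d, rfl⟩ hg
    have h1 : dd'.ρ d = 1 := by
      refine AlgEquiv.ext fun y => ?_
      have h2 := hg y
      rw [rho_inclRel hH dd dd'] at h2
      exact inclRel_injective hH h2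
    rcases (dd'.ker d).mp h1 with h | h
    · exact hx d h
    · have := hx (-d) h
      rwa [rho_neg] at this

/-- The Galois group of `F_H / F_{H'}`. -/
def relGal (dd : DiamondData M c H) (H' : Subgroup (ZMod c)ˣ) :
    Subgroup (↥(FHbar M c H) ≃ₐ[Kbar] ↥(FHbar M c H)) := H'.map dd.ρ

theorem finite_relGal (dd : DiamondData M c H) (H' : Subgroup (ZMod c)ˣ) :
    Finite (relGal dd H') := by
  haveI := finite_units_zmod c
  exact Finite.of_surjective (fun d : H' => (⟨dd.ρ d, ⟨d, d.2, rfl⟩⟩ : relGal dd H'))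
    (by rintro ⟨g, d, hd, rfl⟩; exact ⟨⟨d, hd⟩, rfl⟩)

/-- Artin for the relative cover. -/
theorem galNorm_inclRel (hH : H ≤ H') (dd : DiamondData M c H) (dd' : DiamondData M c H')
    (G : Subgroup (↥(FHbar M c H) ≃ₐ[Kbar] ↥(FHbar M c H))) [Fintype G]
    (hG : G = relGal dd H') :
    FiniteAlong Kbar (inclRel M hH) ∧ finrankAlong Kbar (inclRel M hH) = Fintype.card G ∧
    ∀ x : ↥(FHbar M c H), inclRel M hH (normFn (inclRel M hH) x)
      = ∏ g : G, (g : ↥(FHbar M c H) ≃ₐ[Kbar] ↥(FHbar M c H)) x := by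
  refine Fermat.Agent.NEB.H2.stmt_GalNorm Kbar _ _ (inclRel M hH) G ?_ ?_
  · intro x hx
    obtain ⟨x₀, hx₀⟩ := relFixed hH dd dd' x (fun d hd => hx _ (hG ▸ ⟨d, hd, rfl⟩))
    exact ⟨x₀, hx₀⟩
  · intro g y hg
    rw [hG] at hg
    obtain ⟨d, hd, rfl⟩ := hg
    exact rho_inclRel_of_mem hH dd dd' hd y

end Rel

section Squares

variable {M c ℓ : ℕ} [NeZero c] [NeZero ℓ] {H H' : Subgroup (ZMod c)ˣ}

theorem inclRel_comp_alphaH (hH : H ≤ H') :
    (inclRel (M * ℓ) hH).comp (alphaH M c ℓ H')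
      = (alphaH M c ℓ H).comp (inclRel M hH) := by
  refine AlgHom.ext fun x => Subtype.ext ?_
  simp only [AlgHom.comp_apply, coe_inclRel, coe_alphaH]

theorem inclRel_comp_betaBar (hH : H ≤ H') (hβ : BetaOK M c ℓ H) (hβ' : BetaOK M c ℓ H') :
    (inclRel (M * ℓ) hH).comp (betaBar hβ')
      = (betaBar hβ).comp (inclRel M hH) := by
  refine AlgHom.ext fun x => Subtype.ext ?_
  simp only [AlgHom.comp_apply, coe_inclRel, coe_betaBar]

end Squares

end Fermat.Agent.NEB.JH
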