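import Mathlib
import Fermat.Agent.NEB.H14_JHRel

/-!
# NEB, package JH-REL (helper14): the relative cover `X_H → X_{H'}` (`H ≤ H'`), rules on `Pic⁰`

`piUpRel M hH : J_{H'}(M) → J_H(M)` (`π^*`), `piDownRel M hH : J_H(M) → J_{H'}(M)` (`π_*`).

* transitivity: `piUpRel_piUp`, `piDown_piDownRel`, `piUpRel_trans`, `piDownRel_trans`;
* `piDownRel_piUpRel` : `π_* π^* = [F_H : F_{H'}]`, `finrank_inclRel` : `= |ρ_H(H')|`;
* `piUpRel_piDownRel` : `π^* π_* = ∑_{g ∈ ρ_H(H')} g`;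
* diamonds: `diamond_piUpRel`, `piDownRel_diamond` (equivariance), `diamond_piUpRel_of_mem`,
  `piDownRel_diamond_of_mem` (`d ∈ H'`);
* Hecke: `piUpRel_TH`, `piDownRel_TH`, `piUpRel_UH`, `piDownRel_UH`;
* Galois: `piUpRel_galois`, `piDownRel_galois`;
* Kummer forms: `piUpRel_kummer`, `piDownRel_kummer`.
-/

set_option autoImplicit false
set_option linter.unusedSectionVars false
set_option linter.style.haveILetI false
set_option linter.dupNamespace false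

noncomputable section

namespace Fermat.Agent.NEB.JH

open AlgebraicCurve AlgebraicCurve.SemilinearAut ModularCurve IntermediateField HahnSeries
open Fermat.Agent.NEB Fermat.Agent.NEB.H14 Fermat.Agent.RED

/-- `π^* : J_{H'}(M) → J_H(M)` for `H ≤ H'`. -/
def piUpRel (M : ℕ) {c : ℕ} [NeZero c] {H H' : Subgroup (ZMod c)ˣ} (hH : H ≤ H') :
    JH M c H' →+ JH M c H := pullP (inclRel M hH)

/-- `π_* : J_H(M) → J_{H'}(M)` for `H ≤ H'`. -/
def piDownRel (M : ℕ) {c : ℕ} [NeZero c] {H H' : Subgroup (ZMod c)ˣ} (hH : H ≤ H') :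
    JH M c H →+ JH M c H' := pushP (inclRel M hH)

section Pi

variable {M c : ℕ} [NeZero M] [NeZero c] {H H' : Subgroup (ZMod c)ˣ}

/-- `π_{H/H'}^* ∘ π_{H'}^* = π_H^*`. -/
theorem piUpRel_piUp (hH : H ≤ H') (hFF : IsFF Kbar ↥(FHbar M c H))
    (hFF' : IsFF Kbar ↥(FHbar M c H')) (x : JZero M) :
    piUpRel M hH (piUp M c H' x) = piUp M c H x := by
  have h := DFunLike.congr_fun (pullP_comp (isFF0 M) hFF' hFF (inclBar M c H') (inclRel M hH)) x
  rw [inclRel_comp_inclBar hH] at h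
  exact h.symm

/-- `π_{H',*} ∘ π_{H/H',*} = π_{H,*}`. -/
theorem piDown_piDownRel (hH : H ≤ H') (hFF : IsFF Kbar ↥(FHbar M c H))
    (hFF' : IsFF Kbar ↥(FHbar M c H')) (y : JH M c H) :
    piDown M c H' (piDownRel M hH y) = piDown M c H y := by
  have h := DFunLike.congr_fun (pushP_comp (isFF0 M) hFF' hFF (inclBar M c H') (inclRel M hH)) y
  rw [inclRel_comp_inclBar hH] at h
  exact h.symm

theorem piUpRel_trans {H'' : Subgroup (ZMod c)ˣ} (hH : H ≤ H') (hH' : H' ≤ H'')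
    (hFF : IsFF Kbar ↥(FHbar M c H)) (hFF' : IsFF Kbar ↥(FHbar M c H'))
    (hFF'' : IsFF Kbar ↥(FHbar M c H'')) (x : JH M c H'') :
    piUpRel M hH (piUpRel M hH' x) = piUpRel M (hH.trans hH') x := by
  have h := DFunLike.congr_fun (pullP_comp hFF'' hFF' hFF (inclRel M hH') (inclRel M hH)) x
  rw [inclRel_trans hH hH'] at h
  exact h.symm

theorem piDownRel_trans {H'' : Subgroup (ZMod c)ˣ} (hH : H ≤ H') (hH' : H' ≤ H'')
    (hFF : IsFF Kbar ↥(FHbar M c H)) (hFF' : IsFF Kbar ↥(FHbar M c H'))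
    (hFF'' : IsFF Kbar ↥(FHbar M c H'')) (y : JH M c H) :
    piDownRel M hH' (piDownRel M hH y) = piDownRel M (hH.trans hH') y := by
  have h := DFunLike.congr_fun (pushP_comp hFF'' hFF' hFF (inclRel M hH') (inclRel M hH)) y
  rw [inclRel_trans hH hH'] at h
  exact h.symm

/-- `π_* π^* = [F_H : F_{H'}]`. -/
theorem piDownRel_piUpRel (hH : H ≤ H') (hFF : IsFF Kbar ↥(FHbar M c H))
    (hFF' : IsFF Kbar ↥(FHbar M c H')) (x : JH M c H') :
    piDownRel M hH (piUpRel M hH x) = finrankAlong Kbar (inclRel M hH) • x :=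
  pushP_pullP hFF' hFF _ x

/-- `[F_H : F_{H'}] = |ρ_H(H')|`. -/
theorem finrank_inclRel (hH : H ≤ H') (dd : DiamondData M c H) (dd' : DiamondData M c H')
    (G : Subgroup (↥(FHbar M c H) ≃ₐ[Kbar] ↥(FHbar M c H))) [Fintype G]
    (hG : G = relGal dd H') : finrankAlong Kbar (inclRel M hH) = Fintype.card G :=
  (galNorm_inclRel hH dd dd' G hG).2.1

/-- `π^* π_* = ∑_{g ∈ ρ_H(H')} g`. -/
theorem piUpRel_piDownRel (hH : H ≤ H') (hFF : IsFF Kbar ↥(FHbar M c H))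
    (hFF' : IsFF Kbar ↥(FHbar M c H'))
    (dd : DiamondData M c H) (dd' : DiamondData M c H')
    (G : Subgroup (↥(FHbar M c H) ≃ₐ[Kbar] ↥(FHbar M c H))) [Fintype G]
    (hG : G = relGal dd H') (y : JH M c H) :
    piUpRel M hH (piDownRel M hH y)
      = ∑ g : G, (g : ↥(FHbar M c H) ≃ₐ[Kbar] ↥(FHbar M c H)) • y := by
  have hn := (galNorm_inclRel hH dd dd' G hG).2.2
  have h := pullP_pushP_of_norm hFF' hFF (inclRel M hH)
    (fun g : G => (g : ↥(FHbar M c H) ≃ₐ[Kbar] ↥(FHbar M c H))) (fun x _ => hn x) y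
  rw [piUpRel, piDownRel]
  exact h

/-- `π^*` is equivariant for the diamond operators. -/
theorem diamond_piUpRel (hH : H ≤ H') (hFF : IsFF Kbar ↥(FHbar M c H))
    (hFF' : IsFF Kbar ↥(FHbar M c H'))
    (dd : DiamondData M c H) (dd' : DiamondData M c H')
    (d : (ZMod c)ˣ) (x : JH M c H') :
    piUpRel M hH (dd'.ρ d • x) = dd.ρ d • piUpRel M hH x :=
  pullP_algEquiv hFF' hFF (inclRel M hH) (dd'.ρ d) (dd.ρ d)
    (fun x => (rho_inclRel hH dd dd' d x).symm) x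

/-- `π_*` is equivariant for the diamond operators. -/
theorem piDownRel_diamond (hH : H ≤ H') (hFF : IsFF Kbar ↥(FHbar M c H))
    (hFF' : IsFF Kbar ↥(FHbar M c H'))
    (dd : DiamondData M c H) (dd' : DiamondData M c H')
    (d : (ZMod c)ˣ) (y : JH M c H) :
    piDownRel M hH (dd.ρ d • y) = dd'.ρ d • piDownRel M hH y :=
  pushP_algEquiv hFF' hFF (inclRel M hH) (dd'.ρ d) (dd.ρ d)
    (fun x => (rho_inclRel hH dd dd' d x).symm) y

/-- Classes coming from `J_{H'}` are fixed by `⟨d⟩`, `d ∈ H'`. -/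
theorem diamond_piUpRel_of_mem (hH : H ≤ H') (hFF : IsFF Kbar ↥(FHbar M c H))
    (hFF' : IsFF Kbar ↥(FHbar M c H'))
    (dd : DiamondData M c H) (dd' : DiamondData M c H')
    {d : (ZMod c)ˣ} (hd : d ∈ H') (x : JH M c H') :
    dd.ρ d • piUpRel M hH x = piUpRel M hH x := by
  rw [← diamond_piUpRel hH hFF hFF' dd dd', (dd'.ker d).mpr (Or.inl hd), one_smul]

/-- `π_*` kills `⟨d⟩`, `d ∈ H'`. -/
theorem piDownRel_diamond_of_mem (hH : H ≤ H') (hFF : IsFF Kbar ↥(FHbar M c H))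
    (hFF' : IsFF Kbar ↥(FHbar M c H'))
    (dd : DiamondData M c H) (dd' : DiamondData M c H')
    {d : (ZMod c)ˣ} (hd : d ∈ H') (y : JH M c H) :
    piDownRel M hH (dd.ρ d • y) = piDownRel M hH y := by
  rw [piDownRel_diamond hH hFF hFF' dd dd', (dd'.ker d).mpr (Or.inl hd), one_smul]

end Pi

section Hecke

variable {M c ℓ : ℕ} [NeZero M] [NeZero c] [NeZero ℓ] {H H' : Subgroup (ZMod c)ˣ}

/-- The Galois square of a degeneracy map `a ∈ {α, β}` for the relative cover. -/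
theorem galSquare_rel (hH : H ≤ H') (hd : HeckeData M c ℓ H) (hd' : HeckeData M c ℓ H')
    (a : ↥(FHbar M c H) →ₐ[Kbar] ↥(FHbar (M * ℓ) c H))
    (a₀ : ↥(FHbar M c H') →ₐ[Kbar] ↥(FHbar (M * ℓ) c H'))
    (hsq : (inclRel (M * ℓ) hH).comp a₀ = a.comp (inclRel M hH))
    (haGal : ∀ d x, hd.dd'.ρ d (a x) = a (hd.dd.ρ d x)) :
    (∀ x : ↥(FHbar (M * ℓ) c H'),
      inclRel M hH (normFn a₀ x) = normFn a (inclRel (M * ℓ) hH x)) ∧
    (∀ y : ↥(FHbar M c H),
      a₀ (normFn (inclRel M hH) y) = normFn (inclRel (M * ℓ) hH) (a y)) := by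
  haveI := finite_relGal hd.dd' H'
  haveI : Fintype (relGal hd.dd' H') := Fintype.ofFinite _
  have h := Fermat.Agent.NEB.H2.stmt_GalSquare Kbar _ _ _ _ a₀ (inclRel M hH) a
    (inclRel (M * ℓ) hH) hsq.symm
    (finiteAlong_hom hd'.isFF hd'.isFF' _) (relGal hd.dd' H') ?_ ?_ ?_ ?_ ?_
  · exact ⟨h.2.2.1, h.2.2.2⟩
  · intro x hx
    obtain ⟨x₀, hx₀⟩ := relFixed hH hd.dd' hd'.dd' x (fun d hd => hx _ ⟨d, hd, rfl⟩)
    exact ⟨x₀, hx₀⟩
  · rintro g y ⟨d, hdH, rfl⟩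
    exact rho_inclRel_of_mem hH hd.dd' hd'.dd' hdH y
  · rintro g y ⟨d, -, rfl⟩
    exact ⟨hd.dd.ρ d y, (haGal d y).symm⟩
  · rintro g ⟨d, -, rfl⟩ hg
    have h1 : hd.dd.ρ d = 1 := by
      refine AlgEquiv.ext fun y => ?_
      have h2 := hg y
      rw [haGal d y] at h2
      exact a.toRingHom.injective h2
    exact (hd.dd'.ker d).mpr ((hd.dd.ker d).mp h1)
  · intro y hy
    obtain ⟨x₀, hx₀⟩ := relFixed hH hd.dd hd'.dd y (fun d hdH => by
      have h2 := hy _ ⟨d, hdH, rfl⟩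
      rw [haGal d y] at h2
      exact a.toRingHom.injective h2)
    exact ⟨x₀, hx₀⟩

theorem galSquare_rel_alpha (hH : H ≤ H') (hd : HeckeData M c ℓ H)
    (hd' : HeckeData M c ℓ H') :
    (∀ x : ↥(FHbar (M * ℓ) c H'),
      inclRel M hH (normFn (alphaH M c ℓ H') x)
        = normFn (alphaH M c ℓ H) (inclRel (M * ℓ) hH x)) ∧
    (∀ y : ↥(FHbar M c H),
      alphaH M c ℓ H' (normFn (inclRel M hH) y)
        = normFn (inclRel (M * ℓ) hH) (alphaH M c ℓ H y)) :=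
  galSquare_rel hH hd hd' _ _ (inclRel_comp_alphaH hH) hd.alphaGal

theorem galSquare_rel_beta (hH : H ≤ H') (hd : HeckeData M c ℓ H)
    (hd' : HeckeData M c ℓ H') :
    (∀ x : ↥(FHbar (M * ℓ) c H'),
      inclRel M hH (normFn (betaBar hd'.hβ) x)
        = normFn (betaBar hd.hβ) (inclRel (M * ℓ) hH x)) ∧
    (∀ y : ↥(FHbar M c H),
      betaBar hd'.hβ (normFn (inclRel M hH) y)
        = normFn (inclRel (M * ℓ) hH) (betaBar hd.hβ y)) :=
  galSquare_rel hH hd hd' _ _ (inclRel_comp_betaBar hH hd.hβ hd'.hβ) hd.betaGal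

/-- `π^* T^{H'} = T^H π^*`. -/
theorem piUpRel_TH (hH : H ≤ H') (hd : HeckeData M c ℓ H) (hd' : HeckeData M c ℓ H')
    (x : JH M c H') :
    piUpRel M hH (TH hd'.hβ x) = TH hd.hβ (piUpRel M hH x) := by
  have hsq := square_of_norm_pic hd'.isFF hd.isFF hd'.isFF' hd.isFF' (alphaH M c ℓ H')
    (inclRel M hH) (alphaH M c ℓ H) (inclRel (M * ℓ) hH)
    (fun x _ => (galSquare_rel_alpha hH hd hd').1 x)
  have h1 := DFunLike.congr_fun hsq (pullP (betaBar hd'.hβ) x)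
  simp only [AddMonoidHom.comp_apply] at h1
  have h2 := DFunLike.congr_fun (pullP_comp hd'.isFF hd'.isFF' hd.isFF' (betaBar hd'.hβ)
    (inclRel (M * ℓ) hH)) x
  have h3 := DFunLike.congr_fun (pullP_comp hd'.isFF hd.isFF hd.isFF' (inclRel M hH)
    (betaBar hd.hβ)) x
  rw [inclRel_comp_betaBar hH hd.hβ hd'.hβ] at h2
  simp only [AddMonoidHom.comp_apply] at h2 h3
  rw [piUpRel, TH, TH, AddMonoidHom.comp_apply, AddMonoidHom.comp_apply, h1, ← h2, h3]

/-- `π_* T^H = T^{H'} π_*`. -/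
theorem piDownRel_TH (hH : H ≤ H') (hd : HeckeData M c ℓ H) (hd' : HeckeData M c ℓ H')
    (y : JH M c H) :
    piDownRel M hH (TH hd.hβ y) = TH hd'.hβ (piDownRel M hH y) := by
  have hsq := square_of_norm_pic hd'.isFF hd'.isFF' hd.isFF hd.isFF' (inclRel M hH)
    (betaBar hd'.hβ) (inclRel (M * ℓ) hH) (betaBar hd.hβ)
    (fun y _ => (galSquare_rel_beta hH hd hd').2 y)
  have h1 := DFunLike.congr_fun hsq y
  simp only [AddMonoidHom.comp_apply] at h1
  have h2 := DFunLike.congr_fun (pushP_comp hd'.isFF hd'.isFF' hd.isFF' (alphaH M c ℓ H')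
    (inclRel (M * ℓ) hH)) (pullP (betaBar hd.hβ) y)
  have h3 := DFunLike.congr_fun (pushP_comp hd'.isFF hd.isFF hd.isFF' (inclRel M hH)
    (alphaH M c ℓ H)) (pullP (betaBar hd.hβ) y)
  rw [inclRel_comp_alphaH hH] at h2
  simp only [AddMonoidHom.comp_apply] at h2 h3
  rw [piDownRel, TH, TH, AddMonoidHom.comp_apply, AddMonoidHom.comp_apply, h1, ← h2, h3]

/-- `π^* U^{H'} = U^H π^*`. -/
theorem piUpRel_UH (hH : H ≤ H') (hd : HeckeData M c ℓ H) (hd' : HeckeData M c ℓ H')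
    (x : JH M c H') :
    piUpRel M hH (UH hd'.hβ x) = UH hd.hβ (piUpRel M hH x) := by
  have hsq := square_of_norm_pic hd'.isFF hd.isFF hd'.isFF' hd.isFF' (betaBar hd'.hβ)
    (inclRel M hH) (betaBar hd.hβ) (inclRel (M * ℓ) hH)
    (fun x _ => (galSquare_rel_beta hH hd hd').1 x)
  have h1 := DFunLike.congr_fun hsq (pullP (alphaH M c ℓ H') x)
  simp only [AddMonoidHom.comp_apply] at h1
  have h2 := DFunLike.congr_fun (pullP_comp hd'.isFF hd'.isFF' hd.isFF' (alphaH M c ℓ H')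
    (inclRel (M * ℓ) hH)) x
  have h3 := DFunLike.congr_fun (pullP_comp hd'.isFF hd.isFF hd.isFF' (inclRel M hH)
    (alphaH M c ℓ H)) x
  rw [inclRel_comp_alphaH hH] at h2
  simp only [AddMonoidHom.comp_apply] at h2 h3
  rw [piUpRel, UH, UH, AddMonoidHom.comp_apply, AddMonoidHom.comp_apply, h1, ← h2, h3]

/-- `π_* U^H = U^{H'} π_*`. -/
theorem piDownRel_UH (hH : H ≤ H') (hd : HeckeData M c ℓ H) (hd' : HeckeData M c ℓ H')
    (y : JH M c H) :
    piDownRel M hH (UH hd.hβ y) = UH hd'.hβ (piDownRel M hH y) := by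
  have hsq := square_of_norm_pic hd'.isFF hd'.isFF' hd.isFF hd.isFF' (inclRel M hH)
    (alphaH M c ℓ H') (inclRel (M * ℓ) hH) (alphaH M c ℓ H)
    (fun y _ => (galSquare_rel_alpha hH hd hd').2 y)
  have h1 := DFunLike.congr_fun hsq y
  simp only [AddMonoidHom.comp_apply] at h1
  have h2 := DFunLike.congr_fun (pushP_comp hd'.isFF hd'.isFF' hd.isFF' (betaBar hd'.hβ)
    (inclRel (M * ℓ) hH)) (pullP (alphaH M c ℓ H) y)
  have h3 := DFunLike.congr_fun (pushP_comp hd'.isFF hd.isFF hd.isFF' (inclRel M hH)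
    (betaBar hd.hβ)) (pullP (alphaH M c ℓ H) y)
  rw [inclRel_comp_betaBar hH hd.hβ hd'.hβ] at h2
  simp only [AddMonoidHom.comp_apply] at h2 h3
  rw [piDownRel, UH, UH, AddMonoidHom.comp_apply, AddMonoidHom.comp_apply, h1, ← h2, h3]

end Hecke

section Galois

variable {M c : ℕ} [NeZero M] [NeZero c] {H H' : Subgroup (ZMod c)ˣ}

theorem intertwines_inclRel (hH : H ≤ H') (σ : Kbar ≃ₐ[ℚ] Kbar) :
    IntertwinesAlong ((inclRel M hH : _ →ₐ[Kbar] _) : _ →+* _)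
      (arithmeticGalois (FHQ M c H') σ) (arithmeticGalois (FHQ M c H) σ) := by
  intro x
  apply Subtype.ext
  rw [coe_arithmeticGalois_smul]
  show coeffMap (σ : Kbar →+* Kbar) ((inclRel M hH x : _) : LaurentSeries Kbar) =
    ((inclRel M hH (arithmeticGalois (FHQ M c H') σ • x) : _) : LaurentSeries Kbar)
  rw [coe_inclRel, coe_inclRel, coe_arithmeticGalois_smul]

/-- `π^*` commutes with the Galois action. -/
theorem piUpRel_galois (hH : H ≤ H') (hFF : IsFF Kbar ↥(FHbar M c H))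
    (hFF' : IsFF Kbar ↥(FHbar M c H')) (σ : Kbar ≃ₐ[ℚ] Kbar) (x : JH M c H') :
    piUpRel M hH (σ • x) = σ • piUpRel M hH x := by
  rw [galois_smul_pic0_def, galois_smul_pic0_def]
  exact pullP_semilinear hFF' hFF _ _ _ (intertwines_inclRel hH σ) x

/-- `π_*` commutes with the Galois action. -/
theorem piDownRel_galois (hH : H ≤ H') (hFF : IsFF Kbar ↥(FHbar M c H))
    (hFF' : IsFF Kbar ↥(FHbar M c H')) (σ : Kbar ≃ₐ[ℚ] Kbar) (y : JH M c H) :
    piDownRel M hH (σ • y) = σ • piDownRel M hH y := by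
  rw [galois_smul_pic0_def, galois_smul_pic0_def]
  exact pushP_semilinear hFF' hFF _ _ _ (intertwines_inclRel hH σ) y

end Galois

section Kummer

variable {M c : ℕ} [NeZero M] [NeZero c] {H H' : Subgroup (ZMod c)ˣ}

/-- **Kummer form of `π^*`** (relative). -/
theorem piUpRel_kummer (hH : H ≤ H') (hFF : IsFF Kbar ↥(FHbar M c H))
    (hFF' : IsFF Kbar ↥(FHbar M c H')) (n : ℤ)
    (D : Divisor.degZero (K := Kbar) (F := ↥(FHbar M c H')))
    {f : ↥(FHbar M c H')} (hf : f ≠ 0)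
    (hD : ∀ v, n * (D : Divisor Kbar ↥(FHbar M c H')) v = v.ord f) :
    ∃ E : Divisor.degZero (K := Kbar) (F := ↥(FHbar M c H)),
      piUpRel M hH (Pic0.mk D) = Pic0.mk E ∧ inclRel M hH f ≠ 0 ∧
      ∀ w, n * (E : Divisor Kbar ↥(FHbar M c H)) w = w.ord (inclRel M hH f) := by
  have hc := isCorr_pullD hFF' hFF (inclRel M hH)
  refine ⟨degZeroMap _ hc.isGood D, ?_, (hc.hasFn f hf).1, fun v => ?_⟩
  · rw [piUpRel, pullP, picMap_mk hc.isGood]
  · exact hc.hasFn.kummer n _ hf hD v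

/-- **Kummer form of `π_*`** (relative). -/
theorem piDownRel_kummer (hH : H ≤ H') (hFF : IsFF Kbar ↥(FHbar M c H))
    (hFF' : IsFF Kbar ↥(FHbar M c H')) (n : ℤ)
    (D : Divisor.degZero (K := Kbar) (F := ↥(FHbar M c H)))
    {f : ↥(FHbar M c H)} (hf : f ≠ 0)
    (hD : ∀ w, n * (D : Divisor Kbar ↥(FHbar M c H)) w = w.ord f) :
    ∃ E : Divisor.degZero (K := Kbar) (F := ↥(FHbar M c H')),
      piDownRel M hH (Pic0.mk D) = Pic0.mk E ∧ normFn (inclRel M hH) f ≠ 0 ∧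
      ∀ v, n * (E : Divisor Kbar ↥(FHbar M c H')) v
        = v.ord (normFn (inclRel M hH) f) := by
  have hc := isCorr_pushD hFF' hFF (inclRel M hH)
  refine ⟨degZeroMap _ hc.isGood D, ?_, (hc.hasFn f hf).1, fun v => ?_⟩
  · rw [piDownRel, pushP, picMap_mk hc.isGood]
  · exact hc.hasFn.kummer n _ hf hD v

end Kummer

end Fermat.Agent.NEB.JH
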