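import Mathlib.Algebra.CharP.Lemmas
import Mathlib.Algebra.Group.Hom.End
import Mathlib.Algebra.Module.Basic
import Mathlib.Tactic

/-!
# LG-NEB, package PI-ONTO: the algebraic core (helper29)

Pure algebra.  `A`, `A₀` abelian groups (`Pic⁰(L)`, `Pic⁰(E)` for a cyclic unramified cover `L / E`
of degree `p ^ a` with group `⟨c⟩`), `π : A → A₀` onto (`π_*`), `π ∘ c = π`, `t`, `t₀` endomorphisms
(`T_ℓ - (ℓ + 1)`) with `π t = t₀ π`, `t c = c t`, and

* (KER)  `x ∈ ker π ⟹ t x ∈ (c - 1) A`,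
* (DIV₀) `t₀ ^ N₀ • A₀ ⊆ p A₀` (twisted divisibility downstairs).

Then

* (DIV)  `t ^ ((N₀ + 1) p ^ a) • A ⊆ p A`  (twisted divisibility upstairs: the induction
  hypothesis for the next layer of the tower),
* (ONTO) every `y₀ ∈ A₀[p ^ k]` has `t₀ ^ ((N₀ + 1) p ^ a k + 1) y₀ = π y` with `y ∈ A[p ^ k]`.
-/

set_option autoImplicit false

namespace Fermat.Agent.NEB.H29

section PiOntoAlg

variable {A A₀ : Type*} [AddCommGroup A] [AddCommGroup A₀]

theorem endMul_apply (f g : AddMonoid.End A) (x : A) : (f * g) x = f (g x) := rfl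

theorem endSub_apply (f g : AddMonoid.End A) (x : A) : (f - g) x = f x - g x := rfl

theorem endOne_apply (x : A) : (1 : AddMonoid.End A) x = x := rfl

theorem endNatCast_apply (n : ℕ) (x : A) : ((n : AddMonoid.End A)) x = n • x := rfl

/-- `(c - 1) ^ (p ^ a) ∈ p • End` when `c ^ (p ^ a) = 1`. -/
theorem exists_sub_one_pow_eq {R : Type*} [Ring R] (p : ℕ) [hp : Fact p.Prime] (a : ℕ) (c : R)
    (hc : c ^ (p ^ a) = 1) : ∃ r : R, (c - 1) ^ (p ^ a) = (p : R) * r := by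
  obtain ⟨r, hr⟩ := Commute.exists_add_pow_prime_pow_eq hp.out
    (Commute.neg_right (Commute.one_right c)) a
  have h1 : ∃ s : R, (1 : R) + (-1) ^ (p ^ a) = (p : R) * s := by
    rcases Nat.even_or_odd (p ^ a) with he | ho
    · have hp2 : p = 2 := by
        by_contra hne
        have hodd : Odd p := hp.out.odd_of_ne_two hne
        exact (Nat.not_even_iff_odd.mpr hodd.pow) he
      refine ⟨1, ?_⟩
      rw [he.neg_one_pow, hp2]
      norm_num
    · refine ⟨0, ?_⟩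
      rw [ho.neg_one_pow]
      simp
  obtain ⟨s, hs⟩ := h1
  refine ⟨s + c * (-1) * r, ?_⟩
  rw [sub_eq_add_neg, hr, hc, hs]
  noncomm_ring

/-- the one-step statement: `t ^ (N₀ + 1) x ∈ (c - 1) A + p A`. -/
theorem pionto_step (p : ℕ) (N₀ : ℕ) (c t : AddMonoid.End A) (π : A →+ A₀)
    (hπ : Function.Surjective π) (t₀ : AddMonoid.End A₀)
    (hπt : ∀ x, π (t x) = t₀ (π x))
    (hker : ∀ x, π x = 0 → ∃ u, t x = c u - u)
    (hdiv₀ : ∀ x₀ : A₀, ∃ y₀ : A₀, (t₀ ^ N₀) x₀ = p • y₀) (x : A) :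
    ∃ u z : A, (t ^ (N₀ + 1)) x = (c - 1) u + p • z := by
  have hπtN : ∀ (N : ℕ) (x : A), π ((t ^ N) x) = (t₀ ^ N) (π x) := by
    intro N
    induction N with
    | zero => intro x; simp
    | succ N ih =>
      intro x
      rw [pow_succ', pow_succ', endMul_apply, endMul_apply, hπt, ih]
  obtain ⟨y₀, hy₀⟩ := hdiv₀ (π x)
  obtain ⟨z', hz'⟩ := hπ y₀
  have h0 : π ((t ^ N₀) x - p • z') = 0 := by
    rw [map_sub, hπtN, hy₀, map_nsmul, hz', sub_self]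
  obtain ⟨u, hu⟩ := hker _ h0
  refine ⟨u, t z', ?_⟩
  rw [pow_succ', endMul_apply]
  rw [map_sub, map_nsmul] at hu
  rw [endSub_apply, endOne_apply, ← hu]
  abel

/-- (DIV): twisted divisibility upstairs. -/
theorem pionto_div (p : ℕ) [Fact p.Prime] (a N₀ : ℕ) (c t : AddMonoid.End A)
    (hc : c ^ (p ^ a) = 1) (hct : Commute c t) (π : A →+ A₀)
    (hπ : Function.Surjective π) (t₀ : AddMonoid.End A₀)
    (hπt : ∀ x, π (t x) = t₀ (π x))
    (hker : ∀ x, π x = 0 → ∃ u, t x = c u - u)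
    (hdiv₀ : ∀ x₀ : A₀, ∃ y₀ : A₀, (t₀ ^ N₀) x₀ = p • y₀) (x : A) :
    ∃ y : A, (t ^ ((N₀ + 1) * p ^ a)) x = p • y := by
  have hstep := pionto_step p N₀ c t π hπ t₀ hπt hker hdiv₀
  have hcomm : ∀ j : ℕ, Commute ((c - 1) ^ j) (t ^ (N₀ + 1)) := fun j =>
    ((hct.sub_left (Commute.one_left t)).pow_left j).pow_right _
  have hB : ∀ (j : ℕ) (x : A), ∃ u z : A,
      (t ^ ((N₀ + 1) * j)) x = ((c - 1) ^ j) u + p • z := by
    intro j
    induction j with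
    | zero => intro x; exact ⟨x, 0, by simp⟩
    | succ j ih =>
      intro x
      obtain ⟨u, z, huz⟩ := ih x
      obtain ⟨u', z', huz'⟩ := hstep u
      refine ⟨u', ((c - 1) ^ j) z' + (t ^ (N₀ + 1)) z, ?_⟩
      have e1 : (t ^ ((N₀ + 1) * (j + 1))) x = (t ^ (N₀ + 1)) ((t ^ ((N₀ + 1) * j)) x) := by
        rw [← endMul_apply, ← pow_add, mul_add, mul_one, add_comm]
      have e2 : (t ^ (N₀ + 1)) (((c - 1) ^ j) u) = ((c - 1) ^ j) ((t ^ (N₀ + 1)) u) := by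
        rw [← endMul_apply, ← endMul_apply, (hcomm j).eq]
      have e3 : ((c - 1) ^ (j + 1)) u' = ((c - 1) ^ j) ((c - 1) u') := by
        rw [pow_succ, endMul_apply]
      rw [e1, huz, map_add, map_nsmul, e2, huz', map_add, map_nsmul, e3, nsmul_add]
      abel
  obtain ⟨u, z, huz⟩ := hB (p ^ a) x
  obtain ⟨r, hr⟩ := exists_sub_one_pow_eq p a c hc
  refine ⟨r u + z, ?_⟩
  rw [huz, hr, endMul_apply, nsmul_add, endNatCast_apply]

/-- (DIV) iterated. -/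
theorem pionto_div_pow (p : ℕ) (N : ℕ) (t : AddMonoid.End A)
    (hdiv : ∀ x : A, ∃ y : A, (t ^ N) x = p • y) (k : ℕ) (x : A) :
    ∃ y : A, (t ^ (N * k)) x = p ^ k • y := by
  induction k generalizing x with
  | zero => exact ⟨x, by simp⟩
  | succ k ih =>
    obtain ⟨y, hy⟩ := hdiv x
    obtain ⟨y', hy'⟩ := ih y
    refine ⟨y', ?_⟩
    rw [mul_add, mul_one, pow_add, endMul_apply, hy, map_nsmul, hy', pow_succ,
      mul_nsmul]

/-- **(ONTO)**: `π` is onto on `p ^ k`-torsion up to a power of `t₀`. -/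
theorem pionto_onto (p : ℕ) (N : ℕ) (c t : AddMonoid.End A)
    (hct : Commute c t) (π : A →+ A₀)
    (hπ : Function.Surjective π) (hπc : ∀ x, π (c x) = π x) (t₀ : AddMonoid.End A₀)
    (hπt : ∀ x, π (t x) = t₀ (π x))
    (hker : ∀ x, π x = 0 → ∃ u, t x = c u - u)
    (hdiv : ∀ x : A, ∃ y : A, (t ^ N) x = p • y)
    (k : ℕ) (y₀ : A₀) (hy₀ : p ^ k • y₀ = 0) :
    ∃ y : A, p ^ k • y = 0 ∧ π y = (t₀ ^ (N * k + 1)) y₀ := by
  have hπtN : ∀ (N : ℕ) (x : A), π ((t ^ N) x) = (t₀ ^ N) (π x) := by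
    intro N
    induction N with
    | zero => intro x; simp
    | succ N ih =>
      intro x
      rw [pow_succ', pow_succ', endMul_apply, endMul_apply, hπt, ih]
  obtain ⟨z, hz⟩ := hπ y₀
  have h0 : π (p ^ k • z) = 0 := by rw [map_nsmul, hz, hy₀]
  obtain ⟨u, hu⟩ := hker _ h0
  obtain ⟨u', hu'⟩ := pionto_div_pow p N t hdiv k u
  refine ⟨(t ^ (N * k + 1)) z - (c u' - u'), ?_, ?_⟩
  · have e1 : (t ^ (N * k + 1)) (p ^ k • z) = (t ^ (N * k)) (c u - u) := by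
      rw [pow_succ, endMul_apply, hu]
    have e2 : (t ^ (N * k)) (c u) = c ((t ^ (N * k)) u) := by
      rw [← endMul_apply, ← endMul_apply, (hct.pow_right _).eq]
    rw [nsmul_sub, ← map_nsmul, e1, map_sub, e2, hu', map_nsmul, nsmul_sub, sub_self]
  · rw [map_sub, map_sub, hπc, sub_self, sub_zero, hπtN, hz]

/-- **PI-ONTO, algebraic form**: (DIV) and (ONTO) together, from (KER) and (DIV₀). -/
theorem stmt_PIONTO_alg (p : ℕ) [Fact p.Prime] (a N₀ : ℕ) (c t : AddMonoid.End A)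
    (hc : c ^ (p ^ a) = 1) (hct : Commute c t) (π : A →+ A₀)
    (hπ : Function.Surjective π) (hπc : ∀ x, π (c x) = π x) (t₀ : AddMonoid.End A₀)
    (hπt : ∀ x, π (t x) = t₀ (π x))
    (hker : ∀ x, π x = 0 → ∃ u, t x = c u - u)
    (hdiv₀ : ∀ x₀ : A₀, ∃ y₀ : A₀, (t₀ ^ N₀) x₀ = p • y₀) :
    (∀ x : A, ∃ y : A, (t ^ ((N₀ + 1) * p ^ a)) x = p • y) ∧
    ∀ (k : ℕ) (y₀ : A₀), p ^ k • y₀ = 0 →
      ∃ y : A, p ^ k • y = 0 ∧ π y = (t₀ ^ ((N₀ + 1) * p ^ a * k + 1)) y₀ := by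
  have hdiv := pionto_div p a N₀ c t hc hct π hπ t₀ hπt hker hdiv₀
  exact ⟨hdiv, pionto_onto p _ c t hct π hπ hπc t₀ hπt hker hdiv⟩

end PiOntoAlg

end Fermat.Agent.NEB.H29
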