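import Mathlib
import Fermat.Agent.NEB.H14_CorrFF

/-!
# LG-NEB, package PI-ONTO (helper29): statements of the leaves

`π_* : J_H[p^k]_𝔪 → J₀[p^k]_𝔪` is onto (needed for the freeness over `𝒪[Δ]`); plan in the note
"helper29: pi_* onto — gap in S59_TWH §4 and fix".

* `Stmt_TSEN` : the norm along a homomorphism of function fields is onto (Tsen).
* `Stmt_F1`   : `∑_{i<n} σ^i • D = 0 ⟹ D = σ • B - B` on divisors (`σ^n = 1`).
* `Stmt_E3`   : `π_* : Pic⁰(L) → Pic⁰(E)` is onto.

No `sorry`; definitions only.
-/

set_option autoImplicit false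

noncomputable section

namespace Fermat.Agent.NEB.H29

open AlgebraicCurve Fermat.Agent.RED Fermat.Agent.NEB.H14

/-- **TSEN** for norms: along every `K`-homomorphism of function fields the norm is onto. -/
def Stmt_TSEN : Prop :=
  ∀ (K E F : Type) [Field K] [Field E] [Field F] [Algebra K E] [Algebra K F] [IsAlgClosed K],
    IsFF K E → IsFF K F → ∀ (φ : E →ₐ[K] F) (a : E), ∃ x : F, normFn φ x = a

/-- **F1**: divisors form a permutation module, so `Ĥ⁻¹` of a cyclic group vanishes on them:
a divisor killed by the norm `1 + σ + ⋯ + σ^(n-1)` is of the form `σ • B - B`.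
(Pure combinatorics of finitely supported functions; no hypothesis on `K`, `F`.) -/
def Stmt_F1 : Prop :=
  ∀ (K F : Type) [Field K] [Field F] [Algebra K F] (σ : F ≃ₐ[K] F) (n : ℕ),
    0 < n → σ ^ n = 1 → ∀ D : Divisor K F,
      (∑ i ∈ Finset.range n, (σ ^ i) • D = 0) → ∃ B : Divisor K F, D = σ • B - B

/-- **E3**: the push-forward `Pic⁰(F) → Pic⁰(E)` along a homomorphism of function fields over an
algebraically closed field is onto (every place of `E` lies under a place of `F`, of residue
degree one). -/
def Stmt_E3 : Prop :=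
  ∀ (K E F : Type) [Field K] [Field E] [Field F] [Algebra K E] [Algebra K F] [IsAlgClosed K],
    IsFF K E → IsFF K F → ∀ (φ : E →ₐ[K] F) (y : Pic0 K E), ∃ z : Pic0 K F, pushP φ z = y

end Fermat.Agent.NEB.H29
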