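import Mathlib

/-!
# LG-NEB, package PI-ONTO: the algebraic core of Tsen's theorem (helper29)

* `Stmt_DIM` (leaf, pure Mathlib): `m` polynomials in `N > m` variables over an algebraically
  closed field, all vanishing at the origin, have a common zero different from the origin.
* `exists_zero_of_values` : let `E` be a `K`-algebra, `P` a polynomial in the variables `σ` with
  coefficients in `E` whose values at the `K`-rational points lie in a `K`-subspace `W` of
  dimension `< |σ|` and with `P(0) = 0`.  Then `P` has a `K`-rational zero different from `0`.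
-/

set_option autoImplicit false

noncomputable section

namespace Fermat.Agent.NEB.H29

open MvPolynomial

/-- **DIM**: `m` polynomials in `N > m` variables over an algebraically closed field, all
vanishing at the origin, have a common zero different from the origin. -/
def Stmt_DIM : Prop :=
  ∀ (K : Type) [Field K] [IsAlgClosed K] (N m : ℕ) (g : Fin m → MvPolynomial (Fin N) K),
    m < N → (∀ i, eval (0 : Fin N → K) (g i) = 0) →
    ∃ a : Fin N → K, a ≠ 0 ∧ ∀ i, eval a (g i) = 0

section Core

variable {K E : Type} [Field K] [Field E] [Algebra K E] {σ : Type} [Fintype σ]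

/-- The polynomial over `K` obtained by applying a `K`-linear functional to the coefficients. -/
def coeffFunctional (Λ : E →ₗ[K] K) (P : MvPolynomial σ E) : MvPolynomial σ K :=
  ∑ α ∈ P.support, monomial α (Λ (coeff α P))

omit [Fintype σ] in
theorem eval_coeffFunctional (Λ : E →ₗ[K] K) (P : MvPolynomial σ E) (t : σ → K) :
    eval t (coeffFunctional Λ P) = Λ (eval (fun i => algebraMap K E (t i)) P) := by
  classical
  rw [coeffFunctional, map_sum, MvPolynomial.eval_eq, map_sum]
  refine Finset.sum_congr rfl fun α _ => ?_
  rw [eval_monomial]
  have h1 : ∏ i ∈ α.support, (algebraMap K E (t i)) ^ (α i)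
      = algebraMap K E (∏ i ∈ α.support, t i ^ (α i)) := by
    rw [map_prod]
    refine Finset.prod_congr rfl fun i _ => ?_
    rw [map_pow]
  rw [h1, mul_comm (coeff α P), ← Algebra.smul_def, map_smul, smul_eq_mul, mul_comm]
  rfl

/-- **Algebraic core of Tsen's theorem.** -/
theorem exists_zero_of_values [IsAlgClosed K] (hDIM : Stmt_DIM)
    (P : MvPolynomial σ E) (W : Submodule K E) [Module.Finite K W]
    (hW : Module.finrank K W < Fintype.card σ)
    (hval : ∀ t : σ → K, eval (fun i => algebraMap K E (t i)) P ∈ W)
    (h0 : eval (0 : σ → E) P = 0) :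
    ∃ t : σ → K, t ≠ 0 ∧ eval (fun i => algebraMap K E (t i)) P = 0 := by
  classical
  set r := Module.finrank K W with hr
  let bW : Module.Basis (Fin r) K W := Module.finBasis K W
  -- extend the coordinate functionals
  have hext : ∀ k : Fin r, ∃ Λ : E →ₗ[K] K, Λ.comp W.subtype = bW.coord k := fun k =>
    LinearMap.exists_extend (bW.coord k)
  choose Λ hΛ using hext
  let e : σ ≃ Fin (Fintype.card σ) := Fintype.equivFin σ
  obtain ⟨a, ha0, ha⟩ := hDIM K (Fintype.card σ) r
    (fun k => rename e (coeffFunctional (Λ k) P)) hW (by
      intro k
      rw [eval_rename, eval_coeffFunctional]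
      have : (fun i => algebraMap K E (((0 : Fin (Fintype.card σ) → K) ∘ e) i)) = (0 : σ → E) := by
        funext i
        simp
      rw [this, h0, map_zero])
  refine ⟨a ∘ e, ?_, ?_⟩
  · intro h
    apply ha0
    funext j
    have := congrFun h (e.symm j)
    simpa using this
  · have hv := hval (a ∘ e)
    have hcoord : ∀ k, bW.coord k ⟨_, hv⟩ = 0 := by
      intro k
      have h1 := ha k
      rw [eval_rename, eval_coeffFunctional] at h1
      have h2 := congrArg (fun f => f ⟨_, hv⟩) (hΛ k)
      simp only [LinearMap.comp_apply, Submodule.subtype_apply] at h2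
      rw [← h2]
      exact h1
    have hzero : (⟨_, hv⟩ : W) = 0 := by
      apply bW.repr.injective
      ext k
      simpa using hcoord k
    exact congrArg Subtype.val hzero

end Core

end Fermat.Agent.NEB.H29
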