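import Mathlib
import Fermat.Agent.RED.H42_Riemann

/-!
# LG-NEB, package PI-ONTO: lemmas on Riemann–Roch spaces for Tsen's theorem (helper29)

* `exists_effective_mem_L` : every function lies in `L(A)` for some effective divisor `A`;
* `exists_effective_forall_mem_L` : the same for a finite family;
* `prod_mem_L`, `det_mem_L` : products and determinants.
-/

set_option autoImplicit false

noncomputable section

namespace Fermat.Agent.NEB.H29

open AlgebraicCurve Fermat.Agent.RED.H42 WithZero

variable {K F : Type*} [Field K] [Field F] [Algebra K F]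

local notation "L" => riemannRochSpace

/-- Every function lies in `L(A)` for some effective divisor `A`. -/
theorem exists_effective_mem_L [HasPrincipalDivisors K F] (f : F) :
    ∃ A : Divisor K F, 0 ≤ A ∧ f ∈ L A := by
  classical
  by_cases hf : f = 0
  · exact ⟨0, le_rfl, by rw [hf]; exact zero_mem _⟩
  obtain ⟨D, hD, -⟩ := HasPrincipalDivisors.exists_divisor (K := K) f hf
  refine ⟨D.mapRange (fun z => max (-z) 0) (by simp), ?_, ?_⟩
  · rw [Finsupp.le_def]
    intro v
    rw [Finsupp.mapRange_apply]
    exact le_max_right _ _
  · rw [mem_riemannRochSpace_iff]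
    intro v
    right
    rw [Finsupp.mapRange_apply, hD v]
    have := le_max_left (-v.ord f) 0
    omega

/-- Finitely many functions lie in `L(A)` for a common effective divisor `A`. -/
theorem exists_effective_forall_mem_L [HasPrincipalDivisors K F] {ι : Type*} (s : Finset ι)
    (f : ι → F) : ∃ A : Divisor K F, 0 ≤ A ∧ ∀ i ∈ s, f i ∈ L A := by
  classical
  induction s using Finset.induction_on with
  | empty => exact ⟨0, le_rfl, fun i hi => absurd hi (Finset.notMem_empty i)⟩
  | insert a s ha ih =>
    obtain ⟨A, hA, hAs⟩ := ih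
    obtain ⟨B, hB, hBa⟩ := exists_effective_mem_L (K := K) (f a)
    refine ⟨A + B, add_nonneg hA hB, fun i hi => ?_⟩
    rcases Finset.mem_insert.mp hi with rfl | hi
    · exact L_mono (le_add_of_nonneg_left hA) hBa
    · exact L_mono (le_add_of_nonneg_right hB) (hAs i hi)

/-- A product of `|s|` elements of `L(D)` lies in `L(|s| D)`. -/
theorem prod_mem_L {ι : Type*} (s : Finset ι) (f : ι → F) (D : Divisor K F)
    (hf : ∀ i ∈ s, f i ∈ L D) : ∏ i ∈ s, f i ∈ L (s.card • D) := by
  classical
  induction s using Finset.induction_on with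
  | empty =>
    rw [Finset.prod_empty, Finset.card_empty, zero_smul]
    exact one_mem_L le_rfl
  | insert a s ha ih =>
    rw [Finset.prod_insert ha, Finset.card_insert_of_notMem ha, add_smul, one_smul, add_comm]
    exact mul_mem_L_add (hf a (Finset.mem_insert_self a s))
      (ih fun i hi => hf i (Finset.mem_insert_of_mem hi))

/-- The determinant of an `n × n` matrix with entries in `L(D)` lies in `L(n D)`. -/
theorem det_mem_L {n : ℕ} (B : Matrix (Fin n) (Fin n) F) (D : Divisor K F)
    (hB : ∀ i j, B i j ∈ L D) : B.det ∈ L (n • D) := by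
  classical
  rw [Matrix.det_apply]
  refine Submodule.sum_mem _ fun σ _ => ?_
  have h1 : ∏ i, B (σ i) i ∈ L (n • D) := by
    have := prod_mem_L (Finset.univ : Finset (Fin n)) (fun i => B (σ i) i) D
      (fun i _ => hB (σ i) i)
    rwa [Finset.card_univ, Fintype.card_fin] at this
  rcases Int.units_eq_one_or (Equiv.Perm.sign σ) with h | h
  · rw [h, one_smul]; exact h1
  · rw [h, Units.neg_smul, one_smul]; exact neg_mem h1

end Fermat.Agent.NEB.H29
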