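/-
Item 72 (LG-NEB), PI-ONTO package DIM (helper61), pure Mathlib.

`exists_ne_zero_common_zero`: over an algebraically closed field, `m` polynomials in `N > m`
variables which all vanish at the origin have a common zero different from the origin.
(Nullstellensatz + Krull's height theorem; the ideal of the origin has height `≥ N` by the chain
of the kernels of `X_j ↦ 0, j ∈ S`.)
-/
import Mathlib.RingTheory.Nullstellensatz
import Mathlib.RingTheory.Ideal.KrullsHeightTheorem
import Mathlib.RingTheory.Ideal.Height
import Mathlib.RingTheory.Polynomial.Basic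

set_option autoImplicit false
set_option linter.style.haveILetI false
set_option linter.unusedSectionVars false

noncomputable section

namespace Fermat.Agent.NEB.H61

open MvPolynomial

variable {K : Type*} [Field K] {σ : Type*}

open Classical in
/-- The endomorphism `X_j ↦ 0` (`j ∈ S`), `X_j ↦ X_j` (`j ∉ S`). -/
def killHom (K : Type*) [Field K] {σ : Type*} (S : Finset σ) :
    MvPolynomial σ K →ₐ[K] MvPolynomial σ K :=
  aeval fun j => if j ∈ S then 0 else X j

theorem killHom_X_of_mem {S : Finset σ} {j : σ} (hj : j ∈ S) : killHom K S (X j) = 0 := by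
  classical
  rw [killHom, aeval_X, if_pos hj]

theorem killHom_X_of_notMem {S : Finset σ} {j : σ} (hj : j ∉ S) : killHom K S (X j) = X j := by
  classical
  rw [killHom, aeval_X, if_neg hj]

theorem killHom_comp {S T : Finset σ} (h : S ⊆ T) (p : MvPolynomial σ K) :
    killHom K T (killHom K S p) = killHom K T p := by
  classical
  have : (killHom K T).comp (killHom K S) = killHom K T := by
    apply MvPolynomial.algHom_ext
    intro j
    rw [AlgHom.comp_apply]
    by_cases hj : j ∈ S
    · rw [killHom_X_of_mem hj, map_zero, killHom_X_of_mem (h hj)]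
    · rw [killHom_X_of_notMem hj]
  exact congrArg (fun f : MvPolynomial σ K →ₐ[K] MvPolynomial σ K => f p) this

/-- The prime ideal `(X_j : j ∈ S)`. -/
def killIdeal (K : Type*) [Field K] {σ : Type*} (S : Finset σ) : Ideal (MvPolynomial σ K) :=
  RingHom.ker (killHom K S : MvPolynomial σ K →+* MvPolynomial σ K)

instance killIdeal_isPrime (S : Finset σ) : (killIdeal K S).IsPrime :=
  RingHom.ker_isPrime _

theorem killIdeal_mono {S T : Finset σ} (h : S ⊆ T) : killIdeal K S ≤ killIdeal K T := by
  intro p hp
  have hp' : killHom K S p = 0 := hp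
  show killHom K T p = 0
  rw [← killHom_comp h, hp', map_zero]

theorem killIdeal_lt {S : Finset σ} {a : σ} (ha : a ∉ S) [DecidableEq σ] :
    killIdeal K S < killIdeal K (insert a S) := by
  refine lt_of_le_of_ne (killIdeal_mono (Finset.subset_insert a S)) fun heq => ?_
  have h1 : (X a : MvPolynomial σ K) ∈ killIdeal K (insert a S) :=
    killHom_X_of_mem (Finset.mem_insert_self a S)
  rw [← heq] at h1
  have h2 : killHom K S (X a : MvPolynomial σ K) = 0 := h1
  rw [killHom_X_of_notMem ha] at h2
  exact MvPolynomial.X_ne_zero a h2

/-- The height of `(X_j : j ∈ S)` is at least `#S`. -/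
theorem card_le_height_killIdeal (S : Finset σ) : (S.card : ℕ∞) ≤ (killIdeal K S).height := by
  classical
  induction S using Finset.induction_on with
  | empty => simp
  | insert a S ha ih =>
    rw [Finset.card_insert_of_notMem ha]
    push_cast
    exact (add_le_add_left ih 1).trans
      (Ideal.height_add_one_le_of_lt_of_isPrime (killIdeal_lt ha))

theorem mem_killIdeal_univ [Fintype σ] (p : MvPolynomial σ K) :
    p ∈ killIdeal K (Finset.univ : Finset σ) ↔ MvPolynomial.eval 0 p = 0 := by
  classical
  have h1 : killHom K (Finset.univ : Finset σ) p = C (constantCoeff p) := by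
    have : (fun j : σ => if j ∈ (Finset.univ : Finset σ) then (0 : MvPolynomial σ K) else X j)
        = fun _ => 0 := by
      funext j
      rw [if_pos (Finset.mem_univ j)]
    rw [killHom, this, aeval_zero']
    rfl
  show killHom K (Finset.univ : Finset σ) p = 0 ↔ _
  rw [h1, map_eq_zero_iff _ (C_injective σ K), ← MvPolynomial.eval_zero]

variable [IsAlgClosed K] [Fintype σ]

/-- **DIM.**  Over an algebraically closed field, `m` polynomials in `N > m` variables, all
vanishing at the origin, have a common zero different from the origin. -/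
theorem exists_ne_zero_common_zero {ι : Type*} [Fintype ι] (f : ι → MvPolynomial σ K)
    (h0 : ∀ i, MvPolynomial.eval 0 (f i) = 0) (hcard : Fintype.card ι < Fintype.card σ) :
    ∃ x : σ → K, x ≠ 0 ∧ ∀ i, MvPolynomial.eval x (f i) = 0 := by
  classical
  by_contra hcon
  have hcon' : ∀ x : σ → K, (∀ i, MvPolynomial.eval x (f i) = 0) → x = 0 := by
    intro x hx
    by_contra hx0
    exact hcon ⟨x, hx0, hx⟩
  set s : Finset (MvPolynomial σ K) := Finset.univ.image f with hs
  set I : Ideal (MvPolynomial σ K) := Ideal.span (s : Set (MvPolynomial σ K)) with hI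
  set P : Ideal (MvPolynomial σ K) := killIdeal K (Finset.univ : Finset σ) with hP
  have hfI : ∀ i, f i ∈ I := fun i =>
    Ideal.subset_span (Finset.mem_coe.mpr (Finset.mem_image.mpr ⟨i, Finset.mem_univ i, rfl⟩))
  have hIP : I ≤ P := by
    rw [hI, Ideal.span_le]
    intro p hp
    obtain ⟨i, -, rfl⟩ := Finset.mem_image.mp (Finset.mem_coe.mp hp)
    exact (mem_killIdeal_univ (f i)).2 (h0 i)
  -- the zero locus of `I` is the origin
  have hloc : zeroLocus K I = {(0 : σ → K)} := by
    ext x
    rw [mem_zeroLocus_iff, Set.mem_singleton_iff]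
    constructor
    · intro hx
      refine hcon' x fun i => ?_
      have := hx (f i) (hfI i)
      rwa [MvPolynomial.aeval_eq_eval] at this
    · rintro rfl p hp
      have := (mem_killIdeal_univ p).1 (hIP hp)
      rwa [MvPolynomial.aeval_eq_eval]
  -- so the radical of `I` is the ideal of the origin
  have hrad : I.radical = P := by
    rw [← vanishingIdeal_zeroLocus_eq_radical (K := K), hloc]
    ext p
    rw [mem_vanishingIdeal_iff, mem_killIdeal_univ]
    constructor
    · intro h
      have := h 0 (Set.mem_singleton _)
      rwa [MvPolynomial.aeval_eq_eval] at this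
    · intro h x hx
      rw [Set.mem_singleton_iff] at hx
      subst hx
      rwa [MvPolynomial.aeval_eq_eval]
  have hmin : P ∈ I.minimalPrimes := by
    rw [← Ideal.radical_minimalPrimes, hrad, Ideal.minimalPrimes_eq_subsingleton_self]
    exact Set.mem_singleton _
  have h1 : P.height ≤ s.card := Ideal.height_le_card_of_mem_minimalPrimes_span_finset hmin
  have h2 : ((Finset.univ : Finset σ).card : ℕ∞) ≤ P.height := card_le_height_killIdeal _
  have h3 : s.card ≤ Fintype.card ι := Finset.card_image_le
  have h4 : (Fintype.card σ : ℕ∞) ≤ (Fintype.card ι : ℕ∞) := by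
    rw [Finset.card_univ] at h2
    exact h2.trans (h1.trans (by exact_mod_cast h3))
  have h5 : Fintype.card σ ≤ Fintype.card ι := by exact_mod_cast h4
  omega

end Fermat.Agent.NEB.H61

end
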