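import Mathlib
import Fermat.Agent.NEB.H29_TsenCore
import Fermat.Agent.NEB.H29_TsenL
import Fermat.Agent.NEB.H29_PiOntoDefs
import Fermat.Agent.RED.H17_LiftMove
import Fermat.Agent.NEB.H61_Dim

/-!
# LG-NEB, package PI-ONTO: Tsen's theorem for norms (helper29)

`K` algebraically closed, `E` a function field of one variable over `K`, `F / E` finite.
Then the norm `F → E` is surjective (`E` is a `C₁`-field).

Proof: `Norm(∑ xᵢ ωᵢ) = a yⁿ` with unknowns `xᵢ, y ∈ L(s P)` is a system of at most
`n s + C` polynomial equations over `K` in `(n + 1) l(s P) ≥ (n + 1)(s + 1 - g)` unknowns;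
by `Stmt_DIM` it has a non-trivial solution for `s ≫ 0`, and `y ≠ 0`.
-/

set_option autoImplicit false
set_option linter.style.haveILetI false
set_option linter.unusedSectionVars false

noncomputable section

namespace Fermat.Agent.NEB.H29

open AlgebraicCurve MvPolynomial Fermat.Agent.RED Fermat.Agent.NEB.H14 Fermat.Agent.RED.H42

local notation "L" => riemannRochSpace

section Norm

variable {K E : Type} [Field K] [IsAlgClosed K] [Field E] [Algebra K E]
  {F : Type} [Field F] [Algebra E F] [Module.Finite E F]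

/-- The matrix of multiplication by `∑ xᵢ bᵢ`. -/
theorem leftMulMatrix_sum_smul {n : ℕ} (b : Module.Basis (Fin n) E F) (x : Fin n → E)
    (k l : Fin n) :
    Algebra.leftMulMatrix b (∑ i, x i • b i) k l
      = ∑ i, x i * Algebra.leftMulMatrix b (b i) k l := by
  rw [map_sum, Matrix.sum_apply]
  refine Finset.sum_congr rfl fun i _ => ?_
  rw [map_smul, Matrix.smul_apply, smul_eq_mul]

theorem exists_norm_eq (hDIM : Stmt_DIM) (hE : IsFF K E) (a : E) :
    ∃ x : F, Algebra.norm E x = a := by
  classical
  by_cases ha : a = 0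
  · exact ⟨0, by rw [ha]; exact Algebra.norm_zero⟩
  have H := H17.ffHyp_of_isFF K E hE
  haveI := H.principal
  obtain ⟨g, c, hg⟩ := H17.exists_isGenus K E hE
  haveI : Infinite K := IsAlgClosed.instInfinite
  haveI := H.infinite_place
  obtain ⟨P₀⟩ : Nonempty (Place K E) := inferInstance
  set n := Module.finrank E F with hn
  have hn0 : 0 < n := Module.finrank_pos
  let b : Module.Basis (Fin n) E F := Module.finBasis E F
  let M : Fin n → Matrix (Fin n) (Fin n) E := fun i => Algebra.leftMulMatrix b (b i)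
  -- an effective divisor bounding the structure constants and `a`
  obtain ⟨A, hA, hAmem⟩ := exists_effective_forall_mem_L (K := K)
    (Finset.univ : Finset (Option (Fin n × Fin n × Fin n)))
    (fun o => match o with
      | none => a
      | some (i, k, l) => M i k l)
  have hAa : a ∈ L A := hAmem none (Finset.mem_univ _)
  have hAM : ∀ i k l, M i k l ∈ L A := fun i k l => hAmem (some (i, k, l)) (Finset.mem_univ _)
  set α : ℕ := (Divisor.degree A).toNat with hαdef
  have hα : Divisor.degree A = α := (Int.toNat_of_nonneg (degree_nonneg hA)).symm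
  set s : ℕ := (n + 1) * (α + g) + 2 with hs
  set Ds : Divisor K E := s • Finsupp.single P₀ 1 with hDs
  have hP₀ : (0 : Divisor K E) ≤ Finsupp.single P₀ 1 := by
    rw [Finsupp.le_def]
    intro v
    by_cases hv : v = P₀
    · subst hv; simp
    · rw [Finsupp.single_apply, if_neg (Ne.symm hv)]; simp
  have hDs0 : (0 : Divisor K E) ≤ Ds := nsmul_nonneg hP₀ s
  have hdegP : Divisor.degree (Finsupp.single P₀ (1 : ℤ)) = 1 := by
    rw [Divisor.degree_single, H.deg_one]; simp
  have hdegDs : Divisor.degree Ds = s := by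
    rw [hDs, map_nsmul, hdegP]; simp
  haveI : Module.Finite K (L Ds) := H.finite Ds
  set r := Module.finrank K (L Ds) with hr
  have hrge : (s : ℤ) + 1 - g ≤ r := by
    have := (hg Ds).1
    rw [hdegDs] at this
    exact this
  let eR : Module.Basis (Fin r) K (L Ds) := Module.finBasis K (L Ds)
  set DW : Divisor K E := (n + 1) • A + (n * s) • Finsupp.single P₀ 1 with hDW
  have hdegDW : Divisor.degree DW = (n + 1) * α + n * s := by
    rw [hDW, map_add, map_nsmul, map_nsmul, hdegP, hα]
    simp
  haveI : Module.Finite K (L DW) := H.finite DW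
  have hWle : (Module.finrank K (L DW) : ℤ) ≤ (n + 1) * α + n * s + 1 := by
    have := H.le DW (by rw [hdegDW]; positivity)
    rw [hdegDW] at this
    exact this
  have hcard : Fintype.card ((Fin n × Fin r) ⊕ Fin r) = (n + 1) * r := by
    rw [Fintype.card_sum, Fintype.card_prod, Fintype.card_fin, Fintype.card_fin]
    ring
  have hW : Module.finrank K (L DW) < Fintype.card ((Fin n × Fin r) ⊕ Fin r) := by
    rw [hcard]
    have h1 : ((n + 1 : ℕ) : ℤ) * ((s : ℤ) + 1 - g) ≤ ((n + 1 : ℕ) : ℤ) * r :=
      mul_le_mul_of_nonneg_left hrge (by positivity)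
    have h2 : (s : ℤ) = (n + 1) * (α + g) + 2 := by rw [hs]; push_cast; ring
    have h3 : ((Module.finrank K (L DW) : ℕ) : ℤ) < (((n + 1) * r : ℕ) : ℤ) := by
      push_cast
      push_cast at h1
      nlinarith
    exact_mod_cast h3
  -- the polynomial
  let Xm : Matrix (Fin n) (Fin n) (MvPolynomial ((Fin n × Fin r) ⊕ Fin r) E) := fun k l =>
    ∑ i, ∑ j, X (Sum.inl (i, j)) * C (((eR j : L Ds) : E) * M i k l)
  let Y : MvPolynomial ((Fin n × Fin r) ⊕ Fin r) E := ∑ j, X (Sum.inr j) * C ((eR j : L Ds) : E)
  let P : MvPolynomial ((Fin n × Fin r) ⊕ Fin r) E := Xm.det - C a * Y ^ n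
  -- the unknowns as elements of `L(s P₀)`
  let xx : ((Fin n × Fin r) ⊕ Fin r → K) → Fin n → L Ds := fun t i =>
    ∑ j, t (Sum.inl (i, j)) • eR j
  let yy : ((Fin n × Fin r) ⊕ Fin r → K) → L Ds := fun t => ∑ j, t (Sum.inr j) • eR j
  have hevX : ∀ (t : (Fin n × Fin r) ⊕ Fin r → K) (k l : Fin n),
      eval (fun i => algebraMap K E (t i)) (Xm k l)
        = ∑ i, ((xx t i : L Ds) : E) * M i k l := by
    intro t k l
    simp only [Xm, xx, map_sum, map_mul, eval_X, eval_C, Submodule.coe_sum, Submodule.coe_smul,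
      Finset.sum_mul]
    refine Finset.sum_congr rfl fun i _ => Finset.sum_congr rfl fun j _ => ?_
    rw [Algebra.smul_def, mul_assoc]
  have hevY : ∀ t : (Fin n × Fin r) ⊕ Fin r → K,
      eval (fun i => algebraMap K E (t i)) Y = ((yy t : L Ds) : E) := by
    intro t
    simp only [Y, yy, map_sum, map_mul, eval_X, eval_C, Submodule.coe_sum, Submodule.coe_smul]
    refine Finset.sum_congr rfl fun j _ => ?_
    rw [Algebra.smul_def]
  have hev : ∀ t : (Fin n × Fin r) ⊕ Fin r → K,
      eval (fun i => algebraMap K E (t i)) P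
        = Algebra.norm E (∑ i, ((xx t i : L Ds) : E) • b i) - a * ((yy t : L Ds) : E) ^ n := by
    intro t
    simp only [P, map_sub, map_mul, map_pow, eval_C, hevY]
    congr 1
    rw [RingHom.map_det, Algebra.norm_eq_matrix_det b]
    congr 1
    ext k l
    rw [RingHom.mapMatrix_apply, Matrix.map_apply, hevX, leftMulMatrix_sum_smul]
  -- the values lie in `L(DW)`
  have hnDs : n • Ds = (n * s) • Finsupp.single P₀ (1 : ℤ) := by
    rw [hDs, mul_smul]
  have hval : ∀ t : (Fin n × Fin r) ⊕ Fin r → K,
      eval (fun i => algebraMap K E (t i)) P ∈ L DW := by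
    intro t
    rw [hev]
    refine sub_mem ?_ ?_
    · rw [Algebra.norm_eq_matrix_det b]
      have hent : ∀ k l,
          Algebra.leftMulMatrix b (∑ i, ((xx t i : L Ds) : E) • b i) k l ∈ L (Ds + A) := by
        intro k l
        rw [leftMulMatrix_sum_smul]
        exact Submodule.sum_mem _ fun i _ => mul_mem_L_add (xx t i).2 (hAM i k l)
      refine L_mono ?_ (det_mem_L _ (Ds + A) hent)
      rw [smul_add, hnDs, hDW, add_comm]
      exact add_le_add (nsmul_le_nsmul_of_nonneg hA (Nat.le_succ n)) le_rfl
    · refine L_mono ?_ (mul_mem_L_add hAa (pow_mem_L (yy t).2 n))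
      rw [hnDs, hDW]
      have h1 : (1 : ℕ) • A ≤ (n + 1) • A :=
        nsmul_le_nsmul_of_nonneg hA (Nat.succ_le_succ (Nat.zero_le n))
      rw [one_smul] at h1
      exact add_le_add h1 le_rfl
  have hzero : (fun i => algebraMap K E ((0 : (Fin n × Fin r) ⊕ Fin r → K) i))
      = (0 : (Fin n × Fin r) ⊕ Fin r → E) := by
    funext i
    simp
  have h0 : eval (0 : (Fin n × Fin r) ⊕ Fin r → E) P = 0 := by
    have h1 := hev 0
    rw [hzero] at h1
    rw [h1]
    have hx0 : ∀ i, xx 0 i = 0 := by
      intro i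
      simp [xx]
    have hy0 : yy 0 = 0 := by
      simp [yy]
    simp only [hx0, hy0, Submodule.coe_zero, zero_smul, Finset.sum_const_zero]
    rw [Algebra.norm_zero, zero_pow hn0.ne', mul_zero, sub_zero]
  obtain ⟨t, ht0, ht⟩ := exists_zero_of_values hDIM P (L DW) hW hval h0
  rw [hev, sub_eq_zero] at ht
  -- `y ≠ 0`
  have hy : ((yy t : L Ds) : E) ≠ 0 := by
    intro hy
    apply ht0
    rw [hy, zero_pow hn0.ne', mul_zero, Algebra.norm_eq_zero_iff] at ht
    have hx : ∀ i, xx t i = 0 := by
      intro i
      have := Fintype.linearIndependent_iff.mp b.linearIndependent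
        (fun i => ((xx t i : L Ds) : E)) ht i
      exact Subtype.ext this
    have hyy : yy t = 0 := Subtype.ext hy
    funext u
    rcases u with ⟨i, j⟩ | j
    · exact Fintype.linearIndependent_iff.mp eR.linearIndependent
        (fun j => t (Sum.inl (i, j))) (hx i) j
    · exact Fintype.linearIndependent_iff.mp eR.linearIndependent
        (fun j => t (Sum.inr j)) hyy j
  refine ⟨algebraMap E F (((yy t : L Ds) : E)⁻¹) * ∑ i, ((xx t i : L Ds) : E) • b i, ?_⟩
  rw [map_mul, Algebra.norm_algebraMap, ht, ← hn, inv_pow]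
  field_simp

end Norm

/-- **DIM** (helper61). -/
theorem stmt_DIM : Stmt_DIM := by
  intro K _ _ N m g hmN h0
  exact Fermat.Agent.NEB.H61.exists_ne_zero_common_zero g h0
    (by rw [Fintype.card_fin, Fintype.card_fin]; exact hmN)

/-- **TSEN**: the norm along a homomorphism of function fields over an algebraically closed
field is onto. -/
theorem stmt_TSEN : Stmt_TSEN := by
  intro K E F _ _ _ _ _ _ hE hF φ a
  letI := algebraAlong φ
  haveI : Module.Finite E F := finiteAlong_hom hE hF φ
  exact exists_norm_eq stmt_DIM hE a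

end Fermat.Agent.NEB.H29
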