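/-
LG-NEB, package PI-ONTO, leaf F1 (helper4).

`Stmt_F1`: a divisor `D` with `∑_{i<n} σ^i • D = 0` (`n > 0`) is of the form `σ • B - B`.
Proof: `q : Div → ℤ[Places/⟨σ⟩]` (push-forward to the orbits) is `σ`-invariant, so
`n • q D = q (∑ σ^i • D) = 0` and `q D = 0`; and `D - s (q D) ∈ (σ - 1) Div` for every `D`
(`s` = push-forward along a section of the orbit map), checked on single places.
-/
import Mathlib
import Fermat.Agent.NEB.H29_PiOntoDefs

set_option autoImplicit false

noncomputable section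

namespace Fermat.Agent.NEB.H4

open AlgebraicCurve

variable {K F : Type} [Field K] [Field F] [Algebra K F]

/-- `B ↦ σ • B - B`. -/
def sigSub (σ : F ≃ₐ[K] F) : Divisor K F →+ Divisor K F :=
  DistribSMul.toAddMonoidHom (Divisor K F) σ - AddMonoidHom.id _

lemma sigSub_apply (σ : F ≃ₐ[K] F) (B : Divisor K F) : sigSub σ B = σ • B - B := rfl

/-- The orbit relation of `⟨σ⟩` on the places. -/
def orbSetoid (σ : F ≃ₐ[K] F) : Setoid (Place K F) :=
  MulAction.orbitRel (Subgroup.zpowers σ) (Place K F)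

/-- The orbit space. -/
abbrev Orb (σ : F ≃ₐ[K] F) : Type := Quotient (orbSetoid σ)

/-- The orbit map. -/
def orbMk (σ : F ≃ₐ[K] F) (v : Place K F) : Orb σ := Quotient.mk (orbSetoid σ) v

lemma orbMk_smul (σ : F ≃ₐ[K] F) (g : F ≃ₐ[K] F) (hg : g ∈ Subgroup.zpowers σ) (v : Place K F) :
    orbMk σ (g • v) = orbMk σ v := by
  apply Quotient.sound
  show g • v ∈ MulAction.orbit (Subgroup.zpowers σ) v
  exact ⟨⟨g, hg⟩, rfl⟩

lemma exists_smul_of_orbMk_eq (σ : F ≃ₐ[K] F) {v w : Place K F} (h : orbMk σ v = orbMk σ w) :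
    ∃ g ∈ Subgroup.zpowers σ, g • w = v := by
  have h1 : v ∈ MulAction.orbit (Subgroup.zpowers σ) w := Quotient.exact h
  obtain ⟨⟨g, hg⟩, hgv⟩ := h1
  exact ⟨g, hg, hgv⟩

/-- Push-forward of divisors to the orbit space. -/
def qMap (σ : F ≃ₐ[K] F) : Divisor K F →+ (Orb σ →₀ ℤ) :=
  Finsupp.mapDomain.addMonoidHom (orbMk σ)

/-- Push-forward along a section of the orbit map. -/
def sMap (σ : F ≃ₐ[K] F) : (Orb σ →₀ ℤ) →+ Divisor K F :=
  Finsupp.mapDomain.addMonoidHom (fun c : Orb σ => Quotient.out c)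

lemma qMap_single (σ : F ≃ₐ[K] F) (v : Place K F) (c : ℤ) :
    qMap σ (Finsupp.single v c) = Finsupp.single (orbMk σ v) c :=
  Finsupp.mapDomain_single

lemma sMap_single (σ : F ≃ₐ[K] F) (o : Orb σ) (c : ℤ) :
    sMap σ (Finsupp.single o c) = Finsupp.single (Quotient.out o) c :=
  Finsupp.mapDomain_single

lemma qMap_smul (σ : F ≃ₐ[K] F) (g : F ≃ₐ[K] F) (hg : g ∈ Subgroup.zpowers σ)
    (D : Divisor K F) : qMap σ (g • D) = qMap σ D := by
  induction D using Finsupp.induction_linear with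
  | zero => simp
  | add D₁ D₂ h₁ h₂ => rw [smul_add, map_add, map_add, h₁, h₂]
  | single v c => rw [Divisor.smul_single, qMap_single, qMap_single, orbMk_smul σ g hg]

/-- The elements `g` with `[g • v] - [v] ∈ (σ - 1) Div` for all `v`. -/
def goodSub (σ : F ≃ₐ[K] F) : Subgroup (F ≃ₐ[K] F) where
  carrier := {g | ∀ v : Place K F,
    (Finsupp.single (g • v) (1 : ℤ) - Finsupp.single v 1 : Divisor K F) ∈ (sigSub σ).range}
  one_mem' := by
    intro v
    rw [one_smul, sub_self]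
    exact zero_mem _
  mul_mem' := by
    intro g h ihg ihh v
    have h1 := ihg (h • v)
    have h2 := ihh v
    have h3 := add_mem h1 h2
    rw [mul_smul]
    convert h3 using 1
    abel
  inv_mem' := by
    intro g ih v
    have h1 := neg_mem (ih (g⁻¹ • v))
    rw [smul_inv_smul] at h1
    convert h1 using 1
    abel

lemma self_mem_goodSub (σ : F ≃ₐ[K] F) : σ ∈ goodSub σ := by
  intro v
  exact ⟨Finsupp.single v 1, by rw [sigSub_apply, Divisor.smul_single]⟩

/-- `[g • v] - [v] ∈ (σ - 1) Div` for `g ∈ ⟨σ⟩`. -/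
lemma single_smul_sub_mem (σ : F ≃ₐ[K] F) (g : F ≃ₐ[K] F) (hg : g ∈ Subgroup.zpowers σ)
    (v : Place K F) : (Finsupp.single (g • v) (1 : ℤ) - Finsupp.single v 1 : Divisor K F)
      ∈ (sigSub σ).range :=
  (Subgroup.zpowers_le.2 (self_mem_goodSub σ)) hg v

/-- `D - s (q D) ∈ (σ - 1) Div`. -/
lemma sub_sMap_qMap_mem (σ : F ≃ₐ[K] F) (D : Divisor K F) :
    D - sMap σ (qMap σ D) ∈ (sigSub σ).range := by
  induction D using Finsupp.induction_linear with
  | zero => simp
  | add D₁ D₂ h₁ h₂ =>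
    have h3 := add_mem h₁ h₂
    rw [map_add, map_add]
    convert h3 using 1
    abel
  | single v c =>
    rw [qMap_single, sMap_single]
    obtain ⟨g, hg, hgv⟩ := exists_smul_of_orbMk_eq σ
      (v := v) (w := Quotient.out (orbMk σ v)) (Quotient.out_eq _).symm
    have h1 := single_smul_sub_mem σ g hg (Quotient.out (orbMk σ v))
    rw [hgv] at h1
    have h2 := zsmul_mem h1 c
    convert h2 using 1
    rw [smul_sub, Finsupp.smul_single, Finsupp.smul_single, smul_eq_mul, mul_one]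

/-- **F1**. -/
theorem stmt_F1 : H29.Stmt_F1 := by
  intro K F _ _ _ σ n hn _ D hD
  have h1 : qMap σ (∑ i ∈ Finset.range n, (σ ^ i) • D) = n • qMap σ D := by
    rw [map_sum, Finset.sum_congr rfl (fun i _ => qMap_smul σ (σ ^ i)
      (Subgroup.pow_mem _ (Subgroup.mem_zpowers σ) i) D), Finset.sum_const, Finset.card_range]
  rw [hD, map_zero] at h1
  have h2 : qMap σ D = 0 := by
    rcases (smul_eq_zero (r := n) (m := qMap σ D)).1 h1.symm with h | h
    · exact absurd h hn.ne'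
    · exact h
  have h3 := sub_sMap_qMap_mem σ D
  rw [h2, map_zero, sub_zero] at h3
  obtain ⟨B, hB⟩ := h3
  exact ⟨B, hB.symm⟩

end Fermat.Agent.NEB.H4
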