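import Mathlib
import Fermat.Agent.NEB.H29_Inv
import Fermat.Agent.NEB.H29_PiOntoDefs

/-!
# LG-NEB, package PI-ONTO, leaf E3 (helper58)

`π_* : Pic⁰(F) → Pic⁰(E)` is onto for every homomorphism `φ : E →ₐ[K] F` of function fields over
an algebraically closed field: every place of `E` lies under a place of `F`
(`H29.exists_place_above`), of residue degree one, so already `π_*` is onto on divisors, and it
preserves the degree.
-/

set_option autoImplicit false
set_option linter.unusedSectionVars false

noncomputable section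

namespace Fermat.Agent.NEB.H58

open AlgebraicCurve Fermat.Agent.RED Fermat.Agent.NEB.H14 Fermat.Agent.NEB.H29

section E3

variable {K E F : Type} [Field K] [Field E] [Field F] [Algebra K E] [Algebra K F] [IsAlgClosed K]

/-- Over an algebraically closed field all residue degrees are one. -/
theorem e3_inertiaDegAlong_eq_one (hF : IsFF K F) (φ : E →ₐ[K] F)
    (hφ : φ.toRingHom.IsIntegral) (w : Place K F) : w.inertiaDegAlong φ hφ = 1 := by
  have h1 : w.deg = 1 := Fermat.Agent.RED.H51.stmt_FFB_deg K F hF w
  let _ := algebraAlong φ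
  have _i1 := isScalarTower_along φ
  have _i2 := isIntegral_along φ hφ
  have h := w.deg_restrict_mul_inertiaDeg (F := E)
  rw [h1] at h
  exact Nat.eq_one_of_mul_eq_one_left h

/-- The push-forward of the divisor of a place is the divisor of the place below. -/
theorem e3_pushD_single (hE : IsFF K E) (hF : IsFF K F) (φ : E →ₐ[K] F) (w : Place K F) (n : ℤ) :
    pushD φ (Finsupp.single w n) =
      Finsupp.single (w.restrictAlong φ (isIntegral_hom hE hF φ)) n := by
  rw [pushD_eq hE hF, Divisor.pushforwardAlong_single,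
    e3_inertiaDegAlong_eq_one hF φ (isIntegral_hom hE hF φ) w, Nat.cast_one, mul_one]

/-- The push-forward is onto on divisors. -/
theorem e3_pushD_surjective (hE : IsFF K E) (hF : IsFF K F) (φ : E →ₐ[K] F) :
    Function.Surjective (pushD φ) := by
  classical
  intro D
  induction D using Finsupp.induction with
  | zero => exact ⟨0, map_zero _⟩
  | single_add v n D _ _ ih =>
    obtain ⟨D', hD'⟩ := ih
    obtain ⟨w, hw⟩ := exists_place_above hE hF φ v
    refine ⟨Finsupp.single w n + D', ?_⟩
    rw [map_add, e3_pushD_single hE hF, hw, hD']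

/-- **E3**: the push-forward `Pic⁰(F) → Pic⁰(E)` is onto. -/
theorem stmt_E3 : Stmt_E3 := by
  intro K E F _ _ _ _ _ _ hE hF φ y
  obtain ⟨D, rfl⟩ := Pic0.mk_surjective y
  obtain ⟨D', hD'⟩ := e3_pushD_surjective hE hF φ (D : Divisor K E)
  have hcorr := isCorr_pushD hE hF φ
  have hdeg : D' ∈ Divisor.degZero (K := K) (F := F) := by
    rw [Divisor.mem_degZero]
    have h1 := hcorr.degMul D'
    rw [one_mul, hD'] at h1
    rw [← h1]
    exact Divisor.mem_degZero.mp D.2
  refine ⟨Pic0.mk ⟨D', hdeg⟩, ?_⟩
  exact picMap_mk_eq hcorr.isGood ⟨D', hdeg⟩ D hD'.symm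

end E3

end Fermat.Agent.NEB.H58
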