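import Mathlib
import Fermat.Agent.NEB.H14_CorrRules
import Fermat.Agent.NEB.H29_PiOntoAlg
import Fermat.Agent.NEB.H29_Tsen
import Fermat.Agent.NEB.H4_F1
import Fermat.Agent.NEB.H58_E3

/-!
# LG-NEB, package PI-ONTO: cyclic covers of function fields (helper29)

`K` algebraically closed, `φ : E → L` a homomorphism of function fields over `K`, `c` a
`K`-automorphism of `L` with `c ^ (p ^ a) = 1`, trivial on `φ E`, with
`φ (Norm x) = ∏_{i < p ^ a} c ^ i x`  (`L / E` cyclic with group `⟨c⟩` of order `p ^ a`).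
`Φ` a correspondence on `L` of degree `d` whose function commutes with `c`, `T₀` an endomorphism of
`Pic⁰(E)` with `π_* ∘ Φ = T₀ ∘ π_*`; `t := Φ - d`, `t₀ := T₀ - d`.

* `pionto_ker`     : `x ∈ ker π_* ⟹ t x ∈ (c - 1) Pic⁰(L)`  (TSEN + F1);
* `stmt_PIONTO_FF` : if `t₀ ^ N₀ Pic⁰(E) ⊆ p Pic⁰(E)`, then `t ^ ((N₀ + 1) p ^ a) Pic⁰(L) ⊆ p Pic⁰(L)`
  and every `y₀ ∈ Pic⁰(E)[p ^ k]` has `t₀ ^ ((N₀ + 1) p ^ a k + 1) y₀ = π_* y`, `y ∈ Pic⁰(L)[p ^ k]`.
-/

set_option autoImplicit false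
set_option linter.style.haveILetI false

noncomputable section

namespace Fermat.Agent.NEB.H29

open AlgebraicCurve Fermat.Agent.RED Fermat.Agent.NEB.H14

section PiOnto

variable {K E L : Type} [Field K] [Field E] [Field L] [Algebra K E] [Algebra K L] [IsAlgClosed K]

omit [IsAlgClosed K] in
/-- A class is zero iff the divisor is principal. -/
theorem pic0_mk_eq_zero_iff (D : Divisor.degZero (K := K) (F := L)) :
    Pic0.mk D = 0 ↔ (D : Divisor K L) ∈ Divisor.principal (K := K) (F := L) := by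
  rw [Pic0.mk, QuotientAddGroup.eq_zero_iff, AddSubgroup.mem_addSubgroupOf]

/-- A correspondence whose function commutes with `c` commutes with `c` on divisors. -/
theorem corr_smul_comm (hL : IsFF K L) {Φ : Divisor K L →+ Divisor K L} {N : L → L} {d : ℤ}
    (hΦ : IsCorr Φ N d) (c : L ≃ₐ[K] L) (hNc : ∀ f, f ≠ 0 → N (c f) = c (N f))
    (D : Divisor K L) : Φ (c • D) = c • Φ D := by
  haveI := hasPD hL
  have h := (hΦ.comp (isCorr_smulD c)).eq ((isCorr_smulD c).comp hΦ) (fun f hf => hNc f hf)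
  exact DFunLike.congr_fun h D

/-- The induced map on `Pic⁰` commutes with `c`. -/
theorem picMap_smul_comm (hL : IsFF K L) {Φ : Divisor K L →+ Divisor K L} {N : L → L} {d : ℤ}
    (hΦ : IsCorr Φ N d) (c : L ≃ₐ[K] L) (hNc : ∀ f, f ≠ 0 → N (c f) = c (N f))
    (x : Pic0 K L) : picMap Φ (c • x) = c • picMap Φ x := by
  obtain ⟨D, rfl⟩ := Pic0.mk_surjective x
  rw [Pic0.smul_mk, picMap_mk hΦ.isGood, picMap_mk hΦ.isGood, Pic0.smul_mk]
  refine congrArg Pic0.mk (Subtype.ext ?_)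
  simp only [coe_degZeroMap, Pic0.coe_degZeroSMulHom]
  exact corr_smul_comm hL hΦ c hNc _

/-- **(KER)**: the kernel of `π_*` is Eisenstein modulo `(c - 1)`. -/
theorem pionto_ker (hE : IsFF K E) (hL : IsFF K L) (φ : E →ₐ[K] L) (c : L ≃ₐ[K] L)
    (n : ℕ) (hn : 0 < n) (hcn : c ^ n = 1)
    (hnorm : ∀ x : L, x ≠ 0 → φ (normFn φ x) = ∏ i : Fin n, (c ^ (i : ℕ)) x)
    {Φ : Divisor K L →+ Divisor K L} {N : L → L} {d : ℤ} (hΦ : IsCorr Φ N d)
    (hNc : ∀ f, f ≠ 0 → N (c f) = c (N f))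
    (x : Pic0 K L) (hx : pushP φ x = 0) :
    ∃ u : Pic0 K L, picMap Φ x - d • x = c • u - u := by
  haveI := hasPD hL
  haveI := hasPD hE
  obtain ⟨D, rfl⟩ := Pic0.mk_surjective x
  have hpush := isCorr_pushD hE hL φ
  -- `π_* D = div e`
  rw [pushP, picMap_mk hpush.isGood, pic0_mk_eq_zero_iff] at hx
  obtain ⟨e, he, hDe⟩ := hx
  simp only [coe_degZeroMap] at hDe
  -- `e = Norm f`
  obtain ⟨f, hf⟩ := stmt_TSEN K E L hE hL φ e
  have hf0 : f ≠ 0 := by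
    rintro rfl
    apply he
    rw [← hf]
    letI := algebraAlong φ
    haveI : Module.Finite E L := finiteAlong_hom hE hL φ
    show Algebra.norm E (0 : L) = 0
    exact Algebra.norm_zero
  -- the divisor of `f`
  obtain ⟨Df, hDf, hDf0⟩ := HasPrincipalDivisors.exists_divisor (K := K) f hf0
  -- `D' := D - div f` is killed by `π_*`
  have h1 : pushD φ ((D : Divisor K L) - Df) = 0 := by
    apply Finsupp.ext
    intro v
    rw [map_sub, Finsupp.sub_apply, hDe v, (hpush.hasFn f hf0).2 Df hDf v, hf, sub_self,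
      Finsupp.zero_apply]
  -- hence by the norm `∑ c^i`
  have h2 : ∑ i ∈ Finset.range n, (c ^ i) • ((D : Divisor K L) - Df) = 0 := by
    have h3 := pullD_comp_pushD_of_norm hE hL φ (fun i : Fin n => c ^ (i : ℕ)) hnorm
    have h4 := DFunLike.congr_fun h3 ((D : Divisor K L) - Df)
    rw [AddMonoidHom.comp_apply, h1, map_zero, AddMonoidHom.finsetSum_apply] at h4
    rw [← Fin.sum_univ_eq_sum_range (fun i => (c ^ i) • ((D : Divisor K L) - Df)) n]
    exact h4.symm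
  -- F1
  obtain ⟨B, hB⟩ := Fermat.Agent.NEB.H4.stmt_F1 K L c n hn hcn _ h2
  -- `τ B := Φ B - d B` has degree zero
  have hτ : Φ B - d • B ∈ Divisor.degZero (K := K) (F := L) := by
    rw [Divisor.mem_degZero, map_sub, hΦ.degMul, map_zsmul, smul_eq_mul, sub_self]
  refine ⟨Pic0.mk ⟨Φ B - d • B, hτ⟩, ?_⟩
  -- the class of `D` is the class of `D'`
  have hDf' : Df ∈ Divisor.degZero (K := K) (F := L) := hDf0
  have hD' : Pic0.mk D = Pic0.mk (D - ⟨Df, hDf'⟩) := by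
    have h5 : Pic0.mk (⟨Df, hDf'⟩ : Divisor.degZero (K := K) (F := L)) = 0 := by
      rw [pic0_mk_eq_zero_iff]
      exact ⟨f, hf0, hDf⟩
    have h6 : D = (D - ⟨Df, hDf'⟩) + ⟨Df, hDf'⟩ := by abel
    rw [h6, Pic0.mk_add, h5, add_zero]
    congr 1
    abel
  rw [hD', picMap_mk hΦ.isGood, Pic0.smul_mk]
  have e1 : ∀ (m : ℤ) (X : Divisor.degZero (K := K) (F := L)), m • Pic0.mk X = Pic0.mk (m • X) :=
    fun m X => rfl
  have e2 : ∀ X Y : Divisor.degZero (K := K) (F := L), Pic0.mk X - Pic0.mk Y = Pic0.mk (X - Y) :=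
    fun X Y => rfl
  rw [e1, e2, e2]
  refine congrArg Pic0.mk (Subtype.ext ?_)
  simp only [AddSubgroup.coe_sub, coe_degZeroMap, Pic0.coe_degZeroSMulHom, AddSubgroup.coe_zsmul]
  rw [hB, map_sub, corr_smul_comm hL hΦ c hNc, smul_sub, smul_sub]
  have e3 : c • (d • B) = d • (c • B) := by
    rw [smul_comm]
  rw [e3]
  abel

/-- The automorphism `c` as an endomorphism of `Pic⁰`. -/
def cEnd (c : L ≃ₐ[K] L) : AddMonoid.End (Pic0 K L) :=
  DistribMulAction.toAddMonoidEnd (L ≃ₐ[K] L) (Pic0 K L) c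

omit [IsAlgClosed K] in
theorem cEnd_apply (c : L ≃ₐ[K] L) (x : Pic0 K L) : cEnd c x = c • x := rfl

/-- An additive endomorphism as an element of the endomorphism ring. -/
def homToEnd {A : Type*} [AddCommGroup A] (T : A →+ A) : AddMonoid.End A := T

theorem homToEnd_apply {A : Type*} [AddCommGroup A] (T : A →+ A) (x : A) :
    homToEnd T x = T x := rfl

/-- `t = Φ - d` as an endomorphism of `Pic⁰`. -/
def tEnd (T : Pic0 K L →+ Pic0 K L) (d : ℤ) : AddMonoid.End (Pic0 K L) :=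
  homToEnd T - (d : AddMonoid.End (Pic0 K L))

omit [IsAlgClosed K] in
theorem tEnd_apply (T : Pic0 K L →+ Pic0 K L) (d : ℤ) (x : Pic0 K L) :
    tEnd T d x = T x - d • x := rfl

/-- **PI-ONTO for a cyclic cover of function fields** of degree `p ^ a`. -/
theorem stmt_PIONTO_FF (hE : IsFF K E) (hL : IsFF K L) (φ : E →ₐ[K] L) (c : L ≃ₐ[K] L)
    (p : ℕ) [Fact p.Prime] (a : ℕ) (hc : c ^ (p ^ a) = 1)
    (hcφ : ∀ x : E, c (φ x) = φ x)
    (hnorm : ∀ x : L, x ≠ 0 → φ (normFn φ x) = ∏ i : Fin (p ^ a), (c ^ (i : ℕ)) x)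
    {Φ : Divisor K L →+ Divisor K L} {N : L → L} {d : ℤ} (hΦ : IsCorr Φ N d)
    (hNc : ∀ f, f ≠ 0 → N (c f) = c (N f))
    (T₀ : Pic0 K E →+ Pic0 K E)
    (hpush : ∀ x : Pic0 K L, pushP φ (picMap Φ x) = T₀ (pushP φ x))
    (N₀ : ℕ) (hdiv₀ : ∀ x₀ : Pic0 K E, ∃ y₀ : Pic0 K E, (tEnd T₀ d ^ N₀) x₀ = p • y₀) :
    (∀ x : Pic0 K L, ∃ y : Pic0 K L, (tEnd (picMap Φ) d ^ ((N₀ + 1) * p ^ a)) x = p • y) ∧
    ∀ (k : ℕ) (y₀ : Pic0 K E), p ^ k • y₀ = 0 →
      ∃ y : Pic0 K L, p ^ k • y = 0 ∧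
        pushP φ y = (tEnd T₀ d ^ ((N₀ + 1) * p ^ a * k + 1)) y₀ := by
  have hp : 0 < p ^ a := pow_pos (Fact.out : p.Prime).pos a
  refine stmt_PIONTO_alg p a N₀ (cEnd c) (tEnd (picMap Φ) d) ?_ ?_ (pushP φ) ?_ ?_
    (tEnd T₀ d) ?_ ?_ hdiv₀
  · -- `c ^ (p ^ a) = 1`
    rw [cEnd, ← map_pow, hc, map_one]
  · -- `c` commutes with `t`
    show cEnd c * tEnd (picMap Φ) d = tEnd (picMap Φ) d * cEnd c
    refine DFunLike.ext _ _ fun x => ?_
    rw [endMul_apply, endMul_apply, cEnd_apply, cEnd_apply, tEnd_apply, tEnd_apply,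
      picMap_smul_comm hL hΦ c hNc, smul_sub, smul_comm]
  · exact fun y => Fermat.Agent.NEB.H58.stmt_E3 K E L hE hL φ y
  · intro x
    have h := pushP_algEquiv hE hL φ (1 : E ≃ₐ[K] E) c (fun x => (hcφ x).symm) x
    rw [one_smul] at h
    exact h
  · intro x
    rw [tEnd_apply, tEnd_apply, map_sub, map_zsmul, hpush]
  · intro x hx
    obtain ⟨u, hu⟩ := pionto_ker hE hL φ c (p ^ a) hp hc hnorm hΦ hNc x hx
    exact ⟨u, hu⟩

end PiOnto

end Fermat.Agent.NEB.H29
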