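import Mathlib
import Fermat.Agent.NEB.H14_JHRelRules
import Fermat.Agent.NEB.H14_JHData
import Fermat.Agent.NEB.H29_InvJH
import Fermat.Agent.NEB.H29_PiOnto
import Fermat.Agent.RED.ES.H95_ES2

/-!
# LG-NEB, package PI-ONTO at the level of `J_H` (helper29)

Instantiation of `stmt_PIONTO_FF` at helper14's relative interface (`NEB/H14_JHRel.lean`,
`H14_JHRelRules.lean`): `H ≤ H'` with `F_H / F_{H'}` cyclic of degree `p ^ a`, generated by the
diamond operator `⟨δ⟩`; `t = T^H_ℓ - (ℓ + 1)`, `ℓ ∤ M` prime.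

* `finrankAlong_betaH` : `[F_H(Mℓ) : β F_H(M)] = ℓ + 1`;
* `stmt_PIONTO_JH`    : twisted divisibility of `J_{H'}` ⟹ twisted divisibility of `J_H` and
  `π_* : J_H[p ^ k] → J_{H'}[p ^ k]` onto up to a power of `t`.
-/

set_option autoImplicit false
set_option linter.style.haveILetI false

noncomputable section

namespace Fermat.Agent.NEB.H29

open AlgebraicCurve ModularCurve
open Fermat.Agent.NEB Fermat.Agent.NEB.H14 Fermat.Agent.NEB.JH Fermat.Agent.RED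

section Cyc

/-- A product over a finite cyclic subgroup, as a product over the exponents. -/
theorem prod_subgroup_eq_prod_fin {G₀ : Type*} [Group G₀] {X : Type*} [CommMonoid X] (c : G₀)
    (G : Subgroup G₀) [Fintype G] (hG : G = Subgroup.zpowers c) (n : ℕ) (hn : orderOf c = n)
    (hn0 : 0 < n) (f : G₀ → X) :
    ∏ g : G, f (g : G₀) = ∏ i : Fin n, f (c ^ (i : ℕ)) := by
  subst hG
  subst hn
  have hfin : IsOfFinOrder c := orderOf_pos_iff.mp hn0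
  exact (Fintype.prod_equiv (finEquivZPowers hfin) (fun i : Fin (orderOf c) => f (c ^ (i : ℕ)))
    (fun g : Subgroup.zpowers c => f (g : G₀))
    (fun i => by rw [finEquivZPowers_apply])).symm

/-- The same for sums. -/
theorem sum_subgroup_eq_sum_fin {G₀ : Type*} [Group G₀] {X : Type*} [AddCommMonoid X] (c : G₀)
    (G : Subgroup G₀) [Fintype G] (hG : G = Subgroup.zpowers c) (n : ℕ) (hn : orderOf c = n)
    (hn0 : 0 < n) (f : G₀ → X) :
    ∑ g : G, f (g : G₀) = ∑ i : Fin n, f (c ^ (i : ℕ)) := by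
  subst hG
  subst hn
  have hfin : IsOfFinOrder c := orderOf_pos_iff.mp hn0
  exact (Fintype.sum_equiv (finEquivZPowers hfin) (fun i : Fin (orderOf c) => f (c ^ (i : ℕ)))
    (fun g : Subgroup.zpowers c => f (g : G₀))
    (fun i => by rw [finEquivZPowers_apply])).symm

end Cyc

section JH

variable {M c ℓ : ℕ} [NeZero M] [NeZero ℓ] {H : Subgroup (ZMod c)ˣ}

/-- `[F_H(Mℓ) : β F_H(M)] = [F₀(Mℓ) : β F₀(M)]` (Galois square). -/
theorem finrankAlong_betaH_eq (hd : HeckeData M c ℓ H) :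
    finrankAlong Kbar (betaBar hd.hβ) = finrankAlong Kbar (heckeBetaBar Kbar M ℓ) := by
  haveI := neZero_mul M ℓ
  haveI := finite_range_rho hd.dd'
  haveI : Fintype hd.dd'.ρ.range := Fintype.ofFinite _
  have h := Fermat.Agent.NEB.H2.stmt_GalSquare Kbar _ _ _ _ (heckeBetaBar Kbar M ℓ)
    (inclBar M c H) (betaBar hd.hβ)
    (inclBar (M * ℓ) c H) (inclBar_comp_beta hd.hβ).symm
    (finiteAlong_hom (isFF0 M) (isFF0 (M * ℓ)) _) hd.dd'.ρ.range ?_ ?_ ?_ ?_ ?_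
  · exact h.2.1
  · intro x hx
    obtain ⟨x₀, hx₀⟩ := hd.dd'.fixed x (fun d => hx _ ⟨d, rfl⟩)
    exact ⟨x₀, hx₀⟩
  · rintro g y ⟨d, rfl⟩
    exact hd.dd'.fix d y
  · rintro g y ⟨d, rfl⟩
    exact ⟨hd.dd.ρ d y, (hd.betaGal d y).symm⟩
  · rintro g ⟨d, rfl⟩ hg
    have h1 : hd.dd.ρ d = 1 := by
      refine AlgEquiv.ext fun y => ?_
      have h2 := hg y
      rw [hd.betaGal d y] at h2
      exact (betaBar hd.hβ).toRingHom.injective h2
    exact (hd.dd'.ker d).mpr ((hd.dd.ker d).mp h1)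
  · intro y hy
    obtain ⟨x₀, hx₀⟩ := hd.dd.fixed y (fun d => by
      have h2 := hy _ ⟨d, rfl⟩
      rw [hd.betaGal d y] at h2
      exact (betaBar hd.hβ).toRingHom.injective h2)
    exact ⟨x₀, hx₀⟩

/-- `[F_H(Mℓ) : β F_H(M)] = ℓ + 1` for a prime `ℓ ∤ M`. -/
theorem finrankAlong_betaH (hd : HeckeData M c ℓ H) (hℓ : ℓ.Prime) (hM : ¬ ℓ ∣ M) :
    finrankAlong Kbar (betaBar hd.hβ) = ℓ + 1 := by
  rw [finrankAlong_betaH_eq hd]
  exact Fermat.Agent.RED.H95.finrankAlong_beta hℓ hM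

/-- `T^H_ℓ` is a correspondence of degree `ℓ + 1`. -/
theorem isCorr_THdiv' (hd : HeckeData M c ℓ H) (hℓ : ℓ.Prime) (hM : ¬ ℓ ∣ M) :
    IsCorr (THdiv hd.hβ) (THfn hd.hβ) ((ℓ + 1 : ℕ) : ℤ) := by
  have h := isCorr_THdiv hd.isFF hd.isFF' hd.hβ
  rwa [one_mul, finrankAlong_betaH hd hℓ hM] at h

end JH

section Rel

variable {M c ℓ : ℕ} [NeZero M] [NeZero c] [NeZero ℓ] {H H' : Subgroup (ZMod c)ˣ}

/-- **PI-ONTO for a cyclic layer `F_H / F_{H'}`** of degree `p ^ a`. -/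
theorem stmt_PIONTO_JH (hH : H ≤ H') (hd : HeckeData M c ℓ H) (hd' : HeckeData M c ℓ H')
    (hℓ : ℓ.Prime) (hM : ¬ ℓ ∣ M)
    (δ : (ZMod c)ˣ) (hgen : relGal hd.dd H' = Subgroup.zpowers (hd.dd.ρ δ))
    (p : ℕ) [Fact p.Prime] (a : ℕ) (hord : orderOf (hd.dd.ρ δ) = p ^ a)
    (N₀ : ℕ)
    (hdiv₀ : ∀ x₀ : JH M c H', ∃ y₀ : JH M c H',
      (tEnd (TH hd'.hβ) ((ℓ + 1 : ℕ) : ℤ) ^ N₀) x₀ = p • y₀) :
    (∀ x : JH M c H, ∃ y : JH M c H,
      (tEnd (TH hd.hβ) ((ℓ + 1 : ℕ) : ℤ) ^ ((N₀ + 1) * p ^ a)) x = p • y) ∧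
    ∀ (k : ℕ) (y₀ : JH M c H'), p ^ k • y₀ = 0 →
      ∃ y : JH M c H, p ^ k • y = 0 ∧
        piDownRel M hH y
          = (tEnd (TH hd'.hβ) ((ℓ + 1 : ℕ) : ℤ) ^ ((N₀ + 1) * p ^ a * k + 1)) y₀ := by
  have hp : 0 < p ^ a := pow_pos (Fact.out : p.Prime).pos a
  haveI := finite_relGal hd.dd H'
  haveI : Fintype (relGal hd.dd H') := Fintype.ofFinite _
  have hnormG := (galNorm_inclRel hH hd.dd hd'.dd (relGal hd.dd H') rfl).2.2
  have hc : hd.dd.ρ δ ^ (p ^ a) = 1 := by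
    rw [← hord]
    exact pow_orderOf_eq_one _
  have hmem : hd.dd.ρ δ ∈ relGal hd.dd H' := by
    rw [hgen]
    exact Subgroup.mem_zpowers _
  obtain ⟨δ', hδ', hδρ⟩ := hmem
  rw [TH_eq_picMap hd.isFF hd.isFF' hd.hβ]
  refine stmt_PIONTO_FF hd'.isFF hd.isFF (inclRel M hH) (hd.dd.ρ δ) p a hc ?_ ?_
    (isCorr_THdiv' hd hℓ hM) ?_ (TH hd'.hβ) ?_ N₀ hdiv₀
  · intro x
    rw [← hδρ]
    exact rho_inclRel_of_mem hH hd.dd hd'.dd hδ' x
  · intro x _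
    rw [hnormG x]
    exact prod_subgroup_eq_prod_fin (hd.dd.ρ δ) (relGal hd.dd H') hgen (p ^ a) hord hp
      (fun g => g x)
  · intro f _
    exact ((opHyp_THfn hd 1).equiv δ f).symm
  · intro x
    rw [← TH_eq_picMap hd.isFF hd.isFF' hd.hβ]
    exact piDownRel_TH hH hd hd' x

end Rel

end Fermat.Agent.NEB.H29
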