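import Mathlib
import Fermat.Agent.NEB.H29_PiOntoJH

/-!
# LG-NEB: the norm step of the tower at the level of `J_H` (helper29)

`H ≤ H₁ ≤ H₂ ≤ (ℤ/c)ˣ`, `F_{H₁} / F_{H₂}` cyclic of degree `p ^ a` generated by `⟨δ⟩`,
`t = T^H_ℓ - (ℓ + 1)` (`ℓ ∤ M` prime), `F_H / F₀` unramified.

* `stmt_INV_JHrel`   : `v ∈ J_H[m]` fixed by `⟨d⟩`, `d ∈ H'`  ⟹  `t v ∈ π^* J_{H'}[m]`;
* `jh_divisible_top` : `J_H` is `p`-divisible if `±H = (ℤ/c)ˣ` and `J₀` is;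
* `stmt_HSTEP_JH`    : `v ∈ J_H[p ^ k]` fixed by `⟨d⟩`, `d ∈ H₂`  ⟹  `t ^ N v = ∑_{i < p ^ a} ⟨δ⟩ ^ i w`
  with `w ∈ J_H[p ^ k]` fixed by `⟨d⟩`, `d ∈ H₁`  (hypothesis `hstep` of `H90.tower_basis`, up to
  the power of `t`, which is invertible at a non-Eisenstein maximal ideal).
-/

set_option autoImplicit false
set_option linter.style.haveILetI false

noncomputable section

namespace Fermat.Agent.NEB.H29

open AlgebraicCurve ModularCurve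
open Fermat.Agent.NEB Fermat.Agent.NEB.H14 Fermat.Agent.NEB.JH Fermat.Agent.RED

section Rel

variable {M c ℓ : ℕ} [NeZero M] [NeZero c] [NeZero ℓ] {H H' : Subgroup (ZMod c)ˣ}

omit [NeZero M] [NeZero c] in
/-- `ρ_H d = 1` for `d ∈ H`. -/
theorem rho_eq_one_of_mem (dd : DiamondData M c H) {d : (ZMod c)ˣ} (hd : d ∈ H) : dd.ρ d = 1 :=
  (dd.ker d).mpr (Or.inl hd)

omit [NeZero M] [NeZero c] in
/-- The Galois group of `F_H / F_{H ⊔ ⟨δ⟩}` is generated by `⟨δ⟩`. -/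
theorem relGal_sup_zpowers (dd : DiamondData M c H) (δ : (ZMod c)ˣ) :
    relGal dd (H ⊔ Subgroup.zpowers δ) = Subgroup.zpowers (dd.ρ δ) := by
  rw [relGal, Subgroup.map_sup, MonoidHom.map_zpowers]
  have h1 : H.map dd.ρ = ⊥ := by
    rw [eq_bot_iff]
    rintro g ⟨d, hd, rfl⟩
    rw [Subgroup.mem_bot]
    exact rho_eq_one_of_mem dd hd
  rw [h1, bot_sup_eq]

/-- **INV** for the relative cover `F_H / F_{H'}`. -/
theorem stmt_INV_JHrel (hH : H ≤ H') (hd : HeckeData M c ℓ H) (hd' : HeckeData M c ℓ H')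
    (hℓ : ℓ.Prime) (hM : ¬ ℓ ∣ M)
    (hunr : ∀ w : Place Kbar ↥(FHbar M c H),
      ∃ x : ↥(modularFunctionFieldBar M), w.ord (inclBar M c H x) = 1)
    (m : ℕ) (hm : m ≠ 0) (y : JH M c H) (hy : (m : ℤ) • y = 0)
    (hyG : ∀ d ∈ H', hd.dd.ρ d • y = y) :
    ∃ y₀ : JH M c H', (m : ℤ) • y₀ = 0 ∧
      piUpRel M hH y₀ = TH hd.hβ y - (ℓ + 1) • y := by
  haveI := finite_units_zmod c
  have hop := opHyp_THfn hd m
  have hop' : OpHyp (hd.dd.ρ.comp H'.subtype) (THfn hd.hβ) m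
      (finrankAlong Kbar (alphaH M c ℓ H)) :=
    ⟨hop.ne_zero, hop.mul, fun d x => hop.equiv (d : (ZMod c)ˣ) x, hop.const⟩
  have h := stmt_INV_FF hd'.isFF hd.isFF (inclRel M hH) (hd.dd.ρ.comp H'.subtype)
    (fun x hx => relFixed hH hd.dd hd'.dd x (fun d hdH => hx ⟨d, hdH⟩))
    (fun w => by
      obtain ⟨x, hx⟩ := hunr w
      exact ⟨inclBar M c H' x, by rw [inclRel_inclBar hH]; exact hx⟩)
    m _ hm (isCorr_THdiv hd.isFF hd.isFF' hd.hβ) hop' y hy (fun d => hyG d d.2)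
  rw [finrankAlong_alphaH hd hℓ hM, ← TH_eq_picMap hd.isFF hd.isFF' hd.hβ] at h
  exact h

omit [NeZero c] in
/-- If `±H = (ℤ/c)ˣ` then `π^* π_* = 1` on `J_H`. -/
theorem piUp_piDown_top (hd : HeckeData M c ℓ H) (htop : ∀ d, d ∈ H ∨ -d ∈ H) (x : JH M c H) :
    piUp M c H (piDown M c H x) = x := by
  have hbot : hd.dd.ρ.range = ⊥ := by
    rw [eq_bot_iff]
    rintro g ⟨d, rfl⟩
    rw [Subgroup.mem_bot]
    exact (hd.dd.ker d).mpr (htop d)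
  haveI : Fintype hd.dd.ρ.range := by
    rw [hbot]
    infer_instance
  have h := piUp_piDown hd.isFF hd.dd hd.dd.ρ.range rfl x
  rw [h]
  have h1 : ∀ g : hd.dd.ρ.range, (g : ↥(FHbar M c H) ≃ₐ[Kbar] ↥(FHbar M c H)) = 1 := by
    intro g
    obtain ⟨d, hdg⟩ := g.2
    rw [← hdg]
    exact (hd.dd.ker d).mpr (htop d)
  have hcard : Fintype.card hd.dd.ρ.range = 1 := by
    rw [Fintype.card_eq_one_iff]
    exact ⟨1, fun g => Subtype.ext (h1 g)⟩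
  rw [Finset.sum_congr rfl (fun g _ => by rw [h1 g, one_smul]), Finset.sum_const,
    Finset.card_univ, hcard, one_smul]

omit [NeZero c] in
/-- **Base of the tower**: if `±H = (ℤ/c)ˣ` then `J_H` is `p`-divisible (as `J₀` is). -/
theorem jh_divisible_top (hd : HeckeData M c ℓ H) (htop : ∀ d, d ∈ H ∨ -d ∈ H) (p : ℕ)
    (hdiv0 : ∀ x : JZero M, ∃ y : JZero M, p • y = x) (x : JH M c H) :
    ∃ y : JH M c H, p • y = x := by
  obtain ⟨y₀, hy₀⟩ := hdiv0 (piDown M c H x)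
  refine ⟨piUp M c H y₀, ?_⟩
  rw [← map_nsmul, hy₀, piUp_piDown_top hd htop]

/-- `π^*` commutes with the powers of `t`. -/
theorem piUpRel_tEnd_pow (hH : H ≤ H') (hd : HeckeData M c ℓ H) (hd' : HeckeData M c ℓ H')
    (d : ℤ) (N : ℕ) (x : JH M c H') :
    piUpRel M hH ((tEnd (TH hd'.hβ) d ^ N) x) = (tEnd (TH hd.hβ) d ^ N) (piUpRel M hH x) := by
  induction N generalizing x with
  | zero => rfl
  | succ N ih =>
    rw [pow_succ, pow_succ, endMul_apply, endMul_apply, ih, tEnd_apply, tEnd_apply, map_sub,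
      map_zsmul, piUpRel_TH hH hd hd']

omit [NeZero c] in
/-- the powers of `t` commute with the diamond operators. -/
theorem tEnd_pow_diamond (hd : HeckeData M c ℓ H) (d : ℤ) (N : ℕ) (δ : (ZMod c)ˣ)
    (x : JH M c H) :
    (tEnd (TH hd.hβ) d ^ N) (hd.dd.ρ δ • x) = hd.dd.ρ δ • (tEnd (TH hd.hβ) d ^ N) x := by
  induction N generalizing x with
  | zero => rfl
  | succ N ih =>
    rw [pow_succ, endMul_apply, endMul_apply, tEnd_apply, tEnd_apply]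
    have h1 := TH_diamond hd δ x
    have e : hd.dd.ρ δ • TH hd.hβ x - hd.dd.ρ δ • d • x
        = hd.dd.ρ δ • (TH hd.hβ x - d • x) := (smul_sub _ _ _).symm
    rw [h1, smul_comm d (hd.dd.ρ δ) x, e, ih]

end Rel

section Step

variable {M c ℓ : ℕ} [NeZero M] [NeZero c] [NeZero ℓ] {H H₁ H₂ : Subgroup (ZMod c)ˣ}

/-- **The norm step of the tower.**  `H ≤ H₁ ≤ H₂`, `F_{H₁} / F_{H₂}` cyclic of degree `p ^ a`
generated by `⟨δ⟩`, `J_{H₂}` divisible up to `t ^ N₀`.  A class `v ∈ J_H[p ^ k]` fixed by `H₂` is,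
up to a power of `t`, the `⟨δ⟩`-norm of a class `w ∈ J_H[p ^ k]` fixed by `H₁`. -/
theorem stmt_HSTEP_JH (hH₁ : H ≤ H₁) (hH₂ : H₁ ≤ H₂)
    (hd : HeckeData M c ℓ H) (hd₁ : HeckeData M c ℓ H₁) (hd₂ : HeckeData M c ℓ H₂)
    (hℓ : ℓ.Prime) (hM : ¬ ℓ ∣ M)
    (hunr : ∀ w : Place Kbar ↥(FHbar M c H),
      ∃ x : ↥(modularFunctionFieldBar M), w.ord (inclBar M c H x) = 1)
    (δ : (ZMod c)ˣ) (hgen : relGal hd₁.dd H₂ = Subgroup.zpowers (hd₁.dd.ρ δ))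
    (p : ℕ) [Fact p.Prime] (a : ℕ) (hord : orderOf (hd₁.dd.ρ δ) = p ^ a)
    (N₀ : ℕ)
    (hdiv₀ : ∀ x₀ : JH M c H₂, ∃ y₀ : JH M c H₂,
      (tEnd (TH hd₂.hβ) ((ℓ + 1 : ℕ) : ℤ) ^ N₀) x₀ = p • y₀)
    (k : ℕ) (v : JH M c H) (hv : p ^ k • v = 0) (hvG : ∀ d ∈ H₂, hd.dd.ρ d • v = v) :
    ∃ w : JH M c H, p ^ k • w = 0 ∧ (∀ d ∈ H₁, hd.dd.ρ d • w = w) ∧
      ∑ i ∈ Finset.range (p ^ a), (hd.dd.ρ δ) ^ i • w
        = (tEnd (TH hd.hβ) ((ℓ + 1 : ℕ) : ℤ) ^ ((N₀ + 1) * p ^ a * k + 1 + 1)) v := by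
  have hp : 0 < p ^ a := pow_pos (Fact.out : p.Prime).pos a
  have hpk : p ^ k ≠ 0 := (pow_pos (Fact.out : p.Prime).pos k).ne'
  -- (1) INV for `H ≤ H₂`
  obtain ⟨v', hv', hvv'⟩ := stmt_INV_JHrel (hH₁.trans hH₂) hd hd₂ hℓ hM hunr (p ^ k) hpk v
    (by rw [natCast_zsmul]; exact hv) hvG
  rw [natCast_zsmul] at hv'
  -- (2) ONTO for `H₁ ≤ H₂`
  obtain ⟨w', hw', hww'⟩ := (stmt_PIONTO_JH hH₂ hd₁ hd₂ hℓ hM δ hgen p a hord N₀ hdiv₀).2 k v' hv'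
  -- (3) pull back to `H`
  refine ⟨piUpRel M hH₁ w', ?_, ?_, ?_⟩
  · rw [← map_nsmul, hw', map_zero]
  · intro d hdH
    exact diamond_piUpRel_of_mem hH₁ hd.isFF hd₁.isFF hd.dd hd₁.dd hdH w'
  · have e1 : ∀ i : ℕ, (hd.dd.ρ δ) ^ i • piUpRel M hH₁ w'
        = piUpRel M hH₁ ((hd₁.dd.ρ δ) ^ i • w') := by
      intro i
      rw [← map_pow, ← map_pow]
      exact (diamond_piUpRel hH₁ hd.isFF hd₁.isFF hd.dd hd₁.dd (δ ^ i) w').symm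
    rw [Finset.sum_congr rfl (fun i _ => e1 i), ← map_sum]
    haveI := finite_relGal hd₁.dd H₂
    haveI : Fintype (relGal hd₁.dd H₂) := Fintype.ofFinite _
    have e2 := piUpRel_piDownRel hH₂ hd₁.isFF hd₂.isFF hd₁.dd hd₂.dd (relGal hd₁.dd H₂) rfl w'
    rw [sum_subgroup_eq_sum_fin (hd₁.dd.ρ δ) (relGal hd₁.dd H₂) hgen (p ^ a) hord hp
      (fun g => g • w'), Fin.sum_univ_eq_sum_range (fun i => (hd₁.dd.ρ δ) ^ i • w') (p ^ a)] at e2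
    rw [← e2, hww', piUpRel_trans hH₁ hH₂ hd.isFF hd₁.isFF hd₂.isFF,
      piUpRel_tEnd_pow (hH₁.trans hH₂) hd hd₂, hvv']
    have e3 : TH hd.hβ v - (ℓ + 1) • v = tEnd (TH hd.hβ) ((ℓ + 1 : ℕ) : ℤ) v := by
      rw [tEnd_apply, natCast_zsmul]
    rw [e3, ← endMul_apply, ← pow_succ]

end Step

end Fermat.Agent.NEB.H29
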