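import Fermat.Agent.Lib.TwistedEisenstein
import Mathlib.NumberTheory.ModularForms.EisensteinSeries.QExpansion

/-!
# NEB, package FH (helper34): the `q`-expansion of `∑_{(c,d)} χ(c) (c z + d)^{-k}`

For a bounded `χ : ℤ → ℂ` with `χ 0 = 0` and `χ (-c) = (-1)^k χ c`, `k ≥ 3`:

  `wEis k (cWeight χ) z = 2 (-2πi)^k / (k-1)! · ∑_{n ≥ 1} (∑_{c e = n} χ(c) e^(k-1)) qⁿ`

(`wEis` = helper96's weighted Eisenstein series, `Lib/TwistedEisenstein.lean`, which supplies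
holomorphy, boundedness at the cusps and the slash rule).  No Gauss sums, no constant term.
-/

set_option autoImplicit false

open UpperHalfPlane hiding I
open ModularForm EisensteinSeries Filter Topology Complex Set
open scoped MatrixGroups Manifold Real Nat

noncomputable section

namespace Fermat.Agent.NEB.H34

open Fermat.Agent.Lib.TwistedEisenstein

/-- The weight function `(c, d) ↦ χ c`. -/
def cWeight (χ : ℤ → ℂ) : (Fin 2 → ℤ) → ℂ := fun v => χ (v 0)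

theorem norm_cWeight_le {χ : ℤ → ℂ} (hχ : ∀ c, ‖χ c‖ ≤ 1) (v : Fin 2 → ℤ) :
    ‖cWeight χ v‖ ≤ 1 := hχ _

/-- The twisted divisor sum `∑_{c ∣ n} χ(c) (n / c) ^ k`. -/
def sigmaChi (χ : ℤ → ℂ) (k n : ℕ) : ℂ :=
  ∑ x ∈ n.divisorsAntidiagonal, χ (x.1 : ℤ) * ((x.2 : ℕ) : ℂ) ^ k

theorem summable_twisted_prod (χ : ℤ → ℂ) (hχ : ∀ c, ‖χ c‖ ≤ 1) (k : ℕ) {r : ℂ} (hr : ‖r‖ < 1) :
    Summable fun c : ℕ+ × ℕ+ ↦ χ ((c.1 : ℕ) : ℤ) * ((c.2 : ℕ) : ℂ) ^ k * r ^ (c.1 * c.2 : ℕ) := by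
  have h := (summable_prod_mul_pow (𝕜 := ℂ) k hr).norm
  refine Summable.of_norm_bounded h fun c => ?_
  rw [mul_assoc, norm_mul]
  exact mul_le_of_le_one_left (norm_nonneg _) (hχ _)

theorem tsum_twisted_prod (χ : ℤ → ℂ) (hχ : ∀ c, ‖χ c‖ ≤ 1) (k : ℕ) {r : ℂ} (hr : ‖r‖ < 1) :
    ∑' c : ℕ+ × ℕ+, χ ((c.1 : ℕ) : ℤ) * ((c.2 : ℕ) : ℂ) ^ k * r ^ (c.1 * c.2 : ℕ) =
      ∑' e : ℕ+, sigmaChi χ k e * r ^ (e : ℕ) := by
  have hs := summable_twisted_prod χ hχ k hr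
  have hs' : Summable fun c : (n : ℕ+) × {x // x ∈ (n : ℕ).divisorsAntidiagonal} ↦
      χ ((c.2.1.1 : ℕ) : ℤ) * ((c.2.1.2 : ℕ) : ℂ) ^ k * r ^ (c.2.1.1 * c.2.1.2) := by
    have := sigmaAntidiagonalEquivProd.summable_iff.mpr hs
    refine this.congr fun c => ?_
    simp [sigmaAntidiagonalEquivProd, divisorsAntidiagonalFactors]
  rw [← sigmaAntidiagonalEquivProd.tsum_eq]
  have e1 : ∑' c : (n : ℕ+) × {x // x ∈ (n : ℕ).divisorsAntidiagonal},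
      χ (((sigmaAntidiagonalEquivProd c).1 : ℕ) : ℤ) *
        (((sigmaAntidiagonalEquivProd c).2 : ℕ) : ℂ) ^ k *
        r ^ ((sigmaAntidiagonalEquivProd c).1 * (sigmaAntidiagonalEquivProd c).2 : ℕ) =
      ∑' c : (n : ℕ+) × {x // x ∈ (n : ℕ).divisorsAntidiagonal},
        χ ((c.2.1.1 : ℕ) : ℤ) * ((c.2.1.2 : ℕ) : ℂ) ^ k * r ^ (c.2.1.1 * c.2.1.2) := by
    refine tsum_congr fun c => ?_
    simp [sigmaAntidiagonalEquivProd, divisorsAntidiagonalFactors]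
  rw [e1, Summable.tsum_sigma hs']
  refine tsum_congr fun n ↦ ?_
  rw [tsum_fintype, sigmaChi, Finset.sum_mul, Finset.univ_eq_attach]
  rw [(n : ℕ).divisorsAntidiagonal.sum_attach
    (fun x : ℕ × ℕ ↦ χ (x.1 : ℤ) * (x.2 : ℂ) ^ k * r ^ (x.1 * x.2))]
  refine Finset.sum_congr rfl fun x hx ↦ ?_
  rw [(Nat.mem_divisorsAntidiagonal.mp hx).1]


theorem summable_prod_cWeight {k : ℕ} (hk : 3 ≤ k) (χ : ℤ → ℂ) (hχ : ∀ c, ‖χ c‖ ≤ 1) (z : ℍ) :
    Summable fun x : ℤ × ℤ ↦ χ x.1 * eisSummand k ![x.1, x.2] z := by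
  have hk' : (3 : ℤ) ≤ (k : ℤ) := by exact_mod_cast hk
  refine (finTwoArrowEquiv ℤ).summable_iff.mp <|
    (summable_term (w := cWeight χ) hk' (norm_cWeight_le hχ) z).congr (fun v ↦ ?_)
  simp [cWeight, show ![v 0, v 1] = v from List.ofFn_inj.mp rfl]

theorem summable_inner {k : ℕ} (hk : 3 ≤ k) (c : ℤ) (z : ℍ) :
    Summable fun d : ℤ ↦ eisSummand k ![c, d] z := by
  have h := (summable_prod_eisSummand hk z)
  exact (h.comp_injective (i := fun d : ℤ => ((c, d) : ℤ × ℤ))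
    (fun a b hab => by simpa using hab))

theorem inner_tsum_neg {k : ℕ} (c : ℤ) (z : ℍ) :
    ∑' d : ℤ, eisSummand k ![-c, d] z = (-1) ^ k * ∑' d : ℤ, eisSummand k ![c, d] z := by
  rw [← tsum_mul_left, ← (Equiv.neg ℤ).tsum_eq]
  refine tsum_congr fun d => ?_
  simp only [eisSummand, Matrix.cons_val_zero, Matrix.cons_val_one, Matrix.cons_val_fin_one,
    _root_.zpow_neg, zpow_natCast, Equiv.neg_apply, Int.cast_neg]
  rw [show (-(c : ℂ) * (z : ℂ) + -(d : ℂ)) = -((c : ℂ) * z + d) by ring, neg_pow, mul_inv,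
    ← inv_pow (-1 : ℂ)]
  have : ((-1 : ℂ))⁻¹ = -1 := by norm_num
  rw [this]

theorem inner_tsum_eq {k : ℕ} (hk : 3 ≤ k) (c : ℕ+) (z : ℍ) :
    ∑' d : ℤ, eisSummand k ![(c : ℤ), d] z = ((-2 * π * I) ^ k / (k - 1)!) *
      ∑' r : ℕ+, ((r : ℕ) : ℂ) ^ (k - 1) * cexp (2 * π * I * z) ^ (c * r : ℕ) := by
  have H := qExpansion_identity_pnat (k := k - 1) (by omega) ⟨c * z, by simpa using z.2⟩
  simp_rw [show k - 1 + 1 = k by omega, one_div] at H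
  simp only [eisSummand, Matrix.cons_val_zero, Matrix.cons_val_one, Matrix.cons_val_fin_one,
    _root_.zpow_neg, zpow_natCast, Int.cast_natCast]
  rw [H]
  congr 1
  refine tsum_congr fun r => ?_
  rw [← Complex.exp_nat_mul, ← Complex.exp_nat_mul]
  congr 2
  push_cast
  ring


/-- **The `q`-expansion of the Eisenstein series `∑ χ(c) (c z + d)^{-k}`** (no constant term,
no Gauss sum): only `χ 0 = 0`, the parity `χ(-c) = (-1)^k χ(c)` and `‖χ‖ ≤ 1` are used. -/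
theorem wEis_cWeight_eq {k : ℕ} (hk : 3 ≤ k) (χ : ℤ → ℂ) (hχ : ∀ c, ‖χ c‖ ≤ 1)
    (hpar : ∀ c, χ (-c) = (-1) ^ k * χ c) (h0 : χ 0 = 0) (z : ℍ) :
    wEis k (cWeight χ) z = 2 * ((-2 * π * I) ^ k / (k - 1)!) *
      ∑' n : ℕ+, sigmaChi χ (k - 1) n * cexp (2 * π * I * z) ^ (n : ℕ) := by
  have hq : ‖cexp (2 * π * I * z)‖ < 1 := norm_exp_two_pi_I_lt_one z
  have hsum := summable_prod_cWeight hk χ hχ z
  unfold wEis
  rw [← (finTwoArrowEquiv ℤ).symm.tsum_eq]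
  simp only [finTwoArrowEquiv_symm_apply, cWeight, Matrix.cons_val_zero]
  rw [Summable.tsum_prod hsum]
  have e0 : ∀ c : ℤ, ∑' d : ℤ, χ c * eisSummand (k : ℤ) ![c, d] z =
      χ c * ∑' d : ℤ, eisSummand (k : ℤ) ![c, d] z := fun c => tsum_mul_left
  simp_rw [e0]
  have hprod : Summable fun c : ℤ => χ c * ∑' d : ℤ, eisSummand k ![c, d] z := by
    have := hsum.prod
    refine this.congr fun c => ?_
    exact e0 c
  rw [tsum_int_eq_zero_add_two_mul_tsum_pnat (fun n ↦ ?_) hprod, h0, zero_mul, zero_add]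
  · rw [← tsum_twisted_prod χ hχ (k - 1) hq,
      Summable.tsum_prod (summable_twisted_prod χ hχ (k - 1) hq)]
    have key : ∀ c : ℕ+, χ ((c : ℕ) : ℤ) * ∑' d : ℤ, eisSummand k ![((c : ℕ) : ℤ), d] z =
        ((-2 * π * I) ^ k / (k - 1)!) * ∑' r : ℕ+, χ ((c : ℕ) : ℤ) * ((r : ℕ) : ℂ) ^ (k - 1) *
          cexp (2 * π * I * z) ^ (c * r : ℕ) := by
      intro c
      have h1 := inner_tsum_eq hk c z
      rw [h1, ← mul_assoc, mul_comm (χ _), mul_assoc, ← tsum_mul_left]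
      congr 1
      refine tsum_congr fun r => ?_
      ring
    have key' : (fun c : ℕ+ => χ ((c : ℕ) : ℤ) * ∑' d : ℤ, eisSummand k ![((c : ℕ) : ℤ), d] z) =
        fun c : ℕ+ => ((-2 * π * I) ^ k / (k - 1)!) * ∑' r : ℕ+, χ ((c : ℕ) : ℤ) *
          ((r : ℕ) : ℂ) ^ (k - 1) * cexp (2 * π * I * z) ^ (c * r : ℕ) := funext key
    rw [key', tsum_mul_left]
    ring
  · rw [inner_tsum_neg, hpar, ← mul_assoc, mul_comm ((-1 : ℂ) ^ k * χ n), ← mul_assoc,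
      ← mul_pow]
    norm_num

end Fermat.Agent.NEB.H34
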