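import Fermat.Agent.NEB.H34_UnrAn
import Fermat.Agent.GTor.H98_ExistFinal
import Fermat.Agent.GTor.Clo.A5
import Fermat.Agent.GTor.H56_Char
import Fermat.Agent.GTor.H56_Inj
import Fermat.Agent.GTor.H58_A1
import Fermat.Agent.GTor.H58_A2
import Fermat.Agent.GTor.H96_Zeta
import Fermat.Agent.RED.H51_Ord

/-!
# NEB, package FH-UNR (helper34), part 3: the character of the twisted Eisenstein series

For `ψ : (ℤ/c)ˣ → ℂˣ` trivial on `±H`, with `ψ^m = 1`, the function `y_ψ^m` (`y_ψ = ∑ ψ(a)⁻¹ e_a`)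
lies in `F₀(M)_ℂ`, has character `γ ↦ ψ(d_γ)⁻¹`, which under `UnrCond` is trivial on parabolic and
elliptic elements; hence (EXIST + INJ) all orders of `y_ψ^m` are divisible by `m`.
-/

set_option autoImplicit false
set_option linter.unusedSectionVars false
set_option linter.unusedVariables false
set_option linter.style.haveILetI false

open UpperHalfPlane ModularForm CongruenceSubgroup ModularCurve AlgebraicCurve
open scoped MatrixGroups ModularForm Manifold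

noncomputable section

namespace Fermat.Agent.NEB.H34

open Fermat.Agent.S23.H22 (Nice)
open Fermat.Agent.GTor
open Fermat.Agent.GTor.H56 (qLaurent_mul qLaurent_injective qLaurent_eq_zero_iff qLaurent_zero
  qLaurent_pow nice_of_gamma0 toModularForm isTwistedForm_of_modularForm zetaPow_zero
  zetaPow_injective)
open Fermat.Agent.NEB.H84

variable {M c : ℕ} [NeZero c] [NeZero M] (H : Subgroup (ZMod c)ˣ)

/-- `a_γ d_γ ≡ 1 mod c` for `γ ∈ Γ₀(M)`, `c ∣ M`. -/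
theorem a_mul_dUnit (hc : c ∣ M) (γ : Gamma0 M) :
    ((((γ : SL(2, ℤ)) 0 0 : ℤ) : ZMod c)) * ((dUnit hc γ : (ZMod c)ˣ) : ZMod c) = 1 := by
  rw [coe_dUnit]
  have hγc : (γ : SL(2, ℤ)) ∈ Gamma0 c := mem_Gamma0_of_dvd hc γ.2
  rw [Gamma0_mem] at hγc
  have hdet := Matrix.SpecialLinearGroup.det_coe (γ : SL(2, ℤ))
  rw [Matrix.det_fin_two] at hdet
  have h2 : ((((γ : SL(2, ℤ)) 0 0 * (γ : SL(2, ℤ)) 1 1 - (γ : SL(2, ℤ)) 0 1 * (γ : SL(2, ℤ)) 1 0
      : ℤ)) : ZMod c) = 1 := by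
    have := congrArg (fun x : ℤ => (x : ZMod c)) hdet
    simpa using this
  push_cast at h2
  rw [hγc, mul_zero, sub_zero] at h2
  exact h2

/-- Under `UnrCond`, `d_γ ∈ ±H` for parabolic and elliptic `γ`. -/
theorem dUnit_mem_of_unrCond (hc : c ∣ M) (hU : UnrCond M c H) (γ : Gamma0 M)
    (hγ : IsOfFinOrder γ ∨ ((γ : SL(2, ℤ)) 0 0 + (γ : SL(2, ℤ)) 1 1) ^ 2 = 4) :
    dUnit hc γ ∈ H ∨ -dUnit hc γ ∈ H := by
  obtain ⟨h, hh, h1 | h1⟩ := hU γ hγ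
  · left
    have h2 := a_mul_dUnit hc γ
    rw [h1, one_mul, ← Units.val_mul, ← Units.val_one, Units.val_inj] at h2
    have : dUnit hc γ = h⁻¹ := eq_inv_of_mul_eq_one_right h2
    rw [this]
    exact H.inv_mem hh
  · right
    have h2 := a_mul_dUnit hc γ
    rw [h1, one_mul, neg_mul, ← mul_neg, ← Units.val_neg, ← Units.val_mul, ← Units.val_one,
      Units.val_inj] at h2
    have : -dUnit hc γ = h⁻¹ := eq_inv_of_mul_eq_one_right h2
    rw [this]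
    exact H.inv_mem hh

/-- The multiplier character `γ ↦ ψ(d_γ)⁻¹` of the twisted Eisenstein series. -/
def multChar (hc : c ∣ M) (ψ : (ZMod c)ˣ →* ℂˣ) : Gamma0 M →* ℂˣ :=
  ψ.comp ((invMonoidHom : (ZMod c)ˣ →* (ZMod c)ˣ).comp (dUnit hc))

theorem multChar_apply (hc : c ∣ M) (ψ : (ZMod c)ˣ →* ℂˣ) (γ : Gamma0 M) :
    multChar hc ψ γ = ψ (dUnit hc γ)⁻¹ := rfl

/-- The twisted Eisenstein series is a twisted form. -/
theorem isTwistedForm_RAn (hc : c ∣ M) (ψ : (ZMod c)ˣ →* ℂˣ) {m : ℕ}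
    (φ : Additive (Gamma0 M) →+ ZMod m)
    (hφ : ∀ γ : Gamma0 M, zetaPow m (φ (Additive.ofMul γ)) = ((multChar hc ψ γ : ℂˣ) : ℂ)) :
    IsTwistedForm M m 4 φ (RAn H ψ) where
  mdiff := (isW_RAn H hc ψ).mdiff
  slash γ := by rw [RAn_slash H hc ψ γ, hφ γ, multChar_apply]
  bdd := (isW_RAn H hc ψ).bdd

/-- The denominator `C • E₄` as a modular form on `Γ₀(M)`. -/
def denForm (M : ℕ) [NeZero M] : ModularForm (Gamma0 M) 4 :=
  toModularForm0 (isW_smul (isW_levelOne M (E₄ : ModularForm 𝒮ℒ 4)) Fermat.Agent.NEB.H29.eisConst)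
    (fun γ _ => by
      rw [ModularForm.SL_smul_slash, slash_levelOne'])

theorem denForm_coe (M : ℕ) [NeZero M] :
    (denForm M : ℍ → ℂ) = Fermat.Agent.NEB.H29.eisConst • ((E₄ : ModularForm 𝒮ℒ 4) : ℍ → ℂ) := rfl

theorem denForm_ne_zero (M : ℕ) [NeZero M] : denForm M ≠ 0 := by
  intro h
  have h1 : (denForm M : ℍ → ℂ) = 0 := by rw [h]; rfl
  rw [denForm_coe] at h1
  rcases smul_eq_zero.mp h1 with h2 | h2
  · exact Fermat.Agent.NEB.H29.eisConst_ne_zero h2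
  · exact E4_fun_ne_zero h2

theorem qLaurent_denForm (M : ℕ) [NeZero M] :
    qLaurent (denForm M : ℍ → ℂ) = Fermat.Agent.NEB.H29.eisConst •
      qLaurent ((E₄ : ModularForm 𝒮ℒ 4) : ℍ → ℂ) := by
  rw [denForm_coe, qLaurent_smul (isW_levelOne M (E₄ : ModularForm 𝒮ℒ 4)).nice]

theorem qLaurent_denForm_ne_zero (M : ℕ) [NeZero M] : qLaurent (denForm M : ℍ → ℂ) ≠ 0 := by
  rw [Ne, qLaurent_eq_zero_iff (nice_of_gamma0 (denForm M))]
  intro h
  exact denForm_ne_zero M (DFunLike.coe_injective h)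

/-- The key identity `q(Rᵐ) = y_ψᵐ · q(Bᵐ)`. -/
theorem qLaurent_RAn_pow [Fact (1 < c)] (hc : c ∣ M) (ψ : (ZMod c)ˣ →* ℂˣ) (m : ℕ) :
    qLaurent (fun z => RAn H ψ z ^ m) =
      yC H ψ ^ m * qLaurent (fun z => (denForm M) z ^ m) := by
  rw [qLaurent_pow (isW_RAn H hc ψ).nice, qLaurent_pow (nice_of_gamma0 (denForm M)),
    qLaurent_RAn H hc ψ, qLaurent_denForm, mul_pow]

/-- `y_ψᵐ ∈ F₀(M)_ℂ` if `ψᵐ = 1`. -/
theorem exists_FNL_yC_pow [Fact (1 < c)] (hc : c ∣ M) (ψ : (ZMod c)ˣ →* ℂˣ) {m : ℕ} (hm : m ≠ 0)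
    (hψm : ∀ a, ψ a ^ m = 1) :
    ∃ (φ : Additive (Gamma0 M) →+ ZMod m) (f : FNL ℂ M),
      (∀ γ : Gamma0 M, zetaPow m (φ (Additive.ofMul γ)) = ((multChar hc ψ γ : ℂˣ) : ℂ)) ∧
      (f : LaurentSeries ℂ) = yC H ψ ^ m ∧ HasChar M m f φ := by
  obtain ⟨φ, hφ⟩ := Fermat.Agent.GTor.H96.exists_additive_of_character (G := Gamma0 M) hm
    (multChar hc ψ) (fun γ => by rw [multChar_apply]; exact hψm _)
  have hR := isTwistedForm_RAn H hc ψ φ hφ
  have hB := isTwistedForm_of_modularForm m (denForm M)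
  have hBne : toModularForm hB.pow ≠ 0 := by
    intro h
    have h1 : (fun z => (denForm M) z ^ m) = (0 : ℍ → ℂ) := by
      have := congrArg (fun F : ModularForm (Gamma0 M) ((m : ℤ) * 4) => (F : ℍ → ℂ)) h
      exact this
    have h2 : qLaurent (fun z => (denForm M) z ^ m) = 0 := by rw [h1, qLaurent_zero]
    rw [qLaurent_pow (nice_of_gamma0 (denForm M))] at h2
    exact qLaurent_denForm_ne_zero M (pow_eq_zero_iff hm |>.mp h2)
  obtain ⟨f, -, hf⟩ := Fermat.Agent.GTor.H58.stmt_A2 (N := M) _ (toModularForm hR.pow)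
    (toModularForm hB.pow) hBne
  have hf' : qLaurent (fun z => RAn H ψ z ^ m)
      = (f : LaurentSeries ℂ) * qLaurent (fun z => (denForm M) z ^ m) := hf
  have hne : qLaurent (fun z => (denForm M) z ^ m) ≠ 0 := by
    rw [qLaurent_pow (nice_of_gamma0 (denForm M))]
    exact pow_ne_zero _ (qLaurent_denForm_ne_zero M)
  have hfy : (f : LaurentSeries ℂ) = yC H ψ ^ m := by
    have := hf'.symm.trans (qLaurent_RAn_pow H hc ψ m)
    exact mul_right_cancel₀ hne this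
  exact ⟨φ, f, hφ, hfy, 4, RAn H ψ, denForm M, hR, denForm_ne_zero M, hf'⟩

/-- Powers of a function with a character. -/
theorem hasChar_npow {N n : ℕ} [NeZero N] {g : FNL ℂ N}
    {φ : Additive (Gamma0 N) →+ ZMod n} (hg : HasChar N n g φ) (j : ℕ) :
    HasChar N n (g ^ j) (j • φ) := by
  induction j with
  | zero =>
    have := Fermat.Agent.GTor.H56.hasChar_pow (n := n) (Fermat.Agent.GTor.H58.stmt_A1 N)
      (1 : FNL ℂ N)
    simpa using this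
  | succ j ih =>
    rw [pow_succ, succ_nsmul]
    exact Fermat.Agent.GTor.H56.hasChar_mul ih hg

/-- **A function whose character is trivial on parabolic and elliptic elements is unramified.** -/
theorem dvd_ord_of_hasChar {N n : ℕ} [NeZero N] (hn : n ≠ 0) {f : FNL ℂ N} (hf0 : f ≠ 0)
    {φ : Additive (Gamma0 N) →+ ZMod n} (hφ : φ ∈ homPE (Gamma0 N) (ZMod n))
    (hf : HasChar N n f φ) (v : Place ℂ (FNL ℂ N)) : (n : ℤ) ∣ v.ord f := by
  obtain ⟨g, hg⟩ := Fermat.Agent.GTor.H98.exist hn (Fermat.Agent.GTor.H58.stmt_A2 N)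
    (Fermat.Agent.GTor.Clo.stmt_A5 N) φ hφ
  have hg0 : ((g : (FNL ℂ N)ˣ) : FNL ℂ N) ≠ 0 := Units.ne_zero _
  have h1 := Fermat.Agent.GTor.H56.hasChar_mul hf (hasChar_npow hg (n - 1))
  have h2 : φ + (n - 1) • φ = 0 := by
    have : φ + (n - 1) • φ = n • φ := by
      rw [← succ_nsmul', Nat.sub_add_cancel (Nat.one_le_iff_ne_zero.mpr hn)]
    rw [this]
    ext γ
    simp
  rw [h2] at h1
  have hfg : f * ((g : (FNL ℂ N)ˣ) : FNL ℂ N) ^ (n - 1) ≠ 0 :=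
    mul_ne_zero hf0 (pow_ne_zero _ hg0)
  obtain ⟨h, hh⟩ := Fermat.Agent.GTor.H56.stmt_INJ (n := n) (Fermat.Agent.GTor.H58.stmt_A2 N) _ hfg h1
  have hh0 : h ≠ 0 := by
    intro h0
    rw [h0, zero_pow hn] at hh
    exact hfg hh
  have e1 : v.ord (f * ((g : (FNL ℂ N)ˣ) : FNL ℂ N) ^ (n - 1)) = v.ord (h ^ n) := by rw [hh]
  rw [v.ord_mul hf0 (pow_ne_zero _ hg0), Fermat.Agent.RED.H51.ord_pow v,
    Fermat.Agent.RED.H51.ord_pow v] at e1
  obtain ⟨t, ht⟩ := (mem_unrSubgroup ℂ (FNL ℂ N)).mp g.2 v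
  rw [ht] at e1
  exact ⟨v.ord h - ((n - 1 : ℕ) : ℤ) * t, by linear_combination e1⟩

/-- **FH-UNR over `ℂ`**: under `UnrCond`, for `ψ` trivial on `±H` with `ψᵐ = 1`, all orders of
`y_ψᵐ ∈ F₀(M)_ℂ` are divisible by `m`. -/
theorem dvd_ord_yC_pow [Fact (1 < c)] (hc : c ∣ M) (hU : UnrCond M c H) (ψ : (ZMod c)ˣ →* ℂˣ)
    {m : ℕ} (hm : m ≠ 0) (hψm : ∀ a, ψ a ^ m = 1)
    (hψH : ∀ d : (ZMod c)ˣ, (d ∈ H ∨ -d ∈ H) → ψ d = 1) :
    ∃ f : FNL ℂ M, (f : LaurentSeries ℂ) = yC H ψ ^ m ∧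
      (f ≠ 0 → ∀ v : Place ℂ (FNL ℂ M), (m : ℤ) ∣ v.ord f) := by
  obtain ⟨φ, f, hφ, hfy, hchar⟩ := exists_FNL_yC_pow H hc ψ hm hψm
  refine ⟨f, hfy, fun hf0 v => dvd_ord_of_hasChar hm hf0 ?_ hchar v⟩
  have key : ∀ γ : Gamma0 M,
      (IsOfFinOrder γ ∨ ((γ : SL(2, ℤ)) 0 0 + (γ : SL(2, ℤ)) 1 1) ^ 2 = 4) →
      φ (Additive.ofMul γ) = 0 := by
    intro γ hγ
    apply zetaPow_injective hm
    rw [hφ γ, multChar_apply, zetaPow_zero]
    have h1 := dUnit_mem_of_unrCond H hc hU γ hγ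
    have h2 : ψ (dUnit hc γ) = 1 := hψH _ h1
    rw [map_inv, h2, inv_one, Units.val_one]
  refine ⟨fun γ hγ => key γ (Or.inr ?_), fun γ hγ => key γ (Or.inl hγ)⟩
  rw [Matrix.trace_fin_two] at hγ
  exact hγ

end Fermat.Agent.NEB.H34
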