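import Fermat.Agent.NEB.H84_Rho

/-!
# NEB, package FH-GAL, part 7 (helper84): the kernel of the diamond operators is `±H`

* `eisGen_inj` : `e_S = e_{S'}` implies `1 ∈ S ↔ 1 ∈ S'` (coefficient of `q¹`);
* `rho_eq_one_iff` : `ρ d = 1 ↔ d ∈ H ∨ -d ∈ H`.
-/

set_option autoImplicit false
set_option linter.unusedSectionVars false

open UpperHalfPlane ModularForm CongruenceSubgroup ModularCurve
open scoped MatrixGroups ModularForm Manifold

noncomputable section

namespace Fermat.Agent.NEB.H84

section Inj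

variable {c : ℕ}

theorem eisNum_eq_of_eisGen_eq {S S' : Set (ZMod c)} (h : eisGen c S = eisGen c S') :
    eisNum c S = eisNum c S' := by
  have h1 : (eisQuot c S).map (Int.castRingHom ℚ) = (eisQuot c S').map (Int.castRingHom ℚ) :=
    HahnSeries.ofPowerSeries_injective h
  have h2 : eisQuot c S = eisQuot c S' :=
    PowerSeries.map_injective (Int.castRingHom ℚ) Int.cast_injective h1
  have h3 : eisenstein4.invOfUnit 1 * eisenstein4 = 1 := by
    rw [mul_comm]
    exact PowerSeries.mul_invOfUnit _ _ (by simp)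
  have e : ∀ T : Set (ZMod c), eisNum c T = eisQuot c T * eisenstein4 := by
    intro T
    rw [eisQuot, mul_assoc, h3, mul_one]
  rw [e, e, h2]

open scoped Classical in
theorem eisCoeff_one (S : Set (ZMod c)) :
    eisCoeff c S 1 = if (1 : ZMod c) ∈ S then 1 else 0 := by
  rw [eisCoeff]
  simp

theorem one_mem_iff_of_eisGen_eq {S S' : Set (ZMod c)} (h : eisGen c S = eisGen c S') :
    (1 : ZMod c) ∈ S ↔ (1 : ZMod c) ∈ S' := by
  classical
  have h1 := congrArg (PowerSeries.coeff 1) (eisNum_eq_of_eisGen_eq h)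
  rw [eisNum, eisNum, PowerSeries.coeff_mk, PowerSeries.coeff_mk, eisCoeff_one, eisCoeff_one] at h1
  by_cases hS : (1 : ZMod c) ∈ S <;> by_cases hS' : (1 : ZMod c) ∈ S' <;>
    simp [hS, hS'] at h1 ⊢

theorem coeffEmb_Kbar_injective : Function.Injective (coeffEmb Kbar) := by
  intro x y h
  ext n
  have := congrArg (fun z => z.coeff n) h
  simp only [coeffEmb_coeff] at this
  exact (algebraMap ℚ Kbar).injective this

end Inj

section Coset

variable {c : ℕ} (H : Subgroup (ZMod c)ˣ)

omit H in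
theorem mul_neg_inv_unit (d : (ZMod c)ˣ) : d * (-d)⁻¹ = -1 := by
  have h1 : (-d) * (-d)⁻¹ = 1 := mul_inv_cancel _
  rw [neg_mul] at h1
  rw [← h1, neg_neg]

theorem one_mem_cosetSet_iff (d : (ZMod c)ˣ) :
    (1 : ZMod c) ∈ cosetSet c H d ↔ (d ∈ H ∨ -d ∈ H) := by
  constructor
  · rintro ⟨h, hh, h1 | h1⟩
    · left
      have : d * h = 1 := by
        apply Units.ext
        rw [← h1, Units.val_one]
      have hd : d = h⁻¹ := eq_inv_of_mul_eq_one_left this
      rw [hd]
      exact H.inv_mem hh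
    · right
      have : (-d) * h = 1 := by
        apply Units.ext
        rw [Units.val_mul, Units.val_neg, neg_mul, ← Units.val_mul, ← h1, Units.val_one]
      have hd : -d = h⁻¹ := eq_inv_of_mul_eq_one_left this
      rw [hd]
      exact H.inv_mem hh
  · rintro (hd | hd)
    · refine ⟨d⁻¹, H.inv_mem hd, Or.inl ?_⟩
      rw [mul_inv_cancel, Units.val_one]
    · refine ⟨(-d)⁻¹, H.inv_mem hd, Or.inr ?_⟩
      have : d * (-d)⁻¹ = -1 := mul_neg_inv_unit d
      rw [this, Units.val_neg, Units.val_one, neg_neg]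

theorem cosetSet_mul_of_mem (a d : (ZMod c)ˣ) (hd : d ∈ H ∨ -d ∈ H) :
    cosetSet c H (a * d) = cosetSet c H a := by
  ext x
  constructor
  · rintro ⟨h, hh, h1 | h1⟩
    · rcases hd with hd | hd
      · exact ⟨d * h, H.mul_mem hd hh, Or.inl (by rw [h1, mul_assoc])⟩
      · refine ⟨(-d) * h, H.mul_mem hd hh, Or.inr ?_⟩
        rw [h1]
        simp only [Units.val_mul, Units.val_neg]
        ring
    · rcases hd with hd | hd
      · exact ⟨d * h, H.mul_mem hd hh, Or.inr (by rw [h1, mul_assoc])⟩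
      · refine ⟨(-d) * h, H.mul_mem hd hh, Or.inl ?_⟩
        rw [h1]
        simp only [Units.val_mul, Units.val_neg]
        ring
  · rintro ⟨h, hh, h1 | h1⟩
    · rcases hd with hd | hd
      · refine ⟨d⁻¹ * h, H.mul_mem (H.inv_mem hd) hh, Or.inl ?_⟩
        rw [h1]
        congr 1
        rw [mul_assoc, mul_inv_cancel_left]
      · refine ⟨(-d)⁻¹ * h, H.mul_mem (H.inv_mem hd) hh, Or.inr ?_⟩
        rw [h1]
        have : a * d * ((-d)⁻¹ * h) = -(a * h) := by
          have h2 : d * (-d)⁻¹ = -1 := mul_neg_inv_unit d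
          rw [mul_assoc, ← mul_assoc d, h2]
          simp
        rw [this, Units.val_neg, neg_neg]
    · rcases hd with hd | hd
      · refine ⟨d⁻¹ * h, H.mul_mem (H.inv_mem hd) hh, Or.inr ?_⟩
        rw [h1]
        congr 2
        rw [mul_assoc, mul_inv_cancel_left]
      · refine ⟨(-d)⁻¹ * h, H.mul_mem (H.inv_mem hd) hh, Or.inl ?_⟩
        rw [h1]
        have : a * d * ((-d)⁻¹ * h) = -(a * h) := by
          have h2 : d * (-d)⁻¹ = -1 := mul_neg_inv_unit d
          rw [mul_assoc, ← mul_assoc d, h2]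
          simp
        rw [this, Units.val_neg]

end Coset

section Kernel

variable {M c : ℕ} [NeZero M] (H : Subgroup (ZMod c)ˣ) (ι : Kbar →+* ℂ)
  (hc2 : 2 ≤ c) (hc : c ∣ M)

theorem rho_eq_one_iff (d : (ZMod c)ˣ) :
    rho H ι hc2 hc d = 1 ↔ (d ∈ H ∨ -d ∈ H) := by
  constructor
  · intro h
    have h1 : rho H ι hc2 hc d (genBar M c H 1) = genBar M c H 1 := by
      rw [h]
      rfl
    rw [rho_gen, one_mul] at h1
    have h2 : coeffEmb Kbar (eisGen c (cosetSet c H d)) =
        coeffEmb Kbar (eisGen c (cosetSet c H 1)) := congrArg Subtype.val h1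
    have h3 := one_mem_iff_of_eisGen_eq (coeffEmb_Kbar_injective h2)
    rw [one_mem_cosetSet_iff, one_mem_cosetSet_iff] at h3
    exact h3.mpr (Or.inl H.one_mem)
  · intro hd
    apply AlgEquiv.ext
    intro x
    rw [rho_apply]
    have : rhoHom H ι hc2 hc d = AlgHom.id Kbar _ := by
      apply algHom_ext_FHbar
      · intro x₀
        rw [rhoHom_incl, AlgHom.id_apply]
      · intro a
        rw [rhoHom_gen, AlgHom.id_apply]
        apply Subtype.ext
        show coeffEmb Kbar (eisGen c (cosetSet c H (a * d))) =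
          coeffEmb Kbar (eisGen c (cosetSet c H a))
        rw [cosetSet_mul_of_mem H a d hd]
    rw [this]
    rfl

end Kernel

end Fermat.Agent.NEB.H84
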