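import Fermat.Agent.NEB.Defs
import Fermat.Agent.NEB.H34_TwSum

/-!
# Item 72, LG-NEB, package FH-AN (helper29): `Stmt_FH_an`

The lattice Eisenstein series `eisAn c S (z) = ∑_{(m,n), m mod c ∈ S} (m z + n)⁻⁴` (`0 ∉ S = -S`) is
helper96's weighted Eisenstein series for the weight `(m, n) ↦ 1_S(m)`; holomorphy, boundedness at
the cusps and the slash rule come from `Lib/TwistedEisenstein.lean`, the `q`-expansion from
helper34's `wEis_cWeight_eq`.
-/

set_option autoImplicit false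

open UpperHalfPlane hiding I
open ModularForm EisensteinSeries Filter Topology Complex Set
open scoped MatrixGroups Manifold Real Nat

noncomputable section

namespace Fermat.Agent.NEB.H29

open Fermat.Agent.Lib.TwistedEisenstein Fermat.Agent.NEB.H34

open scoped Classical in
/-- The indicator function of `{m : m mod c ∈ S}`. -/
def chiS (c : ℕ) (S : Set (ZMod c)) (m : ℤ) : ℂ := if ((m : ℤ) : ZMod c) ∈ S then 1 else 0

theorem norm_chiS_le (c : ℕ) (S : Set (ZMod c)) (m : ℤ) : ‖chiS c S m‖ ≤ 1 := by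
  unfold chiS
  split_ifs <;> simp

theorem chiS_zero (c : ℕ) (S : Set (ZMod c)) (h0 : (0 : ZMod c) ∉ S) : chiS c S 0 = 0 := by
  unfold chiS
  rw [if_neg]
  simpa using h0

theorem chiS_neg (c : ℕ) (S : Set (ZMod c)) (hS : ∀ x, x ∈ S → -x ∈ S) (m : ℤ) :
    chiS c S (-m) = chiS c S m := by
  classical
  unfold chiS
  have : (((-m : ℤ)) : ZMod c) ∈ S ↔ ((m : ℤ) : ZMod c) ∈ S := by
    constructor
    · intro h
      have := hS _ h
      simpa using this
    · intro h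
      have := hS _ h
      simpa using this
  simp only [this]

/-- `eisAn` is a weighted Eisenstein series. -/
theorem eisAn_eq_wEis (c : ℕ) (S : Set (ZMod c)) :
    eisAn c S = wEis 4 (cWeight (chiS c S)) := by
  classical
  funext z
  unfold eisAn wEis
  rw [← (finTwoArrowEquiv ℤ).symm.tsum_eq]
  refine tsum_congr fun v => ?_
  simp only [finTwoArrowEquiv_symm_apply, cWeight, chiS, eisSummand, Matrix.cons_val_zero,
    Matrix.cons_val_one]
  split_ifs <;> simp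

theorem norm_cWeight_chiS_le (c : ℕ) (S : Set (ZMod c)) (v : Fin 2 → ℤ) :
    ‖cWeight (chiS c S) v‖ ≤ 1 := norm_chiS_le c S _

theorem eisAn_mdifferentiable (c : ℕ) (S : Set (ZMod c)) : MDiff (eisAn c S) := by
  rw [eisAn_eq_wEis]
  exact wEis_mdifferentiable (by norm_num) (norm_cWeight_chiS_le c S)

theorem eisAn_isBoundedAtImInfty_slash (c : ℕ) (S : Set (ZMod c)) (σ : SL(2, ℤ)) :
    IsBoundedAtImInfty (eisAn c S ∣[(4 : ℤ)] σ) := by
  rw [eisAn_eq_wEis]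
  exact isBoundedAtImInfty_wEis_slash (by norm_num) (norm_cWeight_chiS_le c S) σ

/-! ### The slash rule for `Γ₀(c)` -/

open Matrix in
theorem cast_vecMul_inv_zero (c : ℕ) (γ : CongruenceSubgroup.Gamma0 c) (v : Fin 2 → ℤ) :
    ((((v ᵥ* (((γ : SL(2, ℤ))⁻¹ : SL(2, ℤ)) : Matrix (Fin 2) (Fin 2) ℤ)) 0 : ℤ)) : ZMod c)
      = ((((γ : SL(2, ℤ)) 1 1 : ℤ)) : ZMod c) * ((v 0 : ℤ) : ZMod c) := by
  set A : SL(2, ℤ) := (γ : SL(2, ℤ)) with hA
  set w := v ᵥ* ((A⁻¹ : SL(2, ℤ)) : Matrix (Fin 2) (Fin 2) ℤ) with hw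
  have hv : v = w ᵥ* (A : Matrix (Fin 2) (Fin 2) ℤ) := (vecMul_inv_vecMul A v).symm
  have hv0 : v 0 = w 0 * A 0 0 + w 1 * A 1 0 := by
    rw [hv]
    simp [Matrix.vecMul, Matrix.vec2_dotProduct]
  have hc : ((A 1 0 : ℤ) : ZMod c) = 0 := CongruenceSubgroup.Gamma0_mem.mp γ.2
  have hdet : A 0 0 * A 1 1 - A 0 1 * A 1 0 = 1 := by
    have := A.det_coe
    rwa [Matrix.det_fin_two] at this
  have hdet' : ((A 0 0 : ℤ) : ZMod c) * ((A 1 1 : ℤ) : ZMod c) = 1 := by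
    have := congrArg (fun x : ℤ => (x : ZMod c)) hdet
    simp only [Int.cast_sub, Int.cast_mul, Int.cast_one, hc, mul_zero, sub_zero] at this
    exact this
  rw [hv0]
  push_cast
  rw [hc, mul_zero, add_zero]
  calc ((w 0 : ℤ) : ZMod c) = (w 0 : ZMod c) * (((A 0 0 : ℤ) : ZMod c) * ((A 1 1 : ℤ) : ZMod c)) := by
        rw [hdet', mul_one]
    _ = ((A 1 1 : ℤ) : ZMod c) * ((w 0 : ZMod c) * ((A 0 0 : ℤ) : ZMod c)) := by ring

theorem eisAn_slash_Gamma0 (c : ℕ) (S : Set (ZMod c)) (γ : CongruenceSubgroup.Gamma0 c) :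
    eisAn c S ∣[(4 : ℤ)] (γ : SL(2, ℤ)) =
      eisAn c {x | ((((γ : SL(2, ℤ)) 1 1 : ℤ) : ZMod c)) * x ∈ S} := by
  classical
  rw [eisAn_eq_wEis, eisAn_eq_wEis, wEis_slash]
  congr 1
  funext v
  rw [wSlash_apply]
  simp only [cWeight, chiS, Set.mem_ofPred_eq]
  rw [cast_vecMul_inv_zero c γ v]

/-! ### The `q`-expansion -/

theorem eisCoeff_eq_sigmaChi (c : ℕ) (S : Set (ZMod c)) (n : ℕ) :
    ((eisCoeff c S n : ℤ) : ℂ) = sigmaChi (chiS c S) 3 n := by
  classical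
  unfold eisCoeff sigmaChi chiS
  rw [Nat.sum_divisorsAntidiagonal
    (fun a b => (if (((a : ℕ) : ℤ) : ZMod c) ∈ S then (1 : ℂ) else 0) * ((b : ℕ) : ℂ) ^ 3),
    Int.cast_sum]
  refine Finset.sum_congr rfl fun m _ => ?_
  have hP : ((((m : ℕ) : ℤ)) : ZMod c) = ((m : ℕ) : ZMod c) := Int.cast_natCast m
  rw [hP]
  by_cases h : ((m : ℕ) : ZMod c) ∈ S
  · rw [if_pos h, if_pos h, one_mul, Int.cast_pow, Int.cast_natCast]
  · rw [if_neg h, if_neg h, zero_mul, Int.cast_zero]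

theorem eisCoeff_zero (c : ℕ) (S : Set (ZMod c)) : eisCoeff c S 0 = 0 := by
  simp [eisCoeff]

theorem norm_eisCoeff_le (c : ℕ) (S : Set (ZMod c)) (n : ℕ) :
    ‖((eisCoeff c S n : ℤ) : ℂ)‖ ≤ (n : ℝ) ^ 4 := by
  classical
  have h1 : |eisCoeff c S n| ≤ ((ArithmeticFunction.sigma 3 n : ℕ) : ℤ) := by
    unfold eisCoeff
    refine (Finset.abs_sum_le_sum_abs _ _).trans ?_
    rw [ArithmeticFunction.sigma_apply, ← Nat.sum_div_divisors n (fun d => d ^ 3)]
    push_cast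
    refine Finset.sum_le_sum fun m _ => ?_
    split_ifs
    · rw [abs_of_nonneg (by positivity)]
    · rw [abs_zero]
      positivity
  have h2 : ((ArithmeticFunction.sigma 3 n : ℕ) : ℤ) ≤ ((n ^ 4 : ℕ) : ℤ) := by
    exact_mod_cast ArithmeticFunction.sigma_le_pow_succ 3 n
  have h3 : |eisCoeff c S n| ≤ ((n ^ 4 : ℕ) : ℤ) := h1.trans h2
  rw [Complex.norm_intCast]
  have h4 : ((|eisCoeff c S n| : ℤ) : ℝ) ≤ (((n ^ 4 : ℕ) : ℤ) : ℝ) := by exact_mod_cast h3
  simpa using h4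

/-- The constant `2 (2πi)⁴ / 3!`. -/
def eisConst : ℂ := 2 * ((-2 * π * I) ^ 4 / (3 ! : ℕ))

theorem eisConst_ne_zero : eisConst ≠ 0 := by
  unfold eisConst
  have hpi : (π : ℂ) ≠ 0 := by exact_mod_cast Real.pi_ne_zero
  have : (-2 * (π : ℂ) * I) ≠ 0 := by
    simp [hpi, Complex.I_ne_zero]
  have h3 : ((3 ! : ℕ) : ℂ) ≠ 0 := by
    exact_mod_cast Nat.factorial_ne_zero 3
  exact mul_ne_zero two_ne_zero (div_ne_zero (pow_ne_zero 4 this) h3)

theorem summable_eisCoeff (c : ℕ) (S : Set (ZMod c)) (τ : ℍ) :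
    Summable fun n : ℕ => ((eisCoeff c S n : ℤ) : ℂ) * cexp (2 * π * I * τ) ^ n := by
  apply Summable.of_norm_bounded
    (summable_norm_pow_mul_geometric_of_norm_lt_one 4 (norm_exp_two_pi_I_lt_one τ))
  intro n
  simp only [norm_mul, Complex.norm_natCast, norm_pow]
  gcongr
  have := norm_eisCoeff_le c S n
  simpa using this

theorem eisAn_eq_tsum (c : ℕ) (S : Set (ZMod c)) (h0 : (0 : ZMod c) ∉ S)
    (hS : ∀ x, x ∈ S → -x ∈ S) (τ : ℍ) :
    eisAn c S τ = eisConst * ∑' n : ℕ, ((eisCoeff c S n : ℤ) : ℂ) * cexp (2 * π * I * τ) ^ n := by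
  have h := wEis_cWeight_eq (k := 4) (by norm_num) (chiS c S) (norm_chiS_le c S)
    (fun m => by rw [chiS_neg c S hS]; norm_num) (chiS_zero c S h0) τ
  rw [eisAn_eq_wEis]
  have e4 : ((4 : ℕ) : ℤ) = (4 : ℤ) := by norm_num
  rw [e4] at h
  rw [h, ← tsum_zero_pnat_eq_tsum_nat (summable_eisCoeff c S τ), eisCoeff_zero]
  simp only [Int.cast_zero, zero_mul, zero_add, eisCoeff_eq_sigmaChi]
  rfl

theorem hasSum_eisAn (c : ℕ) (S : Set (ZMod c)) (h0 : (0 : ZMod c) ∉ S)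
    (hS : ∀ x, x ∈ S → -x ∈ S) (τ : ℍ) :
    HasSum (fun m : ℕ => (eisConst * ((eisCoeff c S m : ℤ) : ℂ)) • Function.Periodic.qParam 1 τ ^ m)
      (eisAn c S τ) := by
  rw [eisAn_eq_tsum c S h0 hS τ]
  have hs := (summable_eisCoeff c S τ).mul_left eisConst
  have h1 := hs.hasSum
  rw [tsum_mul_left] at h1
  have hf : (fun m : ℕ => (eisConst * ((eisCoeff c S m : ℤ) : ℂ)) • Function.Periodic.qParam 1 τ ^ m)
      = fun i : ℕ => eisConst * (((eisCoeff c S i : ℤ) : ℂ) * cexp (2 * π * I * τ) ^ i) := by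
    funext m
    simp only [smul_eq_mul, Function.Periodic.qParam, ofReal_one, div_one]
    ring
  rw [hf]
  exact h1

/-! ### The `q`-expansion as a power series -/

open Matrix in
theorem tInvariant_cWeight (χ : ℤ → ℂ) : TInvariant (cWeight χ) := by
  intro v
  unfold cWeight
  congr 1
  simp [Matrix.vecMul, ModularGroup.T]
  rfl

theorem periodic_eisAn (c : ℕ) (S : Set (ZMod c)) :
    Function.Periodic ((eisAn c S) ∘ ofComplex) (1 : ℝ) := by
  rw [eisAn_eq_wEis]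
  exact periodic_wEis (tInvariant_cWeight _)

theorem analyticAt_cuspFunction_eisAn (c : ℕ) (S : Set (ZMod c)) :
    AnalyticAt ℂ (cuspFunction 1 (eisAn c S)) 0 := by
  have hb : IsBoundedAtImInfty (eisAn c S) := by
    rw [eisAn_eq_wEis]
    exact isBoundedAtImInfty_wEis (by norm_num) (norm_cWeight_chiS_le c S)
  exact analyticAt_cuspFunction_zero one_pos (periodic_eisAn c S) (eisAn_mdifferentiable c S) hb

theorem qExpansion_eisAn_coeff (c : ℕ) (S : Set (ZMod c)) (h0 : (0 : ZMod c) ∉ S)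
    (hS : ∀ x, x ∈ S → -x ∈ S) (m : ℕ) :
    (qExpansion 1 (eisAn c S)).coeff m = eisConst * ((eisCoeff c S m : ℤ) : ℂ) :=
  (UpperHalfPlane.qExpansion_coeff_unique
    (ContinuousMap.mk (eisAn c S) (eisAn_mdifferentiable c S).continuous) one_pos
    (analyticAt_cuspFunction_eisAn c S) (hasSum_eisAn c S h0 hS) m).symm

theorem qExpansion_eisAn (c : ℕ) (S : Set (ZMod c)) (h0 : (0 : ZMod c) ∉ S)
    (hS : ∀ x, x ∈ S → -x ∈ S) :
    qExpansion 1 (eisAn c S) = eisConst • (eisNum c S).map (Int.castRingHom ℂ) := by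
  ext m
  rw [qExpansion_eisAn_coeff c S h0 hS m]
  simp [eisNum]

theorem qLaurent_eisAn (c : ℕ) (S : Set (ZMod c)) (h0 : (0 : ZMod c) ∉ S)
    (hS : ∀ x, x ∈ S → -x ∈ S) :
    GTor.qLaurent (eisAn c S) =
      eisConst • HahnSeries.ofPowerSeries ℤ ℂ ((eisNum c S).map (Int.castRingHom ℂ)) := by
  unfold GTor.qLaurent
  rw [qExpansion_eisAn c S h0 hS]
  ext n
  rcases lt_or_ge n 0 with hn | hn
  · rw [HahnSeries.coeff_smul, ModularCurve.ofPowerSeries_coeff_of_neg _ hn,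
      ModularCurve.ofPowerSeries_coeff_of_neg _ hn, smul_zero]
  · lift n to ℕ using hn
    rw [HahnSeries.coeff_smul, HahnSeries.ofPowerSeries_apply_coeff,
      HahnSeries.ofPowerSeries_apply_coeff]
    simp

/-- **FH-AN.** -/
theorem stmt_FH_an (c : ℕ) : Stmt_FH_an c := by
  intro _
  refine ⟨eisConst, eisConst_ne_zero, fun S h0 hS => ⟨?_, ?_, ?_, ?_⟩⟩
  · exact eisAn_mdifferentiable c S
  · exact eisAn_isBoundedAtImInfty_slash c S
  · exact eisAn_slash_Gamma0 c S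
  · exact qLaurent_eisAn c S h0 hS

end Fermat.Agent.NEB.H29
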