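import Fermat.Agent.NEB.H84_Rel
import Fermat.Agent.NEB.H29_EisAn
import Fermat.Agent.GTor.H58_A1
import Fermat.Agent.S28.H76_Bridge

/-!
# NEB, package FH-GAL, part 3 (helper84): the slash action on the generators of `F_H`

* `rel_coeffEmb_full` : elements of `F₀(M)` are fixed by `γ ∈ Γ₀(M)`;
* `rel_eisGen` : `γ` maps `e_S` to `e_{S'}`, `S' = {x | d_γ x ∈ S}`.
-/

set_option autoImplicit false

open UpperHalfPlane ModularForm CongruenceSubgroup ModularCurve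
open scoped MatrixGroups ModularForm Manifold

noncomputable section

namespace Fermat.Agent.NEB.H84

open Fermat.Agent.S23.H22 (Nice)
open Fermat.Agent.GTor (qLaurent)
open Fermat.Agent.GTor.H56 (qLaurent_mul qLaurent_injective qLaurent_eq_zero_iff qLaurent_zero)

local notation "ofPS" => HahnSeries.ofPowerSeries ℤ ℂ

variable {M : ℕ} {γ : SL(2, ℤ)}

theorem qLaurent_const' (c : ℂ) : qLaurent (fun _ : ℍ => c) = HahnSeries.C c := by
  have h2 : (fun _ : ℍ => c) = c • (1 : ℍ → ℂ) := by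
    funext z
    simp
  rw [h2, qLaurent, (Nice.one 1).qExpansion_smul one_pos, UpperHalfPlane.qExpansion_one]
  rw [← HahnSeries.ofPowerSeries_C]
  congr 1
  ext n
  simp [PowerSeries.coeff_C, PowerSeries.coeff_one]

theorem rel_C (M : ℕ) (γ : SL(2, ℤ)) (c : ℂ) : Rel M γ (HahnSeries.C c) (HahnSeries.C c) := by
  have := rel_const M γ c
  rwa [qLaurent_const'] at this

/-- Elements of `F₀(M)·ℂ` are fixed by `Γ₀(M)`. -/
theorem rel_of_mem_FNL [NeZero M] (hγ : γ ∈ Gamma0 M) (f : Fermat.Agent.GTor.FNL ℂ M) :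
    Rel M γ (f : LaurentSeries ℂ) (f : LaurentSeries ℂ) := by
  obtain ⟨k, A, B, hB, hAB⟩ := Fermat.Agent.GTor.H58.stmt_A1 M f
  exact rel_of_modularForm hγ A B hB hAB

theorem rel_coeffEmb_full [NeZero M] (hγ : γ ∈ Gamma0 M) {z : LaurentSeries ℚ}
    (hz : z ∈ modularFunctionFieldFull M) :
    Rel M γ (coeffEmb ℂ z) (coeffEmb ℂ z) :=
  rel_of_mem_FNL hγ ⟨coeffEmb ℂ z, coeffEmb_mem_laurentBaseChange ℂ hz⟩

/-! ### The Eisenstein generators -/

theorem slash_levelOne' {k : ℤ} (F : ModularForm 𝒮ℒ k) (γ : SL(2, ℤ)) :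
    (F : ℍ → ℂ) ∣[k] γ = F :=
  SlashInvariantFormClass.slash_action_eq F _ ⟨γ, rfl⟩

theorem isW_levelOne (M : ℕ) {k : ℤ} (F : ModularForm 𝒮ℒ k) : IsW M k (F : ℍ → ℂ) where
  mdiff := F.holo'
  slash γ _ := slash_levelOne' F γ
  bdd σ := ModularFormClass.bdd_at_infty_slash F σ

theorem isW_eisAn {c : ℕ} (hc : c ∣ M) (S : Set (ZMod c)) : IsW M 4 (eisAn c S) where
  mdiff := Fermat.Agent.NEB.H29.eisAn_mdifferentiable c S
  slash γ hγ := by
    have h1 := (Gamma1_mem M γ).mp hγ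
    have h0 : γ ∈ Gamma0 c := by
      rw [Gamma0_mem]
      have := h1.2.2
      have h3 : ((γ 1 0 : ℤ) : ZMod c) = ZMod.castHom hc (ZMod c) ((γ 1 0 : ℤ) : ZMod M) := by
        simp
      rw [h3, this, map_zero]
    have h2 := Fermat.Agent.NEB.H29.eisAn_slash_Gamma0 c S ⟨γ, h0⟩
    rw [h2]
    congr 1
    ext x
    have h3 : ((γ 1 1 : ℤ) : ZMod c) = 1 := by
      have h4 : ((γ 1 1 : ℤ) : ZMod c) = ZMod.castHom hc (ZMod c) ((γ 1 1 : ℤ) : ZMod M) := by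
        simp
      rw [h4, h1.2.1, map_one]
    show ((γ 1 1 : ℤ) : ZMod c) * x ∈ S ↔ x ∈ S
    rw [h3, one_mul]
  bdd σ := Fermat.Agent.NEB.H29.eisAn_isBoundedAtImInfty_slash c S σ

theorem mem_Gamma0_of_dvd {c : ℕ} (hc : c ∣ M) (hγ : γ ∈ Gamma0 M) : γ ∈ Gamma0 c := by
  rw [Gamma0_mem] at hγ ⊢
  have h3 : ((γ 1 0 : ℤ) : ZMod c) = ZMod.castHom hc (ZMod c) ((γ 1 0 : ℤ) : ZMod M) := by
    simp
  rw [h3, hγ, map_zero]

/-- `coeffEmb ℂ (eisGen c S) * E₄ = eisNum` on `q`-expansions. -/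
theorem coeffEmb_eisGen_mul (c : ℕ) (S : Set (ZMod c)) :
    coeffEmb ℂ (eisGen c S) * ofPS (eisenstein4.map (Int.castRingHom ℂ)) =
      ofPS ((eisNum c S).map (Int.castRingHom ℂ)) := by
  have h1 : coeffEmb ℂ (eisGen c S) = ofPS ((eisQuot c S).map (Int.castRingHom ℂ)) := by
    ext n
    rw [coeffEmb_coeff, eisGen]
    rcases lt_or_ge n 0 with hn | hn
    · rw [ModularCurve.ofPowerSeries_coeff_of_neg _ hn,
        ModularCurve.ofPowerSeries_coeff_of_neg _ hn, map_zero]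
    · lift n to ℕ using hn
      rw [HahnSeries.ofPowerSeries_apply_coeff, HahnSeries.ofPowerSeries_apply_coeff]
      simp
  rw [h1, ← map_mul, ← map_mul, eisQuot, mul_assoc]
  have h2 : eisenstein4.invOfUnit 1 * eisenstein4 = 1 := by
    rw [mul_comm]
    exact PowerSeries.mul_invOfUnit _ _ (by simp)
  rw [h2, mul_one]

theorem E4_fun_ne_zero : ((E₄ : ModularForm 𝒮ℒ 4) : ℍ → ℂ) ≠ 0 := by
  intro h
  have h1 : qExpansion 1 (E₄ : ModularForm 𝒮ℒ 4) = 0 := by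
    rw [h]
    exact UpperHalfPlane.qExpansion_zero 1
  rw [Fermat.Agent.S28.H76.qExpansion_E4_eq_eisenstein4] at h1
  have h2 := congrArg (PowerSeries.constantCoeff) h1
  rw [← PowerSeries.coeff_zero_eq_constantCoeff_apply, PowerSeries.coeff_map,
    PowerSeries.coeff_zero_eq_constantCoeff_apply, constantCoeff_eisenstein4] at h2
  simp at h2

/-- **The slash action on the Eisenstein generators.** -/
theorem rel_eisGen {c : ℕ} (hc : c ∣ M) (hγ : γ ∈ Gamma0 M) (S : Set (ZMod c))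
    (h0 : (0 : ZMod c) ∉ S) (hS : ∀ x, x ∈ S → -x ∈ S) :
    Rel M γ (coeffEmb ℂ (eisGen c S))
      (coeffEmb ℂ (eisGen c {x | ((γ 1 1 : ℤ) : ZMod c) * x ∈ S})) := by
  set S' : Set (ZMod c) := {x | ((γ 1 1 : ℤ) : ZMod c) * x ∈ S} with hS'
  have h0' : (0 : ZMod c) ∉ S' := by
    intro h
    apply h0
    have : ((γ 1 1 : ℤ) : ZMod c) * 0 ∈ S := h
    rwa [mul_zero] at this
  have hSS' : ∀ x, x ∈ S' → -x ∈ S' := by
    intro x hx
    have : ((γ 1 1 : ℤ) : ZMod c) * x ∈ S := hx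
    show ((γ 1 1 : ℤ) : ZMod c) * (-x) ∈ S
    rw [mul_neg]
    exact hS _ this
  have hC := Fermat.Agent.NEB.H29.eisConst_ne_zero
  have key : Rel M γ (HahnSeries.C Fermat.Agent.NEB.H29.eisConst * coeffEmb ℂ (eisGen c S))
      (HahnSeries.C Fermat.Agent.NEB.H29.eisConst * coeffEmb ℂ (eisGen c S')) := by
    refine ⟨4, eisAn c S, (E₄ : ModularForm 𝒮ℒ 4), isW_eisAn hc S, isW_levelOne M _,
      E4_fun_ne_zero, ?_, ?_⟩
    · rw [Fermat.Agent.NEB.H29.qLaurent_eisAn c S h0 hS, qLaurent,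
        Fermat.Agent.S28.H76.qExpansion_E4_eq_eisenstein4, mul_assoc, coeffEmb_eisGen_mul,
        HahnSeries.C_mul_eq_smul]
    · rw [slash_levelOne',
        Fermat.Agent.NEB.H29.eisAn_slash_Gamma0 c S ⟨γ, mem_Gamma0_of_dvd hc hγ⟩,
        Fermat.Agent.NEB.H29.qLaurent_eisAn c S' h0' hSS', qLaurent,
        Fermat.Agent.S28.H76.qExpansion_E4_eq_eisenstein4, mul_assoc, coeffEmb_eisGen_mul,
        HahnSeries.C_mul_eq_smul]
  have h2 := rel_mul hγ (rel_C M γ Fermat.Agent.NEB.H29.eisConst⁻¹) key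
  have e : ∀ x : LaurentSeries ℂ, HahnSeries.C Fermat.Agent.NEB.H29.eisConst⁻¹ *
      (HahnSeries.C Fermat.Agent.NEB.H29.eisConst * x) = x := by
    intro x
    rw [← mul_assoc, ← map_mul, inv_mul_cancel₀ hC, map_one, one_mul]
  rwa [e, e] at h2

end Fermat.Agent.NEB.H84
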