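import Fermat.Agent.NEB.H84_ResVal
import Fermat.Agent.NEB.H84_Fix
import Fermat.Agent.NEB.H94_FF
import Fermat.Agent.NEB.H97_Val
import Fermat.Agent.NEB.H70_RedQ

/-!
# NEB, package RES (helper84): classes of `F₀` whose pull-back to `F_H` reduces to `1`

`A` a valuation ring of `ℚ̄` over a prime `r`, `m` prime to `r`, exponent of `(ℤ/c)ˣ/±H` dividing
`m`.  If `f₀ ∈ F₀(M)` and `f₀ · g^m ∈ ℚ̄ˣ · (1 + 𝔪_Gauss)` for some `g ∈ F_H(M)ˣ`, then
`f₀ = u · g₀^(-m) · (element of ℚ̄ˣ (1 + 𝔪_Gauss))` with `g₀ ∈ F₀(M)ˣ` and `u ∈ F₀(M) ∩ F_H(M)^{×m}`: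

  `π^* x₀ ∈ K_A(F_H)  ⟹  x₀ ∈ K_A(F₀) + ker π^*`.

Wiring of helper97's `stmt_VAL` with the Gauss valuation of `F_H` (helper94's `hasScale_FHbar`),
rank one of `A` (helper82), and the Galois structure of `F_H / F₀` (`stmt_FH_gal`).
-/

set_option autoImplicit false
set_option linter.unusedSectionVars false
set_option linter.style.haveILetI false

noncomputable section

open ModularCurve AlgebraicCurve Fermat.Agent.S28 Fermat.Agent.S28.H73 Fermat.Agent.RED.H73

namespace Fermat.Agent.NEB.H84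

open Fermat.Agent.NEB.H70 (IsRedOneC RedTo)

/-- **RES** (series form). -/
def Stmt_RES (M c : ℕ) (H : Subgroup (ZMod c)ˣ) : Prop :=
  2 ≤ c → c ∣ M → M ≠ 0 →
  ∀ (A : ValuationSubring Kbar) (r : ℕ), r.Prime → A.LiesOverPrime r →
  ∀ m : ℕ, m ≠ 0 → ¬ r ∣ m → (∀ d : (ZMod c)ˣ, d ^ m ∈ H ∨ -(d ^ m) ∈ H) →
  ∀ (f0 : ↥(modularFunctionFieldBar M)) (g : ↥(FHbar M c H)), g ≠ 0 →
    IsRedOneC A ((f0 : LaurentSeries Kbar) * (g : LaurentSeries Kbar) ^ m) →
    ∃ (y : ↥(FHbar M c H)) (u g0 : ↥(modularFunctionFieldBar M)), y ≠ 0 ∧ g0 ≠ 0 ∧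
      y ^ m = inclBar M c H u ∧
      IsRedOneC A ((f0 : LaurentSeries Kbar) * ((u : LaurentSeries Kbar))⁻¹ *
        (g0 : LaurentSeries Kbar) ^ m)

section Generic

/-- `stmt_VAL` for a cover with group given by `ρ` (algebra structure along `φ`). -/
theorem res_generic {K E L : Type} [Field K] [Field E] [Field L] [Algebra K E] [Algebra K L]
    (φ : E →ₐ[K] L) {Δ : Type} [CommGroup Δ] [Finite Δ] (ρ : Δ →* (L ≃ₐ[K] L))
    (hfix : ∀ d x, ρ d (φ x) = φ x) (hinv : ∀ x : L, (∀ d, ρ d x = x) → ∃ x₀, φ x₀ = x)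
    {m : ℕ} (hm0 : m ≠ 0) (hexp : ∀ d : Δ, ρ (d ^ m) = 1)
    {ζ : K} (hζ : IsPrimitiveRoot ζ m)
    (V : ValuationSubring L) (hm : V.valuation ((m : ℕ) : L) = 1)
    (hval : ∀ x : L, x ≠ 0 → ∃ a : K, V.valuation (algebraMap K L a) = V.valuation x)
    (harch : ∀ x y : L, V.valuation x < 1 → y ≠ 0 → ∃ N : ℕ, V.valuation x ^ N < V.valuation y)
    (f0 : E) (g : L) (hg : V.valuation g = 1) (hfg : V.valuation (g ^ m - φ f0) < 1) :
    ∃ (y : L) (u g0 : E), y ^ m = φ u ∧ V.valuation y = 1 ∧ V.valuation (φ g0) = 1 ∧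
      V.valuation (φ (f0 - u * g0 ^ m)) < 1 := by
  letI alg := algebraAlong φ
  haveI : Finite ρ.range := Finite.of_surjective ρ.rangeRestrict ρ.rangeRestrict_surjective
  haveI hGG : IsGaloisGroup ρ.range E L :=
    Fermat.Agent.NEB.H2.isGaloisGroup_along φ ρ.range
      (fun x hx => by
        obtain ⟨x₀, h⟩ := hinv x (fun d => hx _ ⟨d, rfl⟩)
        exact ⟨x₀, h⟩)
      (by
        rintro g y ⟨d, rfl⟩
        exact hfix d y)
  haveI hfd : FiniteDimensional E L := IsGaloisGroup.finiteDimensional ρ.range E L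
  haveI hgal : IsGalois E L := IsGaloisGroup.isGalois ρ.range E L
  have hsurj := (IsGaloisGroup.mulEquivAlgEquiv ρ.range E L).surjective
  have hcomm : ∀ a b : ρ.range, a * b = b * a := by
    rintro ⟨_, da, rfl⟩ ⟨_, db, rfl⟩
    apply Subtype.ext
    show ρ da * ρ db = ρ db * ρ da
    rw [← map_mul, ← map_mul, mul_comm]
  have hpow : ∀ a : ρ.range, a ^ m = 1 := by
    rintro ⟨_, da, rfl⟩
    apply Subtype.ext
    show ρ da ^ m = 1
    rw [← map_pow]
    exact hexp da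
  have hab : ∀ δ δ' : L ≃ₐ[E] L, δ * δ' = δ' * δ := by
    intro δ δ'
    obtain ⟨a, rfl⟩ := hsurj δ
    obtain ⟨b, rfl⟩ := hsurj δ'
    rw [← map_mul, ← map_mul, hcomm]
  have hexp' : ∀ δ : L ≃ₐ[E] L, δ ^ m = 1 := by
    intro δ
    obtain ⟨a, rfl⟩ := hsurj δ
    rw [← map_pow, hpow, map_one]
  have hζ' : IsPrimitiveRoot (algebraMap K E ζ) m :=
    hζ.map_of_injective (algebraMap K E).injective
  have hval' : ∀ x : L, x ≠ 0 → ∃ e : E, V.valuation (algebraMap E L e) = V.valuation x := by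
    intro x hx
    obtain ⟨a, ha⟩ := hval x hx
    refine ⟨algebraMap K E a, ?_⟩
    have : algebraMap E L (algebraMap K E a) = algebraMap K L a := φ.commutes a
    rw [this]
    exact ha
  exact Fermat.Agent.NEB.H97.stmt_VAL hab hm0 hexp' hζ' V hm hval' harch f0 g hg hfg

end Generic

section Proof

variable (M c : ℕ) (H : Subgroup (ZMod c)ˣ)

theorem coe_algebraMap_FH (a : Kbar) :
    ((algebraMap Kbar ↥(FHbar M c H) a : ↥(FHbar M c H)) : LaurentSeries Kbar) =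
      HahnSeries.C a := coe_algebraMap_F a

theorem exists_primitiveRoot_Kbar {m : ℕ} (hm0 : m ≠ 0) :
    ∃ ζ : Kbar, IsPrimitiveRoot ζ m := by
  haveI : NeZero (m : ℚ) := ⟨by exact_mod_cast hm0⟩
  haveI : HasEnoughRootsOfUnity (AlgebraicClosure ℚ) m :=
    AlgebraicClosure.hasEnoughRootsOfUnity ℚ m
  exact HasEnoughRootsOfUnity.exists_primitiveRoot (AlgebraicClosure ℚ) m

set_option maxHeartbeats 2000000 in
set_option synthInstance.maxHeartbeats 200000 in
theorem stmt_RES : Stmt_RES M c H := by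
  intro hc2 hc hM A r hr hA m hm0 hrm hexp f0 g hg hred
  obtain ⟨ρ, -, hfix, hinv, hker, -⟩ := stmt_FH_gal M c H hc2 hc hM
  haveI : NeZero c := ⟨by omega⟩
  -- the roots of unity
  obtain ⟨ζ0, hζ0⟩ := exists_primitiveRoot_Kbar hm0
  -- the valuation ring
  set hL := Fermat.Agent.NEB.H94.hasScale_FHbar A M c H with hhL
  set V := gaussValSub A (FHbar M c H) hL with hV
  have hmV : V.valuation ((m : ℕ) : ↥(FHbar M c H)) = 1 := val_natCast_eq_one A hL hr hA hrm
  have hinclK : ∀ a : Kbar, inclBar M c H (algebraMap Kbar _ a) = algebraMap Kbar _ a :=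
    fun a => (inclBar M c H).commutes a
  have hval : ∀ x : ↥(FHbar M c H), x ≠ 0 → ∃ a : Kbar,
      V.valuation (algebraMap Kbar ↥(FHbar M c H) a) = V.valuation x := by
    intro x hx
    obtain ⟨a, -, ha⟩ := exists_const_val A hL x hx
    exact ⟨a, ha⟩
  have harch : ∀ x y : ↥(FHbar M c H), V.valuation x < 1 → y ≠ 0 →
      ∃ N : ℕ, V.valuation x ^ N < V.valuation y := by
    intro x y hx hy
    obtain ⟨n, hn⟩ := isArch_gaussValSub A hL hr hA x y hx hy
    exact ⟨n, by rwa [map_pow] at hn⟩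
  -- the hypothesis
  obtain ⟨c0, hc0, hmem, hred1⟩ := hred
  set z : ↥(FHbar M c H) := algebraMap Kbar _ c0 * (inclBar M c H f0 * g ^ m) with hz
  have hzcoe : (z : LaurentSeries Kbar) =
      HahnSeries.C c0 * ((f0 : LaurentSeries Kbar) * (g : LaurentSeries Kbar) ^ m) := by
    rw [hz]
    push_cast
    rw [coe_inclBar, algebraMap_laurentSeries_eq_single]
    rfl
  have hz1 : V.valuation (z - 1) < 1 := by
    rw [hV, val_sub_one_lt_iff A hL z]
    refine ⟨by rw [hzcoe]; exact hmem, ?_⟩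
    have : (⟨(z : LaurentSeries Kbar), by rw [hzcoe]; exact hmem⟩ : ↥(gaussRingV A)) =
        ⟨_, hmem⟩ := Subtype.ext hzcoe
    rw [this]
    exact hred1
  -- scale `g`
  obtain ⟨a, ug, ha, hgu⟩ := exists_unit_scale A hL g hg
  set f0' : ↥(modularFunctionFieldBar M) := algebraMap Kbar _ (c0 * a ^ m) * f0 with hf0'
  set g' : ↥(FHbar M c H) := (((ug⁻¹ : (↥V)ˣ) : ↥V) : ↥(FHbar M c H)) with hg'
  have hvg' : V.valuation g' = 1 := val_unit A hL ug⁻¹
  have hgg : g' * ((ug : ↥V) : ↥(FHbar M c H)) = 1 := by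
    have := congrArg (fun t : ↥V => (t : ↥(FHbar M c H))) (Units.inv_mul ug)
    exact this
  have hzf : z = inclBar M c H f0' * ((ug : ↥V) : ↥(FHbar M c H)) ^ m := by
    rw [hz, hf0', map_mul, hinclK, hgu, mul_pow, map_mul, map_pow]
    ring
  have hkey : g' ^ m - inclBar M c H f0' = g' ^ m * (1 - z) := by
    rw [hzf, mul_sub, mul_one]
    congr 1
    have : g' ^ m * ((ug : ↥V) : ↥(FHbar M c H)) ^ m = 1 := by
      rw [← mul_pow, hgg, one_pow]
    calc inclBar M c H f0' = inclBar M c H f0' * (g' ^ m * ((ug : ↥V) : ↥(FHbar M c H)) ^ m) := by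
          rw [this, mul_one]
      _ = g' ^ m * (inclBar M c H f0' * ((ug : ↥V) : ↥(FHbar M c H)) ^ m) := by ring
  have hfg : V.valuation (g' ^ m - inclBar M c H f0') < 1 := by
    rw [hkey, map_mul, map_pow, hvg', one_pow, one_mul, Valuation.map_sub_swap]
    exact hz1
  -- apply VAL
  obtain ⟨y, u, g0, hy, hvy, hvg0, hlt⟩ := res_generic (inclBar M c H) ρ hfix hinv hm0
    (fun d => (hker _).mpr (hexp d)) hζ0 V hmV hval harch f0' g' hvg' hfg
  have hy0 : y ≠ 0 := by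
    rintro rfl
    rw [map_zero] at hvy
    exact zero_ne_one hvy
  have hg00 : g0 ≠ 0 := by
    rintro rfl
    rw [map_zero, map_zero] at hvg0
    exact zero_ne_one hvg0
  have hvu : V.valuation (inclBar M c H u) = 1 := by
    rw [← hy, map_pow, hvy, one_pow]
  have hu0 : u ≠ 0 := by
    rintro rfl
    rw [map_zero, map_zero] at hvu
    exact zero_ne_one hvu
  refine ⟨y, u, g0⁻¹, hy0, inv_ne_zero hg00, hy, ?_⟩
  -- the reduction statement
  set w : ↥(FHbar M c H) := inclBar M c H (f0' * u⁻¹ * (g0⁻¹) ^ m) with hw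
  have hwcoe : (w : LaurentSeries Kbar) = HahnSeries.C (c0 * a ^ m) *
      ((f0 : LaurentSeries Kbar) * ((u : LaurentSeries Kbar))⁻¹ *
        ((g0⁻¹ : ↥(modularFunctionFieldBar M)) : LaurentSeries Kbar) ^ m) := by
    have hC : ∀ t : Kbar, algebraMap Kbar (LaurentSeries Kbar) t = HahnSeries.C t := fun t => by
      rw [algebraMap_laurentSeries_eq_single]; rfl
    rw [hw, coe_inclBar, hf0']
    push_cast
    rw [hC, hC, map_mul, map_pow]
    ring
  have hw1 : V.valuation (w - 1) < 1 := by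
    have hden : V.valuation (inclBar M c H (u * g0 ^ m)) = 1 := by
      rw [map_mul, map_mul, hvu, map_pow, map_pow, hvg0, one_pow, mul_one]
    have e : w - 1 = inclBar M c H (f0' - u * g0 ^ m) * (inclBar M c H (u * g0 ^ m))⁻¹ := by
      rw [hw, ← map_inv₀, ← map_mul, ← map_one (inclBar M c H), ← map_sub]
      congr 1
      have hne : u * g0 ^ m ≠ 0 := mul_ne_zero hu0 (pow_ne_zero m hg00)
      have h1 : u⁻¹ * u = 1 := inv_mul_cancel₀ hu0
      have h2 : (g0⁻¹) ^ m * g0 ^ m = 1 := by rw [← mul_pow, inv_mul_cancel₀ hg00, one_pow]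
      rw [eq_mul_inv_iff_mul_eq₀ hne]
      calc (f0' * u⁻¹ * g0⁻¹ ^ m - 1) * (u * g0 ^ m)
          = f0' * (u⁻¹ * u) * (g0⁻¹ ^ m * g0 ^ m) - u * g0 ^ m := by ring
        _ = f0' - u * g0 ^ m := by rw [h1, h2, mul_one, mul_one]
    rw [e, map_mul, map_inv₀, hden, inv_one, mul_one]
    exact hlt
  obtain ⟨hx, hredw⟩ := (val_sub_one_lt_iff A hL w).mp hw1
  have hx' : HahnSeries.C (c0 * a ^ m) *
      ((f0 : LaurentSeries Kbar) * ((u : LaurentSeries Kbar))⁻¹ *
        ((g0⁻¹ : ↥(modularFunctionFieldBar M)) : LaurentSeries Kbar) ^ m) ∈ gaussRingV A := by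
    rw [← hwcoe]; exact hx
  refine ⟨c0 * a ^ m, mul_ne_zero hc0 (pow_ne_zero m ha), hx', ?_⟩
  have : (⟨_, hx'⟩ : ↥(gaussRingV A)) = ⟨(w : LaurentSeries Kbar), hx⟩ :=
    Subtype.ext hwcoe.symm
  rw [this]
  exact hredw

end Proof

end Fermat.Agent.NEB.H84
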