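import Fermat.Agent.NEB.H84_VRaise
import Fermat.Agent.S28.H10_Bridge

/-!
# NEB, package FH-BETA, part 2 (helper84): `f(q) ↦ f(q^ℓ)` maps `F_H(M)` into `F_H(M ℓ)`

* `mem_of_power_sums` (pure algebra, Lagrange interpolation): if `t_d ∈ E`, `y_d` depends only on
  `t_d` and all power sums `∑_d t_d^i y_d` lie in the subfield `E`, then every `y_d` lies in `E`;
* `powerSum_mem_full` : the power sums `∑_d e_{±dH}^i · e_{±dH}(q^ℓ)` lie in `F₀(M ℓ)`
  (they are `Γ₀(M ℓ)`-invariant);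
* `stmt_FH_beta : Stmt_FH_beta M c ℓ H`.
-/

set_option autoImplicit false
set_option linter.unusedSectionVars false

open UpperHalfPlane ModularForm CongruenceSubgroup ModularCurve
open scoped MatrixGroups ModularForm Manifold

noncomputable section

namespace Fermat.Agent.NEB.H84

open Fermat.Agent.S23.H22 (Nice conjGamma0)
open Fermat.Agent.GTor (qLaurent)

/-! ### Lagrange interpolation -/

section PowerSums

theorem mem_of_power_sums {L : Type*} [Field L] [CharZero L] (E : Subfield L) {D : Type*}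
    [Fintype D] (t y : D → L) (ht : ∀ d, t d ∈ E) (hy : ∀ d d', t d = t d' → y d = y d')
    (hs : ∀ i : ℕ, ∑ d, t d ^ i * y d ∈ E) (a : D) : y a ∈ E := by
  classical
  set Zc := (Finset.univ : Finset D).filter (fun d => ¬ t d = t a) with hZc
  set Z := (Finset.univ : Finset D).filter (fun d => t d = t a) with hZ
  set PE : Polynomial E := ∏ d ∈ Zc, (Polynomial.X - Polynomial.C ⟨t d, ht d⟩) with hPE
  set P : Polynomial L := PE.map E.subtype with hP
  have hPeval : ∀ x : L, P.eval x = ∏ d ∈ Zc, (x - t d) := by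
    intro x
    rw [hP, hPE, Polynomial.eval_map, Polynomial.eval₂_finsetProd]
    apply Finset.prod_congr rfl
    intro d _
    simp
  have hcoeff : ∀ i, P.coeff i ∈ E := by
    intro i
    rw [hP, Polynomial.coeff_map]
    exact (PE.coeff i).2
  have h1 : ∑ i ∈ Finset.range (P.natDegree + 1), P.coeff i * ∑ d, t d ^ i * y d =
      ∑ d, P.eval (t d) * y d := by
    simp_rw [Polynomial.eval_eq_sum_range, Finset.mul_sum, Finset.sum_mul]
    rw [Finset.sum_comm]
    apply Finset.sum_congr rfl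
    intro d _
    apply Finset.sum_congr rfl
    intro i _
    ring
  have h2 : ∑ d, P.eval (t d) * y d = ((Z.card : ℕ) : L) * (P.eval (t a) * y a) := by
    rw [← Finset.sum_filter_add_sum_filter_not Finset.univ (fun d => t d = t a)]
    have hz : ∑ d ∈ Zc, P.eval (t d) * y d = 0 := by
      apply Finset.sum_eq_zero
      intro d hd
      rw [hPeval, Finset.prod_eq_zero (i := d) hd (sub_self _), zero_mul]
    rw [hz, add_zero]
    rw [Finset.sum_congr rfl (g := fun _ => P.eval (t a) * y a)]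
    · rw [Finset.sum_const, nsmul_eq_mul]
    · intro d hd
      have : t d = t a := (Finset.mem_filter.mp hd).2
      rw [this, hy d a this]
  have h3 : P.eval (t a) ≠ 0 := by
    rw [hPeval, Finset.prod_ne_zero_iff]
    intro d hd
    have : ¬ t d = t a := (Finset.mem_filter.mp hd).2
    exact sub_ne_zero.mpr (Ne.symm this)
  have h4 : ((Z.card : ℕ) : L) ≠ 0 := by
    have : 0 < Z.card := Finset.card_pos.mpr ⟨a, by simp [hZ]⟩
    exact_mod_cast this.ne'
  have h5 : P.eval (t a) ∈ E := by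
    rw [hPeval]
    exact Subfield.prod_mem _ (fun d _ => E.sub_mem (ht a) (ht d))
  have h6 : ∑ i ∈ Finset.range (P.natDegree + 1), P.coeff i * ∑ d, t d ^ i * y d ∈ E :=
    Subfield.sum_mem _ (fun i _ => E.mul_mem (hcoeff i) (hs i))
  have h7 : y a = (∑ i ∈ Finset.range (P.natDegree + 1), P.coeff i * ∑ d, t d ^ i * y d) /
      (((Z.card : ℕ) : L) * P.eval (t a)) := by
    rw [h1, h2]
    field_simp
  rw [h7]
  exact E.div_mem h6 (E.mul_mem (natCast_mem E _) h5)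

end PowerSums

/-! ### Finite sums and powers in `Rel` -/

section RelSum

variable {M : ℕ} {γ : SL(2, ℤ)}

theorem rel_zero (M : ℕ) (γ : SL(2, ℤ)) : Rel M γ 0 0 := by
  have := rel_C M γ 0
  rwa [map_zero] at this

theorem rel_one (M : ℕ) (γ : SL(2, ℤ)) : Rel M γ 1 1 := by
  have := rel_C M γ 1
  rwa [map_one] at this

theorem rel_pow (hγ : γ ∈ Gamma0 M) {x y : LaurentSeries ℂ} (h : Rel M γ x y) (n : ℕ) :
    Rel M γ (x ^ n) (y ^ n) := by
  induction n with
  | zero =>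
    rw [pow_zero, pow_zero]
    exact rel_one M γ
  | succ n ih =>
    rw [pow_succ, pow_succ]
    exact rel_mul hγ ih h

theorem rel_sum (hγ : γ ∈ Gamma0 M) {D : Type*} (s : Finset D) (f g : D → LaurentSeries ℂ)
    (h : ∀ d ∈ s, Rel M γ (f d) (g d)) : Rel M γ (∑ d ∈ s, f d) (∑ d ∈ s, g d) := by
  classical
  induction s using Finset.induction_on with
  | empty =>
    rw [Finset.sum_empty, Finset.sum_empty]
    exact rel_zero M γ
  | insert a s ha ih =>
    rw [Finset.sum_insert ha, Finset.sum_insert ha]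
    exact rel_add hγ (h a (Finset.mem_insert_self a s))
      (ih (fun d hd => h d (Finset.mem_insert_of_mem hd)))

end RelSum

/-! ### The generators over `ℂ` -/

section GenC

variable {M c : ℕ} (H : Subgroup (ZMod c)ˣ)

theorem relC_gen (hc2 : 2 ≤ c) (hc : c ∣ M) {γ : SL(2, ℤ)} (hγ : γ ∈ Gamma0 M) (a : (ZMod c)ˣ) :
    Rel M γ (coeffEmb ℂ (eisGen c (cosetSet c H a)))
      (coeffEmb ℂ (eisGen c (cosetSet c H ((dUnit hc γ hγ)⁻¹ * a)))) := by
  have := rel_eisGen hc hγ (cosetSet c H a) (zero_not_mem_cosetSet H hc2 a)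
    (neg_mem_cosetSet H a)
  rw [← coe_dUnit hc γ hγ, cosetSet_translate] at this
  exact this

variable (ℓ : ℕ) [NeZero ℓ] [NeZero M]

theorem dUnit_conj (hc : c ∣ M) {γ : SL(2, ℤ)} (hγ : γ ∈ Gamma0 (M * ℓ)) :
    dUnit hc (conjGamma0 ℓ γ (mem_Gamma0_left ℓ hγ)) (conjGamma0_mem_Gamma0 ℓ hγ) =
      dUnit (hc.trans (dvd_mul_right M ℓ)) γ hγ := by
  apply Units.ext
  rw [coe_dUnit, coe_dUnit, conjGamma0_apply_11]

theorem relC_gen_beta (hc2 : 2 ≤ c) (hc : c ∣ M) {γ : SL(2, ℤ)} (hγ : γ ∈ Gamma0 (M * ℓ))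
    (a : (ZMod c)ˣ) :
    Rel (M * ℓ) γ (qExpand ℂ ℓ (coeffEmb ℂ (eisGen c (cosetSet c H a))))
      (qExpand ℂ ℓ (coeffEmb ℂ (eisGen c (cosetSet c H
        ((dUnit (hc.trans (dvd_mul_right M ℓ)) γ hγ)⁻¹ * a))))) := by
  apply rel_beta ℓ hγ
  have := relC_gen H hc2 hc (conjGamma0_mem_Gamma0 (M := M) ℓ hγ) a
  rwa [dUnit_conj ℓ hc hγ] at this

end GenC

/-! ### The power sums -/

section Main

variable {M c : ℕ} [NeZero M] (H : Subgroup (ZMod c)ˣ) (ℓ : ℕ) [NeZero ℓ]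

theorem powerSum_mem_full [NeZero c] (hc2 : 2 ≤ c) (hc : c ∣ M) (i : ℕ) :
    ∑ d : (ZMod c)ˣ, eisGen c (cosetSet c H d) ^ i * qExpand ℚ ℓ (eisGen c (cosetSet c H d)) ∈
      modularFunctionFieldFull (M * ℓ) := by
  have hMℓ : NeZero (M * ℓ) := ⟨mul_ne_zero (NeZero.ne M) (NeZero.ne ℓ)⟩
  apply Fermat.Agent.NEB.H30.descent_rat (L := ℂ) (modularFunctionFieldFull (M * ℓ))
  apply mem_FNL_of_rel
  intro γ hγ
  have hcMℓ : c ∣ M * ℓ := hc.trans (dvd_mul_right M ℓ)
  set u := dUnit hcMℓ γ hγ with hu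
  have e1 : coeffEmb ℂ (∑ d : (ZMod c)ˣ, eisGen c (cosetSet c H d) ^ i *
      qExpand ℚ ℓ (eisGen c (cosetSet c H d))) =
      ∑ d : (ZMod c)ˣ, coeffEmb ℂ (eisGen c (cosetSet c H d)) ^ i *
        qExpand ℂ ℓ (coeffEmb ℂ (eisGen c (cosetSet c H d))) := by
    rw [map_sum]
    apply Finset.sum_congr rfl
    intro d _
    rw [map_mul, map_pow]
    congr 1
    exact Fermat.Agent.S28.H10.coeffMap_qExpand ℓ _
  rw [e1]
  have key := rel_sum hγ (Finset.univ : Finset (ZMod c)ˣ)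
    (fun d => coeffEmb ℂ (eisGen c (cosetSet c H d)) ^ i *
        qExpand ℂ ℓ (coeffEmb ℂ (eisGen c (cosetSet c H d))))
    (fun d => coeffEmb ℂ (eisGen c (cosetSet c H (u⁻¹ * d))) ^ i *
        qExpand ℂ ℓ (coeffEmb ℂ (eisGen c (cosetSet c H (u⁻¹ * d)))))
    (fun d _ => rel_mul hγ (rel_pow hγ (relC_gen H hc2 hcMℓ hγ d) i)
      (relC_gen_beta H ℓ hc2 hc hγ d))
  have e2 : ∑ d : (ZMod c)ˣ, coeffEmb ℂ (eisGen c (cosetSet c H (u⁻¹ * d))) ^ i *
        qExpand ℂ ℓ (coeffEmb ℂ (eisGen c (cosetSet c H (u⁻¹ * d)))) =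
      ∑ d : (ZMod c)ˣ, coeffEmb ℂ (eisGen c (cosetSet c H d)) ^ i *
        qExpand ℂ ℓ (coeffEmb ℂ (eisGen c (cosetSet c H d))) :=
    Equiv.sum_comp (Equiv.mulLeft u⁻¹) (fun d => coeffEmb ℂ (eisGen c (cosetSet c H d)) ^ i *
        qExpand ℂ ℓ (coeffEmb ℂ (eisGen c (cosetSet c H d))))
  rwa [e2] at key

theorem qExpand_gen_mem [NeZero c] (hc2 : 2 ≤ c) (hc : c ∣ M) (a : (ZMod c)ˣ) :
    qExpand ℚ ℓ (eisGen c (cosetSet c H a)) ∈ FHQ (M * ℓ) c H := by
  have hchar : CharZero (LaurentSeries ℚ) :=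
    charZero_of_injective_ringHom
      (f := (HahnSeries.C : ℚ →+* LaurentSeries ℚ)) HahnSeries.C_injective
  have := mem_of_power_sums
    (@IntermediateField.toSubfield ℚ (LaurentSeries ℚ) _ _ (HahnSeries.powerSeriesAlgebra ℤ ℚ)
      (FHQ (M * ℓ) c H))
    (fun d : (ZMod c)ˣ => eisGen c (cosetSet c H d))
    (fun d : (ZMod c)ˣ => qExpand ℚ ℓ (eisGen c (cosetSet c H d)))
    (fun d => eisGen_mem_FHQ (M * ℓ) c H d)
    (fun d d' h => by
      show qExpand ℚ ℓ (eisGen c (cosetSet c H d)) = qExpand ℚ ℓ (eisGen c (cosetSet c H d'))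
      have h' : eisGen c (cosetSet c H d) = eisGen c (cosetSet c H d') := h
      rw [h'])
    (fun i => full_le_FHQ (M * ℓ) c H (powerSum_mem_full H ℓ hc2 hc i)) a
  exact this

/-- **FH-BETA.** -/
theorem stmt_FH_beta (M c ℓ : ℕ) [NeZero ℓ] (H : Subgroup (ZMod c)ˣ) : Stmt_FH_beta M c ℓ H := by
  intro hc2 hc hM x hx
  have : NeZero M := ⟨hM⟩
  have : NeZero c := ⟨by omega⟩
  refine FHQ_induction M c H (P := fun x => qExpand ℚ ℓ x ∈ FHQ (M * ℓ) c H)
    ?_ ?_ ?_ ?_ ?_ ?_ ?_ ?_ hx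
  · intro r
    rw [algebraMap_laurentSeries_eq_single, qExpand_single, mul_zero,
      ← algebraMap_laurentSeries_eq_single]
    exact (FHQ (M * ℓ) c H).algebraMap_mem r
  · intro d hd0 hd
    rw [qExpand_qExpand]
    have : NeZero (ℓ * d) := ⟨mul_ne_zero (NeZero.ne ℓ) (NeZero.ne d)⟩
    exact full_le_FHQ (M * ℓ) c H (IntermediateField.subset_adjoin ℚ _
      ⟨ℓ * d, this, by rw [mul_comm]; exact mul_dvd_mul_right hd ℓ, rfl⟩)
  · intro a
    exact qExpand_gen_mem H ℓ hc2 hc a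
  · rw [map_one]
    exact one_mem _
  · intro x y hx hy
    rw [map_add]
    exact add_mem hx hy
  · intro x hx
    rw [map_neg]
    exact neg_mem hx
  · intro x hx
    rw [map_inv₀]
    exact inv_mem hx
  · intro x y hx hy
    rw [map_mul]
    exact mul_mem hx hy

end Main

end Fermat.Agent.NEB.H84
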