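/-
helper18, item 66/72 (PIVOT, package PV-GEOM, leaf PVG-KAPPA): change of conductor (CH-COND).

For `c ∣ c' ∣ M` and `H ≤ (ℤ/c)ˣ` with preimage `H' ≤ (ℤ/c')ˣ`:
  `FHQ M c' H' = FHQ M c H`   and   `FHbar M c' H' = FHbar M c H`
as intermediate fields of the field of Laurent series (the generators are different series: those
of conductor `c'` only sum over divisors prime to `c'`).  Proof: the power sums
`∑_d e_{c, d}^i e_{c', d}` are invariant under `Γ₀(M)`, and Lagrange interpolation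
(`H84.mem_of_power_sums`).
-/
import Fermat.Agent.NEB.H84_Beta
import Fermat.Agent.NEB.H84_Ker
import Fermat.Agent.NEB.H14_JHData

set_option autoImplicit false
set_option linter.unusedSectionVars false
set_option linter.style.haveILetI false

open UpperHalfPlane ModularForm CongruenceSubgroup ModularCurve
open scoped MatrixGroups ModularForm Manifold

noncomputable section

namespace Fermat.Agent.NEB.H18

open Fermat.Agent.NEB Fermat.Agent.NEB.H84 Fermat.Agent.NEB.JH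

/-! ## Injectivity of the generators -/

section Inj

variable {M c : ℕ} [NeZero M] (H : Subgroup (ZMod c)ˣ)

/-- The generators `e_{±aH}` determine the coset `±aH`. -/
theorem gen_inj (hc2 : 2 ≤ c) (hc : c ∣ M) {a b : (ZMod c)ˣ}
    (h : eisGen c (cosetSet c H a) = eisGen c (cosetSet c H b)) :
    a⁻¹ * b ∈ H ∨ -(a⁻¹ * b) ∈ H := by
  have dd := diamondData M c H hc2 hc
  have h1 : genBar M c H a = genBar M c H b := Subtype.ext (congrArg (coeffEmb Kbar) h)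
  have h2 := congrArg (dd.ρ a⁻¹) h1
  rw [dd.gen, dd.gen, mul_inv_cancel] at h2
  have h3 : coeffEmb Kbar (eisGen c (cosetSet c H 1)) =
      coeffEmb Kbar (eisGen c (cosetSet c H (b * a⁻¹))) := congrArg Subtype.val h2
  have h4 := one_mem_iff_of_eisGen_eq (coeffEmb_Kbar_injective h3)
  rw [one_mem_cosetSet_iff, one_mem_cosetSet_iff] at h4
  have h5 := h4.mp (Or.inl H.one_mem)
  rwa [mul_comm] at h5

/-- Two units in the same class modulo `±H` have the same generator. -/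
theorem gen_eq_of_mem {a b : (ZMod c)ˣ} (h : a⁻¹ * b ∈ H ∨ -(a⁻¹ * b) ∈ H) :
    eisGen c (cosetSet c H a) = eisGen c (cosetSet c H b) := by
  have h1 := cosetSet_mul_of_mem H a (a⁻¹ * b) h
  rw [mul_inv_cancel_left] at h1
  rw [h1]

end Inj

/-! ## The preimage of `H` -/

section Lift

variable {c c' : ℕ} (H : Subgroup (ZMod c)ˣ) (hcc' : c ∣ c')

/-- The preimage of `H ≤ (ℤ/c)ˣ` in `(ℤ/c')ˣ`. -/
def liftH : Subgroup (ZMod c')ˣ := H.comap (ZMod.unitsMap hcc')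

theorem mem_liftH {x : (ZMod c')ˣ} : x ∈ liftH H hcc' ↔ ZMod.unitsMap hcc' x ∈ H := Iff.rfl

theorem unitsMap_neg (x : (ZMod c')ˣ) : ZMod.unitsMap hcc' (-x) = -ZMod.unitsMap hcc' x := by
  apply Units.ext
  show ZMod.castHom hcc' (ZMod c) (-(x : ZMod c')) = -ZMod.castHom hcc' (ZMod c) (x : ZMod c')
  exact map_neg _ _

theorem mem_pm_liftH {x : (ZMod c')ˣ} :
    (x ∈ liftH H hcc' ∨ -x ∈ liftH H hcc') ↔
      (ZMod.unitsMap hcc' x ∈ H ∨ -ZMod.unitsMap hcc' x ∈ H) := by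
  rw [mem_liftH, mem_liftH, unitsMap_neg]

end Lift

/-! ## The power sums -/

section PowerSum

variable {M c' : ℕ} [NeZero M]

/-- The power sums of two families of series permuted by `Γ₀(M)` through `d ↦ u⁻¹ d` lie in
`F₀(M)`. -/
theorem powerSum_mem (hc' : c' ∣ M) [NeZero c'] (f g : (ZMod c')ˣ → LaurentSeries ℚ)
    (hf : ∀ (γ : SL(2, ℤ)) (hγ : γ ∈ Gamma0 M) (d : (ZMod c')ˣ),
      Rel M γ (coeffEmb ℂ (f d)) (coeffEmb ℂ (f ((dUnit hc' γ hγ)⁻¹ * d))))
    (hg : ∀ (γ : SL(2, ℤ)) (hγ : γ ∈ Gamma0 M) (d : (ZMod c')ˣ),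
      Rel M γ (coeffEmb ℂ (g d)) (coeffEmb ℂ (g ((dUnit hc' γ hγ)⁻¹ * d))))
    (i : ℕ) :
    ∑ d : (ZMod c')ˣ, f d ^ i * g d ∈ modularFunctionFieldFull M := by
  apply Fermat.Agent.NEB.H30.descent_rat (L := ℂ) (modularFunctionFieldFull M)
  apply mem_FNL_of_rel
  intro γ hγ
  set u := dUnit hc' γ hγ with hu
  have e1 : coeffEmb ℂ (∑ d : (ZMod c')ˣ, f d ^ i * g d) =
      ∑ d : (ZMod c')ˣ, coeffEmb ℂ (f d) ^ i * coeffEmb ℂ (g d) := by
    rw [map_sum]
    apply Finset.sum_congr rfl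
    intro d _
    rw [map_mul, map_pow]
  rw [e1]
  have key := rel_sum hγ (Finset.univ : Finset (ZMod c')ˣ)
    (fun d => coeffEmb ℂ (f d) ^ i * coeffEmb ℂ (g d))
    (fun d => coeffEmb ℂ (f (u⁻¹ * d)) ^ i * coeffEmb ℂ (g (u⁻¹ * d)))
    (fun d _ => rel_mul hγ (rel_pow hγ (hf γ hγ d) i) (hg γ hγ d))
  have e2 : ∑ d : (ZMod c')ˣ, coeffEmb ℂ (f (u⁻¹ * d)) ^ i * coeffEmb ℂ (g (u⁻¹ * d)) =
      ∑ d : (ZMod c')ˣ, coeffEmb ℂ (f d) ^ i * coeffEmb ℂ (g d) :=
    Equiv.sum_comp (Equiv.mulLeft u⁻¹) (fun d => coeffEmb ℂ (f d) ^ i * coeffEmb ℂ (g d))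
  rwa [e2] at key

end PowerSum

/-! ## The two families -/

section Families

variable {M c c' : ℕ} [NeZero M] (H : Subgroup (ZMod c)ˣ) (hcc' : c ∣ c') (hc' : c' ∣ M)

/-- The generator of conductor `c` attached to a unit modulo `c'`. -/
def genLow (d : (ZMod c')ˣ) : LaurentSeries ℚ :=
  eisGen c (cosetSet c H (ZMod.unitsMap hcc' d))

/-- The generator of conductor `c'`. -/
def genHigh (d : (ZMod c')ˣ) : LaurentSeries ℚ :=
  eisGen c' (cosetSet c' (liftH H hcc') d)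

include hc' in
theorem unitsMap_dUnit {γ : SL(2, ℤ)} (hγ : γ ∈ Gamma0 M) :
    ZMod.unitsMap hcc' (dUnit hc' γ hγ) = dUnit (hcc'.trans hc') γ hγ := by
  apply Units.ext
  show ZMod.castHom hcc' (ZMod c) (((γ 1 1 : ℤ) : ZMod c')) = ((γ 1 1 : ℤ) : ZMod c)
  exact map_intCast _ _

theorem rel_genLow (hc2 : 2 ≤ c) {γ : SL(2, ℤ)} (hγ : γ ∈ Gamma0 M) (d : (ZMod c')ˣ) :
    Rel M γ (coeffEmb ℂ (genLow H hcc' d))
      (coeffEmb ℂ (genLow H hcc' ((dUnit hc' γ hγ)⁻¹ * d))) := by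
  have h := relC_gen H hc2 (hcc'.trans hc') hγ (ZMod.unitsMap hcc' d)
  rw [genLow, genLow, map_mul, map_inv, unitsMap_dUnit hcc' hc' hγ]
  exact h

theorem rel_genHigh (hc2 : 2 ≤ c') {γ : SL(2, ℤ)} (hγ : γ ∈ Gamma0 M) (d : (ZMod c')ˣ) :
    Rel M γ (coeffEmb ℂ (genHigh H hcc' d))
      (coeffEmb ℂ (genHigh H hcc' ((dUnit hc' γ hγ)⁻¹ * d))) :=
  relC_gen (liftH H hcc') hc2 hc' hγ d

include hc' in
theorem genLow_eq_iff_genHigh_eq (hc2 : 2 ≤ c) (hc2' : 2 ≤ c') (d d' : (ZMod c')ˣ) :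
    genLow H hcc' d = genLow H hcc' d' ↔ genHigh H hcc' d = genHigh H hcc' d' := by
  constructor
  · intro h
    have h1 := gen_inj (M := M) H hc2 (hcc'.trans hc') h
    rw [← map_inv, ← map_mul] at h1
    exact gen_eq_of_mem (liftH H hcc') ((mem_pm_liftH H hcc').mpr h1)
  · intro h
    have h1 := gen_inj (M := M) (liftH H hcc') hc2' hc' h
    have h2 := (mem_pm_liftH H hcc').mp h1
    rw [map_mul, map_inv] at h2
    exact gen_eq_of_mem H h2

end Families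

/-! ## The equality of the fields -/

section Main

variable {M c c' : ℕ} [NeZero M] (H : Subgroup (ZMod c)ˣ) (hcc' : c ∣ c') (hc' : c' ∣ M)

theorem charZero_laurent : CharZero (LaurentSeries ℚ) :=
  charZero_of_injective_ringHom
    (f := (HahnSeries.C : ℚ →+* LaurentSeries ℚ)) HahnSeries.C_injective

include hc' in
theorem genHigh_mem (hc2 : 2 ≤ c) (a : (ZMod c')ˣ) : genHigh H hcc' a ∈ FHQ M c H := by
  have hc0 : c ≠ 0 := by omega
  have hc'0 : c' ≠ 0 := by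
    rintro rfl
    exact (NeZero.ne M) (Nat.eq_zero_of_zero_dvd hc')
  haveI : NeZero c' := ⟨hc'0⟩
  have hc2' : 2 ≤ c' := le_trans hc2 (Nat.le_of_dvd (Nat.pos_of_ne_zero hc'0) hcc')
  haveI := charZero_laurent
  exact mem_of_power_sums
    (@IntermediateField.toSubfield ℚ (LaurentSeries ℚ) _ _ (HahnSeries.powerSeriesAlgebra ℤ ℚ)
      (FHQ M c H))
    (fun d : (ZMod c')ˣ => genLow H hcc' d)
    (fun d : (ZMod c')ˣ => genHigh H hcc' d)
    (fun d => eisGen_mem_FHQ M c H _)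
    (fun d d' h => (genLow_eq_iff_genHigh_eq H hcc' hc' hc2 hc2' d d').mp h)
    (fun i => full_le_FHQ M c H (powerSum_mem hc' _ _
      (fun γ hγ d => rel_genLow H hcc' hc' hc2 hγ d)
      (fun γ hγ d => rel_genHigh H hcc' hc' hc2' hγ d) i)) a

include hc' in
theorem genLow_mem (hc2 : 2 ≤ c) (a : (ZMod c')ˣ) :
    genLow H hcc' a ∈ FHQ M c' (liftH H hcc') := by
  have hc'0 : c' ≠ 0 := by
    rintro rfl
    exact (NeZero.ne M) (Nat.eq_zero_of_zero_dvd hc')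
  haveI : NeZero c' := ⟨hc'0⟩
  have hc2' : 2 ≤ c' := le_trans hc2 (Nat.le_of_dvd (Nat.pos_of_ne_zero hc'0) hcc')
  haveI := charZero_laurent
  exact mem_of_power_sums
    (@IntermediateField.toSubfield ℚ (LaurentSeries ℚ) _ _ (HahnSeries.powerSeriesAlgebra ℤ ℚ)
      (FHQ M c' (liftH H hcc')))
    (fun d : (ZMod c')ˣ => genHigh H hcc' d)
    (fun d : (ZMod c')ˣ => genLow H hcc' d)
    (fun d => eisGen_mem_FHQ M c' (liftH H hcc') _)
    (fun d d' h => (genLow_eq_iff_genHigh_eq H hcc' hc' hc2 hc2' d d').mpr h)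
    (fun i => full_le_FHQ M c' (liftH H hcc') (powerSum_mem hc' _ _
      (fun γ hγ d => rel_genHigh H hcc' hc' hc2' hγ d)
      (fun γ hγ d => rel_genLow H hcc' hc' hc2 hγ d) i)) a

include hc' in
/-- **CH-COND** over `ℚ`. -/
theorem FHQ_liftH (hc2 : 2 ≤ c) : FHQ M c' (liftH H hcc') = FHQ M c H := by
  have hc'0 : c' ≠ 0 := by
    rintro rfl
    exact (NeZero.ne M) (Nat.eq_zero_of_zero_dvd hc')
  haveI : NeZero c' := ⟨hc'0⟩
  apply le_antisymm
  · rw [FHQ, IntermediateField.adjoin_le_iff]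
    rintro x (hx | ⟨a, rfl⟩)
    · exact full_le_FHQ M c H (IntermediateField.subset_adjoin ℚ _ hx)
    · exact genHigh_mem H hcc' hc' hc2 a
  · rw [FHQ, IntermediateField.adjoin_le_iff]
    rintro x (hx | ⟨a, rfl⟩)
    · exact full_le_FHQ M c' (liftH H hcc') (IntermediateField.subset_adjoin ℚ _ hx)
    · obtain ⟨d, rfl⟩ := ZMod.unitsMap_surjective hcc' a
      exact genLow_mem H hcc' hc' hc2 d

include hc' in
/-- **CH-COND** over `ℚ̄`. -/
theorem FHbar_liftH (hc2 : 2 ≤ c) : FHbar M c' (liftH H hcc') = FHbar M c H := by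
  show laurentBaseChange Kbar (FHQ M c' (liftH H hcc')) = laurentBaseChange Kbar (FHQ M c H)
  rw [FHQ_liftH H hcc' hc' hc2]

end Main

end Fermat.Agent.NEB.H18
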