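import Mathlib.RingTheory.Ideal.Operations
import Mathlib.RingTheory.Ideal.Maximal
import Mathlib.Algebra.Module.Submodule.Range
import Mathlib.Tactic

/-!
# LG-NEB, package INV: the localisation step (helper29)

Pure algebra.  `R` a commutative ring (the abstract Hecke algebra), `π : A₀ → A` an `R`-linear
map (`π^* : J₀[m] → J_H[m]`), `Y ⊆ A` a submodule (the `Δ`-invariants), `I` an ideal of `R`
(the Eisenstein ideal, generated by the `T_ℓ - (ℓ + 1)`) with

* (INV)   `I • Y ⊆ π(A₀)`,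
* (SIGMA) `I • ker π = 0`.

Then for every ideal `J` coprime to `I` (`J = 𝔪 ^ k`, `𝔪` maximal, `I ⊄ 𝔪`), `π` restricts to a
bijection `A₀[J] ≃ Y[J]`:  `V^Δ = π^* V₀` after localisation at a non-Eisenstein `𝔪`.
-/

set_option autoImplicit false

namespace Fermat.Agent.NEB.H29

section Loc

variable {R : Type*} [CommRing R] {A A₀ : Type*} [AddCommGroup A] [AddCommGroup A₀]
  [Module R A] [Module R A₀]

/-- (INV) for generators implies (INV) for the ideal. -/
theorem inv_of_span (π : A₀ →ₗ[R] A) (Y : Submodule R A) (S : Set R)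
    (h : ∀ t ∈ S, ∀ y ∈ Y, t • y ∈ LinearMap.range π) :
    ∀ t ∈ Ideal.span S, ∀ y ∈ Y, t • y ∈ LinearMap.range π := by
  intro t ht
  induction ht using Submodule.span_induction with
  | mem t ht => exact h t ht
  | zero => intro y _; rw [zero_smul]; exact zero_mem _
  | add a b _ _ ha hb =>
    intro y hy
    rw [add_smul]
    exact add_mem (ha y hy) (hb y hy)
  | smul r a _ ha =>
    intro y hy
    rw [smul_eq_mul, mul_smul]
    exact Submodule.smul_mem _ r (ha y hy)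

/-- (SIGMA) for generators implies (SIGMA) for the ideal. -/
theorem sigma_of_span (π : A₀ →ₗ[R] A) (S : Set R)
    (h : ∀ t ∈ S, ∀ x : A₀, π x = 0 → t • x = 0) :
    ∀ t ∈ Ideal.span S, ∀ x : A₀, π x = 0 → t • x = 0 := by
  intro t ht
  induction ht using Submodule.span_induction with
  | mem t ht => exact h t ht
  | zero => intro x _; rw [zero_smul]
  | add a b _ _ ha hb =>
    intro x hx
    rw [add_smul, ha x hx, hb x hx, add_zero]
  | smul r a _ ha =>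
    intro x hx
    rw [smul_eq_mul, mul_smul, ha x hx, smul_zero]

/-- **Localisation step, existence.**  If `y` is killed by `J`, `I ⊔ J = ⊤`, `I • y ⊆ π(A₀)` and
`I • ker π = 0`, then `y = π x` with `x` killed by `J`. -/
theorem exists_preimage_of_coprime (π : A₀ →ₗ[R] A) (I J : Ideal R) (hIJ : I ⊔ J = ⊤)
    (hSIG : ∀ t ∈ I, ∀ x : A₀, π x = 0 → t • x = 0)
    (y : A) (hINV : ∀ t ∈ I, t • y ∈ LinearMap.range π) (hJ : ∀ s ∈ J, s • y = 0) :
    ∃ x : A₀, (∀ s ∈ J, s • x = 0) ∧ π x = y := by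
  have h1 : (1 : R) ∈ I ⊔ J := by rw [hIJ]; exact Submodule.mem_top
  obtain ⟨t, ht, s, hs, hts⟩ := Submodule.mem_sup.mp h1
  have hty : t • y = y := by
    have : (t + s) • y = y := by rw [hts, one_smul]
    rw [add_smul, hJ s hs, add_zero] at this
    exact this
  obtain ⟨x₁, hx₁⟩ := hINV t ht
  refine ⟨t • x₁, fun s' hs' => ?_, ?_⟩
  · have h2 : π (s' • x₁) = 0 := by
      rw [map_smul, hx₁, smul_comm, hJ s' hs', smul_zero]
    rw [smul_comm]
    exact hSIG t ht _ h2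
  · rw [map_smul, hx₁, hty, hty]

/-- **Localisation step, uniqueness.** -/
theorem eq_zero_of_coprime (π : A₀ →ₗ[R] A) (I J : Ideal R) (hIJ : I ⊔ J = ⊤)
    (hSIG : ∀ t ∈ I, ∀ x : A₀, π x = 0 → t • x = 0)
    (x : A₀) (hx : π x = 0) (hJ : ∀ s ∈ J, s • x = 0) : x = 0 := by
  have h1 : (1 : R) ∈ I ⊔ J := by rw [hIJ]; exact Submodule.mem_top
  obtain ⟨t, ht, s, hs, hts⟩ := Submodule.mem_sup.mp h1
  have : (t + s) • x = x := by rw [hts, one_smul]
  rw [add_smul, hSIG t ht x hx, hJ s hs, add_zero] at this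
  exact this.symm

/-- **`V^Δ = π^* V₀` at a non-Eisenstein maximal ideal.**  `𝔪` maximal, `I ⊄ 𝔪`, `y ∈ Y` killed by
`𝔪 ^ k`: there is a unique `x` killed by `𝔪 ^ k` with `π x = y`. -/
theorem stmt_INV_loc (π : A₀ →ₗ[R] A) (Y : Submodule R A) (I 𝔪 : Ideal R) [𝔪.IsMaximal]
    (hI : ¬ I ≤ 𝔪)
    (hINV : ∀ t ∈ I, ∀ y ∈ Y, t • y ∈ LinearMap.range π)
    (hSIG : ∀ t ∈ I, ∀ x : A₀, π x = 0 → t • x = 0)
    (k : ℕ) (y : A) (hy : y ∈ Y) (hk : ∀ s ∈ 𝔪 ^ k, s • y = 0) :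
    ∃! x : A₀, (∀ s ∈ 𝔪 ^ k, s • x = 0) ∧ π x = y := by
  have h1 : I ⊔ 𝔪 = ⊤ := by
    by_contra h
    have h2 : 𝔪 = I ⊔ 𝔪 := Ideal.IsMaximal.eq_of_le inferInstance h le_sup_right
    apply hI
    rw [h2]
    exact le_sup_left
  have h2 : I ⊔ 𝔪 ^ k = ⊤ := Ideal.sup_pow_eq_top h1
  obtain ⟨x, hx1, hx2⟩ := exists_preimage_of_coprime π I (𝔪 ^ k) h2 hSIG y
    (fun t ht => hINV t ht y hy) hk
  refine ⟨x, ⟨hx1, hx2⟩, fun x' hx' => ?_⟩
  have h3 : x' - x = 0 := by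
    apply eq_zero_of_coprime π I (𝔪 ^ k) h2 hSIG
    · rw [map_sub, hx'.2, hx2, sub_self]
    · intro s hs
      rw [smul_sub, hx'.1 s hs, hx1 s hs, sub_self]
  exact sub_eq_zero.mp h3

end Loc

end Fermat.Agent.NEB.H29
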