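import Mathlib.NumberTheory.ModularForms.EisensteinSeries.IsBoundedAtImInfty
import Mathlib.NumberTheory.ModularForms.EisensteinSeries.MDifferentiable
import Mathlib.NumberTheory.ModularForms.EisensteinSeries.UniformConvergence
import Mathlib.NumberTheory.ModularForms.EisensteinSeries.QExpansion

/-!
# Item 72, LG-NEB, package FH-AN (helper29): restricted lattice sums

For a set `P` of integer vectors, `latSum P k z = ∑_{v ∈ P} (v₀ z + v₁)^{-k}`.  For `k ≥ 3`:
* `latSum_slash`: `latSum P k ∣[k] γ = latSum (P γ) k` for `γ ∈ SL(2, ℤ)`;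
* `latSum_mdifferentiable`: holomorphic on `ℍ`;
* `latSum_isBoundedAtImInfty`: bounded at `i∞`.
(The proofs are those of Mathlib for the Eisenstein series of level `Γ(N)`, which never use the
coprimality of the pairs.)
-/

set_option autoImplicit false

namespace Fermat.Agent.NEB.H29

section MulSet

open Matrix
open scoped MatrixGroups

/-- The image of `P` under right multiplication by `γ`. -/
def mulSet (P : Set (Fin 2 → ℤ)) (γ : SL(2, ℤ)) : Set (Fin 2 → ℤ) :=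
  {w | w ᵥ* ((γ⁻¹ : SL(2, ℤ)) : Matrix (Fin 2) (Fin 2) ℤ) ∈ P}

theorem mem_mulSet (P : Set (Fin 2 → ℤ)) (γ : SL(2, ℤ)) (w : Fin 2 → ℤ) :
    w ∈ mulSet P γ ↔ w ᵥ* ((γ⁻¹ : SL(2, ℤ)) : Matrix (Fin 2) (Fin 2) ℤ) ∈ P := Iff.rfl

theorem vecMul_mul_inv (v : Fin 2 → ℤ) (γ : SL(2, ℤ)) :
    (v ᵥ* (γ : Matrix (Fin 2) (Fin 2) ℤ)) ᵥ* ((γ⁻¹ : SL(2, ℤ)) : Matrix (Fin 2) (Fin 2) ℤ) = v := by
  have h : (γ : Matrix (Fin 2) (Fin 2) ℤ) * ((γ⁻¹ : SL(2, ℤ)) : Matrix (Fin 2) (Fin 2) ℤ) = 1 :=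
    congrArg Subtype.val (mul_inv_cancel γ)
  rw [vecMul_vecMul, h, vecMul_one]

theorem vecMul_inv_mul (v : Fin 2 → ℤ) (γ : SL(2, ℤ)) :
    (v ᵥ* ((γ⁻¹ : SL(2, ℤ)) : Matrix (Fin 2) (Fin 2) ℤ)) ᵥ* (γ : Matrix (Fin 2) (Fin 2) ℤ) = v := by
  have h : ((γ⁻¹ : SL(2, ℤ)) : Matrix (Fin 2) (Fin 2) ℤ) * (γ : Matrix (Fin 2) (Fin 2) ℤ) = 1 :=
    congrArg Subtype.val (inv_mul_cancel γ)
  rw [vecMul_vecMul, h, vecMul_one]

/-- Right multiplication by `γ`, as a bijection `P ≃ P γ`. -/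
def mulSetEquiv (P : Set (Fin 2 → ℤ)) (γ : SL(2, ℤ)) : P ≃ mulSet P γ where
  toFun v := ⟨v.1 ᵥ* (γ : Matrix (Fin 2) (Fin 2) ℤ), by
    rw [mem_mulSet, vecMul_mul_inv]
    exact v.2⟩
  invFun w := ⟨w.1 ᵥ* ((γ⁻¹ : SL(2, ℤ)) : Matrix (Fin 2) (Fin 2) ℤ), w.2⟩
  left_inv v := Subtype.ext (vecMul_mul_inv v.1 γ)
  right_inv w := Subtype.ext (vecMul_inv_mul w.1 γ)

end MulSet

end Fermat.Agent.NEB.H29

open ModularForm UpperHalfPlane Matrix CongruenceSubgroup Filter Complex Manifold Topology Set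
open scoped MatrixGroups

noncomputable section

namespace Fermat.Agent.NEB.H29

open EisensteinSeries

/-- The lattice sum restricted to a set `P` of integer vectors. -/
def latSum (P : Set (Fin 2 → ℤ)) (k : ℤ) (z : ℍ) : ℂ := ∑' x : P, eisSummand k x z

/-- The slash action permutes the restricted lattice sums. -/
theorem latSum_slash (P : Set (Fin 2 → ℤ)) (k : ℤ) (γ : SL(2, ℤ)) :
    latSum P k ∣[k] γ = latSum (mulSet P γ) k := by
  ext1 z
  simp_rw [SL_slash_apply, _root_.zpow_neg,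
    mul_inv_eq_iff_eq_mul₀ (zpow_ne_zero _ <| denom_ne_zero _ z),
    latSum, eisSummand_SL2_apply, tsum_mul_left, mul_comm (_ ^ k)]
  congr 1
  exact (mulSetEquiv P γ).tsum_eq (eisSummand k · z)

/-- The sum converges locally uniformly. -/
theorem latSum_tendstoLocallyUniformly {k : ℤ} (hk : 3 ≤ k) (P : Set (Fin 2 → ℤ)) :
    TendstoLocallyUniformly (fun (s : Finset P) ↦ (∑ x ∈ s, eisSummand k x ·))
      (latSum P k ·) Filter.atTop := by
  have hk' : (2 : ℝ) < k := by norm_cast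
  have p_sum : Summable fun x : P ↦ ‖x.val‖ ^ (-k) :=
    mod_cast (summable_one_div_norm_rpow hk').subtype (· ∈ P)
  simp only [tendstoLocallyUniformly_iff_forall_isCompact, latSum]
  intro K hK
  obtain ⟨A, B, hB, HABK⟩ := subset_verticalStrip_of_isCompact hK
  refine (tendstoUniformlyOn_tsum (hu := p_sum.mul_left <| r ⟨⟨A, B⟩, hB⟩ ^ (-k : ℝ))
    (fun p z hz ↦ ?_)).mono HABK
  simpa only [eisSummand, one_div, ← _root_.zpow_neg, norm_zpow, ← Real.rpow_intCast,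
    Int.cast_neg] using summand_bound_of_mem_verticalStrip (by positivity) p hB hz

theorem latSum_tendstoLocallyUniformlyOn {k : ℤ} (hk : 3 ≤ k) (P : Set (Fin 2 → ℤ)) :
    TendstoLocallyUniformlyOn (fun (s : Finset P) ↦
      ↑ₕ(fun (z : ℍ) ↦ ∑ x ∈ s, eisSummand k x z)) (↑ₕ(latSum P k))
          Filter.atTop {z : ℂ | 0 < z.im} := by
  rw [← upperHalfPlaneSet, ← range_coe, ← image_univ]
  apply TendstoLocallyUniformlyOn.comp (s := ⊤) _ _ _ (OpenPartialHomeomorph.continuousOn_symm _)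
  · simp only [Set.top_eq_univ, tendstoLocallyUniformlyOn_univ]
    apply latSum_tendstoLocallyUniformly hk
  · simp only [IsOpenEmbedding.toOpenPartialHomeomorph_target, Set.top_eq_univ, mapsTo_range_iff,
    Set.mem_univ, forall_const]

/-- Restricted lattice sums are holomorphic. -/
theorem latSum_mdifferentiable {k : ℤ} (hk : 3 ≤ k) (P : Set (Fin 2 → ℤ)) :
    MDiff (latSum P k) := by
  intro τ
  suffices DifferentiableAt ℂ (↑ₕ(latSum P k)) τ.1 by
    convert!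
      MDifferentiableAt.comp τ (DifferentiableAt.mdifferentiableAt this) τ.mdifferentiable_coe
    exact funext fun z ↦ (comp_ofComplex (latSum P k) z).symm
  refine DifferentiableOn.differentiableAt ?_ (isOpen_upperHalfPlaneSet.mem_nhds τ.2)
  exact (latSum_tendstoLocallyUniformlyOn hk P).differentiableOn
    (Eventually.of_forall fun s ↦ DifferentiableOn.fun_sum
    fun _ _ ↦ eisSummand_extension_differentiableOn _ _) isOpen_upperHalfPlaneSet

/-- The norm of the restricted sum is at most the full sum of the norms. -/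
theorem norm_latSum_le (P : Set (Fin 2 → ℤ)) {k : ℤ} (hk : 3 ≤ k) (z : ℍ) :
    ‖latSum P k z‖ ≤ ∑' (x : Fin 2 → ℤ), ‖eisSummand k x z‖ := by
  simp_rw [latSum]
  apply le_trans (norm_tsum_le_tsum_norm ((summable_norm_eisSummand hk z).subtype _))
    (Summable.tsum_subtype_le (fun (x : Fin 2 → ℤ) ↦ ‖(eisSummand k x z)‖) _ (fun _ ↦ norm_nonneg _)
      (summable_norm_eisSummand hk z))

/-- The shear `(x₀, x₁) ↦ (x₀, x₀ n + x₁)`. -/
def shearEquiv (n : ℤ) : (Fin 2 → ℤ) ≃ (Fin 2 → ℤ) where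
  toFun x := ![x 0, x 0 * n + x 1]
  invFun x := ![x 0, x 1 - x 0 * n]
  left_inv x := by
    ext i
    fin_cases i <;> simp
  right_inv x := by
    ext i
    fin_cases i <;> simp

theorem eisSummand_T_zpow (k : ℤ) (n : ℤ) (x : Fin 2 → ℤ) (z : ℍ) :
    eisSummand k x (ModularGroup.T ^ n • z) = eisSummand k (shearEquiv n x) z := by
  simp only [eisSummand, shearEquiv, Equiv.coe_fn_mk, Matrix.cons_val_zero, Matrix.cons_val_one,
    ModularGroup.coe_T_zpow_smul_eq]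
  congr 1
  push_cast
  ring

/-- The full sum of the norms is invariant under integer translations. -/
theorem tsum_norm_eisSummand_T_zpow (k : ℤ) (n : ℤ) (z : ℍ) :
    ∑' (x : Fin 2 → ℤ), ‖eisSummand k x (ModularGroup.T ^ n • z)‖
      = ∑' (x : Fin 2 → ℤ), ‖eisSummand k x z‖ := by
  simp_rw [eisSummand_T_zpow]
  exact (shearEquiv n).tsum_eq (fun x => ‖eisSummand k x z‖)

/-- Restricted lattice sums are bounded at `i∞`. -/
theorem latSum_isBoundedAtImInfty {k : ℤ} (hk : 3 ≤ k) (P : Set (Fin 2 → ℤ)) :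
    IsBoundedAtImInfty (latSum P k) := by
  rw [UpperHalfPlane.isBoundedAtImInfty_iff]
  refine ⟨∑'(x : Fin 2 → ℤ), r ⟨⟨1, 2⟩, Nat.ofNat_pos⟩ ^ (-k) * ‖x‖ ^ (-k), 2, ?_⟩
  intro z hz
  obtain ⟨n, hn⟩ := (ModularGroup_T_zpow_mem_verticalStrip z (N := 1) one_pos)
  apply le_trans (norm_latSum_le P hk z)
  rw [← tsum_norm_eisSummand_T_zpow k (((1 : ℕ) : ℤ) * n) z]
  have hk' : (2 : ℝ) < k := by norm_cast
  apply (summable_norm_eisSummand hk _).tsum_le_tsum _
  · exact_mod_cast (summable_one_div_norm_rpow hk').mul_left <| r ⟨⟨1, 2⟩, Nat.ofNat_pos⟩ ^ (-k)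
  · intro x
    simp_rw [eisSummand, norm_zpow]
    exact_mod_cast
      summand_bound_of_mem_verticalStrip (lt_trans two_pos hk').le x two_pos
      (verticalStrip_anti_right 1 hz (by exact_mod_cast hn))

end Fermat.Agent.NEB.H29
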