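import Fermat.Agent.NEB.Defs
import Fermat.Agent.GTor.H58_A2
import Fermat.Agent.GTor.H56_DescRoot
import Fermat.Agent.GTor.H98_Exist

/-!
# NEB, package FH-A2Q (helper34): ratios of modular forms with rational coefficients

`mem_of_ratio`: if `A`, `B ≠ 0` are modular forms of the same weight on `Γ₀(M)` and `x ∈ L((q))`
(`ι : L →+* ℂ`) satisfies `qExp A = ι(x) · qExp B`, then `x ∈ F₀(M) · L`
(`= laurentBaseChange L (modularFunctionFieldFull M)`).  For `L = ℚ`: `x ∈ F₀(M)`.

Proof: `GTor.H58.stmt_A2` (over `ℂ`) and the descent `L((q)) ∩ F_ℂ = F_L`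
(`GTor.H56.mem_of_coeffMap_mem`).

`mkForm`: a holomorphic function on `ℍ`, slash-invariant of weight `k` under `Γ₀(M)` and bounded at
all cusps (in the `SL(2, ℤ)` formulation) is a `ModularForm (Γ₀(M)) k`.
-/

set_option autoImplicit false

noncomputable section

namespace Fermat.Agent.NEB.H34

open ModularCurve UpperHalfPlane ModularForm
open scoped MatrixGroups Manifold

/-- `laurentBaseChange ℚ F₀ = F₀`. -/
theorem laurentBaseChange_rat (F₀ : IntermediateField ℚ (LaurentSeries ℚ)) :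
    laurentBaseChange ℚ F₀ = F₀ := by
  have h : (⇑(coeffEmb ℚ) '' (F₀ : Set (LaurentSeries ℚ))) = (F₀ : Set (LaurentSeries ℚ)) := by
    ext x
    constructor
    · rintro ⟨y, hy, rfl⟩
      have : coeffEmb ℚ y = y := by
        ext m
        simp
      rw [this]
      exact hy
    · intro hx
      refine ⟨x, hx, ?_⟩
      ext m
      simp
  rw [laurentBaseChange, h]
  exact IntermediateField.adjoin_self ℚ F₀

/-- **FH-A2Q.**  A ratio of two modular forms on `Γ₀(M)` whose `q`-expansion has coefficients in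
`L ⊆ ℂ` lies in `F₀(M) · L`. -/
theorem mem_of_ratio {L : Type} [Field L] [Algebra ℚ L] (ι : L →+* ℂ) (M : ℕ) [NeZero M] {k : ℤ}
    (A B : ModularForm (CongruenceSubgroup.Gamma0 M) k) (hB : B ≠ 0) (x : LaurentSeries L)
    (h : GTor.qLaurent A = coeffMap ι x * GTor.qLaurent B) :
    x ∈ laurentBaseChange L (modularFunctionFieldFull M) := by
  obtain ⟨f, -, hf⟩ := GTor.H58.stmt_A2 (N := M) k A B hB
  have hB0 : GTor.qLaurent B ≠ 0 := GTor.H98.qLaurent_ne_zero hB
  have e : coeffMap ι x = (f : LaurentSeries ℂ) := by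
    have := h.symm.trans hf
    exact mul_right_cancel₀ hB0 this
  refine GTor.H56.mem_of_coeffMap_mem ι (modularFunctionFieldFull M) ?_
  rw [e]
  exact f.2

/-- **FH-A2Q over `ℚ`.** -/
theorem mem_full_of_ratio (M : ℕ) [NeZero M] {k : ℤ}
    (A B : ModularForm (CongruenceSubgroup.Gamma0 M) k) (hB : B ≠ 0) (x : LaurentSeries ℚ)
    (h : GTor.qLaurent A = coeffMap (algebraMap ℚ ℂ) x * GTor.qLaurent B) :
    x ∈ modularFunctionFieldFull M := by
  have := mem_of_ratio (algebraMap ℚ ℂ) M A B hB x h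
  rwa [laurentBaseChange_rat] at this

/-- **FH-A2Q over `ℚ̄`.** -/
theorem mem_bar_of_ratio (ι : Kbar →+* ℂ) (M : ℕ) [NeZero M] {k : ℤ}
    (A B : ModularForm (CongruenceSubgroup.Gamma0 M) k) (hB : B ≠ 0) (x : LaurentSeries Kbar)
    (h : GTor.qLaurent A = coeffMap ι x * GTor.qLaurent B) :
    x ∈ modularFunctionFieldBar M :=
  mem_of_ratio ι M A B hB x h

end Fermat.Agent.NEB.H34
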