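import Fermat.Agent.NEB.H84_Gen

set_option autoImplicit false
set_option linter.unusedSectionVars false
set_option linter.unusedVariables false

open UpperHalfPlane ModularForm CongruenceSubgroup ModularCurve
open scoped MatrixGroups ModularForm Manifold

noncomputable section

namespace Fermat.Agent.NEB.H34

open Fermat.Agent.S23.H22 (Nice)
open Fermat.Agent.GTor (qLaurent)
open Fermat.Agent.GTor.H56 (qLaurent_mul qLaurent_injective qLaurent_eq_zero_iff qLaurent_zero)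
open Fermat.Agent.NEB.H84

local notation "ofPS" => HahnSeries.ofPowerSeries ℤ ℂ

variable {M c : ℕ} [NeZero c] (H : Subgroup (ZMod c)ˣ)

/-- `d_γ mod c` as a unit, for `γ ∈ Γ₀(M)`, `c ∣ M`. -/
def dUnit (hc : c ∣ M) : Gamma0 M →* (ZMod c)ˣ :=
  MonoidHom.toHomUnits ((ZMod.castHom hc (ZMod c)).toMonoidHom.comp (Gamma0Map M))

theorem coe_dUnit (hc : c ∣ M) (γ : Gamma0 M) :
    ((dUnit hc γ : (ZMod c)ˣ) : ZMod c) = (((γ : SL(2, ℤ)) 1 1 : ℤ) : ZMod c) := by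
  simp [dUnit, MonoidHom.toHomUnits, Gamma0Map]

theorem zero_notMem_cosetSet [Fact (1 < c)] (a : (ZMod c)ˣ) : (0 : ZMod c) ∉ cosetSet c H a := by
  rintro ⟨h, -, h1 | h1⟩
  · exact (a * h).ne_zero h1.symm
  · exact (a * h).ne_zero (neg_eq_zero.mp h1.symm)

theorem neg_mem_cosetSet (a : (ZMod c)ˣ) (x : ZMod c) (hx : x ∈ cosetSet c H a) :
    -x ∈ cosetSet c H a := by
  obtain ⟨h, hh, h1 | h1⟩ := hx
  · exact ⟨h, hh, Or.inr (by rw [h1])⟩
  · exact ⟨h, hh, Or.inl (by rw [h1, neg_neg])⟩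

theorem cosetSet_smul (d a : (ZMod c)ˣ) :
    {x : ZMod c | (d : ZMod c) * x ∈ cosetSet c H a} = cosetSet c H (d⁻¹ * a) := by
  ext x
  constructor
  · rintro ⟨h, hh, h1 | h1⟩
    · refine ⟨h, hh, Or.inl ?_⟩
      have : x = ((d⁻¹ : (ZMod c)ˣ) : ZMod c) * ((d : ZMod c) * x) := by
        rw [← mul_assoc, ← Units.val_mul, inv_mul_cancel, Units.val_one, one_mul]
      rw [this, h1, ← Units.val_mul, mul_assoc]
    · refine ⟨h, hh, Or.inr ?_⟩
      have : x = ((d⁻¹ : (ZMod c)ˣ) : ZMod c) * ((d : ZMod c) * x) := by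
        rw [← mul_assoc, ← Units.val_mul, inv_mul_cancel, Units.val_one, one_mul]
      rw [this, h1, mul_neg, ← Units.val_mul, mul_assoc]
  · rintro ⟨h, hh, h1 | h1⟩
    · refine ⟨h, hh, Or.inl ?_⟩
      rw [h1, ← Units.val_mul, ← mul_assoc, ← mul_assoc, mul_inv_cancel, one_mul]
    · refine ⟨h, hh, Or.inr ?_⟩
      rw [h1, mul_neg, ← Units.val_mul, ← mul_assoc, ← mul_assoc, mul_inv_cancel, one_mul]

/-- The twisted Eisenstein series `∑_a ψ(a)⁻¹ E_{±aH}`. -/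
def RAn (ψ : (ZMod c)ˣ →* ℂˣ) : ℍ → ℂ :=
  ∑ a : (ZMod c)ˣ, ((ψ a⁻¹ : ℂˣ) : ℂ) • eisAn c (cosetSet c H a)

theorem isW_smul {k : ℤ} {R : ℍ → ℂ} (h : IsW M k R) (z : ℂ) : IsW M k (z • R) := by
  have h1 := (IsW.const M z).mul h
  have e : (fun _ : ℍ => z) * R = z • R := by
    funext τ
    simp
  rw [e, zero_add] at h1
  exact h1

theorem isW_zero (M : ℕ) (k : ℤ) : IsW M k (0 : ℍ → ℂ) where
  mdiff := mdifferentiable_const
  slash γ _ := SlashAction.zero_slash _ _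
  bdd σ := by
    rw [SlashAction.zero_slash]
    exact Filter.const_boundedAtFilter _ (0 : ℂ)

theorem isW_sum {ι : Type*} (s : Finset ι) {k : ℤ} (R : ι → ℍ → ℂ) (h : ∀ i ∈ s, IsW M k (R i)) :
    IsW M k (∑ i ∈ s, R i) := by
  classical
  induction s using Finset.induction_on with
  | empty => simpa using isW_zero M k
  | insert a s ha ih =>
    rw [Finset.sum_insert ha]
    exact (h a (Finset.mem_insert_self a s)).add (ih fun i hi => h i (Finset.mem_insert_of_mem hi))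

theorem isW_RAn (hc : c ∣ M) (ψ : (ZMod c)ˣ →* ℂˣ) : IsW M 4 (RAn H ψ) :=
  isW_sum _ _ fun a _ => isW_smul (isW_eisAn hc _) _


/-- **The multiplier of the twisted Eisenstein series.** -/
theorem RAn_slash (hc : c ∣ M) (ψ : (ZMod c)ˣ →* ℂˣ) (γ : Gamma0 M) :
    RAn H ψ ∣[(4 : ℤ)] (γ : SL(2, ℤ)) = ((ψ (dUnit hc γ)⁻¹ : ℂˣ) : ℂ) • RAn H ψ := by
  set d : (ZMod c)ˣ := dUnit hc γ with hd
  have hγc : (γ : SL(2, ℤ)) ∈ Gamma0 c := mem_Gamma0_of_dvd hc γ.2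
  unfold RAn
  rw [SlashAction.sum_slash, Finset.smul_sum]
  have h1 : ∀ a : (ZMod c)ˣ, (((ψ a⁻¹ : ℂˣ) : ℂ) • eisAn c (cosetSet c H a)) ∣[(4 : ℤ)]
      (γ : SL(2, ℤ)) = ((ψ a⁻¹ : ℂˣ) : ℂ) • eisAn c (cosetSet c H (d⁻¹ * a)) := by
    intro a
    rw [ModularForm.SL_smul_slash,
      Fermat.Agent.NEB.H29.eisAn_slash_Gamma0 c _ ⟨(γ : SL(2, ℤ)), hγc⟩]
    congr 2
    rw [← cosetSet_smul H d a, hd, coe_dUnit]
  rw [Finset.sum_congr rfl fun a _ => h1 a]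
  refine Fintype.sum_equiv (Equiv.mulLeft d⁻¹) _ _ fun a => ?_
  simp only [Equiv.coe_mulLeft]
  rw [smul_smul, ← Units.val_mul, ← map_mul, mul_inv_rev, inv_inv]
  congr 3
  rw [mul_comm a⁻¹ d, inv_mul_cancel_left]


/-- The algebraic counterpart of `RAn` over `ℂ`: `∑_a ψ(a)⁻¹ e_{±aH}`. -/
def yC (ψ : (ZMod c)ˣ →* ℂˣ) : LaurentSeries ℂ :=
  ∑ a : (ZMod c)ˣ, ((ψ a⁻¹ : ℂˣ) : ℂ) • coeffEmb ℂ (eisGen c (cosetSet c H a))

theorem qLaurent_smul {F : ℍ → ℂ} (hF : Nice 1 F) (z : ℂ) :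
    qLaurent (z • F) = z • qLaurent F := by
  rw [qLaurent, qLaurent, hF.qExpansion_smul one_pos]
  ext n
  rcases lt_or_ge n 0 with hn | hn
  · rw [HahnSeries.coeff_smul, ModularCurve.ofPowerSeries_coeff_of_neg _ hn,
      ModularCurve.ofPowerSeries_coeff_of_neg _ hn, smul_zero]
  · lift n to ℕ using hn
    rw [HahnSeries.coeff_smul, HahnSeries.ofPowerSeries_apply_coeff,
      HahnSeries.ofPowerSeries_apply_coeff]
    simp

theorem qLaurent_sum_smul {ι : Type*} (s : Finset ι) (z : ι → ℂ) (F : ι → ℍ → ℂ)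
    (hF : ∀ i, Nice 1 (F i)) :
    qLaurent (∑ i ∈ s, z i • F i) = ∑ i ∈ s, z i • qLaurent (F i) := by
  classical
  induction s using Finset.induction_on with
  | empty => simpa using qLaurent_zero
  | insert a s ha ih =>
    rw [Finset.sum_insert ha, Finset.sum_insert ha,
      qLaurent_add ((hF a).smul _) (Nice.sum _ fun i _ => (hF i).smul _), ih,
      qLaurent_smul (hF a)]

theorem qLaurent_E4 : qLaurent ((E₄ : ModularForm 𝒮ℒ 4) : ℍ → ℂ) =
    ofPS (eisenstein4.map (Int.castRingHom ℂ)) := by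
  rw [qLaurent, Fermat.Agent.S28.H76.qExpansion_E4_eq_eisenstein4]

/-- **The `q`-expansion of the twisted Eisenstein series.** -/
theorem qLaurent_RAn [Fact (1 < c)] (hc : c ∣ M) (ψ : (ZMod c)ˣ →* ℂˣ) :
    qLaurent (RAn H ψ) = yC H ψ *
      (Fermat.Agent.NEB.H29.eisConst • qLaurent ((E₄ : ModularForm 𝒮ℒ 4) : ℍ → ℂ)) := by
  unfold RAn yC
  rw [qLaurent_sum_smul _ _ _ (fun a => (isW_eisAn (M := M) hc _).nice), Finset.sum_mul]
  refine Finset.sum_congr rfl fun a _ => ?_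
  rw [Fermat.Agent.NEB.H29.qLaurent_eisAn c _ (zero_notMem_cosetSet H a) (neg_mem_cosetSet H a),
    qLaurent_E4, ← coeffEmb_eisGen_mul]
  simp only [← HahnSeries.C_mul_eq_smul]
  ring

end Fermat.Agent.NEB.H34
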