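import Fermat.Agent.NEB.H84_VRaise
import Fermat.Agent.GTor.H44_NormSeries

/-!
# LG-NEB, package RED-q (helper70), part 2a: the graph `RelN g` of "slash by `g`" on ratios of
`q`-expansions, for `g ∈ GL₂(ℝ)⁺`

`RelN g x y` : `x = qL A / qL B`, `y = qL (A ∣ g) / qL (B ∣ g)` for two functions `A`, `B` on `ℍ`
which are `Nice 1` (holomorphic, `1`-periodic, bounded at `i∞`) together with their slashes.
This is the graph of a partially defined field homomorphism of `ℂ((q))`; it is used to construct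
the conjugates of `F_H(Mℓ)` over `α F_H(M)` and over `β F_H(M)`.

* `Expands D E` : slash by `D` maps `Nice 1` functions to `Nice 1` functions and acts on
  `q`-expansions by the ring homomorphism `E`, up to a nonzero constant depending on the weight;
  `expands_diag` (`E = qExpand ℓ`), `expands_trans` (`D = [1 b; 0 ℓ]·diag(ℓ,1)`, `E = ` twist by
  `exp (2πi b/ℓ)`), `Expands.mul`.
* `relN_of_rel` : if `D₀ g = δ D`, `δ ∈ Γ₀(M)`, then `Rel M δ x₀ y₀ → RelN g (E₀ x₀) (E y₀)`.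
-/

set_option autoImplicit false
set_option linter.unusedSectionVars false

open UpperHalfPlane ModularForm CongruenceSubgroup ModularCurve
open scoped MatrixGroups ModularForm Manifold

noncomputable section

namespace Fermat.Agent.NEB.H70

open Fermat.Agent.S23.H22 (Nice)
open Fermat.Agent.GTor (qLaurent)
open Fermat.Agent.GTor.H56 (qLaurent_mul qLaurent_injective qLaurent_eq_zero_iff qLaurent_zero)
open Fermat.Agent.NEB.H84

/-! ## 1. Translations -/

section Translate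

/-- `τ ↦ G (τ + r)`. -/
def translate (r : ℝ) (G : ℍ → ℂ) : ℍ → ℂ := fun τ => G (r +ᵥ τ)

theorem translate_apply (r : ℝ) (G : ℍ → ℂ) (τ : ℍ) : translate r G τ = G (r +ᵥ τ) := rfl

theorem slash_hM_diag_apply (ℓ : ℕ) [NeZero ℓ] (b : ℕ) (k : ℤ) (G : ℍ → ℂ) (τ : ℍ) :
    ((G ∣[k] heckeMatrix ℓ b) ∣[k] heckeDiagMatrix ℓ) τ
      = (ℓ : ℂ) ^ (k - 2) * translate ((b : ℝ) / ℓ) G τ := by
  have hℓ : ℓ ≠ 0 := NeZero.ne ℓ
  have hℓ' : (ℓ : ℂ) ≠ 0 := by exact_mod_cast hℓ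
  rw [slash_heckeDiagMatrix_apply k hℓ, slash_heckeMatrix_apply k hℓ, translate_apply]
  have hpt : heckeMatrix ℓ b • (heckeDiagMatrix ℓ • τ) = ((b : ℝ) / ℓ) +ᵥ τ := by
    apply UpperHalfPlane.ext
    rw [coe_heckeMatrix_smul hℓ, coe_heckeDiagMatrix_smul hℓ, UpperHalfPlane.coe_vadd]
    push_cast
    field_simp
    ring
  rw [hpt, ← mul_assoc]
  congr 1
  rw [show k - 2 = k - 1 + -1 by ring, zpow_add₀ hℓ', zpow_neg_one]

/-- The translation matrix `[1 r; 0 1]`. -/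
def transGL (r : ℝ) : GL (Fin 2) ℝ := upperTriangularGL 1 r 1 (by norm_num)

theorem det_transGL (r : ℝ) : ((transGL r).det : ℝ) = 1 := by
  rw [Matrix.GeneralLinearGroup.val_det_apply, transGL, val_upperTriangularGL,
    Matrix.det_fin_two_of]
  ring

theorem det_transGL_pos (r : ℝ) : 0 < ((transGL r).det : ℝ) := by
  rw [det_transGL]; exact one_pos

theorem translate_eq_slash (r : ℝ) (G : ℍ → ℂ) : translate r G = G ∣[(0 : ℤ)] transGL r := by
  funext τ
  rw [ModularForm.slash_apply, translate_apply]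
  have hσ : UpperHalfPlane.σ (transGL r) = .refl ℝ ℂ := by
    rw [UpperHalfPlane.σ, if_pos (det_transGL_pos r)]
  have hden : UpperHalfPlane.denom (transGL r) τ = 1 := by
    simp [UpperHalfPlane.denom, transGL, val_upperTriangularGL]
  have hpt : transGL r • τ = r +ᵥ τ := by
    apply UpperHalfPlane.ext
    rw [UpperHalfPlane.coe_smul_of_det_pos (det_transGL_pos r), UpperHalfPlane.coe_vadd]
    simp [UpperHalfPlane.num, UpperHalfPlane.denom, transGL, val_upperTriangularGL]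
    ring
  rw [hσ, hden, hpt, det_transGL]
  simp

theorem nice_translate (r : ℝ) {G : ℍ → ℂ} (hG : Nice 1 G) : Nice 1 (translate r G) where
  per := by
    intro w
    by_cases hw : 0 < w.im
    · have h1 : 0 < (w + (1 : ℝ)).im := by simpa using hw
      have h2 : 0 < ((r : ℂ) + w).im := by simpa using hw
      have h3 : 0 < ((r : ℂ) + w + (1 : ℝ)).im := by simpa using hw
      simp only [Function.comp_apply, translate_apply, ofComplex_apply_of_im_pos hw,
        ofComplex_apply_of_im_pos h1]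
      have e1 : r +ᵥ (⟨w + (1 : ℝ), h1⟩ : ℍ) = ofComplex ((r : ℂ) + w + (1 : ℝ)) := by
        rw [ofComplex_apply_of_im_pos h3]
        apply UpperHalfPlane.ext
        rw [UpperHalfPlane.coe_vadd]
        show (r : ℂ) + (w + (1 : ℝ)) = (r : ℂ) + w + (1 : ℝ)
        ring
      have e2 : r +ᵥ (⟨w, hw⟩ : ℍ) = ofComplex ((r : ℂ) + w) := by
        rw [ofComplex_apply_of_im_pos h2]
        apply UpperHalfPlane.ext
        rw [UpperHalfPlane.coe_vadd]
      rw [e1, e2]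
      exact hG.per ((r : ℂ) + w)
    · have h1 : ¬ 0 < (w + (1 : ℝ)).im := by simpa using hw
      simp only [Function.comp_apply]
      rw [ofComplex_apply_of_im_nonpos (not_lt.mp hw),
        ofComplex_apply_of_im_nonpos (not_lt.mp h1)]
  hol := by
    rw [translate_eq_slash]
    exact hG.hol.slash 0 _
  bdd := by
    have h := hG.bdd
    rw [UpperHalfPlane.isBoundedAtImInfty_iff] at h ⊢
    obtain ⟨C, A, hCA⟩ := h
    refine ⟨C, A, fun z hz => ?_⟩
    rw [translate_apply]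
    apply hCA
    rw [UpperHalfPlane.vadd_im]
    exact hz

/-- `exp (2πi r)` as a unit. -/
def expUnit (r : ℝ) : ℂˣ :=
  Units.mk0 (Complex.exp (2 * Real.pi * Complex.I * r)) (Complex.exp_ne_zero _)

@[simp] theorem coe_expUnit (r : ℝ) :
    ((expUnit r : ℂˣ) : ℂ) = Complex.exp (2 * Real.pi * Complex.I * r) := rfl

theorem qParam_vadd (r : ℝ) (τ : ℍ) :
    Function.Periodic.qParam 1 ((r +ᵥ τ : ℍ) : ℂ)
      = Complex.exp (2 * Real.pi * Complex.I * r) * Function.Periodic.qParam 1 (τ : ℂ) := by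
  rw [UpperHalfPlane.coe_vadd, Function.Periodic.qParam, Function.Periodic.qParam,
    ← Complex.exp_add]
  congr 1
  push_cast
  ring

/-- Uniqueness of the expansion, for plain functions. -/
theorem qExp_unique_nice {F : ℍ → ℂ} (hF : Nice 1 F) {c : ℕ → ℂ}
    (hsum : ∀ τ : ℍ, HasSum (fun m : ℕ => c m • Function.Periodic.qParam 1 (τ : ℂ) ^ m) (F τ))
    (m : ℕ) : c m = (qExpansion 1 F).coeff m :=
  UpperHalfPlane.qExpansion_coeff_unique (ContinuousMap.mk F hF.hol.continuous) one_pos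
    (hF.analyticAt one_pos) hsum m

theorem qExpansion_translate_coeff (r : ℝ) {G : ℍ → ℂ} (hG : Nice 1 G) (m : ℕ) :
    (qExpansion 1 (translate r G)).coeff m
      = Complex.exp (2 * Real.pi * Complex.I * r) ^ m * (qExpansion 1 G).coeff m := by
  symm
  refine qExp_unique_nice (nice_translate r hG)
    (c := fun m => Complex.exp (2 * Real.pi * Complex.I * r) ^ m * (qExpansion 1 G).coeff m)
    (fun τ => ?_) m
  have h := UpperHalfPlane.hasSum_qExpansion one_pos hG.per hG.hol hG.bdd (r +ᵥ τ)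
  rw [translate_apply]
  have e : (fun n : ℕ => (Complex.exp (2 * Real.pi * Complex.I * r) ^ n
        * (qExpansion 1 G).coeff n) • Function.Periodic.qParam 1 (τ : ℂ) ^ n)
      = fun n : ℕ => (qExpansion 1 G).coeff n
        • Function.Periodic.qParam 1 ((r +ᵥ τ : ℍ) : ℂ) ^ n := by
    funext n
    rw [qParam_vadd, mul_pow, smul_eq_mul, smul_eq_mul]
    ring
  rw [e]
  exact h

theorem qLaurent_translate (r : ℝ) {G : ℍ → ℂ} (hG : Nice 1 G) :
    qLaurent (translate r G) = Fermat.Agent.GTor.H44.twistBy (expUnit r) (qLaurent G) := by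
  rw [qLaurent, qLaurent]
  ext n
  rw [Fermat.Agent.GTor.H44.twistBy_coeff]
  rcases lt_or_ge n 0 with hn | hn
  · rw [ModularCurve.ofPowerSeries_coeff_of_neg _ hn, ModularCurve.ofPowerSeries_coeff_of_neg _ hn,
      mul_zero]
  · obtain ⟨m, rfl⟩ := Int.eq_ofNat_of_zero_le hn
    rw [HahnSeries.ofPowerSeries_apply_coeff, HahnSeries.ofPowerSeries_apply_coeff,
      qExpansion_translate_coeff r hG m]
    rw [zpow_natCast, Units.val_pow_eq_pow_val, coe_expUnit]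

end Translate

/-! ## 2. Slashes with a known effect on `q`-expansions -/

section Expands

/-- Slash by `D` maps `Nice 1` functions to `Nice 1` functions and acts on `q`-expansions by the
ring homomorphism `E`, up to a nonzero constant depending only on the weight. -/
def Expands (D : GL (Fin 2) ℝ) (E : LaurentSeries ℂ →+* LaurentSeries ℂ) : Prop :=
  (∀ c : ℂ, E (HahnSeries.C c) = HahnSeries.C c) ∧
  ∀ k : ℤ, ∃ c : ℂ, c ≠ 0 ∧ ∀ G : ℍ → ℂ, Nice 1 G →
    Nice 1 (G ∣[k] D) ∧ qLaurent (G ∣[k] D) = HahnSeries.C c * E (qLaurent G)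

theorem expands_one : Expands 1 (RingHom.id _) := by
  refine ⟨fun c => rfl, fun k => ⟨1, one_ne_zero, fun G hG => ?_⟩⟩
  rw [SlashAction.slash_one, map_one, one_mul]
  exact ⟨hG, rfl⟩

theorem expands_diag (ℓ : ℕ) [NeZero ℓ] : Expands (heckeDiagMatrix ℓ) (qExpand ℂ ℓ) := by
  have hℓ : (ℓ : ℂ) ≠ 0 := by exact_mod_cast NeZero.ne ℓ
  refine ⟨fun c => qExpand_C ℓ c, fun k => ⟨(ℓ : ℂ) ^ (k - 1), zpow_ne_zero _ hℓ, fun G hG => ?_⟩⟩
  exact ⟨nice_slash_diag ℓ hG, qLaurent_slash_diag ℓ hG⟩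

theorem Expands.mul {D D' : GL (Fin 2) ℝ} {E E' : LaurentSeries ℂ →+* LaurentSeries ℂ}
    (h : Expands D E) (h' : Expands D' E') : Expands (D * D') (E'.comp E) := by
  refine ⟨fun c => ?_, fun k => ?_⟩
  · rw [RingHom.comp_apply, h.1, h'.1]
  · obtain ⟨c, hc, hD⟩ := h.2 k
    obtain ⟨c', hc', hD'⟩ := h'.2 k
    refine ⟨c' * c, mul_ne_zero hc' hc, fun G hG => ?_⟩
    obtain ⟨h1, h2⟩ := hD G hG
    obtain ⟨h3, h4⟩ := hD' _ h1
    rw [SlashAction.slash_mul]
    refine ⟨h3, ?_⟩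
    rw [h4, h2, map_mul, h'.1, RingHom.comp_apply, map_mul, mul_assoc]

theorem smul_nice {c : ℂ} {G : ℍ → ℂ} (hG : Nice 1 G) : Nice 1 (c • G) := hG.smul c

theorem qLaurent_smul' {G : ℍ → ℂ} (hG : Nice 1 G) (c : ℂ) :
    qLaurent (c • G) = HahnSeries.C c * qLaurent G := by
  rw [qLaurent, qLaurent, hG.qExpansion_smul one_pos, HahnSeries.C_mul_eq_smul]
  ext n
  rcases lt_or_ge n 0 with hn | hn
  · rw [HahnSeries.coeff_smul, ModularCurve.ofPowerSeries_coeff_of_neg _ hn,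
      ModularCurve.ofPowerSeries_coeff_of_neg _ hn, smul_zero]
  · obtain ⟨m, rfl⟩ := Int.eq_ofNat_of_zero_le hn
    rw [HahnSeries.coeff_smul, HahnSeries.ofPowerSeries_apply_coeff,
      HahnSeries.ofPowerSeries_apply_coeff]
    simp

theorem expands_trans (ℓ : ℕ) [NeZero ℓ] (b : ℕ) :
    Expands (heckeMatrix ℓ b * heckeDiagMatrix ℓ)
      (Fermat.Agent.GTor.H44.twistBy (expUnit ((b : ℝ) / ℓ))) := by
  have hℓ : (ℓ : ℂ) ≠ 0 := by exact_mod_cast NeZero.ne ℓ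
  refine ⟨fun c => Fermat.Agent.GTor.H44.twistBy_C _ c,
    fun k => ⟨(ℓ : ℂ) ^ (k - 2), zpow_ne_zero _ hℓ, fun G hG => ?_⟩⟩
  have e : G ∣[k] (heckeMatrix ℓ b * heckeDiagMatrix ℓ)
      = ((ℓ : ℂ) ^ (k - 2)) • translate ((b : ℝ) / ℓ) G := by
    funext τ
    rw [SlashAction.slash_mul, slash_hM_diag_apply]
    rfl
  rw [e]
  exact ⟨(nice_translate _ hG).smul _,
    by rw [qLaurent_smul' (nice_translate _ hG), qLaurent_translate _ hG]⟩

end Expands

/-! ## 3. The relation `RelN g` -/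

section RelN

/-- The graph of "slash by `g`" on ratios of `q`-expansions of nice functions. -/
def RelN (g : GL (Fin 2) ℝ) (x y : LaurentSeries ℂ) : Prop :=
  ∃ (k : ℤ) (A B : ℍ → ℂ), Nice 1 A ∧ Nice 1 B ∧ B ≠ 0 ∧ Nice 1 (A ∣[k] g) ∧ Nice 1 (B ∣[k] g) ∧
    qLaurent A = x * qLaurent B ∧ qLaurent (A ∣[k] g) = y * qLaurent (B ∣[k] g)

variable {g : GL (Fin 2) ℝ} {x y x' y' : LaurentSeries ℂ}

theorem slashGL_ne_zero {R : ℍ → ℂ} (k : ℤ) (g : GL (Fin 2) ℝ) (hR : R ≠ 0) : R ∣[k] g ≠ 0 := by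
  intro h0
  apply hR
  have : (R ∣[k] g) ∣[k] g⁻¹ = 0 := by rw [h0, SlashAction.zero_slash]
  rwa [← SlashAction.slash_mul, mul_inv_cancel, SlashAction.slash_one] at this

theorem abs_det_ne_zero (g : GL (Fin 2) ℝ) : |(g.det : ℝ)| ≠ 0 :=
  abs_ne_zero.mpr (Units.ne_zero _)

theorem mul_slashGL_eq {k k' : ℤ} {A B A' B' : ℍ → ℂ} (g : GL (Fin 2) ℝ)
    (h : A * B' = A' * B) :
    (A ∣[k] g) * (B' ∣[k'] g) = (A' ∣[k'] g) * (B ∣[k] g) := by
  have h1 := ModularForm.mul_slash k k' g A B'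
  have h2 := ModularForm.mul_slash k' k g A' B
  rw [h, add_comm k k', h2] at h1
  have h3 : (|(g.det : ℝ)|⁻¹ • (|(g.det : ℝ)| • ((A' ∣[k'] g) * (B ∣[k] g))))
      = (|(g.det : ℝ)|⁻¹ • (|(g.det : ℝ)| • ((A ∣[k] g) * (B' ∣[k'] g)))) := by rw [h1]
  rw [smul_smul, smul_smul, inv_mul_cancel₀ (abs_det_ne_zero g), one_smul, one_smul] at h3
  exact h3.symm

theorem relN_unique (h : RelN g x y) (h' : RelN g x y') : y = y' := by
  obtain ⟨k, A, B, hA, hB, hB0, hAg, hBg, hx, hy⟩ := h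
  obtain ⟨k', A', B', hA', hB', hB0', hAg', hBg', hx', hy'⟩ := h'
  have h1 : A * B' = A' * B := by
    apply qLaurent_injective (hA.mul hB') (hA'.mul hB)
    rw [qLaurent_mul hA hB', qLaurent_mul hA' hB, hx, hx']
    ring
  have h2 := mul_slashGL_eq (k := k) (k' := k') g h1
  have h3 := congrArg qLaurent h2
  rw [qLaurent_mul hAg hBg', qLaurent_mul hAg' hBg, hy, hy'] at h3
  have n1 : qLaurent (B ∣[k] g) ≠ 0 := qLaurent_ne_zero hBg (slashGL_ne_zero k g hB0)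
  have n2 : qLaurent (B' ∣[k'] g) ≠ 0 := qLaurent_ne_zero hBg' (slashGL_ne_zero k' g hB0')
  have h4 : (y - y') * (qLaurent (B ∣[k] g) * qLaurent (B' ∣[k'] g)) = 0 := by
    linear_combination h3
  rcases mul_eq_zero.mp h4 with h5 | h5
  · exact sub_eq_zero.mp h5
  · exact absurd h5 (mul_ne_zero n1 n2)

theorem mul_ne_zero_fun {B B' : ℍ → ℂ} (hB : Nice 1 B) (hB' : Nice 1 B') (hB0 : B ≠ 0)
    (hB0' : B' ≠ 0) : B * B' ≠ 0 := by
  intro h0
  have := congrArg qLaurent h0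
  rw [qLaurent_mul hB hB', qLaurent_zero] at this
  rcases mul_eq_zero.mp this with h5 | h5
  · exact qLaurent_ne_zero hB hB0 h5
  · exact qLaurent_ne_zero hB' hB0' h5

theorem nice_real_smul (c : ℝ) {G : ℍ → ℂ} (hG : Nice 1 G) : Nice 1 (c • G) := by
  have : c • G = (c : ℂ) • G := by
    funext τ
    simp
  rw [this]
  exact hG.smul _

theorem mul_slashGL_nice {k k' : ℤ} {A B : ℍ → ℂ} (hA : Nice 1 (A ∣[k] g))
    (hB : Nice 1 (B ∣[k'] g)) : Nice 1 ((A * B) ∣[k + k'] g) := by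
  rw [ModularForm.mul_slash]
  exact nice_real_smul _ (hA.mul hB)

theorem qLaurent_mul_slashGL {k k' : ℤ} {A B : ℍ → ℂ} (hA : Nice 1 (A ∣[k] g))
    (hB : Nice 1 (B ∣[k'] g)) :
    qLaurent ((A * B) ∣[k + k'] g)
      = HahnSeries.C ((|(g.det : ℝ)| : ℝ) : ℂ) * (qLaurent (A ∣[k] g) * qLaurent (B ∣[k'] g)) := by
  rw [ModularForm.mul_slash]
  have : |(g.det : ℝ)| • ((A ∣[k] g) * (B ∣[k'] g))
      = ((|(g.det : ℝ)| : ℝ) : ℂ) • ((A ∣[k] g) * (B ∣[k'] g)) := by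
    funext τ
    simp
  rw [this, qLaurent_smul' (hA.mul hB), qLaurent_mul hA hB]

theorem relN_mul (h : RelN g x y) (h' : RelN g x' y') : RelN g (x * x') (y * y') := by
  obtain ⟨k, A, B, hA, hB, hB0, hAg, hBg, hx, hy⟩ := h
  obtain ⟨k', A', B', hA', hB', hB0', hAg', hBg', hx', hy'⟩ := h'
  refine ⟨k + k', A * A', B * B', hA.mul hA', hB.mul hB', mul_ne_zero_fun hB hB' hB0 hB0',
    mul_slashGL_nice hAg hAg', mul_slashGL_nice hBg hBg', ?_, ?_⟩
  · rw [qLaurent_mul hA hA', qLaurent_mul hB hB', hx, hx']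
    ring
  · rw [qLaurent_mul_slashGL hAg hAg', qLaurent_mul_slashGL hBg hBg', hy, hy']
    ring

theorem relN_add (h : RelN g x y) (h' : RelN g x' y') : RelN g (x + x') (y + y') := by
  obtain ⟨k, A, B, hA, hB, hB0, hAg, hBg, hx, hy⟩ := h
  obtain ⟨k', A', B', hA', hB', hB0', hAg', hBg', hx', hy'⟩ := h'
  refine ⟨k + k', A * B' + B * A', B * B', (hA.mul hB').add (hB.mul hA'), hB.mul hB',
    mul_ne_zero_fun hB hB' hB0 hB0', ?_, mul_slashGL_nice hBg hBg', ?_, ?_⟩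
  · rw [SlashAction.add_slash]
    exact (mul_slashGL_nice hAg hBg').add (mul_slashGL_nice hBg hAg')
  · rw [qLaurent_add (hA.mul hB') (hB.mul hA'), qLaurent_mul hA hB', qLaurent_mul hB hA',
      qLaurent_mul hB hB', hx, hx']
    ring
  · rw [SlashAction.add_slash,
      qLaurent_add (mul_slashGL_nice hAg hBg') (mul_slashGL_nice hBg hAg'),
      qLaurent_mul_slashGL hAg hBg', qLaurent_mul_slashGL hBg hAg',
      qLaurent_mul_slashGL hBg hBg', hy, hy']
    ring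

theorem relN_neg (h : RelN g x y) : RelN g (-x) (-y) := by
  obtain ⟨k, A, B, hA, hB, hB0, hAg, hBg, hx, hy⟩ := h
  refine ⟨k, -A, B, hA.neg, hB, hB0, ?_, hBg, ?_, ?_⟩
  · rw [SlashAction.neg_slash]
    exact hAg.neg
  · rw [qLaurent_neg hA, hx]
    ring
  · rw [SlashAction.neg_slash, qLaurent_neg hAg, hy]
    ring

theorem relN_inv (h : RelN g x y) (hx0 : x ≠ 0) : RelN g x⁻¹ y⁻¹ := by
  obtain ⟨k, A, B, hA, hB, hB0, hAg, hBg, hx, hy⟩ := h
  have nB : qLaurent B ≠ 0 := qLaurent_ne_zero hB hB0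
  have hA0 : A ≠ 0 := by
    rintro rfl
    rw [qLaurent_zero] at hx
    rcases mul_eq_zero.mp hx.symm with h5 | h5
    · exact hx0 h5
    · exact nB h5
  have nA : qLaurent A ≠ 0 := qLaurent_ne_zero hA hA0
  have nAg : qLaurent (A ∣[k] g) ≠ 0 := qLaurent_ne_zero hAg (slashGL_ne_zero k g hA0)
  have nBg : qLaurent (B ∣[k] g) ≠ 0 := qLaurent_ne_zero hBg (slashGL_ne_zero k g hB0)
  have hy0 : y ≠ 0 := by
    rintro rfl
    rw [zero_mul] at hy
    exact nAg hy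
  refine ⟨k, B, A, hB, hA, hA0, hBg, hAg, ?_, ?_⟩
  · rw [hx]
    field_simp
  · rw [hy]
    field_simp

theorem const_slashGL (g : GL (Fin 2) ℝ) (hg : 0 < (g.det : ℝ)) (c : ℂ) :
    (fun _ : ℍ => c) ∣[(0 : ℤ)] g = fun _ => c * ((|(g.det : ℝ)| : ℝ) : ℂ)⁻¹ := by
  funext τ
  rw [ModularForm.slash_apply]
  have hσ : UpperHalfPlane.σ g = .refl ℝ ℂ := by
    rw [UpperHalfPlane.σ, if_pos hg]
  rw [hσ]
  simp

theorem relN_C (hg : 0 < (g.det : ℝ)) (c : ℂ) : RelN g (HahnSeries.C c) (HahnSeries.C c) := by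
  have h1 : ((fun _ => 1 : ℍ → ℂ)) ≠ 0 := by
    intro h
    have := congrFun h UpperHalfPlane.I
    simp at this
  have hd : (((|(g.det : ℝ)| : ℝ) : ℂ))⁻¹ ≠ 0 :=
    inv_ne_zero (by exact_mod_cast abs_det_ne_zero g)
  refine ⟨0, fun _ => c, fun _ => 1, Nice.const 1 c, Nice.const 1 1, h1, ?_, ?_, ?_, ?_⟩
  · rw [const_slashGL g hg]
    exact Nice.const 1 _
  · rw [const_slashGL g hg]
    exact Nice.const 1 _
  · rw [qLaurent_const', qLaurent_const', map_one, mul_one]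
  · rw [const_slashGL g hg, const_slashGL g hg, qLaurent_const', qLaurent_const', ← map_mul,
      one_mul]

theorem relN_zero (hg : 0 < (g.det : ℝ)) : RelN g 0 0 := by
  have := relN_C hg 0
  rwa [map_zero] at this

theorem relN_one (hg : 0 < (g.det : ℝ)) : RelN g 1 1 := by
  have := relN_C hg 1
  rwa [map_one] at this

/-- **The main source of `RelN`.**  If `D₀ g = δ D` with `δ ∈ Γ₀(M)`, then the slash action of `δ`
on ratios of forms on `Γ₁(M)` gives `RelN g (E₀ x₀) (E y₀)`. -/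
theorem relN_of_rel {M : ℕ} {δ : SL(2, ℤ)} (hδ : δ ∈ Gamma0 M) {D₀ D : GL (Fin 2) ℝ}
    {E₀ E : LaurentSeries ℂ →+* LaurentSeries ℂ} (hD₀ : Expands D₀ E₀) (hD : Expands D E)
    (hmat : D₀ * g = Matrix.SpecialLinearGroup.mapGL ℝ δ * D) {x₀ y₀ : LaurentSeries ℂ}
    (h : Rel M δ x₀ y₀) : RelN g (E₀ x₀) (E y₀) := by
  obtain ⟨k, A, B, hA, hB, hB0, hx, hy⟩ := h
  obtain ⟨c₀, hc₀, h₀⟩ := hD₀.2 k
  obtain ⟨c, hc, h₁⟩ := hD.2 k
  have hAδ := (hA.slash_Gamma0 hδ).nice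
  have hBδ := (hB.slash_Gamma0 hδ).nice
  have eA : (A ∣[k] D₀) ∣[k] g = (A ∣[k] δ) ∣[k] D := by
    rw [← SlashAction.slash_mul, hmat, SlashAction.slash_mul]
    rfl
  have eB : (B ∣[k] D₀) ∣[k] g = (B ∣[k] δ) ∣[k] D := by
    rw [← SlashAction.slash_mul, hmat, SlashAction.slash_mul]
    rfl
  refine ⟨k, A ∣[k] D₀, B ∣[k] D₀, (h₀ A hA.nice).1, (h₀ B hB.nice).1,
    slashGL_ne_zero k D₀ hB0, ?_, ?_, ?_, ?_⟩
  · rw [eA]
    exact (h₁ _ hAδ).1
  · rw [eB]
    exact (h₁ _ hBδ).1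
  · rw [(h₀ A hA.nice).2, (h₀ B hB.nice).2, hx, map_mul]
    ring
  · rw [eA, eB, (h₁ _ hAδ).2, (h₁ _ hBδ).2, hy, map_mul]
    ring

end RelN

end Fermat.Agent.NEB.H70
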