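import Fermat.Agent.NEB.H84_W

/-!
# NEB, package FH-GAL, part 2 (helper84): the slash action of `Γ₀(M)` on ratios of `q`-expansions

`Rel M γ x y` : the Laurent series `x` is the ratio `A / B` of the `q`-expansions of two forms of the
same weight on `Γ₁(M)` and `y` is the ratio of the `q`-expansions of `A ∣ γ`, `B ∣ γ`.
For `γ ∈ Γ₀(M)` this is the graph of a field automorphism of the field of all such ratios:
`rel_unique`, `rel_add`, `rel_mul`, `rel_neg`, `rel_inv`, `rel_const`, `rel_trans`.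
-/

set_option autoImplicit false

open UpperHalfPlane ModularForm CongruenceSubgroup
open scoped MatrixGroups ModularForm Manifold

noncomputable section

namespace Fermat.Agent.NEB.H84

open Fermat.Agent.S23.H22 (Nice)
open Fermat.Agent.GTor (qLaurent)
open Fermat.Agent.GTor.H56 (qLaurent_mul qLaurent_injective qLaurent_eq_zero_iff qLaurent_zero)

theorem qLaurent_add {F G : ℍ → ℂ} (hF : Nice 1 F) (hG : Nice 1 G) :
    qLaurent (F + G) = qLaurent F + qLaurent G := by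
  rw [qLaurent, qLaurent, qLaurent, hF.qExpansion_add one_pos hG, map_add]

theorem qLaurent_neg {F : ℍ → ℂ} (hF : Nice 1 F) : qLaurent (-F) = -qLaurent F := by
  rw [qLaurent, qLaurent, hF.qExpansion_neg one_pos, map_neg]

theorem qLaurent_ne_zero {F : ℍ → ℂ} (hF : Nice 1 F) (h0 : F ≠ 0) : qLaurent F ≠ 0 :=
  fun h => h0 ((qLaurent_eq_zero_iff hF).mp h)

/-- The graph of the slash action of `γ` on ratios of forms on `Γ₁(M)`. -/
def Rel (M : ℕ) (γ : SL(2, ℤ)) (x y : LaurentSeries ℂ) : Prop :=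
  ∃ (k : ℤ) (A B : ℍ → ℂ), IsW M k A ∧ IsW M k B ∧ B ≠ 0 ∧
    qLaurent A = x * qLaurent B ∧ qLaurent (A ∣[k] γ) = y * qLaurent (B ∣[k] γ)

variable {M : ℕ} {γ γ' : SL(2, ℤ)} {x y x' y' z : LaurentSeries ℂ}

theorem rel_unique (hγ : γ ∈ Gamma0 M) (h : Rel M γ x y) (h' : Rel M γ x y') : y = y' := by
  obtain ⟨k, A, B, hA, hB, hB0, hx, hy⟩ := h
  obtain ⟨k', A', B', hA', hB', hB0', hx', hy'⟩ := h'
  have h1 : A * B' = A' * B := by
    apply qLaurent_injective (hA.nice.mul hB'.nice) (hA'.nice.mul hB.nice)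
    rw [qLaurent_mul hA.nice hB'.nice, qLaurent_mul hA'.nice hB.nice, hx, hx']
    ring
  have h2 : (A ∣[k] γ) * (B' ∣[k'] γ) = (A' ∣[k'] γ) * (B ∣[k] γ) := by
    rw [← mul_slash_SL2, ← mul_slash_SL2, h1, add_comm k k']
  have hAγ := hA.slash_Gamma0 hγ
  have hBγ := hB.slash_Gamma0 hγ
  have hAγ' := hA'.slash_Gamma0 hγ
  have hBγ' := hB'.slash_Gamma0 hγ
  have h3 := congrArg qLaurent h2
  rw [qLaurent_mul hAγ.nice hBγ'.nice, qLaurent_mul hAγ'.nice hBγ.nice, hy, hy'] at h3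
  have n1 : qLaurent (B ∣[k] γ) ≠ 0 := qLaurent_ne_zero hBγ.nice (slash_ne_zero k γ hB0)
  have n2 : qLaurent (B' ∣[k'] γ) ≠ 0 := qLaurent_ne_zero hBγ'.nice (slash_ne_zero k' γ hB0')
  have h4 : (y - y') * (qLaurent (B ∣[k] γ) * qLaurent (B' ∣[k'] γ)) = 0 := by
    linear_combination h3
  rcases mul_eq_zero.mp h4 with h5 | h5
  · exact sub_eq_zero.mp h5
  · exact absurd h5 (mul_ne_zero n1 n2)

theorem rel_mul (hγ : γ ∈ Gamma0 M) (h : Rel M γ x y) (h' : Rel M γ x' y') :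
    Rel M γ (x * x') (y * y') := by
  obtain ⟨k, A, B, hA, hB, hB0, hx, hy⟩ := h
  obtain ⟨k', A', B', hA', hB', hB0', hx', hy'⟩ := h'
  have hBB : B * B' ≠ 0 := by
    intro h0
    have := congrArg qLaurent h0
    rw [qLaurent_mul hB.nice hB'.nice, qLaurent_zero] at this
    rcases mul_eq_zero.mp this with h5 | h5
    · exact qLaurent_ne_zero hB.nice hB0 h5
    · exact qLaurent_ne_zero hB'.nice hB0' h5
  refine ⟨k + k', A * A', B * B', hA.mul hA', hB.mul hB', hBB, ?_, ?_⟩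
  · rw [qLaurent_mul hA.nice hA'.nice, qLaurent_mul hB.nice hB'.nice, hx, hx']
    ring
  · rw [mul_slash_SL2, mul_slash_SL2,
      qLaurent_mul (hA.slash_Gamma0 hγ).nice (hA'.slash_Gamma0 hγ).nice,
      qLaurent_mul (hB.slash_Gamma0 hγ).nice (hB'.slash_Gamma0 hγ).nice, hy, hy']
    ring

theorem rel_add (hγ : γ ∈ Gamma0 M) (h : Rel M γ x y) (h' : Rel M γ x' y') :
    Rel M γ (x + x') (y + y') := by
  obtain ⟨k, A, B, hA, hB, hB0, hx, hy⟩ := h
  obtain ⟨k', A', B', hA', hB', hB0', hx', hy'⟩ := h'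
  have hBB : B * B' ≠ 0 := by
    intro h0
    have := congrArg qLaurent h0
    rw [qLaurent_mul hB.nice hB'.nice, qLaurent_zero] at this
    rcases mul_eq_zero.mp this with h5 | h5
    · exact qLaurent_ne_zero hB.nice hB0 h5
    · exact qLaurent_ne_zero hB'.nice hB0' h5
  have hw1 : IsW M (k + k') (A * B') := hA.mul hB'
  have hw2 : IsW M (k + k') (B * A') := hB.mul hA'
  refine ⟨k + k', A * B' + B * A', B * B', hw1.add hw2, hB.mul hB', hBB, ?_, ?_⟩
  · rw [qLaurent_add hw1.nice hw2.nice, qLaurent_mul hA.nice hB'.nice,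
      qLaurent_mul hB.nice hA'.nice, qLaurent_mul hB.nice hB'.nice, hx, hx']
    ring
  · rw [SlashAction.add_slash, mul_slash_SL2, mul_slash_SL2, mul_slash_SL2,
      qLaurent_add ((hA.slash_Gamma0 hγ).mul (hB'.slash_Gamma0 hγ)).nice
        ((hB.slash_Gamma0 hγ).mul (hA'.slash_Gamma0 hγ)).nice,
      qLaurent_mul (hA.slash_Gamma0 hγ).nice (hB'.slash_Gamma0 hγ).nice,
      qLaurent_mul (hB.slash_Gamma0 hγ).nice (hA'.slash_Gamma0 hγ).nice,
      qLaurent_mul (hB.slash_Gamma0 hγ).nice (hB'.slash_Gamma0 hγ).nice, hy, hy']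
    ring

theorem rel_neg (hγ : γ ∈ Gamma0 M) (h : Rel M γ x y) : Rel M γ (-x) (-y) := by
  obtain ⟨k, A, B, hA, hB, hB0, hx, hy⟩ := h
  refine ⟨k, -A, B, hA.neg, hB, hB0, ?_, ?_⟩
  · rw [qLaurent_neg hA.nice, hx]
    ring
  · rw [SlashAction.neg_slash, qLaurent_neg (hA.slash_Gamma0 hγ).nice, hy]
    ring

theorem rel_inv (hγ : γ ∈ Gamma0 M) (h : Rel M γ x y) (hx0 : x ≠ 0) : Rel M γ x⁻¹ y⁻¹ := by
  obtain ⟨k, A, B, hA, hB, hB0, hx, hy⟩ := h
  have nB : qLaurent B ≠ 0 := qLaurent_ne_zero hB.nice hB0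
  have hA0 : A ≠ 0 := by
    rintro rfl
    rw [qLaurent_zero] at hx
    rcases mul_eq_zero.mp hx.symm with h5 | h5
    · exact hx0 h5
    · exact nB h5
  have nA : qLaurent A ≠ 0 := qLaurent_ne_zero hA.nice hA0
  have nAγ : qLaurent (A ∣[k] γ) ≠ 0 :=
    qLaurent_ne_zero (hA.slash_Gamma0 hγ).nice (slash_ne_zero k γ hA0)
  have nBγ : qLaurent (B ∣[k] γ) ≠ 0 :=
    qLaurent_ne_zero (hB.slash_Gamma0 hγ).nice (slash_ne_zero k γ hB0)
  have hy0 : y ≠ 0 := by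
    rintro rfl
    rw [zero_mul] at hy
    exact nAγ hy
  refine ⟨k, B, A, hB, hA, hA0, ?_, ?_⟩
  · rw [hx]
    field_simp
  · rw [hy]
    field_simp

theorem rel_const (M : ℕ) (γ : SL(2, ℤ)) (c : ℂ) :
    Rel M γ (qLaurent fun _ => c) (qLaurent fun _ => c) := by
  have h1 : ((fun _ => 1 : ℍ → ℂ)) ≠ 0 := by
    intro h
    have := congrFun h UpperHalfPlane.I
    simp at this
  refine ⟨0, fun _ => c, fun _ => 1, IsW.const M c, IsW.const M 1, h1, ?_, ?_⟩
  · have : qLaurent (fun _ : ℍ => (1 : ℂ)) = 1 := by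
      have h2 : (fun _ : ℍ => (1 : ℂ)) = (1 : ℍ → ℂ) := rfl
      rw [h2, qLaurent, UpperHalfPlane.qExpansion_one, map_one]
    rw [this, mul_one]
  · rw [const_slash_zero, const_slash_zero]
    have : qLaurent (fun _ : ℍ => (1 : ℂ)) = 1 := by
      have h2 : (fun _ : ℍ => (1 : ℂ)) = (1 : ℍ → ℂ) := rfl
      rw [h2, qLaurent, UpperHalfPlane.qExpansion_one, map_one]
    rw [this, mul_one]

/-- Transitivity: the action of `γ γ'` is the composite (first `γ`, then `γ'`). -/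
theorem rel_trans (hγ : γ ∈ Gamma0 M) (hγ' : γ' ∈ Gamma0 M) (h : Rel M γ x y)
    (h' : Rel M γ' y z) : Rel M (γ * γ') x z := by
  obtain ⟨k, A, B, hA, hB, hB0, hx, hy⟩ := h
  have hAγ := hA.slash_Gamma0 hγ
  have hBγ := hB.slash_Gamma0 hγ
  have nBγγ : qLaurent ((B ∣[k] γ) ∣[k] γ') ≠ 0 :=
    qLaurent_ne_zero (hBγ.slash_Gamma0 hγ').nice (slash_ne_zero k γ' (slash_ne_zero k γ hB0))
  have h2 : Rel M γ' y (qLaurent ((A ∣[k] γ) ∣[k] γ') / qLaurent ((B ∣[k] γ) ∣[k] γ')) :=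
    ⟨k, A ∣[k] γ, B ∣[k] γ, hAγ, hBγ, slash_ne_zero k γ hB0, hy, by field_simp⟩
  have h3 := rel_unique hγ' h' h2
  refine ⟨k, A, B, hA, hB, hB0, hx, ?_⟩
  rw [SlashAction.slash_mul, SlashAction.slash_mul, h3]
  field_simp

/-- A ratio of two modular forms on `Γ₀(M)` is fixed. -/
theorem rel_of_modularForm [NeZero M] (hγ : γ ∈ Gamma0 M) {k : ℤ}
    (A B : ModularForm (Gamma0 M) k) (hB : B ≠ 0) (hx : qLaurent A = x * qLaurent B) :
    Rel M γ x x := by
  have hB0 : (B : ℍ → ℂ) ≠ 0 := fun h => hB (DFunLike.coe_injective h)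
  refine ⟨k, A, B, isW_of_modularForm A, isW_of_modularForm B, hB0, hx, ?_⟩
  rw [slash_modularForm A hγ, slash_modularForm B hγ, hx]

end Fermat.Agent.NEB.H84
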