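import Fermat.Agent.RED.H73_GAVal
import Fermat.Agent.BAD.H42_Arch
import Fermat.Agent.BAD.H82_ArchF
import Fermat.Agent.NEB.Defs

/-!
# NEB, package RES, part 1 (helper84): the Gauss valuation ring of a field of series over `ℚ̄`

`A` a valuation ring of `ℚ̄`, `F ⊆ ℚ̄((q))` with the scaling property, `V = gaussValSub A F h`.

* `val_unit`, `val_algebraMap_eq_one`, `exists_scale_val`, `exists_const_val` (value group of `V` =
  value group of `A`);
* `isArch_gaussValSub` : `V` has rank one if `A` lies over a prime;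
* `val_natCast_eq_one` : `v(m) = 1` for `m` prime to the residue characteristic;
* `val_sub_one_lt_iff` : `v(x - 1) < 1 ↔ x` lies in the Gauss ring and reduces to `1`.
-/

set_option autoImplicit false
set_option linter.unusedSectionVars false
set_option linter.style.haveILetI false

noncomputable section

open ModularCurve Fermat.Agent.S28 Fermat.Agent.S28.H73 Fermat.Agent.RED.H73

namespace Fermat.Agent.NEB.H84

section GaussVal

variable (A : ValuationSubring Kbar) {F : IntermediateField Kbar (LaurentSeries Kbar)}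
  (h : HasScale A F)

theorem val_unit (u : (↥(gaussValSub A F h))ˣ) :
    (gaussValSub A F h).valuation ((u : ↥(gaussValSub A F h)) : ↥F) = 1 :=
  ((gaussValSub A F h).valuation_eq_one_iff _).mp u.isUnit

theorem exists_scale_val (x : ↥F) (hx : x ≠ 0) :
    ∃ c : Kbar, c ≠ 0 ∧ (gaussValSub A F h).valuation (algebraMap Kbar ↥F c * x) = 1 := by
  obtain ⟨c, u, hc, hxu⟩ := exists_unit_scale A h x hx
  refine ⟨c⁻¹, inv_ne_zero hc, ?_⟩
  rw [hxu, ← mul_assoc, ← map_mul, inv_mul_cancel₀ hc, map_one, one_mul]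
  exact val_unit A h u

theorem exists_const_val (x : ↥F) (hx : x ≠ 0) :
    ∃ c : Kbar, c ≠ 0 ∧ (gaussValSub A F h).valuation (algebraMap Kbar ↥F c) =
      (gaussValSub A F h).valuation x := by
  obtain ⟨c, u, hc, hxu⟩ := exists_unit_scale A h x hx
  refine ⟨c, hc, ?_⟩
  rw [hxu, map_mul, val_unit A h u, mul_one]

theorem val_algebraMap_le_one_iff (c : Kbar) :
    (gaussValSub A F h).valuation (algebraMap Kbar ↥F c) ≤ 1 ↔ c ∈ A := by
  rw [ValuationSubring.valuation_le_one_iff, algebraMap_mem_gaussValSub_iff]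

theorem val_algebraMap_eq_one {c : Kbar} (hc0 : c ≠ 0) (hc : c ∈ A) (hc' : c⁻¹ ∈ A) :
    (gaussValSub A F h).valuation (algebraMap Kbar ↥F c) = 1 := by
  apply le_antisymm ((val_algebraMap_le_one_iff A h c).mpr hc)
  have h1 := (val_algebraMap_le_one_iff A h c⁻¹).mpr hc'
  rw [map_inv₀, map_inv₀] at h1
  have hv0 : (gaussValSub A F h).valuation (algebraMap Kbar ↥F c) ≠ 0 :=
    (Valuation.ne_zero_iff _).2 (by rwa [Ne, map_eq_zero])
  exact (inv_le_one₀ (zero_lt_iff.2 hv0)).mp h1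

theorem mem_nonunits_of_val_lt {c : Kbar}
    (hc : (gaussValSub A F h).valuation (algebraMap Kbar ↥F c) < 1) : c ∈ A.nonunits := by
  have hcA : c ∈ A := (val_algebraMap_le_one_iff A h c).mp hc.le
  rw [ValuationSubring.mem_nonunits_iff_or]
  by_contra hcon
  obtain ⟨hc1, hc2⟩ := not_or.mp hcon
  have := val_algebraMap_eq_one A h hc1 hcA (not_not.mp hc2)
  rw [this] at hc
  exact lt_irrefl _ hc

/-- **Rank one** of the Gauss valuation ring. -/
theorem isArch_gaussValSub {q : ℕ} (hq : q.Prime) (hA : A.LiesOverPrime q) :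
    Fermat.Agent.BAD.H42.IsArch (gaussValSub A F h) := by
  apply Fermat.Agent.BAD.H42.isArch_of_scale (K := Kbar) (gaussValSub A F h)
  · intro f hf
    exact exists_scale_val A h f hf
  · intro c d hc hd
    obtain ⟨m, hm⟩ := Fermat.Agent.BAD.H82.arch_Qbar A hq hA (mem_nonunits_of_val_lt A h hc) hd
    exact ⟨m, (val_algebraMap_le_one_iff A h _).mpr hm⟩

theorem natCast_unit {q : ℕ} (hq : q.Prime) (hA : A.LiesOverPrime q) {m : ℕ} (hm : ¬ q ∣ m) :
    ((m : ℕ) : Kbar) ∈ A ∧ (((m : ℕ) : Kbar))⁻¹ ∈ A ∧ ((m : ℕ) : Kbar) ≠ 0 := by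
  have hmA : ((m : ℕ) : Kbar) ∈ A := natCast_mem A m
  have hqA : ((q : ℕ) : Kbar) ∈ A := natCast_mem A q
  have hcop : Nat.Coprime q m := (Nat.Prime.coprime_iff_not_dvd hq).mpr hm
  have hm0 : ((m : ℕ) : Kbar) ≠ 0 := by
    intro h0
    have : m = 0 := by exact_mod_cast h0
    subst this
    exact hm (dvd_zero q)
  -- Bezout
  have hbez : ∃ a b : ℤ, a * q + b * m = 1 := by
    have := Int.isCoprime_iff_gcd_eq_one.mpr (by
      show Int.gcd (q : ℤ) (m : ℤ) = 1
      exact_mod_cast hcop)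
    obtain ⟨a, b, hab⟩ := this
    exact ⟨a, b, hab⟩
  obtain ⟨a, b, hab⟩ := hbez
  have hab' : ((a : ℤ) : Kbar) * (q : Kbar) + ((b : ℤ) : Kbar) * (m : Kbar) = 1 := by
    have := congrArg (fun z : ℤ => (z : Kbar)) hab
    push_cast at this
    exact this
  refine ⟨hmA, ?_, hm0⟩
  by_contra hinv
  have hmnon : ((m : ℕ) : Kbar) ∈ A.nonunits :=
    (ValuationSubring.mem_nonunits_iff_or A).mpr (Or.inr hinv)
  have hq1 : A.valuation ((q : ℕ) : Kbar) < 1 := (ValuationSubring.mem_nonunits_iff A).mp hA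
  have hm1 : A.valuation ((m : ℕ) : Kbar) < 1 := (ValuationSubring.mem_nonunits_iff A).mp hmnon
  have ha1 : A.valuation ((a : ℤ) : Kbar) ≤ 1 := (A.valuation_le_one_iff _).mpr (intCast_mem A a)
  have hb1 : A.valuation ((b : ℤ) : Kbar) ≤ 1 := (A.valuation_le_one_iff _).mpr (intCast_mem A b)
  have h1 : A.valuation (((a : ℤ) : Kbar) * (q : Kbar) + ((b : ℤ) : Kbar) * (m : Kbar)) < 1 := by
    refine lt_of_le_of_lt (Valuation.map_add _ _ _) (max_lt ?_ ?_)
    · rw [map_mul]
      exact lt_of_le_of_lt (mul_le_of_le_one_left zero_le ha1) hq1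
    · rw [map_mul]
      exact lt_of_le_of_lt (mul_le_of_le_one_left zero_le hb1) hm1
  rw [hab', map_one] at h1
  exact lt_irrefl _ h1

theorem val_natCast_eq_one {q : ℕ} (hq : q.Prime) (hA : A.LiesOverPrime q) {m : ℕ}
    (hm : ¬ q ∣ m) : (gaussValSub A F h).valuation ((m : ℕ) : ↥F) = 1 := by
  obtain ⟨h1, h2, h3⟩ := natCast_unit A hq hA hm
  have := val_algebraMap_eq_one A h h3 h1 h2
  rwa [map_natCast] at this

/-- `v(x - 1) < 1` iff `x` lies in the Gauss ring and reduces to `1`. -/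
theorem val_sub_one_lt_iff (x : ↥F) :
    (gaussValSub A F h).valuation (x - 1) < 1 ↔
      ∃ hx : (x : LaurentSeries Kbar) ∈ gaussRingV A, gaussRedV A ⟨x, hx⟩ = 1 := by
  constructor
  · intro hlt
    have h1 : x - 1 ∈ gaussValSub A F h :=
      ((gaussValSub A F h).valuation_le_one_iff _).mp hlt.le
    have hx : x ∈ gaussValSub A F h := by
      have := (gaussValSub A F h).add_mem _ _ h1 (gaussValSub A F h).one_mem
      simpa using this
    refine ⟨hx, ?_⟩
    have h2 : (⟨x - 1, h1⟩ : ↥(gaussValSub A F h)) ∈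
        IsLocalRing.maximalIdeal ↥(gaussValSub A F h) :=
      ((gaussValSub A F h).valuation_lt_one_iff _).mpr hlt
    rw [← gaussResF_eq_zero_iff A h] at h2
    have e : (⟨x - 1, h1⟩ : ↥(gaussValSub A F h)) = ⟨x, hx⟩ - 1 := rfl
    rw [e, map_sub, map_one, sub_eq_zero] at h2
    exact h2
  · rintro ⟨hx, hred⟩
    have hx' : x ∈ gaussValSub A F h := hx
    have h1 : x - 1 ∈ gaussValSub A F h :=
      sub_mem hx' (gaussValSub A F h).one_mem
    have h2 : gaussResF A h (⟨x - 1, h1⟩ : ↥(gaussValSub A F h)) = 0 := by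
      have e : (⟨x - 1, h1⟩ : ↥(gaussValSub A F h)) = ⟨x, hx'⟩ - 1 := rfl
      rw [e, map_sub, map_one, sub_eq_zero]
      exact hred
    rw [gaussResF_eq_zero_iff A h] at h2
    exact ((gaussValSub A F h).valuation_lt_one_iff _).mp h2

end GaussVal

end Fermat.Agent.NEB.H84
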