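import Fermat.Agent.NEB.H84_Hom
import Fermat.Prelude.Def_ModularCurve_ArithmeticGalois

/-!
# NEB, package FH-GAL, part 6 (helper84): the diamond operators `ρ : (ℤ/c)ˣ → Aut_{ℚ̄}(F_H)`

* `exists_gamma` : `Γ₀(M) → (ℤ/c)ˣ`, `γ ↦ d_γ`, is onto;
* `rho` : the diamond operators, a monoid homomorphism into the `ℚ̄`-automorphisms;
* `rho_gen`, `rho_incl`, `rho_eq_one_iff`, `rho_arith`;
* `actHom_eq_rho` : the action of `γ ∈ Γ₀(M)` is the diamond operator of `d_γ⁻¹`.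
-/

set_option autoImplicit false
set_option linter.unusedSectionVars false

open UpperHalfPlane ModularForm CongruenceSubgroup ModularCurve
open scoped MatrixGroups ModularForm Manifold

noncomputable section

namespace Fermat.Agent.NEB.H84

section Onto

variable {M c : ℕ} [NeZero M]

theorem exists_gamma (hc : c ∣ M) (u : (ZMod c)ˣ) : ∃ γ : Gamma0 M, dUnit hc γ γ.2 = u := by
  obtain ⟨v, hv⟩ := ZMod.unitsMap_surjective hc u
  have hcop : IsCoprime (M : ℤ) (((v : ZMod M).val : ℕ) : ℤ) := by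
    rw [Nat.isCoprime_iff_coprime]
    exact (ZMod.val_coe_unit_coprime v).symm
  obtain ⟨g, h10, h11⟩ := hcop.exists_SL2_row 1
  have hg : g ∈ Gamma0 M := by
    rw [Gamma0_mem, h10]
    simp
  refine ⟨⟨g, hg⟩, ?_⟩
  apply Units.ext
  rw [coe_dUnit, ← hv]
  show ((g 1 1 : ℤ) : ZMod c) = _
  rw [h11]
  simp [ZMod.unitsMap]

end Onto

section Rho

variable {M c : ℕ} [NeZero M] (H : Subgroup (ZMod c)ˣ) (ι : Kbar →+* ℂ)
  (hc2 : 2 ≤ c) (hc : c ∣ M)

/-- A matrix `γ ∈ Γ₀(M)` with `d_γ = d⁻¹ mod c`. -/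
def gam (d : (ZMod c)ˣ) : Gamma0 M := Classical.choose (exists_gamma (M := M) hc d⁻¹)

theorem dUnit_gam (d : (ZMod c)ˣ) : dUnit hc (gam hc d : Gamma0 M) (gam hc d).2 = d⁻¹ :=
  Classical.choose_spec (exists_gamma (M := M) hc d⁻¹)

/-- The diamond operator, as an algebra homomorphism. -/
def rhoHom (d : (ZMod c)ˣ) : ↥(FHbar M c H) →ₐ[Kbar] ↥(FHbar M c H) :=
  actHom H ι hc2 hc (gam hc d)

theorem rhoHom_gen (d a : (ZMod c)ˣ) :
    rhoHom H ι hc2 hc d (genBar M c H a) = genBar M c H (a * d) := by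
  rw [rhoHom, actHom_gen, dUnit_gam, inv_inv, mul_comm]

theorem rhoHom_incl (d : (ZMod c)ˣ) (x : ↥(modularFunctionFieldBar M)) :
    rhoHom H ι hc2 hc d (inclBar M c H x) = inclBar M c H x :=
  actHom_incl H ι hc2 hc _ x

theorem rhoHom_comp (d d' : (ZMod c)ˣ) :
    (rhoHom H ι hc2 hc d).comp (rhoHom H ι hc2 hc d') = rhoHom H ι hc2 hc (d * d') := by
  apply algHom_ext_FHbar
  · intro x
    rw [AlgHom.comp_apply, rhoHom_incl, rhoHom_incl, rhoHom_incl]
  · intro a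
    rw [AlgHom.comp_apply, rhoHom_gen, rhoHom_gen, rhoHom_gen, mul_assoc, mul_comm d' d]

theorem rhoHom_one : rhoHom H ι hc2 hc 1 = AlgHom.id Kbar ↥(FHbar M c H) := by
  apply algHom_ext_FHbar
  · intro x
    rw [rhoHom_incl, AlgHom.id_apply]
  · intro a
    rw [rhoHom_gen, mul_one, AlgHom.id_apply]

/-- **The diamond operators.** -/
def rho : (ZMod c)ˣ →* (↥(FHbar M c H) ≃ₐ[Kbar] ↥(FHbar M c H)) where
  toFun d := AlgEquiv.ofAlgHom (rhoHom H ι hc2 hc d) (rhoHom H ι hc2 hc d⁻¹)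
    (by rw [rhoHom_comp, mul_inv_cancel, rhoHom_one])
    (by rw [rhoHom_comp, inv_mul_cancel, rhoHom_one])
  map_one' := by
    apply AlgEquiv.ext
    intro x
    show rhoHom H ι hc2 hc 1 x = x
    rw [rhoHom_one, AlgHom.id_apply]
  map_mul' d d' := by
    apply AlgEquiv.ext
    intro x
    show rhoHom H ι hc2 hc (d * d') x = rhoHom H ι hc2 hc d (rhoHom H ι hc2 hc d' x)
    rw [← rhoHom_comp, AlgHom.comp_apply]

theorem rho_apply (d : (ZMod c)ˣ) (x : ↥(FHbar M c H)) :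
    rho H ι hc2 hc d x = rhoHom H ι hc2 hc d x := rfl

theorem rho_gen (d a : (ZMod c)ˣ) :
    rho H ι hc2 hc d (genBar M c H a) = genBar M c H (a * d) :=
  rhoHom_gen H ι hc2 hc d a

theorem rho_incl (d : (ZMod c)ˣ) (x : ↥(modularFunctionFieldBar M)) :
    rho H ι hc2 hc d (inclBar M c H x) = inclBar M c H x :=
  rhoHom_incl H ι hc2 hc d x

/-- The action of `γ ∈ Γ₀(M)` is the diamond operator of `d_γ⁻¹`. -/
theorem actHom_eq_rho (γ : Gamma0 M) :
    actHom H ι hc2 hc γ = rhoHom H ι hc2 hc (dUnit hc γ γ.2)⁻¹ := by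
  apply algHom_ext_FHbar
  · intro x
    rw [rhoHom_incl, actHom_incl]
  · intro a
    rw [rhoHom_gen, actHom_gen, mul_comm]

theorem coe_genBar' (a : (ZMod c)ˣ) :
    ((genBar M c H a : ↥(FHbar M c H)) : LaurentSeries Kbar) =
      coeffEmb Kbar (eisGen c (cosetSet c H a)) := rfl

theorem arith_incl (σ : Kbar ≃ₐ[ℚ] Kbar) (x₀ : ↥(modularFunctionFieldBar M)) :
    arithmeticRingAut (FHQ M c H) σ (inclBar M c H x₀) =
      inclBar M c H (arithmeticRingAut (modularFunctionFieldFull M) σ x₀) := by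
  apply Subtype.ext
  rw [coe_inclBar, coe_arithmeticRingAut_apply, coe_arithmeticRingAut_apply, coe_inclBar]

theorem arith_gen (σ : Kbar ≃ₐ[ℚ] Kbar) (b : (ZMod c)ˣ) :
    arithmeticRingAut (FHQ M c H) σ (genBar M c H b) = genBar M c H b := by
  apply Subtype.ext
  rw [coe_arithmeticRingAut_apply, coe_genBar', coeffMap_coeffEmb]

/-- The composite `ρ_d ∘ σ` as a ring homomorphism. -/
def rhoArith (d : (ZMod c)ˣ) (σ : Kbar ≃ₐ[ℚ] Kbar) : ↥(FHbar M c H) →+* ↥(FHbar M c H) :=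
  (rhoHom H ι hc2 hc d).toRingHom.comp (arithmeticRingAut (FHQ M c H) σ).toRingHom

/-- The composite `σ ∘ ρ_d` as a ring homomorphism. -/
def arithRho (d : (ZMod c)ˣ) (σ : Kbar ≃ₐ[ℚ] Kbar) : ↥(FHbar M c H) →+* ↥(FHbar M c H) :=
  (arithmeticRingAut (FHQ M c H) σ).toRingHom.comp (rhoHom H ι hc2 hc d).toRingHom

theorem rhoArith_apply (d : (ZMod c)ˣ) (σ : Kbar ≃ₐ[ℚ] Kbar) (x : ↥(FHbar M c H)) :
    rhoArith H ι hc2 hc d σ x = rhoHom H ι hc2 hc d (arithmeticRingAut (FHQ M c H) σ x) := rfl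

theorem arithRho_apply (d : (ZMod c)ˣ) (σ : Kbar ≃ₐ[ℚ] Kbar) (x : ↥(FHbar M c H)) :
    arithRho H ι hc2 hc d σ x = arithmeticRingAut (FHQ M c H) σ (rhoHom H ι hc2 hc d x) := rfl

theorem rhoArith_eq (d : (ZMod c)ˣ) (σ : Kbar ≃ₐ[ℚ] Kbar) :
    rhoArith H ι hc2 hc d σ = arithRho H ι hc2 hc d σ := by
  apply ringHom_ext_FHbar H
  · intro a
    rw [rhoArith_apply, arithRho_apply, arithmeticRingAut_algebraMap, AlgHom.commutes,
      AlgHom.commutes, arithmeticRingAut_algebraMap]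
  · intro x₀
    rw [rhoArith_apply, arithRho_apply, arith_incl, rhoHom_incl, rhoHom_incl, arith_incl]
  · intro a
    rw [rhoArith_apply, arithRho_apply, arith_gen, rhoHom_gen, arith_gen]

/-- The diamond operators commute with the Galois action on the coefficients. -/
theorem rho_arith (d : (ZMod c)ˣ) (σ : Kbar ≃ₐ[ℚ] Kbar) (x : ↥(FHbar M c H)) :
    rho H ι hc2 hc d (arithmeticRingAut (FHQ M c H) σ x) =
      arithmeticRingAut (FHQ M c H) σ (rho H ι hc2 hc d x) := by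
  rw [rho_apply, rho_apply, ← rhoArith_apply, ← arithRho_apply, rhoArith_eq]

end Rho

end Fermat.Agent.NEB.H84
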