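import Fermat.Agent.NEB.H84_Fix
import Fermat.Agent.S23.H22_LevelRaiseExp

/-!
# NEB, package FH-BETA, part 1 (helper84): the operator `V_ℓ` on forms on `Γ₁(M)`

For `A` a form on `Γ₁(M)`: `A ∣[k] diag(ℓ, 1)` (`= ℓ^(k-1) A(ℓ z)`) is a form on `Γ₁(M ℓ)`, with
`q`-expansion `ℓ^(k-1) · (qLaurent A)(q^ℓ)`, and for `γ ∈ Γ₀(M ℓ)`:
`(A ∣ diag(ℓ,1)) ∣ γ = (A ∣ γ') ∣ diag(ℓ,1)`, `γ' = diag(ℓ,1) γ diag(ℓ,1)⁻¹ ∈ Γ₀(M)` (same diagonal).
Consequence `rel_beta` : `Rel M γ' x y → Rel (M ℓ) γ (x(q^ℓ)) (y(q^ℓ))`.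
-/

set_option autoImplicit false
set_option linter.unusedSectionVars false

open UpperHalfPlane ModularForm CongruenceSubgroup ModularCurve
open scoped MatrixGroups ModularForm Manifold Pointwise

noncomputable section

namespace Fermat.Agent.NEB.H84

open Fermat.Agent.S23.H22 (Nice conjGamma0 coe_conjGamma0 heckeDiag_mul_mapGL)
open Fermat.Agent.GTor (qLaurent)
open Fermat.Agent.GTor.H56 (qLaurent_mul qLaurent_injective qLaurent_eq_zero_iff qLaurent_zero)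

local notation "ofPS" => HahnSeries.ofPowerSeries ℤ ℂ

/-! ### The `q`-expansion of `f ∣ diag(ℓ, 1)` -/

section QExp

variable (ℓ : ℕ) [NeZero ℓ] {k : ℤ} {f : ℍ → ℂ}

theorem nice_slash_diag (hf : Nice 1 f) : Nice 1 (f ∣[k] heckeDiagMatrix ℓ) := by
  have hT : Nice 1 (heckeT k ℓ f) :=
    ⟨periodic_heckeT_comp_ofComplex hf.per k ℓ, mdifferentiable_heckeT hf.hol k ℓ,
      isBoundedAtImInfty_heckeT hf.bdd k ℓ⟩
  have hU : Nice 1 (heckeU k ℓ f) :=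
    ⟨periodic_heckeU_comp_ofComplex hf.per k ℓ, mdifferentiable_heckeU hf.hol k ℓ,
      isBoundedAtImInfty_heckeU hf.bdd k ℓ⟩
  have heq : f ∣[k] heckeDiagMatrix ℓ = heckeT k ℓ f - heckeU k ℓ f := by
    rw [heckeT_eq_heckeU_add]; simp
  rw [heq]
  exact hT.sub hU

theorem qExpansion_slash_diag_coeff (hf : Nice 1 f) (n : ℕ) :
    (qExpansion 1 (f ∣[k] heckeDiagMatrix ℓ)).coeff n =
      if ℓ ∣ n then (ℓ : ℂ) ^ (k - 1) * (qExpansion 1 f).coeff (n / ℓ) else 0 := by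
  have hN : ℓ ≠ 0 := NeZero.ne ℓ
  have hT : Nice 1 (heckeT k ℓ f) :=
    ⟨periodic_heckeT_comp_ofComplex hf.per k ℓ, mdifferentiable_heckeT hf.hol k ℓ,
      isBoundedAtImInfty_heckeT hf.bdd k ℓ⟩
  have hU : Nice 1 (heckeU k ℓ f) :=
    ⟨periodic_heckeU_comp_ofComplex hf.per k ℓ, mdifferentiable_heckeU hf.hol k ℓ,
      isBoundedAtImInfty_heckeU hf.bdd k ℓ⟩
  have heq : f ∣[k] heckeDiagMatrix ℓ = heckeT k ℓ f - heckeU k ℓ f := by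
    rw [heckeT_eq_heckeU_add]; simp
  rw [heq, Nice.qExpansion_sub one_pos hT hU, map_sub]
  have h1 := UpperHalfPlane.qCoeff_heckeT hf.per hf.hol hf.bdd k hN n
  have h2 := UpperHalfPlane.qCoeff_heckeU hf.per hf.hol hf.bdd k hN n
  unfold ModularFormClass.qCoeff at h1 h2
  rw [h1, h2, coeffHeckeT_eq_coeffHeckeU_add]
  simp

/-- The `q`-expansion of `f ∣[k] diag(ℓ, 1)`, as a Laurent series. -/
theorem qLaurent_slash_diag (hf : Nice 1 f) :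
    qLaurent (f ∣[k] heckeDiagMatrix ℓ) =
      HahnSeries.C ((ℓ : ℂ) ^ (k - 1)) * qExpand ℂ ℓ (qLaurent f) := by
  have hd : 0 < ℓ := NeZero.pos ℓ
  rw [qLaurent, qLaurent]
  ext n
  rw [HahnSeries.C_mul_eq_smul, HahnSeries.coeff_smul, smul_eq_mul]
  rcases lt_or_ge n 0 with hn | hn
  · rw [ModularCurve.ofPowerSeries_coeff_of_neg _ hn]
    by_cases hdn : (ℓ : ℤ) ∣ n
    · obtain ⟨m, rfl⟩ := hdn
      rw [qExpand_coeff_mul]
      have hm : m < 0 := by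
        by_contra hm
        rw [not_lt] at hm
        have : (0 : ℤ) ≤ (ℓ : ℤ) * m := mul_nonneg (by positivity) hm
        omega
      rw [ModularCurve.ofPowerSeries_coeff_of_neg _ hm, mul_zero]
    · rw [qExpand_coeff_of_not_dvd _ _ hdn, mul_zero]
  · obtain ⟨m, rfl⟩ := Int.eq_ofNat_of_zero_le hn
    rw [HahnSeries.ofPowerSeries_apply_coeff, qExpansion_slash_diag_coeff ℓ hf m]
    by_cases hdm : ℓ ∣ m
    · rw [if_pos hdm]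
      obtain ⟨l, rfl⟩ := hdm
      rw [Nat.mul_div_cancel_left _ hd]
      push_cast
      rw [qExpand_coeff_mul, HahnSeries.ofPowerSeries_apply_coeff]
    · rw [if_neg hdm, qExpand_coeff_of_not_dvd, mul_zero]
      exact_mod_cast hdm

end QExp

/-! ### Conjugation by `diag(ℓ, 1)` -/

section Conj

variable {M : ℕ} (ℓ : ℕ) [NeZero ℓ]

theorem mem_Gamma0_left {γ : SL(2, ℤ)} (hγ : γ ∈ Gamma0 (M * ℓ)) : γ ∈ Gamma0 ℓ :=
  mem_Gamma0_of_dvd (Dvd.intro_left M rfl) hγ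

theorem conjGamma0_apply_11 (γ : SL(2, ℤ)) (hγ : γ ∈ Gamma0 ℓ) :
    (conjGamma0 ℓ γ hγ) 1 1 = γ 1 1 := by
  show (conjGamma0 ℓ γ hγ : Matrix (Fin 2) (Fin 2) ℤ) 1 1 = _
  rw [coe_conjGamma0]
  simp

theorem conjGamma0_apply_00 (γ : SL(2, ℤ)) (hγ : γ ∈ Gamma0 ℓ) :
    (conjGamma0 ℓ γ hγ) 0 0 = γ 0 0 := by
  show (conjGamma0 ℓ γ hγ : Matrix (Fin 2) (Fin 2) ℤ) 0 0 = _
  rw [coe_conjGamma0]
  simp

theorem conjGamma0_apply_10 (γ : SL(2, ℤ)) (hγ : γ ∈ Gamma0 ℓ) :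
    (conjGamma0 ℓ γ hγ) 1 0 = γ 1 0 / ℓ := by
  show (conjGamma0 ℓ γ hγ : Matrix (Fin 2) (Fin 2) ℤ) 1 0 = _
  rw [coe_conjGamma0]
  simp

theorem conjGamma0_mem_Gamma0 {γ : SL(2, ℤ)} (hγ : γ ∈ Gamma0 (M * ℓ)) :
    conjGamma0 ℓ γ (mem_Gamma0_left ℓ hγ) ∈ Gamma0 M := by
  rw [Gamma0_mem, conjGamma0_apply_10]
  rw [Gamma0_mem, ZMod.intCast_zmod_eq_zero_iff_dvd] at hγ
  rw [ZMod.intCast_zmod_eq_zero_iff_dvd]
  obtain ⟨t, ht⟩ := hγ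
  have hℓ : (ℓ : ℤ) ≠ 0 := by exact_mod_cast NeZero.ne ℓ
  refine ⟨t, ?_⟩
  rw [ht]
  push_cast
  rw [mul_comm (M : ℤ) (ℓ : ℤ), mul_assoc, Int.mul_ediv_cancel_left _ hℓ]

theorem conjGamma0_mem_Gamma1 {γ : SL(2, ℤ)} (hγ : γ ∈ Gamma1 (M * ℓ)) :
    conjGamma0 ℓ γ (mem_Gamma0_left ℓ (Gamma1_in_Gamma0 _ hγ)) ∈ Gamma1 M := by
  have h0 := conjGamma0_mem_Gamma0 ℓ (Gamma1_in_Gamma0 _ hγ)
  rw [Gamma1_mem] at hγ ⊢
  have hdvd : M ∣ M * ℓ := Dvd.intro ℓ rfl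
  have e : ∀ z : ℤ, (z : ZMod M) = ZMod.castHom hdvd (ZMod M) (z : ZMod (M * ℓ)) := by
    intro z
    simp
  refine ⟨?_, ?_, Gamma0_mem.mp h0⟩
  · rw [conjGamma0_apply_00, e, hγ.1, map_one]
  · rw [conjGamma0_apply_11, e, hγ.2.1, map_one]

theorem slash_diag_slash {k : ℤ} (A : ℍ → ℂ) (γ : SL(2, ℤ)) (hγ : γ ∈ Gamma0 ℓ) :
    (A ∣[k] heckeDiagMatrix ℓ) ∣[k] γ = (A ∣[k] conjGamma0 ℓ γ hγ) ∣[k] heckeDiagMatrix ℓ := by
  have h : heckeDiagMatrix ℓ * Matrix.SpecialLinearGroup.toGL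
        ((Matrix.SpecialLinearGroup.map (Int.castRingHom ℝ)) γ) =
      Matrix.SpecialLinearGroup.toGL
        ((Matrix.SpecialLinearGroup.map (Int.castRingHom ℝ)) (conjGamma0 ℓ γ hγ)) *
        heckeDiagMatrix ℓ := heckeDiag_mul_mapGL ℓ γ hγ
  rw [SL_slash, SL_slash, ← SlashAction.slash_mul, ← SlashAction.slash_mul, h]

end Conj

/-! ### `V_ℓ` preserves forms on `Γ₁` -/

section VRaise

variable {M : ℕ} [NeZero M] (ℓ : ℕ) [NeZero ℓ] {k : ℤ} {A : ℍ → ℂ}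

/-- A form on `Γ₁(M)` as a bundled modular form. -/
def toMF1 (hA : IsW M k A) : ModularForm ((Gamma1 M : Subgroup SL(2, ℤ)) : Subgroup (GL (Fin 2) ℝ)) k where
  toFun := A
  slash_action_eq' g hg := by
    obtain ⟨γ, hγ, rfl⟩ := hg
    have := hA.slash γ hγ
    rw [SL_slash] at this
    exact this
  holo' := hA.mdiff
  bdd_at_cusps' {c} hc := by
    rw [Subgroup.IsArithmetic.isCusp_iff_isCusp_SL2Z] at hc
    rw [OnePoint.isBoundedAt_iff_forall_SL2Z hc]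
    intro γ _
    exact hA.bdd γ

theorem G1_le_conj :
    ((Gamma1 (M * ℓ) : Subgroup SL(2, ℤ)) : Subgroup (GL (Fin 2) ℝ)) ≤
      ConjAct.toConjAct (heckeDiagMatrix ℓ)⁻¹ •
        ((Gamma1 M : Subgroup SL(2, ℤ)) : Subgroup (GL (Fin 2) ℝ)) := by
  intro h hh
  obtain ⟨γ, hγ, rfl⟩ := hh
  rw [Subgroup.mem_pointwise_smul_iff_inv_smul_mem, ← map_inv, inv_inv, ConjAct.smul_def,
    ConjAct.ofConjAct_toConjAct]
  refine ⟨conjGamma0 ℓ γ (mem_Gamma0_left ℓ (Gamma1_in_Gamma0 _ hγ)),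
    conjGamma0_mem_Gamma1 ℓ hγ, ?_⟩
  rw [eq_mul_inv_iff_mul_eq]
  exact (heckeDiag_mul_mapGL ℓ γ _).symm

/-- `A ∣ diag(ℓ,1)` as a bundled modular form on `Γ₁(M ℓ)`. -/
def vRaiseMF (hA : IsW M k A) :
    ModularForm ((Gamma1 (M * ℓ) : Subgroup SL(2, ℤ)) : Subgroup (GL (Fin 2) ℝ)) k where
  toFun := A ∣[k] heckeDiagMatrix ℓ
  slash_action_eq' h hh := (ModularForm.translate (toMF1 hA) (heckeDiagMatrix ℓ)).slash_action_eq' h
    (G1_le_conj ℓ hh)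
  holo' := (ModularForm.translate (toMF1 hA) (heckeDiagMatrix ℓ)).holo'
  bdd_at_cusps' hc := (ModularForm.translate (toMF1 hA) (heckeDiagMatrix ℓ)).bdd_at_cusps'
    (hc.mono (G1_le_conj ℓ))

theorem IsW.vRaise (hA : IsW M k A) : IsW (M * ℓ) k (A ∣[k] heckeDiagMatrix ℓ) where
  mdiff := (vRaiseMF ℓ hA).holo'
  slash γ hγ := by
    rw [SL_slash]
    exact SlashInvariantFormClass.slash_action_eq (vRaiseMF ℓ hA) _ ⟨γ, hγ, rfl⟩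
  bdd σ := ModularFormClass.bdd_at_infty_slash (vRaiseMF ℓ hA) σ

theorem slash_diag_ne_zero (hA : IsW M k A) (hA0 : A ≠ 0) : A ∣[k] heckeDiagMatrix ℓ ≠ 0 := by
  intro h0
  have h1 := congrArg qLaurent h0
  rw [qLaurent_slash_diag ℓ hA.nice, qLaurent_zero] at h1
  rcases mul_eq_zero.mp h1 with h2 | h2
  · have hℓ : (ℓ : ℂ) ≠ 0 := by exact_mod_cast NeZero.ne ℓ
    have : (ℓ : ℂ) ^ (k - 1) = 0 :=
      (map_eq_zero (HahnSeries.C : ℂ →+* LaurentSeries ℂ)).mp h2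
    exact zpow_ne_zero _ hℓ this
  · have : qLaurent A = 0 := by
      apply qExpand_injective (R := ℂ) ℓ
      rw [h2, map_zero]
    exact qLaurent_ne_zero hA.nice hA0 this

/-- **`β` intertwines the slash actions.** -/
theorem rel_beta {γ : SL(2, ℤ)} (hγ : γ ∈ Gamma0 (M * ℓ)) {x y : LaurentSeries ℂ}
    (h : Rel M (conjGamma0 ℓ γ (mem_Gamma0_left ℓ hγ)) x y) :
    Rel (M * ℓ) γ (qExpand ℂ ℓ x) (qExpand ℂ ℓ y) := by
  obtain ⟨k, A, B, hA, hB, hB0, hx, hy⟩ := h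
  have hγ' := conjGamma0_mem_Gamma0 (M := M) ℓ hγ
  refine ⟨k, A ∣[k] heckeDiagMatrix ℓ, B ∣[k] heckeDiagMatrix ℓ, hA.vRaise ℓ, hB.vRaise ℓ,
    slash_diag_ne_zero ℓ hB hB0, ?_, ?_⟩
  · rw [qLaurent_slash_diag ℓ hA.nice, qLaurent_slash_diag ℓ hB.nice, hx, map_mul]
    ring
  · rw [slash_diag_slash ℓ A γ (mem_Gamma0_left ℓ hγ),
      slash_diag_slash ℓ B γ (mem_Gamma0_left ℓ hγ),
      qLaurent_slash_diag ℓ (hA.slash_Gamma0 hγ').nice,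
      qLaurent_slash_diag ℓ (hB.slash_Gamma0 hγ').nice, hy, map_mul]
    ring

end VRaise

end Fermat.Agent.NEB.H84
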